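import Mathlib

/-!
# The local ring of a point inside the function field, and its generators

* `pointRing F 𝔫` : for a domain `A` with fraction field `F` and a prime ideal `𝔫` of `A`, the
  localisation `A_𝔫` as a subalgebra of `F`.  It is a local ring (Noetherian if `A` is), its
  fraction field is `F`, its maximal ideal is generated by the image of `𝔫`
  (`maximalIdeal_pointRing`, `maximalIdeal_pointRing_span`), and it is contained in every
  valuation subring of `F` containing `A` whose centre on `A` is contained in `𝔫`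
  (`pointRing_le_valuationSubring`).
* `maximalIdeal_eq_span_triple` : in a local ring with `𝔪 = (q, T₁ - t, S - s, T₂ - t₂)` at a
  point with `s ≡ t^q`, `t ≡ s^q`, `t₂ ≡ s^q`, `s ≡ t₂^q` modulo `q` (an `𝔽_{q²}`-point of the tower
  `j(z), j(qz), j(q²z)`), one has `𝔪 = (q, a₁, b₁, a₂, b₂)` with `aᵢ = S^q - Tᵢ`, `bᵢ = S - Tᵢ^q`:
  the hypothesis of `triplePoint`.
* `maximalIdeal_eq_span_mid` : at a point where `a₁ = S^q - T₁` is a unit, the Kronecker relation
  gives `𝔪 = (q, T₁ - t, T₂ - T₁)`: the hypothesis of `mid_maximalIdeal`.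
-/

namespace Fermat.Agent.CAR.Local

open IsLocalRing

section PointRing

variable {A : Type*} (F : Type*) [CommRing A] [IsDomain A] [Field F] [Algebra A F]
  [IsFractionRing A F] (𝔫 : Ideal A) [𝔫.IsPrime]

/-- The local ring `A_𝔫` as a subalgebra of the fraction field `F` of `A`. -/
noncomputable def pointRing : Subalgebra A F :=
  Localization.subalgebra.ofField F 𝔫.primeCompl 𝔫.primeCompl_le_nonZeroDivisors

instance pointRing_isLocalization : IsLocalization.AtPrime (pointRing F 𝔫) 𝔫 :=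
  Localization.subalgebra.isLocalization_ofField F 𝔫.primeCompl 𝔫.primeCompl_le_nonZeroDivisors

instance pointRing_isLocalRing : IsLocalRing (pointRing F 𝔫) :=
  IsLocalization.AtPrime.isLocalRing (pointRing F 𝔫) 𝔫

instance pointRing_isNoetherianRing [IsNoetherianRing A] : IsNoetherianRing (pointRing F 𝔫) :=
  IsLocalization.isNoetherianRing 𝔫.primeCompl (pointRing F 𝔫) inferInstance

instance pointRing_isFractionRing : IsFractionRing (pointRing F 𝔫) F :=
  Localization.subalgebra.isFractionRing_ofField F 𝔫.primeCompl 𝔫.primeCompl_le_nonZeroDivisors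

variable {F 𝔫}

theorem mem_pointRing_iff {z : F} :
    z ∈ pointRing F 𝔫 ↔ ∃ a s : A, s ∉ 𝔫 ∧ z = algebraMap A F a * (algebraMap A F s)⁻¹ := by
  constructor
  · rintro ⟨a, s, hs, rfl⟩
    exact ⟨a, s, hs, rfl⟩
  · rintro ⟨a, s, hs, rfl⟩
    exact ⟨a, s, hs, rfl⟩

variable (F 𝔫)

/-- The maximal ideal of `A_𝔫` is generated by `𝔫`. -/
theorem maximalIdeal_pointRing :
    maximalIdeal (pointRing F 𝔫) = 𝔫.map (algebraMap A (pointRing F 𝔫)) :=
  (IsLocalization.AtPrime.map_eq_maximalIdeal 𝔫 (pointRing F 𝔫)).symm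

/-- Generators of `𝔫` give generators of the maximal ideal of `A_𝔫`. -/
theorem maximalIdeal_pointRing_span (s : Set A) (h : 𝔫 = Ideal.span s) :
    maximalIdeal (pointRing F 𝔫) = Ideal.span (algebraMap A (pointRing F 𝔫) '' s) := by
  subst h
  rw [maximalIdeal_pointRing, Ideal.map_span]

/-- An element of `A` is in the maximal ideal of `A_𝔫` iff it is in `𝔫`. -/
theorem algebraMap_mem_maximalIdeal_pointRing_iff (a : A) :
    algebraMap A (pointRing F 𝔫) a ∈ maximalIdeal (pointRing F 𝔫) ↔ a ∈ 𝔫 :=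
  IsLocalization.AtPrime.to_map_mem_maximal_iff (pointRing F 𝔫) 𝔫 a

/-- `A_𝔫` is contained in every valuation subring of `F` containing `A` in which the elements
of `A` outside `𝔫` are units ("the valuation is centred at a point specialising to `𝔫`"). -/
theorem pointRing_le_valuationSubring (V : ValuationSubring F)
    (hA : ∀ a : A, algebraMap A F a ∈ V)
    (hc : ∀ a : A, a ∉ 𝔫 → algebraMap A F a ∉ V.nonunits) (r : pointRing F 𝔫) :
    (r : F) ∈ V := by
  obtain ⟨a, s, hs, hr⟩ := mem_pointRing_iff.1 r.2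
  rw [hr]
  have h := hc s hs
  rw [ValuationSubring.mem_nonunits_iff_or] at h
  push Not at h
  exact V.mul_mem _ _ (hA a) h.2

end PointRing

section Generators

variable {R : Type*} [CommRing R] [IsLocalRing R]

omit [IsLocalRing R] in
/-- `(t + x)^n - t^n = x * c` with `c ≡ n t^(n-1)` modulo `x`; in particular `c ∈ 𝔪` when
`n, x ∈ 𝔪`. -/
theorem exists_add_pow_sub_pow_eq (n : ℕ) (t x : R) :
    ∃ c e : R, (t + x) ^ n - t ^ n = x * c ∧ c = (n : R) * t ^ (n - 1) + x * e := by
  obtain ⟨k, hk⟩ := Polynomial.binomExpansion (Polynomial.X ^ n : Polynomial R) t x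
  refine ⟨(n : R) * t ^ (n - 1) + x * k, k, ?_, rfl⟩
  simp only [Polynomial.eval_pow, Polynomial.eval_X, Polynomial.derivative_X_pow,
    Polynomial.eval_mul, Polynomial.eval_C] at hk
  rw [hk]
  ring

/-- **Generators at an `𝔽_{q²}`-point.** -/
theorem maximalIdeal_eq_span_triple (q : ℕ) (S T₁ T₂ s t t₂ : R)
    (hm : maximalIdeal R = Ideal.span {(q : R), T₁ - t, S - s, T₂ - t₂})
    (h1 : s ^ q - t ∈ Ideal.span {(q : R)}) (h2 : s - t ^ q ∈ Ideal.span {(q : R)})
    (h3 : s ^ q - t₂ ∈ Ideal.span {(q : R)}) :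
    maximalIdeal R =
      Ideal.span {(q : R), S ^ q - T₁, S - T₁ ^ q, S ^ q - T₂, S - T₂ ^ q} := by
  have hqm : (q : R) ∈ maximalIdeal R := by rw [hm]; exact Ideal.subset_span (by simp)
  have hx₁ : T₁ - t ∈ maximalIdeal R := by rw [hm]; exact Ideal.subset_span (by simp)
  have hxS : S - s ∈ maximalIdeal R := by rw [hm]; exact Ideal.subset_span (by simp)
  have hx₂ : T₂ - t₂ ∈ maximalIdeal R := by rw [hm]; exact Ideal.subset_span (by simp)
  have hqle : Ideal.span {(q : R)} ≤ maximalIdeal R := (Ideal.span_singleton_le_iff_mem _).2 hqm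
  set I : Ideal R := Ideal.span {(q : R), S ^ q - T₁, S - T₁ ^ q, S ^ q - T₂, S - T₂ ^ q} with hI
  have hqI : (q : R) ∈ I := Ideal.subset_span (by simp)
  have ha₁ : S ^ q - T₁ ∈ I := Ideal.subset_span (by simp)
  have hb₁ : S - T₁ ^ q ∈ I := Ideal.subset_span (by simp)
  have ha₂ : S ^ q - T₂ ∈ I := Ideal.subset_span (by simp)
  have hqleI : Ideal.span {(q : R)} ≤ I := (Ideal.span_singleton_le_iff_mem _).2 hqI
  -- powers of congruent elements
  have hpow : ∀ (J : Ideal R) (u v : R) (n : ℕ), u - v ∈ J → u ^ n - v ^ n ∈ J := by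
    intro J u v n h
    obtain ⟨c, hc⟩ := sub_dvd_pow_sub_pow u v n
    rw [hc]
    exact J.mul_mem_right _ h
  apply le_antisymm
  · -- `𝔪 ⊆ I`
    -- `T₁^(q²) - T₁ ∈ I`
    have e1 : T₁ ^ (q * q) - T₁ ∈ I := by
      have h' : S ^ q - (T₁ ^ q) ^ q ∈ I := hpow I S (T₁ ^ q) q hb₁
      have : T₁ ^ (q * q) - T₁ = (S ^ q - T₁) - (S ^ q - (T₁ ^ q) ^ q) := by
        rw [pow_mul]; ring
      rw [this]
      exact I.sub_mem ha₁ h'
    -- `t^(q²) - t ∈ (q)`
    have e2 : t ^ (q * q) - t ∈ I := by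
      have h' : s ^ q - (t ^ q) ^ q ∈ Ideal.span {(q : R)} := hpow _ s (t ^ q) q h2
      have : t ^ (q * q) - t = (s ^ q - t) - (s ^ q - (t ^ q) ^ q) := by
        rw [pow_mul]; ring
      rw [this]
      exact hqleI ((Ideal.span {(q : R)}).sub_mem h1 h')
    obtain ⟨c, e, hc, hce⟩ := exists_add_pow_sub_pow_eq (q * q) t (T₁ - t)
    have hcm : c ∈ maximalIdeal R := by
      rw [hce]
      refine (maximalIdeal R).add_mem ((maximalIdeal R).mul_mem_right _ ?_)
        ((maximalIdeal R).mul_mem_right _ hx₁)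
      rw [Nat.cast_mul]
      exact (maximalIdeal R).mul_mem_right _ hqm
    have hu : IsUnit (1 - c) := IsLocalRing.isUnit_one_sub_self_of_mem_nonunits c hcm
    have hx₁I : T₁ - t ∈ I := by
      have h3' : (T₁ - t) * (1 - c) ∈ I := by
        have : (T₁ - t) * (1 - c) = (t ^ (q * q) - t) - (T₁ ^ (q * q) - T₁) := by
          have hT : t + (T₁ - t) = T₁ := by ring
          rw [hT] at hc
          linear_combination hc
        rw [this]
        exact I.sub_mem e2 e1
      obtain ⟨w, hw⟩ := hu.exists_right_inv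
      have : T₁ - t = (T₁ - t) * (1 - c) * w := by rw [mul_assoc, hw, mul_one]
      rw [this]
      exact I.mul_mem_right _ h3'
    have hx₂I : T₂ - t₂ ∈ I := by
      have : T₂ - t₂ = (T₁ - t) + (S ^ q - T₁) - (S ^ q - T₂) + ((s ^ q - t₂) - (s ^ q - t)) := by
        ring
      rw [this]
      exact I.add_mem (I.sub_mem (I.add_mem hx₁I ha₁) ha₂)
        (hqleI ((Ideal.span {(q : R)}).sub_mem h3 h1))
    have hxSI : S - s ∈ I := by
      have h' : T₁ ^ q - t ^ q ∈ I := hpow I T₁ t q hx₁I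
      have : S - s = (S - T₁ ^ q) + (T₁ ^ q - t ^ q) - (s - t ^ q) := by ring
      rw [this]
      exact I.sub_mem (I.add_mem hb₁ h') (hqleI h2)
    rw [hm, Ideal.span_le]
    rintro z (rfl | rfl | rfl | rfl)
    · exact hqI
    · exact hx₁I
    · exact hxSI
    · exact hx₂I
  · -- `I ⊆ 𝔪`
    have hsm : s ^ q - t ∈ maximalIdeal R := hqle h1
    have hsm2 : s - t ^ q ∈ maximalIdeal R := hqle h2
    have hsm3 : s ^ q - t₂ ∈ maximalIdeal R := hqle h3
    have hSq : S ^ q - s ^ q ∈ maximalIdeal R := hpow _ S s q hxS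
    have hT₁q : T₁ ^ q - t ^ q ∈ maximalIdeal R := hpow _ T₁ t q hx₁
    have hT₂q : T₂ ^ q - t₂ ^ q ∈ maximalIdeal R := hpow _ T₂ t₂ q hx₂
    have ht₂ : t₂ - t ∈ maximalIdeal R := by
      have : t₂ - t = (s ^ q - t) - (s ^ q - t₂) := by ring
      rw [this]; exact (maximalIdeal R).sub_mem hsm hsm3
    have ht₂q : t₂ ^ q - t ^ q ∈ maximalIdeal R := hpow _ t₂ t q ht₂
    rw [hI, Ideal.span_le]
    rintro z (rfl | rfl | rfl | rfl | rfl)
    · exact hqm
    · have : S ^ q - T₁ = (S ^ q - s ^ q) + (s ^ q - t) - (T₁ - t) := by ring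
      rw [this]
      exact (maximalIdeal R).sub_mem ((maximalIdeal R).add_mem hSq hsm) hx₁
    · have : S - T₁ ^ q = (S - s) + (s - t ^ q) - (T₁ ^ q - t ^ q) := by ring
      rw [this]
      exact (maximalIdeal R).sub_mem ((maximalIdeal R).add_mem hxS hsm2) hT₁q
    · have : S ^ q - T₂ = (S ^ q - s ^ q) + (s ^ q - t₂) - (T₂ - t₂) := by ring
      rw [this]
      exact (maximalIdeal R).sub_mem ((maximalIdeal R).add_mem hSq hsm3) hx₂
    · have : S - T₂ ^ q = (S - s) + (s - t ^ q) - (T₂ ^ q - t₂ ^ q) - (t₂ ^ q - t ^ q) := by ring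
      rw [this]
      exact (maximalIdeal R).sub_mem ((maximalIdeal R).sub_mem
        ((maximalIdeal R).add_mem hxS hsm2) hT₂q) ht₂q

/-- **Generators at a point of the middle component.**  If `a₁ = S^q - T₁` is a unit, the
Kronecker relation `a₁ (S - T₁^q) + q G₁ = 0` gives `S - s ∈ (q, T₁ - t)`, so
`𝔪 = (q, T₁ - t, T₂ - T₁)`. -/
theorem maximalIdeal_eq_span_mid (q : ℕ) (S T₁ T₂ s t t₂ G₁ : R)
    (hm : maximalIdeal R = Ideal.span {(q : R), T₁ - t, S - s, T₂ - t₂})
    (h2 : s - t ^ q ∈ Ideal.span {(q : R)}) (h3 : t₂ - t ∈ Ideal.span {(q : R)})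
    (ha : IsUnit (S ^ q - T₁)) (h₁ : (S ^ q - T₁) * (S - T₁ ^ q) + (q : R) * G₁ = 0) :
    maximalIdeal R = Ideal.span {(q : R), T₁ - t, T₂ - T₁} := by
  set I : Ideal R := Ideal.span {(q : R), T₁ - t, T₂ - T₁} with hI
  have hqI : (q : R) ∈ I := Ideal.subset_span (by simp)
  have hx₁I : T₁ - t ∈ I := Ideal.subset_span (by simp)
  have hdI : T₂ - T₁ ∈ I := Ideal.subset_span (by simp)
  have hqleI : Ideal.span {(q : R)} ≤ I := (Ideal.span_singleton_le_iff_mem _).2 hqI
  have hqm : (q : R) ∈ maximalIdeal R := by rw [hm]; exact Ideal.subset_span (by simp)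
  have hx₁ : T₁ - t ∈ maximalIdeal R := by rw [hm]; exact Ideal.subset_span (by simp)
  have hx₂ : T₂ - t₂ ∈ maximalIdeal R := by rw [hm]; exact Ideal.subset_span (by simp)
  apply le_antisymm
  · obtain ⟨u, hu⟩ := ha.exists_right_inv
    have hb : S - T₁ ^ q = (q : R) * (-(G₁ * u)) := by
      linear_combination u * h₁ - (S - T₁ ^ q) * hu
    have hpowI : T₁ ^ q - t ^ q ∈ I := by
      obtain ⟨c, hc⟩ := sub_dvd_pow_sub_pow T₁ t q
      rw [hc]; exact I.mul_mem_right _ hx₁I
    have hxSI : S - s ∈ I := by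
      have : S - s = (S - T₁ ^ q) + (T₁ ^ q - t ^ q) - (s - t ^ q) := by ring
      rw [this]
      refine I.sub_mem (I.add_mem ?_ hpowI) (hqleI h2)
      rw [hb]; exact I.mul_mem_right _ hqI
    have hx₂I : T₂ - t₂ ∈ I := by
      have : T₂ - t₂ = (T₂ - T₁) + (T₁ - t) - (t₂ - t) := by ring
      rw [this]
      exact I.sub_mem (I.add_mem hdI hx₁I) (hqleI h3)
    rw [hm, Ideal.span_le]
    rintro z (rfl | rfl | rfl | rfl)
    · exact hqI
    · exact hx₁I
    · exact hxSI
    · exact hx₂I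
  · rw [hI, Ideal.span_le]
    rintro z (rfl | rfl | rfl)
    · exact hqm
    · exact hx₁
    · have : T₂ - T₁ = (T₂ - t₂) - (T₁ - t) + (t₂ - t) := by ring
      rw [this]
      exact (maximalIdeal R).add_mem ((maximalIdeal R).sub_mem hx₂ hx₁)
        ((Ideal.span_singleton_le_iff_mem _).2 hqm h3)

end Generators

end Fermat.Agent.CAR.Local
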