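import Mathlib
import Fermat.Agent.CAR.Local.PointRing

/-!
# Centres of valuation rings, composite valuation rings, and the local ring of a point

* `centre V hV` : the centre on `A` of a valuation subring `V` of `F` containing (the image of)
  `A`: the prime ideal of the elements of `A` which are non-units of `V`.
* `compositeSubring O red Vs` : for a valuation subring `O` of `F`, a ring homomorphism
  `red : O → κ` onto (or into) a field whose kernel is the maximal ideal of `O`, and a valuation
  subring `Vs` of `κ` ("a place `s` of the component"), the composite valuation subring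
  `{x ∈ O | red x ∈ Vs}` of `F`; its non-units are the `x ∈ O` with `red x` a non-unit of `Vs`
  (`mem_nonunits_compositeSubring_iff`).
* `pointIdeal` : the centre on `A` of the composite valuation ring, i.e.
  `{a ∈ A | red a ∈ 𝔪_s}` — the closed point `(component, s)` of `Spec A` — and
  `pointRing F (pointIdeal …)`, the local ring of `A` at that point, is contained in the composite
  valuation ring, hence in `O` (`pointRing_le_compositeSubring`, `pointRing_le_component`).
-/

namespace Fermat.Agent.CAR.Local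

open IsLocalRing

section Centre

variable {A F : Type*} [CommRing A] [Field F] [Algebra A F]

/-- The centre on `A` of a valuation subring `V` of `F` containing the image of `A`. -/
def centre (V : ValuationSubring F) (hV : ∀ a : A, algebraMap A F a ∈ V) : Ideal A :=
  (maximalIdeal V).comap ((algebraMap A F).codRestrict V hV)

instance centre_isPrime (V : ValuationSubring F) (hV : ∀ a : A, algebraMap A F a ∈ V) :
    (centre V hV).IsPrime :=
  Ideal.comap_isPrime _ _

theorem mem_centre_iff (V : ValuationSubring F) (hV : ∀ a : A, algebraMap A F a ∈ V) (a : A) :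
    a ∈ centre V hV ↔ algebraMap A F a ∈ V.nonunits := by
  rw [show algebraMap A F a = ((((algebraMap A F).codRestrict V hV) a : V) : F) from rfl,
    ValuationSubring.coe_mem_nonunits_iff]
  exact Ideal.mem_comap

/-- The local ring of `A` at the centre of `V` is contained in `V`. -/
theorem pointRing_centre_le [IsDomain A] [IsFractionRing A F] (V : ValuationSubring F)
    (hV : ∀ a : A, algebraMap A F a ∈ V) (r : pointRing F (centre V hV)) : (r : F) ∈ V :=
  pointRing_le_valuationSubring F (centre V hV) V hV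
    (fun a ha h => ha ((mem_centre_iff V hV a).2 h)) r

/-- If the centre of `V` on `A` is contained in the prime `𝔫`, then `A_𝔫 ⊆ V`. -/
theorem pointRing_le_of_centre_le [IsDomain A] [IsFractionRing A F] (𝔫 : Ideal A) [𝔫.IsPrime]
    (V : ValuationSubring F) (hV : ∀ a : A, algebraMap A F a ∈ V) (h : centre V hV ≤ 𝔫)
    (r : pointRing F 𝔫) : (r : F) ∈ V :=
  pointRing_le_valuationSubring F 𝔫 V hV
    (fun a ha h' => ha (h ((mem_centre_iff V hV a).2 h'))) r

end Centre

section Composite

variable {F κ : Type*} [Field F] [Field κ]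

/-- The composite of a valuation subring `O` of `F` with a valuation subring `Vs` of a field `κ`
receiving a ring homomorphism `red : O → κ` whose kernel is the maximal ideal of `O`. -/
def compositeSubring (O : ValuationSubring F) (red : O →+* κ)
    (hred : ∀ x : O, red x = 0 ↔ x ∈ maximalIdeal O) (Vs : ValuationSubring κ) :
    ValuationSubring F where
  carrier := {x | ∃ hx : x ∈ O, red ⟨x, hx⟩ ∈ Vs}
  mul_mem' := by
    rintro x y ⟨hx, hx'⟩ ⟨hy, hy'⟩
    refine ⟨O.mul_mem _ _ hx hy, ?_⟩
    have : (⟨x * y, O.mul_mem _ _ hx hy⟩ : O) = ⟨x, hx⟩ * ⟨y, hy⟩ := rfl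
    rw [this, map_mul]
    exact Vs.mul_mem _ _ hx' hy'
  one_mem' := by
    refine ⟨O.one_mem, ?_⟩
    have : (⟨1, O.one_mem⟩ : O) = 1 := rfl
    rw [this, map_one]
    exact Vs.one_mem
  add_mem' := by
    rintro x y ⟨hx, hx'⟩ ⟨hy, hy'⟩
    refine ⟨O.add_mem _ _ hx hy, ?_⟩
    have : (⟨x + y, O.add_mem _ _ hx hy⟩ : O) = ⟨x, hx⟩ + ⟨y, hy⟩ := rfl
    rw [this, map_add]
    exact Vs.add_mem _ _ hx' hy'
  zero_mem' := by
    refine ⟨O.zero_mem, ?_⟩
    have : (⟨0, O.zero_mem⟩ : O) = 0 := rfl
    rw [this, map_zero]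
    exact Vs.zero_mem
  neg_mem' := by
    rintro x ⟨hx, hx'⟩
    refine ⟨O.neg_mem _ hx, ?_⟩
    have : (⟨-x, O.neg_mem _ hx⟩ : O) = -⟨x, hx⟩ := rfl
    rw [this, map_neg]
    exact Vs.neg_mem _ hx'
  mem_or_inv_mem' := by
    intro x
    by_cases hx : x ∈ O
    · by_cases h0 : red ⟨x, hx⟩ = 0
      · left
        exact ⟨hx, by rw [h0]; exact Vs.zero_mem⟩
      · -- `x` is a unit of `O`
        have hu : IsUnit (⟨x, hx⟩ : O) := by
          by_contra hn
          exact h0 ((hred _).2 ((IsLocalRing.mem_maximalIdeal _).2 hn))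
        obtain ⟨y, hy⟩ := hu.exists_right_inv
        have hyx : (y : F) = x⁻¹ := by
          have h1 : x * (y : F) = 1 := congrArg Subtype.val hy
          exact eq_inv_of_mul_eq_one_right h1
        have hxi : x⁻¹ ∈ O := hyx ▸ y.2
        have hredy : red ⟨x⁻¹, hxi⟩ = (red ⟨x, hx⟩)⁻¹ := by
          have h2 : (⟨x⁻¹, hxi⟩ : O) = y := Subtype.ext hyx.symm
          rw [h2]
          have h3 : red ⟨x, hx⟩ * red y = 1 := by rw [← map_mul, hy, map_one]
          exact eq_inv_of_mul_eq_one_right h3
        rcases Vs.mem_or_inv_mem (red ⟨x, hx⟩) with h | h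
        · left; exact ⟨hx, h⟩
        · right; exact ⟨hxi, by rw [hredy]; exact h⟩
    · right
      have hxi : x⁻¹ ∈ O := (O.mem_or_inv_mem x).resolve_left hx
      refine ⟨hxi, ?_⟩
      have hm : (⟨x⁻¹, hxi⟩ : O) ∈ maximalIdeal O := by
        rw [IsLocalRing.mem_maximalIdeal]
        intro hu
        obtain ⟨y, hy⟩ := hu.exists_right_inv
        have h1 : x⁻¹ * (y : F) = 1 := congrArg Subtype.val hy
        have hx0 : x ≠ 0 := fun h => hx (h ▸ O.zero_mem)
        have : (y : F) = x := by
          field_simp at h1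
          exact h1
        exact hx (this ▸ y.2)
      rw [(hred _).2 hm]
      exact Vs.zero_mem

theorem mem_compositeSubring_iff (O : ValuationSubring F) (red : O →+* κ)
    (hred : ∀ x : O, red x = 0 ↔ x ∈ maximalIdeal O) (Vs : ValuationSubring κ) (x : F) :
    x ∈ compositeSubring O red hred Vs ↔ ∃ hx : x ∈ O, red ⟨x, hx⟩ ∈ Vs :=
  Iff.rfl

theorem compositeSubring_le (O : ValuationSubring F) (red : O →+* κ)
    (hred : ∀ x : O, red x = 0 ↔ x ∈ maximalIdeal O) (Vs : ValuationSubring κ) :
    compositeSubring O red hred Vs ≤ O :=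
  fun _ hx => hx.1

/-- The non-units of the composite valuation ring are the `x ∈ O` whose reduction is a non-unit
of `Vs`. -/
theorem mem_nonunits_compositeSubring_iff (O : ValuationSubring F) (red : O →+* κ)
    (hred : ∀ x : O, red x = 0 ↔ x ∈ maximalIdeal O) (Vs : ValuationSubring κ) (x : F) :
    x ∈ (compositeSubring O red hred Vs).nonunits ↔
      ∃ hx : x ∈ O, red ⟨x, hx⟩ ∈ Vs.nonunits := by
  -- auxiliary: for a unit `x` of `O`, `red (x⁻¹) = (red x)⁻¹`
  have key : ∀ (x : F) (hx : x ∈ O), red ⟨x, hx⟩ ≠ 0 →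
      ∃ hxi : x⁻¹ ∈ O, red ⟨x⁻¹, hxi⟩ = (red ⟨x, hx⟩)⁻¹ := by
    intro x hx h0
    have hu : IsUnit (⟨x, hx⟩ : O) := by
      by_contra hn
      exact h0 ((hred _).2 ((IsLocalRing.mem_maximalIdeal _).2 hn))
    obtain ⟨y, hy⟩ := hu.exists_right_inv
    have hyx : (y : F) = x⁻¹ := by
      have h1 : x * (y : F) = 1 := congrArg Subtype.val hy
      exact eq_inv_of_mul_eq_one_right h1
    have hxi : x⁻¹ ∈ O := hyx ▸ y.2
    refine ⟨hxi, ?_⟩
    have h2 : (⟨x⁻¹, hxi⟩ : O) = y := Subtype.ext hyx.symm
    rw [h2]
    have h3 : red ⟨x, hx⟩ * red y = 1 := by rw [← map_mul, hy, map_one]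
    exact eq_inv_of_mul_eq_one_right h3
  rw [ValuationSubring.mem_nonunits_iff_or]
  constructor
  · rintro (rfl | h)
    · refine ⟨O.zero_mem, ?_⟩
      have : (⟨0, O.zero_mem⟩ : O) = 0 := rfl
      rw [this, map_zero]
      exact (ValuationSubring.mem_nonunits_iff_or Vs).2 (Or.inl rfl)
    · -- `x⁻¹ ∉ composite`
      by_cases hx : x ∈ O
      · refine ⟨hx, ?_⟩
        by_cases h0 : red ⟨x, hx⟩ = 0
        · rw [h0]; exact (ValuationSubring.mem_nonunits_iff_or Vs).2 (Or.inl rfl)
        · obtain ⟨hxi, hr⟩ := key x hx h0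
          rw [ValuationSubring.mem_nonunits_iff_or]
          right
          intro hh
          exact h ⟨hxi, by rw [hr]; exact hh⟩
      · exfalso
        have hxi : x⁻¹ ∈ O := (O.mem_or_inv_mem x).resolve_left hx
        apply h
        refine ⟨hxi, ?_⟩
        have hm : (⟨x⁻¹, hxi⟩ : O) ∈ maximalIdeal O := by
          rw [IsLocalRing.mem_maximalIdeal]
          intro hu
          obtain ⟨y, hy⟩ := hu.exists_right_inv
          have h1 : x⁻¹ * (y : F) = 1 := congrArg Subtype.val hy
          have hx0 : x ≠ 0 := fun h => hx (h ▸ O.zero_mem)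
          have : (y : F) = x := by
            field_simp at h1
            exact h1
          exact hx (this ▸ y.2)
        rw [(hred _).2 hm]
        exact Vs.zero_mem
  · rintro ⟨hx, hr⟩
    by_cases hx0 : x = 0
    · left; exact hx0
    right
    rintro ⟨hxi, hri⟩
    by_cases h0 : red ⟨x, hx⟩ = 0
    · -- `x ∈ 𝔪_O` and `x⁻¹ ∈ O`: impossible
      have hm : (⟨x, hx⟩ : O) ∈ maximalIdeal O := (hred _).1 h0
      rw [IsLocalRing.mem_maximalIdeal] at hm
      apply hm
      refine IsUnit.of_mul_eq_one (⟨x⁻¹, hxi⟩ : O) (Subtype.ext ?_)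
      show x * x⁻¹ = 1
      exact mul_inv_cancel₀ hx0
    · obtain ⟨hxi', hr'⟩ := key x hx h0
      rw [ValuationSubring.mem_nonunits_iff_or] at hr
      rcases hr with hr | hr
      · exact h0 hr
      · apply hr
        rw [← hr']
        exact hri

end Composite

section Point

variable {A F κ : Type*} [CommRing A] [Field F] [Algebra A F] [Field κ]

/-- The closed point `(O, s)` of `Spec A`: the centre on `A` of the composite of the valuation
ring `O` (a component of the special fibre) with the valuation ring `Vs` of a place `s` of its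
residue field; concretely `{a ∈ A | red a is a non-unit of Vs}`. -/
def pointIdeal (O : ValuationSubring F) (red : O →+* κ)
    (hred : ∀ x : O, red x = 0 ↔ x ∈ maximalIdeal O) (Vs : ValuationSubring κ)
    (hA : ∀ a : A, algebraMap A F a ∈ compositeSubring O red hred Vs) : Ideal A :=
  centre (compositeSubring O red hred Vs) hA

instance pointIdeal_isPrime (O : ValuationSubring F) (red : O →+* κ)
    (hred : ∀ x : O, red x = 0 ↔ x ∈ maximalIdeal O) (Vs : ValuationSubring κ)
    (hA : ∀ a : A, algebraMap A F a ∈ compositeSubring O red hred Vs) :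
    (pointIdeal O red hred Vs hA).IsPrime :=
  centre_isPrime _ hA

theorem mem_pointIdeal_iff (O : ValuationSubring F) (red : O →+* κ)
    (hred : ∀ x : O, red x = 0 ↔ x ∈ maximalIdeal O) (Vs : ValuationSubring κ)
    (hA : ∀ a : A, algebraMap A F a ∈ compositeSubring O red hred Vs) (a : A) :
    a ∈ pointIdeal O red hred Vs hA ↔
      ∃ ha : algebraMap A F a ∈ O, red ⟨algebraMap A F a, ha⟩ ∈ Vs.nonunits := by
  unfold pointIdeal
  rw [mem_centre_iff, mem_nonunits_compositeSubring_iff]

variable [IsDomain A] [IsFractionRing A F]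

/-- The local ring of `A` at the point `(O, s)` is contained in the composite valuation ring. -/
theorem pointRing_le_compositeSubring (O : ValuationSubring F) (red : O →+* κ)
    (hred : ∀ x : O, red x = 0 ↔ x ∈ maximalIdeal O) (Vs : ValuationSubring κ)
    (hA : ∀ a : A, algebraMap A F a ∈ compositeSubring O red hred Vs)
    (r : pointRing F (pointIdeal O red hred Vs hA)) :
    (r : F) ∈ compositeSubring O red hred Vs :=
  pointRing_centre_le _ hA r

/-- The local ring of `A` at the point `(O, s)` is contained in `O`, and its elements reduce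
into `Vs` ("regular at `s`"). -/
theorem pointRing_le_component (O : ValuationSubring F) (red : O →+* κ)
    (hred : ∀ x : O, red x = 0 ↔ x ∈ maximalIdeal O) (Vs : ValuationSubring κ)
    (hA : ∀ a : A, algebraMap A F a ∈ compositeSubring O red hred Vs)
    (r : pointRing F (pointIdeal O red hred Vs hA)) :
    ∃ hr : (r : F) ∈ O, red ⟨(r : F), hr⟩ ∈ Vs :=
  pointRing_le_compositeSubring O red hred Vs hA r

/-- An element of the local ring at `(O, s)` lies in its maximal ideal iff its reduction is a
non-unit of `Vs` (vanishes at `s`). -/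
theorem mem_maximalIdeal_pointRing_iff (O : ValuationSubring F) (red : O →+* κ)
    (hred : ∀ x : O, red x = 0 ↔ x ∈ maximalIdeal O) (Vs : ValuationSubring κ)
    (hA : ∀ a : A, algebraMap A F a ∈ compositeSubring O red hred Vs)
    (r : pointRing F (pointIdeal O red hred Vs hA)) :
    r ∈ maximalIdeal (pointRing F (pointIdeal O red hred Vs hA)) ↔
      ∃ hr : (r : F) ∈ O, red ⟨(r : F), hr⟩ ∈ Vs.nonunits := by
  rw [← mem_nonunits_compositeSubring_iff O red hred Vs (r : F)]
  set V := compositeSubring O red hred Vs with hVdef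
  set 𝔫 := pointIdeal O red hred Vs hA with h𝔫
  obtain ⟨a, s, hs, hr⟩ := mem_pointRing_iff.1 r.2
  have hsV : algebraMap A F s ∉ V.nonunits := fun h => hs ((mem_centre_iff V hA s).2 h)
  have hsinv : (algebraMap A F s)⁻¹ ∈ V := by
    rw [ValuationSubring.mem_nonunits_iff_or] at hsV
    push Not at hsV
    exact hsV.2
  have hs0 : algebraMap A F s ≠ 0 := by
    intro h
    apply hsV
    rw [h]
    exact (ValuationSubring.mem_nonunits_iff_or V).2 (Or.inl rfl)
  -- `r = a / s` with `s` a unit of both rings
  have hsu : IsUnit (algebraMap A (pointRing F 𝔫) s) :=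
    (IsLocalization.AtPrime.isUnit_to_map_iff (pointRing F 𝔫) 𝔫 s).2 hs
  have hrs : r * algebraMap A (pointRing F 𝔫) s = algebraMap A (pointRing F 𝔫) a := by
    apply Subtype.ext
    show (r : F) * algebraMap A F s = algebraMap A F a
    rw [hr, mul_assoc, inv_mul_cancel₀ hs0, mul_one]
  have h1 : r ∈ maximalIdeal (pointRing F 𝔫) ↔ a ∈ 𝔫 := by
    rw [← algebraMap_mem_maximalIdeal_pointRing_iff F 𝔫 a, ← hrs]
    constructor
    · intro h
      exact Ideal.mul_mem_right _ _ h
    · intro h
      obtain ⟨w, hw⟩ := hsu.exists_right_inv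
      have : r = r * algebraMap A (pointRing F 𝔫) s * w := by rw [mul_assoc, hw, mul_one]
      rw [this]
      exact Ideal.mul_mem_right _ _ h
  rw [h1, h𝔫]
  unfold pointIdeal
  rw [mem_centre_iff]
  -- `a ∈ nonunits V ↔ a / s ∈ nonunits V`
  rw [ValuationSubring.mem_nonunits_iff, ValuationSubring.mem_nonunits_iff, hr, map_mul, map_inv₀]
  have hvs : V.valuation (algebraMap A F s) = 1 := by
    have h2 : V.valuation (algebraMap A F s) ≤ 1 := (V.valuation_le_one_iff _).2 (hA s)
    have h3 : ¬ V.valuation (algebraMap A F s) < 1 := fun h =>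
      hsV ((ValuationSubring.mem_nonunits_iff V).2 h)
    exact le_antisymm h2 (not_lt.1 h3)
  rw [hvs, inv_one, mul_one]

end Point

end Fermat.Agent.CAR.Local
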