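import Mathlib

/-!
# CAR (L): principal ideals in a normal Noetherian domain are unmixed

Let `R` be a Noetherian integrally closed domain (the local ring of the *normal* model at any
point, not only at the points where an explicit presentation `W[T₁, S, T₂]_𝔫` is available).

* `exists_colon_prime` : for `a ∉ (b)` there is a multiple `c = r a ∉ (b)` such that the colon
  ideal `((b) : c)` is prime (an associated prime of `R / (b)`);
* `colon_mem_minimalPrimes` : such a prime is *minimal* over `(b)` — no embedded primes;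
* `mem_span_singleton_of_forall_minimalPrimes` : `a ∈ (b)` as soon as `a ∈ b R_𝔮` for every
  prime `𝔮` minimal over `(b)`;
* `eq_span_singleton_of_minimalPrimes` : a prime `𝔭` containing `t`, such that `t` generates
  `𝔭 R_𝔭` and `𝔭` is the only minimal prime over `(t)`, is `(t)`;
* `maximalIdeal_eq_span_pair_of_minimalPrimes` : if moreover `𝔪 = 𝔭 + (x)` then `𝔪 = (t, x)`:
  the ring is regular (then `RegularTwo.lean` applies);
* `minimalPrimes_span_eq_of_pow_eq`, `maximalIdeal_eq_span_pair_of_pow_eq` : the same for a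
  component of multiplicity `n` (`t ^ n = unit * p`), e.g. the middle component of `X₀(q² M')`
  with `t = j(q² z) - j(z)`, `n = q - 1`, also over the ordinary `𝔽_{q²}`-points where the ring
  `W[T₁, S, T₂]_𝔫` is not normal;
* `mem_span_singleton_of_forall_valuationSubring`, `mem_range_of_forall_valuationSubring`
  (algebraic Hartogs): an element `z` of the fraction field lying in a valuation ring centred at
  `𝔮`, for every prime `𝔮` minimal over a nonzero principal ideal, belongs to `R`;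
* `mem_span_singleton_of_mem_nonunits` : if all primes minimal over `(t)` are the centre of one
  valuation subring `V₀ ⊇ R` of which `t` is a uniformiser, the centre of `V₀` is `(t)`.
-/

set_option autoImplicit false

namespace Fermat.Agent.CAR.Local

open IsLocalRing

section Unmixed

variable {R : Type*} [CommRing R] [IsDomain R] [IsNoetherianRing R] [IsIntegrallyClosed R]

/-- If `c ∉ (b)` and `I ≠ 0` is an ideal with `I c ⊆ (b)`, then "multiplication by `c / b`" does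
not preserve `I` (otherwise `c / b` would be integral over `R`). -/
theorem exists_mul_eq_mul_notMem {b c : R} (hb : b ≠ 0) (hc : c ∉ Ideal.span {b})
    (I : Ideal R) (hI : I ≠ ⊥) (hIc : ∀ y ∈ I, y * c ∈ Ideal.span {b}) :
    ∃ y ∈ I, ∃ w : R, y * c = b * w ∧ w ∉ I := by
  by_contra hcon
  push Not at hcon
  let K := FractionRing R
  have hinj : Function.Injective (algebraMap R K) := IsFractionRing.injective R K
  have hbK : algebraMap R K b ≠ 0 := fun h => hb (hinj (by rw [h, map_zero]))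
  let N : Submodule R K := Submodule.map (Algebra.linearMap R K) I
  have hNfg : N.FG := (IsNoetherian.noetherian I).map _
  have hN : N ≠ ⊥ := by
    obtain ⟨y, hy, hy0⟩ := (Submodule.ne_bot_iff I).mp hI
    intro hbot
    have hmem : algebraMap R K y ∈ N := ⟨y, hy, rfl⟩
    rw [hbot, Submodule.mem_bot] at hmem
    exact hy0 (hinj (by rw [hmem, map_zero]))
  have hint : IsIntegral R (algebraMap R K c / algebraMap R K b) := by
    refine isIntegral_of_smul_mem_submodule N hN hNfg _ ?_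
    rintro _ ⟨y, hy, rfl⟩
    obtain ⟨w, hw⟩ := Ideal.mem_span_singleton.mp (hIc y hy)
    refine ⟨w, hcon y hy w hw, ?_⟩
    show algebraMap R K w = (algebraMap R K c / algebraMap R K b) * algebraMap R K y
    rw [div_mul_eq_mul_div, eq_div_iff hbK, ← map_mul, ← map_mul, mul_comm w b, ← hw, mul_comm]
  obtain ⟨r, hr⟩ := IsIntegrallyClosed.isIntegral_iff.mp hint
  apply hc
  rw [Ideal.mem_span_singleton]
  refine ⟨r, hinj ?_⟩
  rw [map_mul, hr, mul_div_cancel₀ _ hbK]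

/-- For `a ∉ (b)` there is a multiple `c = r a ∉ (b)` whose colon ideal `((b) : c)` is prime. -/
theorem exists_colon_prime {a b : R} (ha : a ∉ Ideal.span {b}) :
    ∃ (r : R) (𝔮 : Ideal R), 𝔮.IsPrime ∧ r * a ∉ Ideal.span {b} ∧
      ∀ s, s ∈ 𝔮 ↔ s * (r * a) ∈ Ideal.span {b} := by
  let S : Set (Ideal R) :=
    {I | ∃ r : R, r * a ∉ Ideal.span {b} ∧ I = (Ideal.span {b}).colon {r * a}}
  have hS : S.Nonempty := ⟨_, 1, by rwa [one_mul], rfl⟩
  obtain ⟨𝔮, ⟨r, hr, rfl⟩, hmax⟩ :=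
    (set_has_maximal_iff_noetherian (R := R) (M := R)).mpr inferInstance S hS
  have hmem : ∀ s, s ∈ (Ideal.span {b}).colon {r * a} ↔ s * (r * a) ∈ Ideal.span {b} := by
    intro s
    rw [Submodule.mem_colon_singleton, smul_eq_mul]
  refine ⟨r, _, ?_, hr, hmem⟩
  refine Ideal.isPrime_iff.mpr ⟨?_, ?_⟩
  · intro htop
    have h1 : (1 : R) ∈ (Ideal.span {b}).colon {r * a} := by rw [htop]; trivial
    rw [hmem, one_mul] at h1
    exact hr h1
  · intro x y hxy
    by_contra hcon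
    push Not at hcon
    obtain ⟨hx, hy⟩ := hcon
    have hx' : x * r * a ∉ Ideal.span {b} := by
      rw [hmem] at hx
      rwa [mul_assoc]
    have hle : (Ideal.span {b}).colon {r * a} ≤ (Ideal.span {b}).colon {x * r * a} := by
      intro s hs
      rw [hmem] at hs
      rw [Submodule.mem_colon_singleton, smul_eq_mul]
      have : s * (x * r * a) = x * (s * (r * a)) := by ring
      rw [this]
      exact Ideal.mul_mem_left _ _ hs
    have hyin : y ∈ (Ideal.span {b}).colon {x * r * a} := by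
      rw [Submodule.mem_colon_singleton, smul_eq_mul]
      rw [hmem] at hxy
      have : y * (x * r * a) = x * y * (r * a) := by ring
      rw [this]
      exact hxy
    have hlt : (Ideal.span {b}).colon {r * a} < (Ideal.span {b}).colon {x * r * a} :=
      lt_of_le_of_ne hle (fun h => hy (h ▸ hyin))
    exact hmax _ ⟨x * r, hx', rfl⟩ hlt

/-- **No embedded primes**: a prime colon ideal `((b) : c)`, `c ∉ (b)`, is minimal over `(b)`. -/
theorem colon_mem_minimalPrimes {b c : R} (hb : b ≠ 0) (hc : c ∉ Ideal.span {b})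
    (𝔮 : Ideal R) [h𝔮 : 𝔮.IsPrime] (hmem : ∀ s, s ∈ 𝔮 ↔ s * c ∈ Ideal.span {b}) :
    𝔮 ∈ (Ideal.span {b}).minimalPrimes := by
  have hb𝔮 : b ∈ 𝔮 := by
    rw [hmem]
    exact Ideal.mul_mem_right _ _ (Ideal.subset_span rfl)
  have h𝔮0 : 𝔮 ≠ ⊥ := fun h => hb (by rw [h] at hb𝔮; exact hb𝔮)
  obtain ⟨q₁, hq₁, v, hv, hv𝔮⟩ := exists_mul_eq_mul_notMem hb hc 𝔮 h𝔮0 (fun y hy => (hmem y).mp hy)
  refine ⟨⟨h𝔮, (Ideal.span_singleton_le_iff_mem 𝔮).mpr hb𝔮⟩, ?_⟩
  rintro 𝔮' ⟨h𝔮', hb𝔮'⟩ hle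
  have hb' : b ∈ 𝔮' := (Ideal.span_singleton_le_iff_mem 𝔮').mp hb𝔮'
  have h𝔮'0 : 𝔮' ≠ ⊥ := fun h => hb (by rw [h] at hb'; exact hb')
  obtain ⟨y, hy, w, hw, hw𝔮'⟩ :=
    exists_mul_eq_mul_notMem hb hc 𝔮' h𝔮'0 (fun y hy => (hmem y).mp (hle hy))
  -- `q₁ w = y v`
  have h1 : q₁ * w = y * v := by
    have : b * (q₁ * w) = b * (y * v) := by
      calc b * (q₁ * w) = q₁ * (b * w) := by ring
        _ = q₁ * (y * c) := by rw [hw]
        _ = y * (q₁ * c) := by ring
        _ = y * (b * v) := by rw [hv]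
        _ = b * (y * v) := by ring
    exact mul_left_cancel₀ hb this
  have hq₁' : q₁ ∈ 𝔮' := by
    have : q₁ * w ∈ 𝔮' := by rw [h1]; exact Ideal.mul_mem_right _ _ hy
    exact (h𝔮'.mem_or_mem this).resolve_right hw𝔮'
  intro x hx
  obtain ⟨x', hx'⟩ := Ideal.mem_span_singleton.mp ((hmem x).mp hx)
  have h2 : x * v = q₁ * x' := by
    have : b * (x * v) = b * (q₁ * x') := by
      calc b * (x * v) = x * (b * v) := by ring
        _ = x * (q₁ * c) := by rw [hv]
        _ = q₁ * (x * c) := by ring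
        _ = q₁ * (b * x') := by rw [hx']
        _ = b * (q₁ * x') := by ring
    exact mul_left_cancel₀ hb this
  have : x * v ∈ 𝔮' := by rw [h2]; exact Ideal.mul_mem_right _ _ hq₁'
  exact (h𝔮'.mem_or_mem this).resolve_right (fun h => hv𝔮 (hle h))

/-- **Unmixedness**: `a ∈ (b)` as soon as `a ∈ b R_𝔮` for every prime `𝔮` minimal over `(b)`. -/
theorem mem_span_singleton_of_forall_minimalPrimes {a b : R} (hb : b ≠ 0)
    (h : ∀ 𝔮 ∈ (Ideal.span {b}).minimalPrimes, ∃ s, s ∉ 𝔮 ∧ s * a ∈ Ideal.span {b}) :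
    a ∈ Ideal.span {b} := by
  by_contra ha
  obtain ⟨r, 𝔮, h𝔮, hr, hmem⟩ := exists_colon_prime ha
  obtain ⟨s, hs, hsa⟩ := h 𝔮 (colon_mem_minimalPrimes hb hr 𝔮 hmem)
  apply hs
  rw [hmem]
  have : s * (r * a) = r * (s * a) := by ring
  rw [this]
  exact Ideal.mul_mem_left _ _ hsa

/-- A prime `𝔭 ∋ t` such that `t` generates `𝔭 R_𝔭` and `𝔭` is the only minimal prime over `(t)`
is principal, generated by `t`. -/
theorem eq_span_singleton_of_minimalPrimes {t : R} (ht0 : t ≠ 0) (𝔭 : Ideal R) (ht : t ∈ 𝔭)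
    (hloc : ∀ a ∈ 𝔭, ∃ s, s ∉ 𝔭 ∧ s * a ∈ Ideal.span {t})
    (hmin : ∀ 𝔮 ∈ (Ideal.span {t}).minimalPrimes, 𝔮 = 𝔭) : 𝔭 = Ideal.span {t} := by
  refine le_antisymm (fun a ha => ?_) ((Ideal.span_singleton_le_iff_mem 𝔭).mpr ht)
  refine mem_span_singleton_of_forall_minimalPrimes ht0 (fun 𝔮 h𝔮 => ?_)
  rw [hmin 𝔮 h𝔮]
  exact hloc a ha

/-- If `t ^ n = u * p` with `u` a unit, then the primes minimal over `(t)` are the primes minimal
over `(p)`. -/
theorem minimalPrimes_span_eq_of_pow_eq {t p u : R} {n : ℕ} (hn : n ≠ 0) (hu : IsUnit u)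
    (h : t ^ n = u * p) :
    (Ideal.span {t}).minimalPrimes = (Ideal.span {p}).minimalPrimes := by
  have key : ∀ 𝔮 : Ideal R, 𝔮.IsPrime → (Ideal.span {t} ≤ 𝔮 ↔ Ideal.span {p} ≤ 𝔮) := by
    intro 𝔮 h𝔮
    rw [Ideal.span_singleton_le_iff_mem, Ideal.span_singleton_le_iff_mem]
    constructor
    · intro htq
      have h1 : u * p ∈ 𝔮 := by rw [← h]; exact Ideal.pow_mem_of_mem _ htq n (Nat.pos_of_ne_zero hn)
      rcases h𝔮.mem_or_mem h1 with h2 | h2
      · exact absurd (𝔮.eq_top_of_isUnit_mem h2 hu) h𝔮.ne_top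
      · exact h2
    · intro hpq
      have h1 : t ^ n ∈ 𝔮 := by rw [h]; exact Ideal.mul_mem_left _ _ hpq
      exact h𝔮.mem_of_pow_mem n h1
  ext 𝔮
  constructor
  · rintro ⟨⟨h𝔮, hle⟩, hmin⟩
    exact ⟨⟨h𝔮, (key 𝔮 h𝔮).mp hle⟩, fun 𝔮' ⟨h𝔮', hle'⟩ h => hmin ⟨h𝔮', (key 𝔮' h𝔮').mpr hle'⟩ h⟩
  · rintro ⟨⟨h𝔮, hle⟩, hmin⟩
    exact ⟨⟨h𝔮, (key 𝔮 h𝔮).mpr hle⟩, fun 𝔮' ⟨h𝔮', hle'⟩ h => hmin ⟨h𝔮', (key 𝔮' h𝔮').mp hle'⟩ h⟩

end Unmixed

section Local

variable {R : Type*} [CommRing R] [IsDomain R] [IsNoetherianRing R] [IsIntegrallyClosed R]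
  [IsLocalRing R]

/-- **Regularity criterion at a point of the normal model.**  `𝔭` a prime through the point,
`t ∈ 𝔭` generating `𝔭 R_𝔭`, `𝔭` the only minimal prime over `(t)`, and `𝔪 = 𝔭 + (x)` (the
component is smooth at the point with local parameter `x`).  Then `𝔭 = (t)` and `𝔪 = (t, x)`. -/
theorem maximalIdeal_eq_span_pair_of_minimalPrimes {t x : R} (ht0 : t ≠ 0) (𝔭 : Ideal R)
    (ht : t ∈ 𝔭) (hloc : ∀ a ∈ 𝔭, ∃ s, s ∉ 𝔭 ∧ s * a ∈ Ideal.span {t})
    (hmin : ∀ 𝔮 ∈ (Ideal.span {t}).minimalPrimes, 𝔮 = 𝔭)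
    (hm : maximalIdeal R = 𝔭 ⊔ Ideal.span {x}) :
    𝔭 = Ideal.span {t} ∧ maximalIdeal R = Ideal.span {t, x} := by
  have h𝔭 := eq_span_singleton_of_minimalPrimes ht0 𝔭 ht hloc hmin
  refine ⟨h𝔭, ?_⟩
  rw [hm, h𝔭, Ideal.span_insert]

/-- The same for a component of multiplicity `n`: `t ^ n = u * p` with `u` a unit, `𝔭` the only
minimal prime over `(p)`. -/
theorem maximalIdeal_eq_span_pair_of_pow_eq {t x p u : R} {n : ℕ} (hn : n ≠ 0) (hu : IsUnit u)
    (hpow : t ^ n = u * p) (ht0 : t ≠ 0) (𝔭 : Ideal R) (ht : t ∈ 𝔭)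
    (hloc : ∀ a ∈ 𝔭, ∃ s, s ∉ 𝔭 ∧ s * a ∈ Ideal.span {t})
    (hmin : ∀ 𝔮 ∈ (Ideal.span {p}).minimalPrimes, 𝔮 = 𝔭)
    (hm : maximalIdeal R = 𝔭 ⊔ Ideal.span {x}) :
    𝔭 = Ideal.span {t} ∧ maximalIdeal R = Ideal.span {t, x} :=
  maximalIdeal_eq_span_pair_of_minimalPrimes ht0 𝔭 ht hloc
    (fun 𝔮 h𝔮 => hmin 𝔮 (minimalPrimes_span_eq_of_pow_eq hn hu hpow ▸ h𝔮)) hm

end Local

section Hartogs

variable {R F : Type*} [CommRing R] [IsDomain R] [IsNoetherianRing R] [IsIntegrallyClosed R]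
  [Field F] [Algebra R F] [IsFractionRing R F]

/-- **Algebraic Hartogs.**  Let `a, b ∈ R`, `b ≠ 0`.  If for every prime `𝔮` minimal over `(b)`
there is a valuation subring `V ⊇ R` of the fraction field, centred at `𝔮`, containing `a / b`,
then `a ∈ (b)`. -/
theorem mem_span_singleton_of_forall_valuationSubring {a b : R} (hb : b ≠ 0)
    (h : ∀ 𝔮 ∈ (Ideal.span {b}).minimalPrimes, ∃ V : ValuationSubring F,
      (∀ r : R, algebraMap R F r ∈ V) ∧ (∀ r : R, r ∈ 𝔮 → algebraMap R F r ∈ V.nonunits) ∧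
      (∀ r : R, algebraMap R F r ∈ V.nonunits → r ∈ 𝔮) ∧
      algebraMap R F a / algebraMap R F b ∈ V) :
    a ∈ Ideal.span {b} := by
  by_contra ha
  have hinj : Function.Injective (algebraMap R F) := IsFractionRing.injective R F
  have hbF : algebraMap R F b ≠ 0 := fun h0 => hb (hinj (by rw [h0, map_zero]))
  obtain ⟨r, 𝔮, h𝔮, hr, hmem⟩ := exists_colon_prime ha
  have hminq := colon_mem_minimalPrimes hb hr 𝔮 hmem
  obtain ⟨V, hRV, hq1, hq2, hz⟩ := h 𝔮 hminq
  have hb𝔮 : b ∈ 𝔮 := by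
    rw [hmem]
    exact Ideal.mul_mem_right _ _ (Ideal.subset_span rfl)
  have h𝔮0 : 𝔮 ≠ ⊥ := fun h0 => hb (by rw [h0] at hb𝔮; exact hb𝔮)
  obtain ⟨q₁, hq₁, v, hv, hv𝔮⟩ := exists_mul_eq_mul_notMem hb hr 𝔮 h𝔮0 (fun y hy => (hmem y).mp hy)
  -- `v = q₁ * (r * (a / b))` is a non-unit of `V`
  apply hv𝔮
  apply hq2
  have hv' : algebraMap R F v =
      algebraMap R F q₁ * (algebraMap R F r * (algebraMap R F a / algebraMap R F b)) := by
    rw [← mul_div_assoc, ← mul_div_assoc, eq_div_iff hbF, ← map_mul, ← map_mul, ← map_mul,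
      mul_comm v b, ← hv]
  rw [hv']
  have h1 : V.valuation (algebraMap R F q₁) < 1 := V.mem_nonunits_iff.mp (hq1 q₁ hq₁)
  have h2 : V.valuation (algebraMap R F r * (algebraMap R F a / algebraMap R F b)) ≤ 1 :=
    (V.valuation_le_one_iff _).mpr (V.mul_mem _ _ (hRV r) hz)
  rw [V.mem_nonunits_iff, map_mul]
  calc V.valuation (algebraMap R F q₁) *
        V.valuation (algebraMap R F r * (algebraMap R F a / algebraMap R F b))
      ≤ V.valuation (algebraMap R F q₁) * 1 := by gcongr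
    _ = V.valuation (algebraMap R F q₁) := mul_one _
    _ < 1 := h1

/-- **Algebraic Hartogs**, fraction-field form: an element `z` of the fraction field which lies,
for every prime `𝔮` minimal over a nonzero principal ideal, in a valuation subring `V ⊇ R` centred
at `𝔮`, belongs to `R`. -/
theorem mem_range_of_forall_valuationSubring (z : F)
    (h : ∀ (b : R), b ≠ 0 → ∀ 𝔮 ∈ (Ideal.span {b}).minimalPrimes, ∃ V : ValuationSubring F,
      (∀ r : R, algebraMap R F r ∈ V) ∧ (∀ r : R, r ∈ 𝔮 → algebraMap R F r ∈ V.nonunits) ∧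
      (∀ r : R, algebraMap R F r ∈ V.nonunits → r ∈ 𝔮) ∧ z ∈ V) :
    z ∈ (algebraMap R F).range := by
  have hinj : Function.Injective (algebraMap R F) := IsFractionRing.injective R F
  obtain ⟨a, b, hb, rfl⟩ := IsFractionRing.div_surjective (A := R) z
  have hb0 : b ≠ 0 := nonZeroDivisors.ne_zero hb
  have hbF : algebraMap R F b ≠ 0 := fun h0 => hb0 (hinj (by rw [h0, map_zero]))
  obtain ⟨c, hc⟩ := Ideal.mem_span_singleton.mp
    (mem_span_singleton_of_forall_valuationSubring (F := F) hb0 (h b hb0))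
  exact ⟨c, by rw [hc, map_mul, mul_div_cancel_left₀ _ hbF]⟩

/-- If every prime minimal over `(t)` is the centre of one valuation subring `V₀ ⊇ R`, and `t` is a
uniformiser of `V₀` (`z / t ∈ V₀` for every non-unit `z` of `V₀`), then the centre of `V₀` on `R`
is the principal ideal `(t)`. -/
theorem mem_span_singleton_of_mem_nonunits {t : R} (ht0 : t ≠ 0) (V₀ : ValuationSubring F)
    (hRV : ∀ r : R, algebraMap R F r ∈ V₀)
    (hmin : ∀ 𝔮 ∈ (Ideal.span {t}).minimalPrimes,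
      ∀ r : R, r ∈ 𝔮 ↔ algebraMap R F r ∈ V₀.nonunits)
    (hunif : ∀ z ∈ V₀.nonunits, z / algebraMap R F t ∈ V₀) {a : R}
    (ha : algebraMap R F a ∈ V₀.nonunits) : a ∈ Ideal.span {t} :=
  mem_span_singleton_of_forall_valuationSubring (F := F) ht0
    (fun 𝔮 h𝔮 => ⟨V₀, hRV, fun r hr => (hmin 𝔮 h𝔮 r).mp hr, fun r hr => (hmin 𝔮 h𝔮 r).mpr hr,
      hunif _ ha⟩)

/-- Converse inclusion: `t` is a non-unit of `V₀`, so `(t)` lies in the centre. -/
theorem mem_nonunits_of_mem_span_singleton {t : R} (V₀ : ValuationSubring F)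
    (hRV : ∀ r : R, algebraMap R F r ∈ V₀) (ht : algebraMap R F t ∈ V₀.nonunits) {a : R}
    (ha : a ∈ Ideal.span {t}) : algebraMap R F a ∈ V₀.nonunits := by
  obtain ⟨c, rfl⟩ := Ideal.mem_span_singleton.mp ha
  have h1 : V₀.valuation (algebraMap R F t) < 1 := V₀.mem_nonunits_iff.mp ht
  have h2 : V₀.valuation (algebraMap R F c) ≤ 1 := (V₀.valuation_le_one_iff _).mpr (hRV c)
  rw [V₀.mem_nonunits_iff, map_mul, map_mul]
  calc V₀.valuation (algebraMap R F t) * V₀.valuation (algebraMap R F c)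
      ≤ V₀.valuation (algebraMap R F t) * 1 := by gcongr
    _ = V₀.valuation (algebraMap R F t) := mul_one _
    _ < 1 := h1

end Hartogs

end Fermat.Agent.CAR.Local
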