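import Mathlib
import Fermat.Agent.CAR.Local.Unmixed
import Fermat.Agent.CAR.Local.Centre

/-!
# CAR (L): vertical Hartogs — membership in the normal model from the vertical valuations

`A` a Noetherian integrally closed domain with fraction field `F` (the normal model `B`), `q ∈ A`
nonzero, `O i ⊇ A` a family of valuation subrings of `F` whose centres are the only primes of `A`
minimal over `(q)` (the components of the special fibre).

* `mem_range_of_pow_mul_eq` : `z ∈ F` with `q ^ k z ∈ A` ("no horizontal poles") and `z ∈ O i`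
  for all `i` ("no vertical poles") belongs to `A`.
* `isUnit_of_pow_mul_eq` : if this holds for `z` and `z⁻¹`, then `z` is a unit of `A`.
* `mem_range_of_isIntegral_localization` : the same when `A` is the integral closure of `A₀` in
  `F` and `z` is integral over a localisation `Aq` of `A₀` at a submonoid whose elements divide
  powers of `q` (e.g. `A₀ = W[J]`, `Aq = K₀[J]`): modular units whose divisor is cuspidal and whose
  three vertical valuations are `≥ 0` lie in the normal model.
-/

set_option autoImplicit false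

namespace Fermat.Agent.CAR.Local

namespace VertH

variable {A F : Type*} [CommRing A] [IsDomain A] [IsNoetherianRing A] [IsIntegrallyClosed A]
  [Field F] [Algebra A F] [IsFractionRing A F] {ι : Type*} (O : ι → ValuationSubring F)
  (hAO : ∀ i a, algebraMap A F a ∈ O i)

/-- **Vertical Hartogs.**  If the centres of the `O i` are the only primes minimal over `(q)`,
an element `z` of the fraction field with `q ^ k z ∈ A` and `z ∈ O i` for all `i` lies in `A`. -/
theorem mem_range_of_pow_mul_eq {q : A} (hq0 : q ≠ 0)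
    (hmin : ∀ 𝔮 ∈ (Ideal.span {q}).minimalPrimes, ∃ i, 𝔮 = centre (O i) (hAO i))
    (z : F) (k : ℕ) (b : A) (hk : algebraMap A F q ^ k * z = algebraMap A F b)
    (hz : ∀ i, z ∈ O i) : z ∈ (algebraMap A F).range := by
  have hinj : Function.Injective (algebraMap A F) := IsFractionRing.injective A F
  have hqF : algebraMap A F q ≠ 0 := fun h0 => hq0 (hinj (by rw [h0, map_zero]))
  have hqk0 : q ^ k ≠ 0 := pow_ne_zero k hq0
  have hqkF : algebraMap A F (q ^ k) ≠ 0 := by rw [map_pow]; exact pow_ne_zero k hqF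
  have hzb : algebraMap A F b / algebraMap A F (q ^ k) = z := by
    rw [← hk, map_pow, mul_div_cancel_left₀ _ (pow_ne_zero k hqF)]
  rcases Nat.eq_zero_or_pos k with hk0 | hkpos
  · subst hk0
    exact ⟨b, by rw [← hk, pow_zero, one_mul]⟩
  have hmp : (Ideal.span {q}).minimalPrimes = (Ideal.span {q ^ k}).minimalPrimes :=
    minimalPrimes_span_eq_of_pow_eq (t := q) (p := q ^ k) (u := 1) (n := k)
      (Nat.pos_iff_ne_zero.1 hkpos) isUnit_one (by rw [one_mul])
  have hmem : b ∈ Ideal.span {q ^ k} := by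
    refine mem_span_singleton_of_forall_valuationSubring (F := F) hqk0 (fun 𝔮 h𝔮 => ?_)
    obtain ⟨i, hi⟩ := hmin 𝔮 (hmp ▸ h𝔮)
    refine ⟨O i, hAO i, fun r hr => ?_, fun r hr => ?_, ?_⟩
    · exact (mem_centre_iff (O i) (hAO i) r).1 (hi ▸ hr)
    · rw [hi]
      exact (mem_centre_iff (O i) (hAO i) r).2 hr
    · rw [hzb]
      exact hz i
  obtain ⟨c, hc⟩ := Ideal.mem_span_singleton.1 hmem
  refine ⟨c, ?_⟩
  rw [← hzb, hc, map_mul, mul_div_cancel_left₀ _ hqkF]

/-- If both `z` and `z⁻¹` have no horizontal and no vertical poles, `z` is (the image of) a unit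
of `A`. -/
theorem isUnit_of_pow_mul_eq {q : A} (hq0 : q ≠ 0)
    (hmin : ∀ 𝔮 ∈ (Ideal.span {q}).minimalPrimes, ∃ i, 𝔮 = centre (O i) (hAO i))
    (z : F) (hz0 : z ≠ 0) (k : ℕ) (b b' : A) (hk : algebraMap A F q ^ k * z = algebraMap A F b)
    (hk' : algebraMap A F q ^ k * z⁻¹ = algebraMap A F b')
    (hz : ∀ i, z ∈ O i) (hz' : ∀ i, z⁻¹ ∈ O i) :
    ∃ a : A, IsUnit a ∧ algebraMap A F a = z := by
  have hinj : Function.Injective (algebraMap A F) := IsFractionRing.injective A F
  obtain ⟨a, ha⟩ := mem_range_of_pow_mul_eq O hAO hq0 hmin z k b hk hz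
  obtain ⟨a', ha'⟩ := mem_range_of_pow_mul_eq O hAO hq0 hmin z⁻¹ k b' hk' hz'
  refine ⟨a, IsUnit.of_mul_eq_one a' (hinj ?_), ha⟩
  rw [map_mul, map_one, ha, ha', mul_inv_cancel₀ hz0]

/-- **Vertical Hartogs for an integral closure.**  `A` the integral closure of `A₀` in `F`, `Aq` a
localisation of `A₀` at a submonoid all of whose elements divide a power of `q` in `A`.  An
element `z ∈ F` integral over `Aq` and lying in all the `O i` belongs to `A`. -/
theorem mem_range_of_isIntegral_localization (A₀ Aq : Type*) [CommRing A₀] [Algebra A₀ A]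
    [Algebra A₀ F] [IsScalarTower A₀ A F] [IsIntegralClosure A A₀ F] (M : Submonoid A₀)
    [CommRing Aq] [Algebra A₀ Aq] [IsLocalization M Aq] [Algebra Aq F] [IsScalarTower A₀ Aq F]
    {q : A} (hq0 : q ≠ 0) (hM : ∀ m ∈ M, ∃ k : ℕ, algebraMap A₀ A m ∣ q ^ k)
    (hmin : ∀ 𝔮 ∈ (Ideal.span {q}).minimalPrimes, ∃ i, 𝔮 = centre (O i) (hAO i))
    (z : F) (hz : IsIntegral Aq z) (hzO : ∀ i, z ∈ O i) : z ∈ (algebraMap A F).range := by
  obtain ⟨⟨m, hm⟩, hmz⟩ := IsIntegral.exists_multiple_integral_of_isLocalization M z hz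
  obtain ⟨b, hb⟩ := (IsIntegralClosure.isIntegral_iff (A := A)).1 hmz
  obtain ⟨k, c, hc⟩ := hM m hm
  refine mem_range_of_pow_mul_eq O hAO hq0 hmin z k (c * b) ?_ hzO
  have h1 : algebraMap A F b = algebraMap A F (algebraMap A₀ A m) * z := by
    rw [hb, Submonoid.smul_def, Algebra.smul_def, IsScalarTower.algebraMap_apply A₀ A F]
  rw [← map_pow, hc, map_mul, map_mul, h1]
  ring

end VertH

end Fermat.Agent.CAR.Local
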