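import Mathlib
import Fermat.Agent.CAR.Local.Centre

/-!
# Every closed point of the special fibre is a point `(component, place)`

Setting of `Centre.lean`: `A` a ring mapping into a field `F`, `O` a valuation subring of `F`
containing the image of `A` (a component of the special fibre), `red : O → κ` a ring homomorphism
with kernel the maximal ideal of `O`.

* `exists_pointIdeal_eq_of_isMaximal` : a maximal ideal `𝔪` of `A` containing the centre of `O`
  (i.e. a closed point lying on the component) is the point `(O, s)` for a valuation subring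
  `Vs` of `κ` containing the reduction of `A` (Chevalley's extension theorem).
* `pointIdeal_isMaximal` : conversely the point `(O, s)` is a maximal ideal as soon as `A` maps
  onto the residue field of `Vs`.
* `exists_centre_le_of_mem` : if the primes minimal over `(q)` are centres of members of a family
  of valuation subrings, every prime containing `q` contains one of these centres.
* `pointIdeal_ne_of_sep` : two places separated by the reduction of an element of `A` give
  different points.
-/

set_option autoImplicit false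

namespace Fermat.Agent.CAR.Local

open IsLocalRing

section Exhaust

variable {A F κ : Type*} [CommRing A] [Field F] [Algebra A F] [Field κ]

/-- The reduction map `A → κ` attached to a component `O ⊇ A`. -/
def redOn (O : ValuationSubring F) (red : O →+* κ) (hAO : ∀ a : A, algebraMap A F a ∈ O) :
    A →+* κ :=
  red.comp ((algebraMap A F).codRestrict O hAO)

theorem redOn_apply (O : ValuationSubring F) (red : O →+* κ)
    (hAO : ∀ a : A, algebraMap A F a ∈ O) (a : A) :
    redOn O red hAO a = red ⟨algebraMap A F a, hAO a⟩ :=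
  rfl

/-- The kernel of the reduction map is the centre of the component. -/
theorem redOn_eq_zero_iff (O : ValuationSubring F) (red : O →+* κ)
    (hred : ∀ x : O, red x = 0 ↔ x ∈ maximalIdeal O) (hAO : ∀ a : A, algebraMap A F a ∈ O)
    (a : A) : redOn O red hAO a = 0 ↔ a ∈ centre O hAO := by
  rw [redOn_apply, hred, mem_centre_iff]
  exact (ValuationSubring.coe_mem_nonunits_iff (a := (⟨algebraMap A F a, hAO a⟩ : O))).symm

/-- Membership of the image of `A` in the composite valuation ring, in terms of `redOn`. -/
theorem algebraMap_mem_compositeSubring_iff (O : ValuationSubring F) (red : O →+* κ)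
    (hred : ∀ x : O, red x = 0 ↔ x ∈ maximalIdeal O) (hAO : ∀ a : A, algebraMap A F a ∈ O)
    (Vs : ValuationSubring κ) (a : A) :
    algebraMap A F a ∈ compositeSubring O red hred Vs ↔ redOn O red hAO a ∈ Vs := by
  rw [mem_compositeSubring_iff]
  constructor
  · rintro ⟨_, h⟩
    exact h
  · intro h
    exact ⟨hAO a, h⟩

/-- Membership in the point `(O, s)` in terms of `redOn`. -/
theorem mem_pointIdeal_iff_redOn (O : ValuationSubring F) (red : O →+* κ)
    (hred : ∀ x : O, red x = 0 ↔ x ∈ maximalIdeal O) (hAO : ∀ a : A, algebraMap A F a ∈ O)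
    (Vs : ValuationSubring κ)
    (hA : ∀ a : A, algebraMap A F a ∈ compositeSubring O red hred Vs) (a : A) :
    a ∈ pointIdeal O red hred Vs hA ↔ redOn O red hAO a ∈ Vs.nonunits := by
  rw [mem_pointIdeal_iff]
  constructor
  · rintro ⟨_, h⟩
    exact h
  · intro h
    exact ⟨hAO a, h⟩

/-- The centre of the component is contained in every point of the component. -/
theorem centre_le_pointIdeal (O : ValuationSubring F) (red : O →+* κ)
    (hred : ∀ x : O, red x = 0 ↔ x ∈ maximalIdeal O) (hAO : ∀ a : A, algebraMap A F a ∈ O)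
    (Vs : ValuationSubring κ)
    (hA : ∀ a : A, algebraMap A F a ∈ compositeSubring O red hred Vs) :
    centre O hAO ≤ pointIdeal O red hred Vs hA := by
  intro a ha
  rw [mem_pointIdeal_iff_redOn O red hred hAO Vs hA, (redOn_eq_zero_iff O red hred hAO a).2 ha]
  exact (ValuationSubring.mem_nonunits_iff_or Vs).2 (Or.inl rfl)

/-- **Exhaustiveness.** A maximal ideal of `A` containing the centre of the component `O` is the
point `(O, s)` for some valuation subring `Vs` of `κ` containing the reduction of `A`. -/
theorem exists_pointIdeal_eq_of_isMaximal (O : ValuationSubring F) (red : O →+* κ)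
    (hred : ∀ x : O, red x = 0 ↔ x ∈ maximalIdeal O) (hAO : ∀ a : A, algebraMap A F a ∈ O)
    (𝔪 : Ideal A) [h𝔪 : 𝔪.IsMaximal] (hle : centre O hAO ≤ 𝔪) :
    ∃ (Vs : ValuationSubring κ)
      (hA : ∀ a : A, algebraMap A F a ∈ compositeSubring O red hred Vs),
      pointIdeal O red hred Vs hA = 𝔪 := by
  classical
  set ρ : A →+* κ := redOn O red hAO with hρ
  -- the image of `A` in `κ` and the image of `𝔪` in it
  let A' : Subring κ := ρ.range
  let ρ' : A →+* A' := ρ.rangeRestrict
  have hρ'surj : Function.Surjective ρ' := ρ.rangeRestrict_surjective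
  let I : Ideal A' := 𝔪.map ρ'
  have hker : RingHom.ker ρ' ≤ 𝔪 := by
    intro a ha
    apply hle
    rw [← redOn_eq_zero_iff O red hred hAO a]
    have h0 : ρ' a = 0 := ha
    have h1 : ((ρ' a : A') : κ) = 0 := by rw [h0]; rfl
    exact h1
  have hI : I ≠ ⊤ := by
    intro htop
    have h1 : (1 : A') ∈ I := by rw [htop]; trivial
    obtain ⟨m, hm, hm1⟩ := (Ideal.mem_map_iff_of_surjective ρ' hρ'surj).1 h1
    have h2 : m - 1 ∈ RingHom.ker ρ' := by
      rw [RingHom.mem_ker, map_sub, hm1, map_one, sub_self]
    have h3 : (1 : A) ∈ 𝔪 := by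
      have := 𝔪.sub_mem hm (hker h2)
      simpa using this
    exact h𝔪.ne_top ((Ideal.eq_top_iff_one 𝔪).2 h3)
  obtain ⟨Vs, hVs, hnon⟩ := Ideal.image_subset_nonunits_valuationSubring I hI
  have hA : ∀ a : A, algebraMap A F a ∈ compositeSubring O red hred Vs := by
    intro a
    rw [algebraMap_mem_compositeSubring_iff O red hred hAO Vs a]
    exact hVs (ρ' a).2
  refine ⟨Vs, hA, ?_⟩
  symm
  apply h𝔪.eq_of_le (pointIdeal_isPrime O red hred Vs hA).ne_top
  intro a ha
  rw [mem_pointIdeal_iff_redOn O red hred hAO Vs hA]
  apply hnon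
  exact ⟨ρ' a, Ideal.mem_map_of_mem ρ' ha, rfl⟩

/-- The point `(O, s)` is a maximal ideal of `A` as soon as `A` maps onto the residue field of
`Vs`: every element of `Vs` is congruent to the reduction of an element of `A` modulo the
maximal ideal of `Vs`. -/
theorem pointIdeal_isMaximal (O : ValuationSubring F) (red : O →+* κ)
    (hred : ∀ x : O, red x = 0 ↔ x ∈ maximalIdeal O) (hAO : ∀ a : A, algebraMap A F a ∈ O)
    (Vs : ValuationSubring κ)
    (hA : ∀ a : A, algebraMap A F a ∈ compositeSubring O red hred Vs)
    (hres : ∀ v ∈ Vs, ∃ a : A, redOn O red hAO a - v ∈ Vs.nonunits) :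
    (pointIdeal O red hred Vs hA).IsMaximal := by
  have hmem : ∀ a : A, redOn O red hAO a ∈ Vs := fun a =>
    (algebraMap_mem_compositeSubring_iff O red hred hAO Vs a).1 (hA a)
  rw [Ideal.isMaximal_iff]
  refine ⟨fun h1 => (pointIdeal_isPrime O red hred Vs hA).ne_top
    ((Ideal.eq_top_iff_one _).2 h1), ?_⟩
  intro J a hle ha haJ
  -- `red a` is a unit of `Vs`
  rw [mem_pointIdeal_iff_redOn O red hred hAO Vs hA] at ha
  have hinv : (redOn O red hAO a)⁻¹ ∈ Vs := by
    rw [ValuationSubring.mem_nonunits_iff_or] at ha
    push Not at ha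
    exact ha.2
  have ha0 : redOn O red hAO a ≠ 0 := by
    intro h
    apply ha
    rw [h]
    exact (ValuationSubring.mem_nonunits_iff_or Vs).2 (Or.inl rfl)
  obtain ⟨b, hb⟩ := hres _ hinv
  -- `a * b - 1` lies in the point
  have hab : a * b - 1 ∈ pointIdeal O red hred Vs hA := by
    rw [mem_pointIdeal_iff_redOn O red hred hAO Vs hA, map_sub, map_mul, map_one]
    have h1 : redOn O red hAO a * redOn O red hAO b - 1 =
        redOn O red hAO a * (redOn O red hAO b - (redOn O red hAO a)⁻¹) := by
      rw [mul_sub, mul_inv_cancel₀ ha0]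
    rw [h1, ValuationSubring.mem_nonunits_iff, map_mul]
    have h2 : Vs.valuation (redOn O red hAO a) ≤ 1 := (Vs.valuation_le_one_iff _).2 (hmem a)
    have h3 : Vs.valuation (redOn O red hAO b - (redOn O red hAO a)⁻¹) < 1 :=
      (ValuationSubring.mem_nonunits_iff Vs).1 hb
    calc Vs.valuation (redOn O red hAO a) *
          Vs.valuation (redOn O red hAO b - (redOn O red hAO a)⁻¹)
        ≤ 1 * Vs.valuation (redOn O red hAO b - (redOn O red hAO a)⁻¹) := by gcongr
      _ = Vs.valuation (redOn O red hAO b - (redOn O red hAO a)⁻¹) := one_mul _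
      _ < 1 := h3
  have h1 : (1 : A) = a * b - (a * b - 1) := by ring
  rw [h1]
  exact J.sub_mem (J.mul_mem_right _ haJ) (hle hab)

/-- Two places of the component which are separated by the reduction of an element of `A` give
different points. -/
theorem pointIdeal_ne_of_sep (O : ValuationSubring F) (red : O →+* κ)
    (hred : ∀ x : O, red x = 0 ↔ x ∈ maximalIdeal O) (hAO : ∀ a : A, algebraMap A F a ∈ O)
    (Vs Vs' : ValuationSubring κ)
    (hA : ∀ a : A, algebraMap A F a ∈ compositeSubring O red hred Vs)
    (hA' : ∀ a : A, algebraMap A F a ∈ compositeSubring O red hred Vs')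
    (y : A) (hy : redOn O red hAO y ∈ Vs.nonunits) (hy' : redOn O red hAO y ∉ Vs'.nonunits) :
    pointIdeal O red hred Vs hA ≠ pointIdeal O red hred Vs' hA' := by
  intro h
  apply hy'
  rw [← mem_pointIdeal_iff_redOn O red hred hAO Vs' hA', ← h,
    mem_pointIdeal_iff_redOn O red hred hAO Vs hA]
  exact hy

end Exhaust

section Minimal

variable {A F : Type*} [CommRing A] [Field F] [Algebra A F]

/-- If every prime minimal over `(q)` is the centre of a member of a family of valuation subrings
containing `A` ("the only height-one primes containing `q` are the centres of the components"),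
then every prime ideal containing `q` contains the centre of one of them: every point of the
special fibre lies on a component. -/
theorem exists_centre_le_of_mem {ι : Type*} (O : ι → ValuationSubring F)
    (hAO : ∀ i, ∀ a : A, algebraMap A F a ∈ O i) (q : A)
    (hmin : ∀ 𝔮 ∈ (Ideal.span {q}).minimalPrimes, ∃ i, 𝔮 = centre (O i) (hAO i))
    (𝔪 : Ideal A) [𝔪.IsPrime] (hq : q ∈ 𝔪) : ∃ i, centre (O i) (hAO i) ≤ 𝔪 := by
  obtain ⟨𝔮, h𝔮, hle⟩ := Ideal.exists_minimalPrimes_le
    (show Ideal.span {q} ≤ 𝔪 from (Ideal.span_singleton_le_iff_mem 𝔪).2 hq)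
  obtain ⟨i, rfl⟩ := hmin 𝔮 h𝔮
  exact ⟨i, hle⟩

end Minimal

end Fermat.Agent.CAR.Local
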