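import Mathlib
import Fermat.Agent.S24.QExpJ
import Fermat.Agent.S24.JPt
import Fermat.Agent.S20.SerreFacts

/-!
# CAR (L1): the operator `θ = q · d/dq` on Laurent series and `(θ j)^6 = j^4 (j - 1728)^3 Δ`

* `thetaL R : Derivation R (LaurentSeries R) (LaurentSeries R)` — `θ = q · d/dq`,
  `coeff_thetaL : (thetaL R f).coeff n = (n : R) * f.coeff n`;
  `coeffMap_thetaL`, `thetaL_qExpand` (`θ V = p · V θ`), `thetaL_single`;
* `HasQExp.theta` : termwise differentiation of a global `q`-expansion,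
  `HasQExp 1 f L → HasQExp 1 (D f) (thetaL ℂ L)` (`D = (2πi)⁻¹ d/dτ`);
* `deltaL R` — the discriminant `Δ = q ∏ (1 - q^n)^24` as a Laurent series over `R`;
* `theta_jq_pow_six R : thetaL R (jqModC R) ^ 6 = jqModC R ^ 4 * (jqModC R - 1728) ^ 3 * deltaL R`.
-/

set_option autoImplicit false

noncomputable section

namespace Fermat.Agent.CAR.Local.ThetaJ

open ModularCurve

/-! ### The formal operator `θ` -/

section Formal

variable (R : Type*) [CommRing R]

/-- `θ = q · d/dq` on Laurent series, as a function. -/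
def thetaFun (f : LaurentSeries R) : LaurentSeries R :=
  ⟨fun n => (n : R) * f.coeff n, f.isPWO_support.mono (fun n hn => by
    rw [Function.mem_support] at hn
    rw [HahnSeries.mem_support]
    intro h
    exact hn (by rw [h, mul_zero]))⟩

@[simp]
theorem coeff_thetaFun (f : LaurentSeries R) (n : ℤ) :
    (thetaFun R f).coeff n = (n : R) * f.coeff n :=
  rfl

theorem support_thetaFun_subset (f : LaurentSeries R) :
    (thetaFun R f).support ⊆ f.support := by
  intro n hn
  rw [HahnSeries.mem_support] at hn ⊢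
  intro h
  exact hn (by rw [coeff_thetaFun, h, mul_zero])

theorem thetaFun_mul (f g : LaurentSeries R) :
    thetaFun R (f * g) = f * thetaFun R g + g * thetaFun R f := by
  ext n
  rw [coeff_thetaFun, HahnSeries.coeff_add, mul_comm g (thetaFun R f),
    HahnSeries.coeff_mul_right' g.isPWO_support (support_thetaFun_subset R g),
    HahnSeries.coeff_mul_left' f.isPWO_support (support_thetaFun_subset R f),
    HahnSeries.coeff_mul, Finset.mul_sum, ← Finset.sum_add_distrib]
  refine Finset.sum_congr rfl (fun ij hij => ?_)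
  have h := (Finset.mem_antidiagonal.mp hij).2.2
  rw [coeff_thetaFun, coeff_thetaFun, ← h]
  push_cast
  ring

theorem algebraMap_eq_single (c : R) :
    algebraMap R (LaurentSeries R) c = HahnSeries.single 0 c := by
  have h1 : algebraMap R (PowerSeries R) c = PowerSeries.C c := by
    simp
  rw [HahnSeries.algebraMap_apply', h1, HahnSeries.ofPowerSeries_C]
  rfl

theorem thetaFun_algebraMap (c : R) : thetaFun R (algebraMap R (LaurentSeries R) c) = 0 := by
  ext n
  rw [coeff_thetaFun, algebraMap_eq_single, HahnSeries.coeff_zero]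
  rcases eq_or_ne n 0 with rfl | hn
  · rw [Int.cast_zero, zero_mul]
  · rw [HahnSeries.coeff_single_of_ne hn, mul_zero]

theorem thetaFun_add (f g : LaurentSeries R) :
    thetaFun R (f + g) = thetaFun R f + thetaFun R g := by
  ext n
  rw [coeff_thetaFun, HahnSeries.coeff_add, HahnSeries.coeff_add, coeff_thetaFun,
    coeff_thetaFun, mul_add]

theorem thetaFun_smul (c : R) (f : LaurentSeries R) :
    thetaFun R (algebraMap R (LaurentSeries R) c * f)
      = HahnSeries.C c * thetaFun R f := by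
  rw [thetaFun_mul, thetaFun_algebraMap, mul_zero, add_zero, algebraMap_eq_single]
  rfl

/-- `θ = q · d/dq` as a derivation of the ring of Laurent series. -/
def thetaL : Derivation R (LaurentSeries R) (LaurentSeries R) :=
  Derivation.mk'
    (@LinearMap.mk R R _ _ (RingHom.id R) (LaurentSeries R) (LaurentSeries R) _ _
      Algebra.toModule HahnSeries.instModule ⟨thetaFun R, thetaFun_add R⟩
      (fun c f => by
        rw [Algebra.smul_def]
        exact (thetaFun_smul R c f).trans HahnSeries.C_mul_eq_smul))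
    (fun f g => by
      show thetaFun R (f * g) = f • thetaFun R g + g • thetaFun R f
      rw [smul_eq_mul, smul_eq_mul]
      exact thetaFun_mul R f g)

theorem thetaL_apply (f : LaurentSeries R) : thetaL R f = thetaFun R f :=
  rfl

@[simp]
theorem coeff_thetaL (f : LaurentSeries R) (n : ℤ) :
    (thetaL R f).coeff n = (n : R) * f.coeff n :=
  rfl

variable {R}

theorem thetaL_single (k : ℤ) (r : R) :
    thetaL R (HahnSeries.single k r) = HahnSeries.single k ((k : R) * r) := by
  ext n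
  rw [coeff_thetaL]
  rcases eq_or_ne n k with rfl | hn
  · rw [HahnSeries.coeff_single_same, HahnSeries.coeff_single_same]
  · rw [HahnSeries.coeff_single_of_ne hn, HahnSeries.coeff_single_of_ne hn, mul_zero]

theorem coeffMap_thetaL {S : Type*} [CommRing S] (φ : R →+* S) (f : LaurentSeries R) :
    coeffMap φ (thetaL R f) = thetaL S (coeffMap φ f) := by
  ext n
  rw [coeffMap_coeff, coeff_thetaL, coeff_thetaL, coeffMap_coeff, map_mul, map_intCast]

/-- `θ V = p · V θ` for `V f = f(q^p)`. -/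
theorem thetaL_qExpand (p : ℕ) [NeZero p] (f : LaurentSeries R) :
    thetaL R (qExpand R p f) = HahnSeries.C (p : R) * qExpand R p (thetaL R f) := by
  ext n
  rw [coeff_thetaL, HahnSeries.C_mul_eq_smul, HahnSeries.coeff_smul, smul_eq_mul]
  by_cases hn : (p : ℤ) ∣ n
  · obtain ⟨m, rfl⟩ := hn
    rw [qExpand_coeff_mul, qExpand_coeff_mul, coeff_thetaL]
    push_cast
    ring
  · rw [qExpand_coeff_of_not_dvd p f hn, qExpand_coeff_of_not_dvd p _ hn, mul_zero, mul_zero]

end Formal

/-! ### Termwise differentiation of global `q`-expansions -/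

section Analytic

open UpperHalfPlane Fermat.Agent.S24.QExp Filter Topology

/-- Termwise differentiation of a power series converging on the open unit disc. -/
theorem exists_hasDerivAt_tsum_pow (b : ℕ → ℂ)
    (hsum : ∀ q : ℂ, ‖q‖ < 1 → Summable (fun m : ℕ => b m * q ^ m)) {w : ℂ} (hw : ‖w‖ < 1) :
    ∃ d : ℂ, HasDerivAt (fun q : ℂ => ∑' m : ℕ, b m * q ^ m) d w ∧
      HasSum (fun m : ℕ => (m : ℂ) * b m * w ^ m) (w * d) := by
  set r : ℝ := (‖w‖ + 1) / 2 with hr
  have hwr : ‖w‖ < r := by rw [hr]; linarith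
  have hr1 : r < 1 := by rw [hr]; linarith
  have hr0 : 0 ≤ r := (norm_nonneg w).trans hwr.le
  have hrn : ‖((r : ℝ) : ℂ)‖ = r := by
    rw [Complex.norm_real, Real.norm_eq_abs, abs_of_nonneg hr0]
  have hu : Summable (fun m : ℕ => ‖b m‖ * r ^ m) := by
    have := (hsum ((r : ℝ) : ℂ) (by rw [hrn]; exact hr1)).norm
    refine this.congr (fun m => ?_)
    rw [norm_mul, norm_pow, hrn]
  have hF : ∀ m : ℕ, DifferentiableOn ℂ (fun q : ℂ => b m * q ^ m) (Metric.ball 0 r) :=
    fun m => (differentiableOn_const _).mul (differentiableOn_id.pow m)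
  have hFle : ∀ (m : ℕ) (q : ℂ), q ∈ Metric.ball (0 : ℂ) r → ‖b m * q ^ m‖ ≤ ‖b m‖ * r ^ m := by
    intro m q hq
    rw [Metric.mem_ball, dist_zero_right] at hq
    rw [norm_mul, norm_pow]
    exact mul_le_mul_of_nonneg_left (pow_le_pow_left₀ (norm_nonneg q) hq.le m) (norm_nonneg _)
  have hwU : w ∈ Metric.ball (0 : ℂ) r := by
    rw [Metric.mem_ball, dist_zero_right]; exact hwr
  have h1 := Complex.hasSum_deriv_of_summable_norm hu hF Metric.isOpen_ball hFle hwU
  have h2 := Complex.differentiableOn_tsum_of_summable_norm hu hF Metric.isOpen_ball hFle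
  refine ⟨deriv (fun q : ℂ => ∑' m : ℕ, b m * q ^ m) w,
    (h2.differentiableAt (Metric.isOpen_ball.mem_nhds hwU)).hasDerivAt, ?_⟩
  have h3 := h1.mul_left w
  refine h3.congr_fun (fun m => ?_)
  have hd : deriv (fun q : ℂ => b m * q ^ m) w = b m * ((m : ℂ) * w ^ (m - 1)) := by
    rw [deriv_const_mul_field, deriv_pow_field]
  rw [hd]
  rcases Nat.eq_zero_or_pos m with rfl | hm
  · simp
  · have : w ^ m = w * w ^ (m - 1) := by
      rw [← pow_succ', Nat.sub_add_cancel hm]
    rw [this]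
    ring

theorem hasDerivAt_qParam_one (z : ℂ) :
    HasDerivAt (Function.Periodic.qParam ((1 : ℕ) : ℝ))
      (2 * Real.pi * Complex.I * Function.Periodic.qParam ((1 : ℕ) : ℝ) z) z := by
  unfold Function.Periodic.qParam
  have h1 : HasDerivAt (fun w : ℂ ↦ 2 * Real.pi * Complex.I * w / (((1 : ℕ) : ℝ) : ℂ))
      (2 * Real.pi * Complex.I) z := by
    simpa using ((hasDerivAt_id z).const_mul (2 * Real.pi * Complex.I)).div_const
      ((((1 : ℕ) : ℝ)) : ℂ)
  exact h1.cexp.congr_deriv (mul_comm _ _)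

/-- **Termwise differentiation**: if `f` has the global `q`-expansion `L`, then
`D f = (2πi)⁻¹ f'` has the `q`-expansion `θ L`. -/
theorem hasQExp_theta {f : ℍ → ℂ} {L : LaurentSeries ℂ} (hf : HasQExp 1 f L) :
    HasQExp 1 (Derivative.normalizedDerivOfComplex f) (thetaL ℂ L) := by
  intro τ
  set k := L.order with hk
  have hlt : ∀ n < k, L.coeff n = 0 := fun n hn => HahnSeries.coeff_eq_zero_of_lt_order hn
  have hlt' : ∀ n < k, (thetaL ℂ L).coeff n = 0 := fun n hn => by
    rw [coeff_thetaL, hlt n hn, mul_zero]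
  -- the power series converges on the whole disc
  have hval : ∀ z : ℍ, HasSum (fun m : ℕ => L.coeff (k + m) *
      Function.Periodic.qParam ((1 : ℕ) : ℝ) (z : ℂ) ^ m)
      (Function.Periodic.qParam ((1 : ℕ) : ℝ) (z : ℂ) ^ (-k) * f z) := fun z =>
    (hasSum_shift L k hlt (qParam_ne_zero' 1 z) (f z)).mp (hf z)
  have hsum : ∀ q : ℂ, ‖q‖ < 1 → Summable (fun m : ℕ => L.coeff (k + m) * q ^ m) := by
    intro q hq
    rcases eq_or_ne q 0 with rfl | hq0
    · refine summable_of_ne_finset_zero (s := {0}) (fun m hm => ?_)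
      rw [Finset.mem_singleton] at hm
      rw [zero_pow hm, mul_zero]
    · obtain ⟨z, hz⟩ := exists_qParam_eq 1 hq0 hq
      have := (hval z).summable
      rwa [hz] at this
  set G : ℂ → ℂ := fun q => ∑' m : ℕ, L.coeff (k + m) * q ^ m with hG
  have hfG : ∀ z : ℍ, f z = Function.Periodic.qParam ((1 : ℕ) : ℝ) (z : ℂ) ^ k *
      G (Function.Periodic.qParam ((1 : ℕ) : ℝ) (z : ℂ)) := by
    intro z
    have h1 := (hval z).tsum_eq
    have h0 := qParam_ne_zero' 1 z
    rw [hG]
    simp only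
    rw [h1, ← mul_assoc, ← zpow_add₀ h0, add_neg_cancel, zpow_zero, one_mul]
  set q₀ : ℂ := Function.Periodic.qParam ((1 : ℕ) : ℝ) (τ : ℂ) with hq₀
  have hq₀0 : q₀ ≠ 0 := qParam_ne_zero' 1 τ
  have hq₀1 : ‖q₀‖ < 1 := norm_qParam_lt_one' 1 τ
  obtain ⟨d, hd, hds⟩ := exists_hasDerivAt_tsum_pow (fun m : ℕ => L.coeff (k + m)) hsum hq₀1
  -- the derivative of `f ∘ ofComplex` at `τ`
  have hev : (f ∘ ofComplex) =ᶠ[𝓝 (τ : ℂ)] fun z : ℂ =>
      Function.Periodic.qParam ((1 : ℕ) : ℝ) z ^ k *
        G (Function.Periodic.qParam ((1 : ℕ) : ℝ) z) := by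
    filter_upwards [isOpen_upperHalfPlaneSet.mem_nhds τ.im_pos] with z hz
    simp only [Function.comp_apply]
    rw [ofComplex_apply_of_im_pos hz, hfG]
  have hder : HasDerivAt (fun z : ℂ =>
      Function.Periodic.qParam ((1 : ℕ) : ℝ) z ^ k *
        G (Function.Periodic.qParam ((1 : ℕ) : ℝ) z))
      (2 * Real.pi * Complex.I * ((k : ℂ) * q₀ ^ k * G q₀ + q₀ ^ k * (q₀ * d))) (τ : ℂ) := by
    have hq : HasDerivAt (Function.Periodic.qParam ((1 : ℕ) : ℝ))
        (2 * Real.pi * Complex.I * q₀) (τ : ℂ) := hasDerivAt_qParam_one (τ : ℂ)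
    have h1 : HasDerivAt (fun z : ℂ => Function.Periodic.qParam ((1 : ℕ) : ℝ) z ^ k)
        ((k : ℂ) * q₀ ^ (k - 1) * (2 * Real.pi * Complex.I * q₀)) (τ : ℂ) := by
      have h := HasDerivAt.comp (τ : ℂ) (h₂ := fun x : ℂ => x ^ k)
        (hasDerivAt_zpow k q₀ (Or.inl hq₀0)) hq
      exact h
    have h2 : HasDerivAt (fun z : ℂ => G (Function.Periodic.qParam ((1 : ℕ) : ℝ) z))
        (d * (2 * Real.pi * Complex.I * q₀)) (τ : ℂ) := by
      have h := HasDerivAt.comp (τ : ℂ) (h₂ := G) hd hq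
      exact h
    have h3 := h1.mul h2
    refine h3.congr_deriv ?_
    have hk1 : q₀ ^ (k - 1) * q₀ = q₀ ^ k := by
      rw [← zpow_add_one₀ hq₀0, sub_add_cancel]
    linear_combination (2 * Real.pi * Complex.I * (k : ℂ) * G q₀) * hk1
  have hD : Derivative.normalizedDerivOfComplex f τ
      = (k : ℂ) * q₀ ^ k * G q₀ + q₀ ^ k * (q₀ * d) := by
    rw [Derivative.normalizedDerivOfComplex, hev.deriv_eq, hder.deriv]
    have hpi : (2 * Real.pi * Complex.I : ℂ) ≠ 0 := by
      simp [Real.pi_ne_zero, Complex.I_ne_zero]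
    field_simp
  have hgoal : HasSum (fun m : ℕ => (thetaL ℂ L).coeff (k + m) * q₀ ^ m)
      (q₀ ^ (-k) * Derivative.normalizedDerivOfComplex f τ) := by
    have h1 : HasSum (fun m : ℕ => L.coeff (k + m) * q₀ ^ m) (G q₀) := (hsum q₀ hq₀1).hasSum
    have h2 := (h1.mul_left (k : ℂ)).add hds
    have hval2 : q₀ ^ (-k) * Derivative.normalizedDerivOfComplex f τ = (k : ℂ) * G q₀ + q₀ * d := by
      rw [hD, zpow_neg]
      field_simp
    rw [hval2]
    refine h2.congr_fun (fun m => ?_)
    rw [coeff_thetaL]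
    push_cast
    ring
  exact (hasSum_shift (thetaL ℂ L) k hlt' hq₀0 (Derivative.normalizedDerivOfComplex f τ)).mpr hgoal

/-! ### The analytic identity `(D j)^6 = j^4 (j - 1728)^3 Δ` -/

open scoped Manifold

open ModularForm Derivative in
/-- `D j = - E₄² E₆ / Δ`. -/
theorem D_Jfun (z : ℍ) :
    D Fermat.Agent.S24.Jfun z * discriminant z = -(E₄ z ^ 2 * E₆ z) := by
  have hJ : MDifferentiable 𝓘(ℂ) 𝓘(ℂ) Fermat.Agent.S24.Jfun := Fermat.Agent.S24.JPt.mdiff_Jfun
  have hΔ : MDifferentiable 𝓘(ℂ) 𝓘(ℂ) (discriminant : ℍ → ℂ) := CuspForm.discriminant.holo'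
  have hfun : Fermat.Agent.S24.Jfun * (discriminant : ℍ → ℂ) = (E₄ : ℍ → ℂ) ^ 3 := by
    funext w
    simp only [Pi.mul_apply, Pi.pow_apply, Fermat.Agent.S24.Jfun]
    exact div_mul_cancel₀ _ (discriminant_ne_zero w)
  have h1 := congrFun (normalizedDerivOfComplex_mul _ _ hJ hΔ) z
  rw [hfun, Fermat.Agent.S20.SerreFacts.D_E₄_cube] at h1
  simp only [Pi.add_apply, Pi.mul_apply] at h1
  rw [Fermat.Agent.S20.SerreFacts.D_discriminant] at h1
  have h2 : Fermat.Agent.S24.Jfun z * discriminant z = E₄ z ^ 3 := by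
    simp only [Fermat.Agent.S24.Jfun]
    exact div_mul_cancel₀ _ (discriminant_ne_zero z)
  linear_combination (-1 : ℂ) * h1 - EisensteinSeries.E2 z * h2

open ModularForm Derivative in
theorem D_Jfun_pow_six (z : ℍ) :
    D Fermat.Agent.S24.Jfun z ^ 6 = Fermat.Agent.S24.Jfun z ^ 4 *
      (Fermat.Agent.S24.Jfun z - 1728) ^ 3 * discriminant z := by
  have hne := discriminant_ne_zero z
  have h1 : D Fermat.Agent.S24.Jfun z = -(E₄ z ^ 2 * E₆ z) / discriminant z := by
    rw [eq_div_iff hne]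
    exact D_Jfun z
  have h2 : Fermat.Agent.S24.Jfun z = E₄ z ^ 3 / discriminant z := rfl
  have h3 : E₄ z ^ 3 = 1728 * discriminant z + E₆ z ^ 2 := by
    rw [discriminant_eq_E₄_cube_sub_E₆_sq z]
    ring
  have h4 : Fermat.Agent.S24.Jfun z - 1728 = E₆ z ^ 2 / discriminant z := by
    rw [h2, eq_div_iff hne, sub_mul, div_mul_cancel₀ _ hne, h3]
    ring
  rw [h4, h1, h2]
  field_simp

end Analytic

/-! ### The discriminant series and the formal identity -/

/-- The discriminant `Δ = q ∏ (1 - q^n)^24` as a Laurent series. -/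
def deltaL (R : Type*) [CommRing R] : LaurentSeries R :=
  HahnSeries.single (1 : ℤ) 1 *
    HahnSeries.ofPowerSeries ℤ R (dedekindEtaUnit.map (Int.castRingHom R))

theorem coeffMap_deltaL {R S : Type*} [CommRing R] [CommRing S] (f : R →+* S) :
    coeffMap f (deltaL R) = deltaL S := by
  rw [deltaL, map_mul, coeffMap_single, map_one, coeffMap_ofPowerSeries,
    ← RingHom.comp_apply (PowerSeries.map f) (PowerSeries.map (Int.castRingHom R)),
    ← PowerSeries.map_comp, RingHom.ext_int (f.comp (Int.castRingHom R)) (Int.castRingHom S)]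
  rfl

theorem deltaL_eq_ofPowerSeries (R : Type*) [CommRing R] :
    deltaL R = HahnSeries.ofPowerSeries ℤ R
      ((PowerSeries.X * dedekindEtaUnit).map (Int.castRingHom R)) := by
  rw [deltaL, map_mul, PowerSeries.map_X, map_mul, HahnSeries.ofPowerSeries_X]

section Transfer

open UpperHalfPlane Fermat.Agent.S24.QExp

theorem hasQExp_deltaL : HasQExp 1 (fun z : ℍ => ModularForm.discriminant z) (deltaL ℂ) := by
  rw [deltaL_eq_ofPowerSeries]
  exact hasQExp_discriminant

theorem coeffMap_rat_jq : coeffMap (algebraMap ℚ ℂ) jq = jqModC ℂ := by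
  rw [← jqModC_rat, coeffMap_jqModC]

/-- The identity over `ℂ`, by transfer from the analytic one. -/
theorem theta_jq_pow_six_complex :
    thetaL ℂ (jqModC ℂ) ^ 6 = jqModC ℂ ^ 4 * (jqModC ℂ - 1728) ^ 3 * deltaL ℂ := by
  have hJ : HasQExp 1 Fermat.Agent.S24.Jfun (jqModC ℂ) := by
    rw [← coeffMap_rat_jq]
    exact hasQExp_Jfun
  have h1 := (hasQExp_theta hJ).pow 6
  have hc : HasQExp 1 (fun _ : ℍ => (1728 : ℂ)) (1728 : LaurentSeries ℂ) := by
    have := HasQExp.const 1 (1728 : ℂ)
    rwa [map_ofNat] at this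
  have h2 := ((hJ.pow 4).mul ((hJ.sub hc).pow 3)).mul hasQExp_deltaL
  refine h1.unique (h2.congr_fun' (fun τ => ?_))
  simp only [Pi.mul_apply, Pi.pow_apply, Pi.sub_apply]
  exact (D_Jfun_pow_six τ).symm

end Transfer

theorem coeffMap_intCast_injective :
    Function.Injective (coeffMap (Int.castRingHom ℂ)) := by
  intro x y hxy
  ext n
  have := congrArg (fun z : LaurentSeries ℂ => z.coeff n) hxy
  simp only [coeffMap_coeff] at this
  exact Int.cast_injective this

/-- The identity over `ℤ`. -/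
theorem theta_jq_pow_six_int :
    thetaL ℤ (jqModC ℤ) ^ 6 = jqModC ℤ ^ 4 * (jqModC ℤ - 1728) ^ 3 * deltaL ℤ := by
  apply coeffMap_intCast_injective
  rw [map_pow, coeffMap_thetaL, map_mul, map_mul, map_pow, map_pow, map_sub, coeffMap_jqModC,
    coeffMap_deltaL, map_ofNat]
  exact theta_jq_pow_six_complex

/-- **The formal identity** `(θ j)^6 = j^4 (j - 1728)^3 Δ` over any commutative ring. -/
theorem theta_jq_pow_six (R : Type*) [CommRing R] :
    thetaL R (jqModC R) ^ 6 = jqModC R ^ 4 * (jqModC R - 1728) ^ 3 * deltaL R := by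
  have h := congrArg (coeffMap (Int.castRingHom R)) theta_jq_pow_six_int
  rw [map_pow, coeffMap_thetaL, map_mul, map_mul, map_pow, map_pow, map_sub, coeffMap_jqModC,
    coeffMap_deltaL, map_ofNat] at h
  exact h


end Fermat.Agent.CAR.Local.ThetaJ

end
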