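import Mathlib
import Fermat.Agent.CAR.Local.ThetaJ
import Fermat.Agent.Lib.Red.GenusGASep
import Fermat.Agent.Lib.Red.SpecCharL

/-!
# CAR (L1): the chain rule `θ y = (dy/dJ) · θ J` on a function field inside `k((q))`

* `thetaL_eq_theta` : `thetaL` is the derivation `GenusGA.theta` of `Lib/Red/GenusGASep`;
* `thetaL_jq_ne_zero`, `deltaL_ne_zero`, `jqModC_sub_ne_zero` : nonvanishing over a nontrivial ring
  / a field;
* `exists_thetaL_eq_mul` : if `E ⊆ k((q))` is separable over `k(J)` then for every `y ∈ E` there is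
  `c ∈ E` with `θ y = c · θ J`;
* `exists_thetaL_eq_mul_modular` : the instance `E = modularFunctionFieldFullC k N`, `J = j`.
-/

set_option autoImplicit false
set_option linter.style.haveILetI false

noncomputable section

namespace Fermat.Agent.CAR.Local.ThetaJ

open ModularCurve IntermediateField

theorem thetaL_eq_theta (R : Type*) [CommRing R] (f : LaurentSeries R) :
    thetaL R f = Fermat.Agent.Lib.Red.GenusGA.theta R f := by
  ext n
  rw [coeff_thetaL, Fermat.Agent.Lib.Red.GenusGA.theta_coeff]

/-! ### Nonvanishing -/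

theorem coeff_deltaL_one (R : Type*) [CommRing R] : (deltaL R).coeff 1 = 1 := by
  rw [deltaL_eq_ofPowerSeries]
  have h := HahnSeries.ofPowerSeries_apply_coeff (Γ := ℤ) (R := R)
    ((PowerSeries.X * dedekindEtaUnit).map (Int.castRingHom R)) 1
  rw [Nat.cast_one] at h
  rw [h, PowerSeries.coeff_map, PowerSeries.coeff_succ_X_mul,
    PowerSeries.coeff_zero_eq_constantCoeff, constantCoeff_dedekindEtaUnit]
  simp

theorem deltaL_ne_zero (R : Type*) [CommRing R] [Nontrivial R] : deltaL R ≠ 0 := fun h => by
  have := coeff_deltaL_one R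
  rw [h, HahnSeries.coeff_zero] at this
  exact zero_ne_one this

theorem jqModC_sub_ne_zero (R : Type*) [CommRing R] [Nontrivial R] (c : R) :
    jqModC R - HahnSeries.C c ≠ 0 := fun h => by
  have h1 := congrArg (fun f : LaurentSeries R => f.coeff (-1)) h
  simp only [HahnSeries.coeff_sub, HahnSeries.coeff_zero] at h1
  rw [coeff_jqModC_neg_one, show (HahnSeries.C c : LaurentSeries R) = HahnSeries.single 0 c from rfl,
    HahnSeries.coeff_single_of_ne (by norm_num), sub_zero] at h1
  exact one_ne_zero h1

theorem thetaL_jq_ne_zero (k : Type*) [Field k] : thetaL k (jqModC k) ≠ 0 := by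
  intro h
  have h6 := theta_jq_pow_six k
  rw [h, zero_pow (by norm_num)] at h6
  have h1 : jqModC k ≠ 0 := jqModC_ne_zero_of_nontrivial k
  have h2 : jqModC k - 1728 ≠ 0 := by
    have := jqModC_sub_ne_zero k (1728 : k)
    rwa [map_ofNat] at this
  exact (mul_ne_zero (mul_ne_zero (pow_ne_zero 4 h1) (pow_ne_zero 3 h2)) (deltaL_ne_zero k)) h6.symm

/-! ### The chain rule -/

section Chain

variable {k : Type*} [Field k]

/-- **Chain rule**: on a subfield `E ⊆ k((q))` separable over `k(J)`, `θ` is `(d/dJ) · θ J`. -/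
theorem exists_thetaL_eq_mul (E : IntermediateField k (LaurentSeries k)) (J : E)
    [Algebra.IsSeparable k⟮J⟯ E] (y : E) :
    ∃ c : E, thetaL k (y : LaurentSeries k) = (c : LaurentSeries k) * thetaL k (J : LaurentSeries k) := by
  haveI := Fermat.Agent.Lib.Red.GenusGA.isScalarTower_laurent E
  have hspan := Fermat.Agent.Lib.Red.GenusGA.span_D_eq_top_of_isSeparable (K := k) (F := E) J
  have hmem : KaehlerDifferential.D k E y ∈ Submodule.span E {KaehlerDifferential.D k E J} := by
    rw [hspan]; trivial
  obtain ⟨c, hc⟩ := Submodule.mem_span_singleton.mp hmem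
  refine ⟨c, ?_⟩
  have h1 : (Fermat.Agent.Lib.Red.GenusGA.thetaRestrict E).liftKaehlerDifferential
      (KaehlerDifferential.D k E y) = Fermat.Agent.Lib.Red.GenusGA.thetaRestrict E y :=
    Derivation.liftKaehlerDifferential_comp_D _ y
  have h2 : (Fermat.Agent.Lib.Red.GenusGA.thetaRestrict E).liftKaehlerDifferential
      (KaehlerDifferential.D k E J) = Fermat.Agent.Lib.Red.GenusGA.thetaRestrict E J :=
    Derivation.liftKaehlerDifferential_comp_D _ J
  rw [← hc, map_smul, h2] at h1
  rw [thetaL_eq_theta, thetaL_eq_theta]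
  exact h1.symm

/-- The coefficient `c = dy/dJ` is unique. -/
theorem thetaL_coeff_unique (E : IntermediateField k (LaurentSeries k)) (J : E)
    (hJ : thetaL k (J : LaurentSeries k) ≠ 0) {c c' : E}
    (h : (c : LaurentSeries k) * thetaL k (J : LaurentSeries k)
      = (c' : LaurentSeries k) * thetaL k (J : LaurentSeries k)) : c = c' :=
  Subtype.ext (mul_right_cancel₀ hJ h)

/-- The modular instance: `θ y = c · θ j` with `c` in the function field, for every `y` of the
mod-`ℓ` function field of any level. -/
theorem exists_thetaL_eq_mul_modular (k : Type*) [Field k] [IsAlgClosed k] (N : ℕ) [NeZero N]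
    (y : modularFunctionFieldFullC k N) :
    ∃ c : modularFunctionFieldFullC k N,
      thetaL k (y : LaurentSeries k) = (c : LaurentSeries k) * thetaL k (jqModC k) := by
  haveI := Fermat.Agent.Lib.Red.SpecInst.isSeparable_Jbar k N
  exact exists_thetaL_eq_mul (modularFunctionFieldFullC k N) (Fermat.Agent.Lib.FF.ModL.Jbar k N) y

end Chain

end Fermat.Agent.CAR.Local.ThetaJ

end
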