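import Mathlib

/-!
# Two-dimensional regular local rings are factorial (by hand)

Let `R` be a Noetherian local ring whose maximal ideal is generated by two elements `x, y`.

* `isPrincipal_of_isPrime_of_ne_maximalIdeal` : every prime ideal different from the maximal
  ideal is principal (no hypothesis on the dimension, `R` need not be a domain);
* `isDomain_of_maximalIdeal_eq_span_pair` : if there is a chain `p₀ < p₁ < 𝔪` of primes, then `R`
  is a domain;
* `ufm_of_maximalIdeal_eq_span_pair` : if moreover `R` is a domain with `2 ≤ ht 𝔪`, then `R` is a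
  unique factorisation domain;
* the same statements for Mathlib's `IsRegularLocalRing` with `ringKrullDim R = 2`.

The proofs only use Nakayama's lemma, Krull's intersection theorem and Krull's principal ideal
theorem (through `UniqueFactorizationMonoid.of_forall_isPrincipal_of_height_eq_one`).
-/

namespace Fermat.Agent.CAR.Local

open IsLocalRing Ideal

section PrincipalMaximal

variable {S : Type*} [CommRing S] [IsLocalRing S] [IsNoetherianRing S]

/-- In a Noetherian local ring with principal maximal ideal `(t)`, every nonzero element is a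
unit times a power of `t`. -/
theorem exists_unit_mul_pow_of_maximalIdeal_eq_span_singleton {t : S}
    (ht : maximalIdeal S = Ideal.span {t}) {a : S} (ha : a ≠ 0) :
    ∃ (n : ℕ) (u : S), IsUnit u ∧ a = u * t ^ n := by
  have hK : ⨅ i : ℕ, (maximalIdeal S) ^ i = ⊥ :=
    Ideal.iInf_pow_eq_bot_of_isLocalRing _ (maximalIdeal.isMaximal S).ne_top
  have hex : ∃ n, a ∉ maximalIdeal S ^ n := by
    by_contra h
    apply ha
    have h' : a ∈ ⨅ i : ℕ, (maximalIdeal S) ^ i := by
      rw [Ideal.mem_iInf]
      intro i
      by_contra hi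
      exact h ⟨i, hi⟩
    rwa [hK] at h'
  classical
  have hn : a ∉ maximalIdeal S ^ (Nat.find hex) := Nat.find_spec hex
  have hn0 : Nat.find hex ≠ 0 := by
    intro h0
    rw [h0] at hn
    simp at hn
  obtain ⟨k, hk⟩ := Nat.exists_eq_succ_of_ne_zero hn0
  have hk' : a ∈ maximalIdeal S ^ k := by
    by_contra h
    exact Nat.find_min hex (by omega : k < Nat.find hex) h
  rw [ht, Ideal.span_singleton_pow, Ideal.mem_span_singleton] at hk'
  obtain ⟨u, hu⟩ := hk'
  refine ⟨k, u, ?_, by rw [hu, mul_comm]⟩
  by_contra hnu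
  have hum : u ∈ maximalIdeal S := (IsLocalRing.mem_maximalIdeal u).2 hnu
  apply hn
  rw [hk, pow_succ, hu]
  refine Ideal.mul_mem_mul ?_ hum
  rw [ht, Ideal.span_singleton_pow]
  exact Ideal.mem_span_singleton_self _

/-- In a Noetherian local ring with principal maximal ideal, a non-maximal prime is zero. -/
theorem eq_bot_of_isPrime_of_ne_maximalIdeal_of_span_singleton {t : S}
    (ht : maximalIdeal S = Ideal.span {t}) (q : Ideal S) [hq' : q.IsPrime]
    (hq : q ≠ maximalIdeal S) : q = ⊥ := by
  have htq : t ∉ q := by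
    intro h
    apply hq
    refine le_antisymm (IsLocalRing.le_maximalIdeal hq'.ne_top) ?_
    rw [ht, Ideal.span_singleton_le_iff_mem]
    exact h
  rw [eq_bot_iff]
  intro a haq
  by_contra ha0
  obtain ⟨n, u, hu, rfl⟩ := exists_unit_mul_pow_of_maximalIdeal_eq_span_singleton ht ha0
  rcases hq'.mem_or_mem haq with h | h
  · exact hq'.ne_top (Ideal.eq_top_of_isUnit_mem _ h hu)
  · exact htq (hq'.mem_of_pow_mem n h)

/-- In a Noetherian local ring with principal maximal ideal `(t)`, every nonzero ideal is
generated by a power of `t`. -/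
theorem exists_eq_span_pow_of_maximalIdeal_eq_span_singleton {t : S}
    (ht : maximalIdeal S = Ideal.span {t}) (J : Ideal S) (hJ : J ≠ ⊥) :
    ∃ n : ℕ, J = Ideal.span {t ^ n} := by
  obtain ⟨a, haJ, ha0⟩ := Submodule.exists_mem_ne_zero_of_ne_bot hJ
  have key : ∀ (n : ℕ) (u : S), IsUnit u → u * t ^ n ∈ J → t ^ n ∈ J := by
    intro n u hu h
    obtain ⟨v, hv⟩ := hu.exists_left_inv
    have := J.mul_mem_left v h
    rwa [← mul_assoc, hv, one_mul] at this
  have hex : ∃ n, t ^ n ∈ J := by
    obtain ⟨n, u, hu, rfl⟩ := exists_unit_mul_pow_of_maximalIdeal_eq_span_singleton ht ha0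
    exact ⟨n, key n u hu haJ⟩
  classical
  refine ⟨Nat.find hex, le_antisymm ?_ ?_⟩
  · intro b hb
    by_cases hb0 : b = 0
    · rw [hb0]; exact zero_mem _
    obtain ⟨k, v, hv, rfl⟩ := exists_unit_mul_pow_of_maximalIdeal_eq_span_singleton ht hb0
    have hle : Nat.find hex ≤ k := Nat.find_min' hex (key k v hv hb)
    rw [Ideal.mem_span_singleton]
    exact Dvd.dvd.mul_left (pow_dvd_pow t hle) v
  · rw [Ideal.span_singleton_le_iff_mem]
    exact Nat.find_spec hex

end PrincipalMaximal

section TwoGenerators

variable {R : Type*} [CommRing R] [IsLocalRing R] [IsNoetherianRing R]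

/-- **(L1)** In a Noetherian local ring whose maximal ideal is generated by two elements, every
prime ideal different from the maximal ideal is principal. -/
theorem isPrincipal_of_isPrime_of_ne_maximalIdeal {x y : R}
    (hm : maximalIdeal R = Ideal.span {x, y}) (p : Ideal R) [hp' : p.IsPrime]
    (hp : p ≠ maximalIdeal R) : p.IsPrincipal := by
  have hxm : x ∈ maximalIdeal R := by
    rw [hm]; exact Ideal.subset_span (by simp)
  have hxtop : Ideal.span {x} ≠ (⊤ : Ideal R) := by
    intro h
    rw [Ideal.span_singleton_eq_top] at h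
    exact (IsLocalRing.mem_maximalIdeal x).1 hxm h
  have hjac : Ideal.span {x} ≤ Ideal.jacobson (⊥ : Ideal R) :=
    ((Ideal.span_singleton_le_iff_mem _).2 hxm).trans (IsLocalRing.maximalIdeal_le_jacobson ⊥)
  have : Nontrivial (R ⧸ Ideal.span {x}) := Ideal.Quotient.nontrivial_iff.mpr hxtop
  have : IsLocalRing (R ⧸ Ideal.span {x}) :=
    IsLocalRing.of_surjective' (Ideal.Quotient.mk (Ideal.span {x})) Ideal.Quotient.mk_surjective
  have : IsLocalHom (Ideal.Quotient.mk (Ideal.span {x})) :=
    IsLocalHom.of_surjective (Ideal.Quotient.mk (Ideal.span {x})) Ideal.Quotient.mk_surjective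
  have hmk : Function.Surjective (Ideal.Quotient.mk (Ideal.span {x})) :=
    Ideal.Quotient.mk_surjective
  have hmapm : (maximalIdeal R).map (Ideal.Quotient.mk (Ideal.span {x})) =
      maximalIdeal (R ⧸ Ideal.span {x}) := by
    ext z
    obtain ⟨z, rfl⟩ := Ideal.Quotient.mk_surjective z
    simp [sup_eq_left.mpr (le_maximalIdeal hxtop)]
  have hmS : maximalIdeal (R ⧸ Ideal.span {x}) =
      Ideal.span {Ideal.Quotient.mk (Ideal.span {x}) y} := by
    rw [← hmapm, hm, Ideal.map_span, Set.image_pair]
    have h0 : Ideal.Quotient.mk (Ideal.span {x}) x = 0 :=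
      Ideal.Quotient.eq_zero_iff_mem.2 (Ideal.mem_span_singleton_self x)
    rw [h0]
    apply le_antisymm
    · rw [Ideal.span_le]
      rintro z (rfl | rfl)
      · exact zero_mem _
      · exact Ideal.mem_span_singleton_self _
    · exact Ideal.span_mono (by simp)
  have hmem0 : ∀ z : R, Ideal.Quotient.mk (Ideal.span {x}) z = 0 → z ∈ Ideal.span {x} :=
    fun z hz => Ideal.Quotient.eq_zero_iff_mem.1 hz
  by_cases hxp : x ∈ p
  · have hker : RingHom.ker (Ideal.Quotient.mk (Ideal.span {x})) ≤ p := by
      rw [Ideal.mk_ker]; exact (Ideal.span_singleton_le_iff_mem _).2 hxp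
    have : (p.map (Ideal.Quotient.mk (Ideal.span {x}))).IsPrime :=
      Ideal.map_isPrime_of_surjective hmk hker
    have hcomap : (p.map (Ideal.Quotient.mk (Ideal.span {x}))).comap
        (Ideal.Quotient.mk (Ideal.span {x})) = p := by
      rw [Ideal.comap_map_of_surjective' _ hmk, sup_eq_left]
      exact hker
    have hne : p.map (Ideal.Quotient.mk (Ideal.span {x})) ≠
        maximalIdeal (R ⧸ Ideal.span {x}) := by
      intro h
      apply hp
      rw [← hcomap, h, ← hmapm, Ideal.comap_map_of_surjective' _ hmk, sup_eq_left, Ideal.mk_ker]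
      exact (Ideal.span_singleton_le_iff_mem _).2 hxm
    have hbot := eq_bot_of_isPrime_of_ne_maximalIdeal_of_span_singleton hmS _ hne
    refine ⟨x, le_antisymm ?_ ((Ideal.span_singleton_le_iff_mem _).2 hxp)⟩
    intro z hz
    have h1 : Ideal.Quotient.mk (Ideal.span {x}) z ∈ p.map (Ideal.Quotient.mk (Ideal.span {x})) :=
      Ideal.mem_map_of_mem _ hz
    rw [hbot, Ideal.mem_bot] at h1
    exact hmem0 z h1
  · by_cases hJ : p.map (Ideal.Quotient.mk (Ideal.span {x})) = ⊥
    · have hle : p ≤ Ideal.span {x} := by
        intro z hz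
        have h1 : Ideal.Quotient.mk (Ideal.span {x}) z ∈
            p.map (Ideal.Quotient.mk (Ideal.span {x})) := Ideal.mem_map_of_mem _ hz
        rw [hJ, Ideal.mem_bot] at h1
        exact hmem0 z h1
      have hpx : p ≤ (⊥ : Ideal R) ⊔ Ideal.span {x} • p := by
        intro z hz
        obtain ⟨a, rfl⟩ := Ideal.mem_span_singleton'.1 (hle hz)
        have ha : a ∈ p := (hp'.mem_or_mem hz).resolve_right hxp
        rw [bot_sup_eq, mul_comm]
        exact Submodule.smul_mem_smul (Ideal.mem_span_singleton_self x) ha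
      have hp0 : p = ⊥ := eq_bot_iff.2
        (Submodule.le_of_le_smul_of_le_jacobson_bot (IsNoetherian.noetherian p) hjac hpx)
      rw [hp0]
      exact bot_isPrincipal
    · obtain ⟨n, hn⟩ := exists_eq_span_pow_of_maximalIdeal_eq_span_singleton hmS _ hJ
      have h1 : Ideal.Quotient.mk (Ideal.span {x}) (y ^ n) ∈
          p.map (Ideal.Quotient.mk (Ideal.span {x})) := by
        rw [hn, map_pow]; exact Ideal.mem_span_singleton_self _
      obtain ⟨f, hfp, hf⟩ := (Ideal.mem_map_iff_of_surjective _ hmk).1 h1
      refine ⟨f, le_antisymm ?_ ((Ideal.span_singleton_le_iff_mem _).2 hfp)⟩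
      refine Submodule.le_of_le_smul_of_le_jacobson_bot (I := Ideal.span {x})
        (IsNoetherian.noetherian p) hjac ?_
      intro h hh
      have h2 : Ideal.Quotient.mk (Ideal.span {x}) h ∈
          Ideal.span {Ideal.Quotient.mk (Ideal.span {x}) f} := by
        rw [hf, map_pow, ← hn]; exact Ideal.mem_map_of_mem _ hh
      obtain ⟨a', ha'⟩ := Ideal.mem_span_singleton'.1 h2
      obtain ⟨a, rfl⟩ := hmk a'
      have h3 : h - a * f ∈ Ideal.span {x} := by
        apply hmem0
        rw [map_sub, map_mul, ha', sub_self]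
      obtain ⟨b, hb⟩ := Ideal.mem_span_singleton'.1 h3
      have hbp : b ∈ p := by
        have : b * x ∈ p := by
          rw [hb]; exact p.sub_mem hh (p.mul_mem_left a hfp)
        exact (hp'.mem_or_mem this).resolve_right hxp
      have hdec : h = a * f + x • b := by
        rw [smul_eq_mul, mul_comm x b, hb]; ring
      rw [hdec]
      exact Submodule.add_mem_sup (Ideal.mem_span_singleton'.2 ⟨a, rfl⟩)
        (Submodule.smul_mem_smul (Ideal.mem_span_singleton_self x) hbp)

/-- **(L2)** A Noetherian local ring whose maximal ideal is generated by two elements and which has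
a chain `p₀ < p₁ < 𝔪` of prime ideals is a domain. -/
theorem isDomain_of_maximalIdeal_eq_span_pair {x y : R}
    (hm : maximalIdeal R = Ideal.span {x, y}) (p₀ p₁ : Ideal R) [h₀ : p₀.IsPrime] [p₁.IsPrime]
    (h01 : p₀ < p₁) (h1m : p₁ < maximalIdeal R) : IsDomain R := by
  obtain ⟨g, hg⟩ := isPrincipal_of_isPrime_of_ne_maximalIdeal hm p₁ h1m.ne
  have hg' : p₁ = Ideal.span {g} := hg
  have hgp0 : g ∉ p₀ := fun h =>
    h01.not_ge (by rw [hg']; exact (Ideal.span_singleton_le_iff_mem _).2 h)
  have hgm : g ∈ maximalIdeal R := h1m.le (by rw [hg']; exact Ideal.mem_span_singleton_self g)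
  have hjac : Ideal.span {g} ≤ Ideal.jacobson (⊥ : Ideal R) :=
    ((Ideal.span_singleton_le_iff_mem _).2 hgm).trans (IsLocalRing.maximalIdeal_le_jacobson ⊥)
  have hp0 : p₀ = ⊥ := by
    rw [eq_bot_iff]
    refine Submodule.le_of_le_smul_of_le_jacobson_bot (I := Ideal.span {g})
      (IsNoetherian.noetherian p₀) hjac ?_
    intro z hz
    have hz1 : z ∈ p₁ := h01.le hz
    rw [hg'] at hz1
    obtain ⟨a, rfl⟩ := Ideal.mem_span_singleton'.1 hz1
    have ha : a ∈ p₀ := (h₀.mem_or_mem hz).resolve_right hgp0
    rw [bot_sup_eq, mul_comm]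
    exact Submodule.smul_mem_smul (Ideal.mem_span_singleton_self g) ha
  have : (⊥ : Ideal R).IsPrime := hp0 ▸ h₀
  exact IsDomain.of_bot_isPrime R

omit [IsNoetherianRing R] in
/-- A chain `p₀ < p₁ < 𝔪` of primes exists as soon as `2 ≤ ht 𝔪`. -/
theorem exists_chain_of_two_le_height (hht : 2 ≤ (maximalIdeal R).height) :
    ∃ p₀ p₁ : Ideal R, p₀.IsPrime ∧ p₁.IsPrime ∧ p₀ < p₁ ∧ p₁ < maximalIdeal R := by
  rw [show (maximalIdeal R).height = Order.height
    (⟨maximalIdeal R, inferInstance⟩ : PrimeSpectrum R) from
    PrimeSpectrum.height_eq_orderHeight ⟨maximalIdeal R, inferInstance⟩] at hht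
  obtain ⟨s, hlast, hlen⟩ := Order.exists_series_of_le_height
    (⟨maximalIdeal R, inferInstance⟩ : PrimeSpectrum R) (n := 2) (by exact_mod_cast hht)
  have h01 : s ⟨0, by omega⟩ < s ⟨1, by omega⟩ := s.strictMono (by
    rw [Fin.lt_def]; simp)
  have h12 : s ⟨1, by omega⟩ < s ⟨2, by omega⟩ := s.strictMono (by
    rw [Fin.lt_def]; simp)
  have h2 : s ⟨2, by omega⟩ = ⟨maximalIdeal R, inferInstance⟩ := by
    rw [← hlast, RelSeries.last]
    congr 1
    ext
    simp [hlen]
  rw [h2] at h12
  exact ⟨(s ⟨0, by omega⟩).asIdeal, (s ⟨1, by omega⟩).asIdeal, (s ⟨0, by omega⟩).isPrime,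
    (s ⟨1, by omega⟩).isPrime, h01, h12⟩

/-- **(L2')** A Noetherian local ring whose maximal ideal is generated by two elements and has
height at least two is a domain. -/
theorem isDomain_of_maximalIdeal_eq_span_pair_of_height {x y : R}
    (hm : maximalIdeal R = Ideal.span {x, y}) (hht : 2 ≤ (maximalIdeal R).height) :
    IsDomain R := by
  obtain ⟨p₀, p₁, h₀, h₁, h01, h1m⟩ := exists_chain_of_two_le_height hht
  exact isDomain_of_maximalIdeal_eq_span_pair hm p₀ p₁ h01 h1m

/-- **(L3)** A Noetherian local domain whose maximal ideal is generated by two elements and has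
height at least two is a unique factorisation domain. -/
theorem ufm_of_maximalIdeal_eq_span_pair [IsDomain R] {x y : R}
    (hm : maximalIdeal R = Ideal.span {x, y}) (hht : 2 ≤ (maximalIdeal R).height) :
    UniqueFactorizationMonoid R :=
  UniqueFactorizationMonoid.of_forall_isPrincipal_of_height_eq_one fun p _ hp1 =>
    isPrincipal_of_isPrime_of_ne_maximalIdeal hm p (by
      rintro rfl
      rw [hp1] at hht
      exact absurd hht (by norm_num))

/-- **(L1')** In a Noetherian local domain whose maximal ideal is generated by two elements, every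
prime ideal of height one is principal (this is just (L1) when `2 ≤ ht 𝔪`). -/
theorem isPrincipal_of_height_eq_one {x y : R}
    (hm : maximalIdeal R = Ideal.span {x, y}) (hht : 2 ≤ (maximalIdeal R).height)
    (p : Ideal R) [p.IsPrime] (hp1 : p.height = 1) : p.IsPrincipal :=
  isPrincipal_of_isPrime_of_ne_maximalIdeal hm p (by
    rintro rfl
    rw [hp1] at hht
    exact absurd hht (by norm_num))

end TwoGenerators

section Regular

variable (R : Type*) [CommRing R]

/-- In a local ring of Krull dimension two the maximal ideal has height two. -/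
theorem height_maximalIdeal_eq_two_of_ringKrullDim [IsLocalRing R] (hdim : ringKrullDim R = 2) :
    (maximalIdeal R).height = 2 := by
  have h := IsLocalRing.maximalIdeal_height_eq_ringKrullDim (R := R)
  rw [hdim] at h
  exact WithBot.coe_injective h

/-- The maximal ideal of a regular local ring of dimension two is generated by two elements. -/
theorem exists_maximalIdeal_eq_span_pair_of_isRegularLocalRing [IsRegularLocalRing R]
    (hdim : ringKrullDim R = 2) : ∃ x y : R, maximalIdeal R = Ideal.span {x, y} := by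
  have hfr : (maximalIdeal R).spanFinrank = 2 := by
    have h := IsRegularLocalRing.spanFinrank_maximalIdeal (R := R)
    rw [hdim] at h
    exact_mod_cast h
  have hfg : (maximalIdeal R).FG := IsNoetherian.noetherian _
  have hn := Submodule.FG.generators_ncard hfg
  rw [hfr] at hn
  obtain ⟨x, y, -, hxy⟩ := Set.ncard_eq_two.1 hn
  refine ⟨x, y, ?_⟩
  rw [← hxy]
  exact (Submodule.span_generators _).symm

/-- A regular local ring of Krull dimension two is a domain. -/
theorem isDomain_of_isRegularLocalRing_of_dim_two [IsRegularLocalRing R]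
    (hdim : ringKrullDim R = 2) : IsDomain R := by
  obtain ⟨x, y, hm⟩ := exists_maximalIdeal_eq_span_pair_of_isRegularLocalRing R hdim
  exact isDomain_of_maximalIdeal_eq_span_pair_of_height hm
    (height_maximalIdeal_eq_two_of_ringKrullDim R hdim).ge

/-- A regular local ring of Krull dimension two is a unique factorisation domain. -/
theorem ufm_of_isRegularLocalRing_of_dim_two [IsDomain R] [IsRegularLocalRing R]
    (hdim : ringKrullDim R = 2) : UniqueFactorizationMonoid R := by
  obtain ⟨x, y, hm⟩ := exists_maximalIdeal_eq_span_pair_of_isRegularLocalRing R hdim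
  exact ufm_of_maximalIdeal_eq_span_pair hm
    (height_maximalIdeal_eq_two_of_ringKrullDim R hdim).ge

/-- In a regular local ring of Krull dimension two every non-maximal prime is principal. -/
theorem isPrincipal_of_isRegularLocalRing_of_dim_two [IsRegularLocalRing R]
    (hdim : ringKrullDim R = 2) (p : Ideal R) [p.IsPrime] (hp : p ≠ maximalIdeal R) :
    p.IsPrincipal := by
  obtain ⟨x, y, hm⟩ := exists_maximalIdeal_eq_span_pair_of_isRegularLocalRing R hdim
  exact isPrincipal_of_isPrime_of_ne_maximalIdeal hm p hp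

end Regular

end Fermat.Agent.CAR.Local
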