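import Mathlib
import Fermat.Agent.CAR.Local.RegularTwo

/-!
# Valuation rings over a two-dimensional regular local ring

`R` a domain with fraction field `F`, `V` a valuation subring of `F` containing `R`.  The
*centre* of `V` on `R` is the prime ideal `{r | r is a non-unit of V}`.

* If the centre is generated by an element `π` (and `R` has finite multiplicities, e.g. `R`
  Noetherian), then `V` is the localisation of `R` at `(π)`:
  `z ∈ V ↔ z = a / b` with `π ∤ b` (`mem_iff_of_centre`), every `z ≠ 0` is `π ^ n · unit`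
  (`exists_zpow_mul_unit_of_centre`), `V` is determined by `π` (`eq_of_centre`).
* If `R` is a Noetherian local domain whose maximal ideal is generated by two elements (a
  two-dimensional regular local ring, see `RegularTwo.lean`), every valuation subring `V ≠ ⊤`
  containing `R` whose centre is not the maximal ideal has centre `(π)` for a prime element `π`
  (`exists_prime_centre`), hence is of the above form (`exists_uniformizer_of_valuationSubring`).
  In geometric terms: every prime divisor through the point (horizontal or vertical) is cut out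
  by one equation `π`, and `π` is a unit at every other such valuation (`unit_of_not_dvd`).
* A factorial domain contains every element of its fraction field which is integral over a
  subring (`mem_range_of_isIntegral`): a regular local subring of a function field is the local
  ring of the normal model.
-/

namespace Fermat.Agent.CAR.Local

open IsLocalRing

section Decomposition

variable {R F : Type*} [CommRing R] [IsDomain R] [WfDvdMonoid R] [Field F] [Algebra R F]
  [IsFractionRing R F]

/-- Every nonzero element is `π ^ n * r'` with `π ∤ r'`. -/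
theorem exists_eq_pow_mul_not_dvd {π : R} (hπ : ¬ IsUnit π) {r : R} (hr : r ≠ 0) :
    ∃ (n : ℕ) (r' : R), r = π ^ n * r' ∧ ¬ π ∣ r' := by
  obtain ⟨c, hc, hc'⟩ := (FiniteMultiplicity.of_not_isUnit hπ hr).exists_eq_pow_mul_and_not_dvd
  exact ⟨_, c, hc, hc'⟩

/-- Every nonzero element of the fraction field is `π ^ n * (a / b)` with `π ∤ a`, `π ∤ b`. -/
theorem exists_zpow_mul_div {π : R} (hπ : ¬ IsUnit π) (hπ0 : π ≠ 0) {z : F} (hz : z ≠ 0) :
    ∃ (n : ℤ) (a b : R), ¬ π ∣ a ∧ ¬ π ∣ b ∧
      z = algebraMap R F π ^ n * (algebraMap R F a / algebraMap R F b) := by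
  have hinj : Function.Injective (algebraMap R F) := IsFractionRing.injective R F
  obtain ⟨a₀, b₀, hb₀, rfl⟩ := IsFractionRing.div_surjective (A := R) z
  have hb₀' : b₀ ≠ 0 := nonZeroDivisors.ne_zero hb₀
  have ha₀ : a₀ ≠ 0 := by
    rintro rfl
    simp at hz
  obtain ⟨m, a, rfl, ha⟩ := exists_eq_pow_mul_not_dvd hπ ha₀
  obtain ⟨k, b, rfl, hb⟩ := exists_eq_pow_mul_not_dvd hπ hb₀'
  have hπF : algebraMap R F π ≠ 0 := fun h => hπ0 (hinj (by rw [h, map_zero]))
  have hbF : algebraMap R F b ≠ 0 := by
    intro h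
    apply hb
    have : b = 0 := hinj (by rw [h, map_zero])
    rw [this]
    exact dvd_zero _
  refine ⟨(m : ℤ) - (k : ℤ), a, b, ha, hb, ?_⟩
  rw [zpow_sub₀ hπF, zpow_natCast, zpow_natCast, map_mul, map_mul, map_pow, map_pow]
  field_simp

end Decomposition

section Centre

variable {R F : Type*} [CommRing R] [IsDomain R] [Field F] [Algebra R F] [IsFractionRing R F]

omit [IsDomain R] [IsFractionRing R F] in
/-- An element of `R` outside the centre of `V` is a unit of `V`. -/
theorem inv_mem_of_not_mem_nonunits (V : ValuationSubring F) {r : R}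
    (h : algebraMap R F r ∉ V.nonunits) : (algebraMap R F r)⁻¹ ∈ V := by
  rw [ValuationSubring.mem_nonunits_iff_or] at h
  push Not at h
  exact h.2

omit [IsDomain R] [IsFractionRing R F] in
/-- If the centre of `V` is `(π')` and `π' ∤ g`, then `g` is a unit of `V`. -/
theorem unit_of_not_dvd (V : ValuationSubring F) (hV : ∀ r : R, algebraMap R F r ∈ V) {π' : R}
    (hc : ∀ r : R, algebraMap R F r ∈ V.nonunits ↔ π' ∣ r) {g : R} (hg : ¬ π' ∣ g) :
    algebraMap R F g ∈ V ∧ (algebraMap R F g)⁻¹ ∈ V :=
  ⟨hV g, inv_mem_of_not_mem_nonunits V (fun h => hg ((hc g).1 h))⟩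

variable [WfDvdMonoid R]

/-- **`V` is the localisation of `R` at its centre `(π)`.** -/
theorem mem_iff_of_centre (V : ValuationSubring F) (hV : ∀ r : R, algebraMap R F r ∈ V) {π : R}
    (hπ0 : π ≠ 0) (hc : ∀ r : R, algebraMap R F r ∈ V.nonunits ↔ π ∣ r) (z : F) :
    z ∈ V ↔ ∃ a b : R, ¬ π ∣ b ∧ z = algebraMap R F a / algebraMap R F b := by
  have hinj : Function.Injective (algebraMap R F) := IsFractionRing.injective R F
  have hπF : algebraMap R F π ≠ 0 := fun h => hπ0 (hinj (by rw [h, map_zero]))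
  have hπnu : ¬ IsUnit π := by
    intro hu
    have h1 : algebraMap R F (1 : R) ∈ V.nonunits := (hc 1).2 hu.dvd
    rw [map_one, ValuationSubring.mem_nonunits_iff_or] at h1
    rcases h1 with h1 | h1
    · exact one_ne_zero h1
    · exact h1 (by rw [inv_one]; exact V.one_mem)
  constructor
  · intro hz
    by_cases hz0 : z = 0
    · refine ⟨0, 1, fun h => hπnu (isUnit_of_dvd_one h), ?_⟩
      rw [hz0, map_zero, zero_div]
    obtain ⟨n, a, b, ha, hb, rfl⟩ := exists_zpow_mul_div (F := F) hπnu hπ0 hz0
    have hau := unit_of_not_dvd V hV hc ha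
    have hbu := unit_of_not_dvd V hV hc hb
    rcases le_or_gt 0 n with hn | hn
    · obtain ⟨k, rfl⟩ := Int.eq_ofNat_of_zero_le hn
      refine ⟨π ^ k * a, b, hb, ?_⟩
      rw [zpow_natCast, map_mul, map_pow, mul_div_assoc]
    · exfalso
      obtain ⟨k, hk⟩ : ∃ k : ℕ, n = -((k : ℤ) + 1) := ⟨(-n - 1).toNat, by omega⟩
      -- `π ^ n = z * (b / a) ∈ V`
      have haF : algebraMap R F a ≠ 0 := by
        intro h
        apply ha
        have : a = 0 := hinj (by rw [h, map_zero])
        rw [this]; exact dvd_zero _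
      have hbF : algebraMap R F b ≠ 0 := by
        intro h
        apply hb
        have : b = 0 := hinj (by rw [h, map_zero])
        rw [this]; exact dvd_zero _
      have h1 : algebraMap R F π ^ n ∈ V := by
        have h2 : algebraMap R F π ^ n = algebraMap R F π ^ n *
            (algebraMap R F a / algebraMap R F b) * (algebraMap R F b * (algebraMap R F a)⁻¹) := by
          field_simp
        rw [h2]
        exact V.mul_mem _ _ hz (V.mul_mem _ _ hbu.1 hau.2)
      have h3 : algebraMap R F (π ^ (k + 1)) ∈ V.nonunits := (hc _).2 (dvd_pow_self π (by omega))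
      rw [ValuationSubring.mem_nonunits_iff_or] at h3
      rcases h3 with h3 | h3
      · exact pow_ne_zero (k + 1) hπ0 (hinj (by rw [h3, map_zero]))
      · apply h3
        have h4 : (algebraMap R F (π ^ (k + 1)))⁻¹ = algebraMap R F π ^ n := by
          rw [hk, map_pow, zpow_neg, ← zpow_natCast]
          norm_cast
        rw [h4]
        exact h1
  · rintro ⟨a, b, hb, rfl⟩
    rw [div_eq_mul_inv]
    exact V.mul_mem _ _ (hV a) (unit_of_not_dvd V hV hc hb).2

/-- **`π` is a uniformiser of `V`**: every nonzero `z` is `π ^ n` times a unit of `V`, and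
`z ∈ V ↔ 0 ≤ n`. -/
theorem exists_zpow_mul_unit_of_centre (V : ValuationSubring F)
    (hV : ∀ r : R, algebraMap R F r ∈ V) {π : R} (hπ0 : π ≠ 0)
    (hc : ∀ r : R, algebraMap R F r ∈ V.nonunits ↔ π ∣ r) {z : F} (hz : z ≠ 0) :
    ∃ (n : ℤ) (u : F), u ∈ V ∧ u⁻¹ ∈ V ∧ z = algebraMap R F π ^ n * u ∧ (z ∈ V ↔ 0 ≤ n) := by
  have hinj : Function.Injective (algebraMap R F) := IsFractionRing.injective R F
  have hπF : algebraMap R F π ≠ 0 := fun h => hπ0 (hinj (by rw [h, map_zero]))
  have hπnu : ¬ IsUnit π := by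
    intro hu
    have h1 : algebraMap R F (1 : R) ∈ V.nonunits := (hc 1).2 hu.dvd
    rw [map_one, ValuationSubring.mem_nonunits_iff_or] at h1
    rcases h1 with h1 | h1
    · exact one_ne_zero h1
    · exact h1 (by rw [inv_one]; exact V.one_mem)
  obtain ⟨n, a, b, ha, hb, rfl⟩ := exists_zpow_mul_div (F := F) hπnu hπ0 hz
  have hau := unit_of_not_dvd V hV hc ha
  have hbu := unit_of_not_dvd V hV hc hb
  have hu1 : algebraMap R F a / algebraMap R F b ∈ V := by
    rw [div_eq_mul_inv]; exact V.mul_mem _ _ hau.1 hbu.2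
  have hu2 : (algebraMap R F a / algebraMap R F b)⁻¹ ∈ V := by
    rw [inv_div, div_eq_mul_inv]; exact V.mul_mem _ _ hbu.1 hau.2
  refine ⟨n, _, hu1, hu2, rfl, ?_⟩
  constructor
  · intro hzV
    by_contra hn
    push Not at hn
    obtain ⟨k, hk⟩ : ∃ k : ℕ, n = -((k : ℤ) + 1) := ⟨(-n - 1).toNat, by omega⟩
    have h1 : algebraMap R F π ^ n ∈ V := by
      have h2 : algebraMap R F π ^ n = algebraMap R F π ^ n *
          (algebraMap R F a / algebraMap R F b) * (algebraMap R F a / algebraMap R F b)⁻¹ := by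
        rw [mul_assoc, mul_inv_cancel₀, mul_one]
        intro h0
        rw [h0, mul_zero] at hz
        exact hz rfl
      rw [h2]
      exact V.mul_mem _ _ hzV hu2
    have h3 : algebraMap R F (π ^ (k + 1)) ∈ V.nonunits := (hc _).2 (dvd_pow_self π (by omega))
    rw [ValuationSubring.mem_nonunits_iff_or] at h3
    rcases h3 with h3 | h3
    · exact pow_ne_zero (k + 1) hπ0 (hinj (by rw [h3, map_zero]))
    · apply h3
      have h4 : (algebraMap R F (π ^ (k + 1)))⁻¹ = algebraMap R F π ^ n := by
        rw [hk, map_pow, zpow_neg, ← zpow_natCast]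
        norm_cast
      rw [h4]
      exact h1
  · intro hn
    obtain ⟨k, rfl⟩ := Int.eq_ofNat_of_zero_le hn
    rw [zpow_natCast, ← map_pow]
    exact V.mul_mem _ _ (hV _) hu1

/-- A valuation subring containing `R` is determined by a generator of its centre. -/
theorem eq_of_centre (V V' : ValuationSubring F) (hV : ∀ r : R, algebraMap R F r ∈ V)
    (hV' : ∀ r : R, algebraMap R F r ∈ V') {π : R} (hπ0 : π ≠ 0)
    (hc : ∀ r : R, algebraMap R F r ∈ V.nonunits ↔ π ∣ r)
    (hc' : ∀ r : R, algebraMap R F r ∈ V'.nonunits ↔ π ∣ r) : V = V' := by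
  ext z
  rw [mem_iff_of_centre V hV hπ0 hc, mem_iff_of_centre V' hV' hπ0 hc']

end Centre

section Regular

variable {R F : Type*} [CommRing R] [IsDomain R] [Field F] [Algebra R F] [IsFractionRing R F]
  [IsLocalRing R] [IsNoetherianRing R]

omit [IsDomain R] in
/-- **The centre is principal.**  `R` a Noetherian local domain with `𝔪 = (x, y)`, `V ≠ ⊤` a
valuation subring of the fraction field containing `R`, some element of `𝔪` being a unit of `V`
(i.e. the centre of `V` is not the closed point).  Then the centre of `V` is generated by a prime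
element. -/
theorem exists_prime_centre {x y : R} (hm : maximalIdeal R = Ideal.span {x, y})
    (V : ValuationSubring F) (hV : ∀ r : R, algebraMap R F r ∈ V) (hVtop : V ≠ ⊤)
    (hcm : ∃ r ∈ maximalIdeal R, algebraMap R F r ∉ V.nonunits) :
    ∃ π : R, Prime π ∧ ∀ r : R, algebraMap R F r ∈ V.nonunits ↔ π ∣ r := by
  have hinj : Function.Injective (algebraMap R F) := IsFractionRing.injective R F
  let φ : R →+* V := (algebraMap R F).codRestrict V hV
  let p : Ideal R := (maximalIdeal V).comap φ
  have hp : p.IsPrime := Ideal.comap_isPrime φ _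
  have hmem : ∀ r : R, r ∈ p ↔ algebraMap R F r ∈ V.nonunits := by
    intro r
    rw [show algebraMap R F r = ((φ r : V) : F) from rfl, ValuationSubring.coe_mem_nonunits_iff]
    exact Ideal.mem_comap
  have hpm : p ≠ maximalIdeal R := by
    obtain ⟨r, hr, hr'⟩ := hcm
    intro h
    exact hr' ((hmem r).1 (h ▸ hr))
  obtain ⟨π, hπ⟩ := isPrincipal_of_isPrime_of_ne_maximalIdeal hm p hpm
  have hπ' : p = Ideal.span {π} := hπ
  have hdvd : ∀ r : R, algebraMap R F r ∈ V.nonunits ↔ π ∣ r := by
    intro r
    rw [← hmem r, hπ', Ideal.mem_span_singleton]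
  have hπ0 : π ≠ 0 := by
    rintro rfl
    apply hVtop
    rw [eq_top_iff]
    intro z _
    obtain ⟨a, b, hb, rfl⟩ := IsFractionRing.div_surjective (A := R) z
    have hb0 : b ≠ 0 := nonZeroDivisors.ne_zero hb
    have hbn : algebraMap R F b ∉ V.nonunits := fun h => hb0 (zero_dvd_iff.1 ((hdvd b).1 h))
    rw [div_eq_mul_inv]
    exact V.mul_mem _ _ (hV a) (inv_mem_of_not_mem_nonunits V hbn)
  refine ⟨π, ?_, hdvd⟩
  rw [← Ideal.span_singleton_prime hπ0, ← hπ']
  exact hp

/-- **Every prime divisor through a regular point is principal** (valuation form).  In the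
situation of `exists_prime_centre` there is a prime element `π` of `R` such that `V` is the
localisation of `R` at `(π)` and `π` is a uniformiser of `V`. -/
theorem exists_uniformizer_of_valuationSubring {x y : R}
    (hm : maximalIdeal R = Ideal.span {x, y})
    (V : ValuationSubring F) (hV : ∀ r : R, algebraMap R F r ∈ V) (hVtop : V ≠ ⊤)
    (hcm : ∃ r ∈ maximalIdeal R, algebraMap R F r ∉ V.nonunits) :
    ∃ π : R, Prime π ∧ (∀ r : R, algebraMap R F r ∈ V.nonunits ↔ π ∣ r) ∧
      (∀ z : F, z ∈ V ↔ ∃ a b : R, ¬ π ∣ b ∧ z = algebraMap R F a / algebraMap R F b) ∧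
      (∀ z : F, z ≠ 0 → ∃ (n : ℤ) (u : F), u ∈ V ∧ u⁻¹ ∈ V ∧
        z = algebraMap R F π ^ n * u ∧ (z ∈ V ↔ 0 ≤ n)) := by
  obtain ⟨π, hπ, hc⟩ := exists_prime_centre hm V hV hVtop hcm
  exact ⟨π, hπ, hc, fun z => mem_iff_of_centre V hV hπ.ne_zero hc z,
    fun z hz => exists_zpow_mul_unit_of_centre V hV hπ.ne_zero hc hz⟩

omit [IsLocalRing R] in
/-- Two distinct valuation subrings with principal prime centres have non-associated
uniformisers. -/
theorem not_dvd_of_ne {V V' : ValuationSubring F} (hV : ∀ r : R, algebraMap R F r ∈ V)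
    (hV' : ∀ r : R, algebraMap R F r ∈ V') (hne : V ≠ V') {π π' : R} (hπ : Prime π)
    (hπ' : Prime π') (hc : ∀ r : R, algebraMap R F r ∈ V.nonunits ↔ π ∣ r)
    (hc' : ∀ r : R, algebraMap R F r ∈ V'.nonunits ↔ π' ∣ r) : ¬ π' ∣ π := by
  intro hdvd
  apply hne
  -- `π' ∣ π` with both prime: associated, so the centres agree
  obtain ⟨c, hcπ⟩ := hdvd
  have hπc : π ∣ π' ∨ π ∣ c := hπ.dvd_or_dvd ⟨1, by rw [mul_one, hcπ]⟩
  have hass : π ∣ π' := by
    rcases hπc with h | h
    · exact h
    · exfalso
      obtain ⟨e, rfl⟩ := h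
      have h1 : π * 1 = π * (π' * e) := by rw [mul_one]; nth_rewrite 1 [hcπ]; ring
      have h2 := mul_left_cancel₀ hπ.ne_zero h1
      exact hπ'.not_isUnit (IsUnit.of_mul_eq_one _ h2.symm)
  have hc'' : ∀ r : R, algebraMap R F r ∈ V'.nonunits ↔ π ∣ r := fun r =>
    (hc' r).trans ⟨fun h => hass.trans h, fun h => (Dvd.intro c hcπ.symm).trans h⟩
  exact eq_of_centre V V' hV hV' hπ.ne_zero hc hc''

omit [IsLocalRing R] in
/-- Each uniformiser is a unit of every other valuation ring with principal prime centre. -/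
theorem unit_of_ne {V V' : ValuationSubring F} (hV : ∀ r : R, algebraMap R F r ∈ V)
    (hV' : ∀ r : R, algebraMap R F r ∈ V') (hne : V ≠ V') {π π' : R} (hπ : Prime π)
    (hπ' : Prime π') (hc : ∀ r : R, algebraMap R F r ∈ V.nonunits ↔ π ∣ r)
    (hc' : ∀ r : R, algebraMap R F r ∈ V'.nonunits ↔ π' ∣ r) :
    algebraMap R F π ∈ V' ∧ (algebraMap R F π)⁻¹ ∈ V' :=
  unit_of_not_dvd V' hV' hc' (not_dvd_of_ne hV hV' hne hπ hπ' hc hc')

omit [IsLocalRing R] in
/-- **A divisor through the point is cut out by one element.**  Given finitely many pairwise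
distinct valuation rings `V i ⊇ R` with centres `(π i)` (`π i` prime) and multiplicities
`n i`, the element `g = ∏ π j ^ n j` of `R` is `π i ^ n i` times a unit of `V i` for every `i`,
and it is a unit of every other valuation ring `V' ⊇ R` with principal prime centre. -/
theorem prod_pow_spec {ι : Type*} (s : Finset ι) (V : ι → ValuationSubring F) (π : ι → R)
    (hV : ∀ i ∈ s, ∀ r : R, algebraMap R F r ∈ V i) (hπ : ∀ i ∈ s, Prime (π i))
    (hc : ∀ i ∈ s, ∀ r : R, algebraMap R F r ∈ (V i).nonunits ↔ π i ∣ r)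
    (hinj : ∀ i ∈ s, ∀ j ∈ s, V i = V j → i = j) (n : ι → ℕ) :
    (∀ i ∈ s, ∃ u : F, u ∈ V i ∧ u⁻¹ ∈ V i ∧
      algebraMap R F (∏ j ∈ s, π j ^ n j) = algebraMap R F (π i) ^ n i * u) ∧
    ∀ (V' : ValuationSubring F) (π' : R), (∀ r : R, algebraMap R F r ∈ V') → Prime π' →
      (∀ r : R, algebraMap R F r ∈ V'.nonunits ↔ π' ∣ r) → (∀ j ∈ s, V j ≠ V') →
      algebraMap R F (∏ j ∈ s, π j ^ n j) ∈ V' ∧ (algebraMap R F (∏ j ∈ s, π j ^ n j))⁻¹ ∈ V' := by
  classical
  constructor
  · intro i hi
    have hnd : ¬ π i ∣ ∏ j ∈ s.erase i, π j ^ n j := by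
      intro h
      obtain ⟨j, hj, hdj⟩ := (Prime.dvd_finsetProd_iff (hπ i hi) _).1 h
      have hjs : j ∈ s := Finset.mem_of_mem_erase hj
      have hji : j ≠ i := Finset.ne_of_mem_erase hj
      have hd : π i ∣ π j := (hπ i hi).dvd_of_dvd_pow hdj
      have hne : V j ≠ V i := fun h => hji (hinj j hjs i hi h)
      exact not_dvd_of_ne (hV j hjs) (hV i hi) hne (hπ j hjs) (hπ i hi) (hc j hjs) (hc i hi) hd
    obtain ⟨h1, h2⟩ := unit_of_not_dvd (V i) (hV i hi) (hc i hi) hnd
    refine ⟨_, h1, h2, ?_⟩
    rw [← Finset.mul_prod_erase s (fun j => π j ^ n j) hi, map_mul, map_pow]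
  · intro V' π' hV' hπ' hc' hne
    refine unit_of_not_dvd V' hV' hc' ?_
    intro h
    obtain ⟨j, hj, hdj⟩ := (Prime.dvd_finsetProd_iff hπ' _).1 h
    have hd : π' ∣ π j := hπ'.dvd_of_dvd_pow hdj
    exact not_dvd_of_ne (hV j hj) hV' (hne j hj) (hπ j hj) hπ' (hc j hj) hc' hd

end Regular

section Normal

variable {R F : Type*} [CommRing R] [IsDomain R] [Field F] [Algebra R F] [IsFractionRing R F]

/-- A factorial domain contains every element of its fraction field which is integral over a
subring: a regular (hence factorial) local subring of a function field contains the integral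
closure of any of its subrings, i.e. it is the local ring of the normal model. -/
theorem mem_range_of_isIntegral [UniqueFactorizationMonoid R] (A : Type*) [CommRing A]
    [Algebra A R] [Algebra A F] [IsScalarTower A R F] {z : F} (hz : IsIntegral A z) :
    z ∈ (algebraMap R F).range := by
  have h1 : IsIntegral R z := hz.tower_top
  obtain ⟨r, hr⟩ := IsIntegrallyClosed.isIntegral_iff.1 h1
  exact ⟨r, hr⟩

end Normal

end Fermat.Agent.CAR.Local
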