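/-
helper83 — CAR (L1), level `q²`: the local equation at a supersingular triple point, as pure
algebra in a commutative domain.

Let `S, T₁, T₂` be elements of a domain `R` (think `S = j(qz)`, `T₁ = j(z)`, `T₂ = j(q²z)` in the
function field of `X₀(q²M')`), `T₁ ≠ T₂`, both pairs `(S, Tᵢ)` satisfying the Kronecker form of the
modular equation of level `q`:
  `(S^q - Tᵢ) * (S - Tᵢ^q) + q * Gᵢ = 0`,      `G₂ - G₁ = (T₂ - T₁) * g`
(`Gᵢ = G(S, Tᵢ)` for a polynomial `G`).  Put `aᵢ = S^q - Tᵢ`, `bᵢ = S - Tᵢ^q` and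
`N = ∑_{i<q} a₂^i a₁^(q-1-i) = (a₁^q - a₂^q)/(a₁ - a₂)`.  Cancelling the nonzero factor
`a₂ - a₁ = T₁ - T₂` ("removing the diagonal") gives

* `a₁ * a₂ * N = (-1)^(q+1) * q * (G₂ + a₂ * g + a₁ * a₂ * h)`,
* `G₁ * b₂ = a₁ * (G₁ * ((-1)^q * N + q * h) - b₁ * g)`.

Hence, in a local ring in which `G₁, G₂` are units (thickness one at level `q`), `q = a₁ a₂ N · unit`,
`b₂ ∈ (a₁)`, `b₁ ∈ (a₂)`; if `𝔪 = (q, a₁, b₁, a₂, b₂)` then `𝔪 = (a₁, a₂)` and the ring is a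
two-dimensional regular local ring, hence factorial (`RegularTwo.lean`).
-/
import Mathlib
import Fermat.Agent.CAR.Local.RegularTwo

set_option autoImplicit false

namespace Fermat.Agent.CAR.Local

open Polynomial Finset IsLocalRing

section Algebra

variable {R : Type*} [CommRing R]

/-- `(c - a₂)^q - (c - a₁)^q` is `(a₂ - a₁)` times `(-1)^q · (a₂^q - a₁^q)/(a₂ - a₁)` plus a
multiple of `q`. -/
theorem exists_sub_pow_sub_pow (q : ℕ) (hq : q.Prime) (c a₁ a₂ : R) :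
    ∃ h : R, (c - a₂) ^ q - (c - a₁) ^ q =
      (a₂ - a₁) * ((-1) ^ q * (∑ i ∈ range q, a₂ ^ i * a₁ ^ (q - 1 - i)) + q * h) := by
  obtain ⟨r, hr⟩ := exists_add_pow_prime_eq hq (C c : R[X]) (-X)
  have hP : ∀ a : R, (c - a) ^ q = c ^ q + (-a) ^ q + q * c * (-a) * r.eval a := by
    intro a
    have := congrArg (Polynomial.eval a) hr
    simpa [sub_eq_add_neg] using this
  obtain ⟨d, hd⟩ := Polynomial.sub_dvd_eval_sub a₂ a₁ (C c * (-X) * r)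
  refine ⟨d, ?_⟩
  have hgeom : (∑ i ∈ range q, a₂ ^ i * a₁ ^ (q - 1 - i)) * (a₂ - a₁) = a₂ ^ q - a₁ ^ q :=
    (Commute.all a₂ a₁).geom_sum₂_mul q
  simp only [eval_mul, eval_C, eval_neg, eval_X] at hd
  have hneg : ∀ a : R, (-a) ^ q = (-1) ^ q * a ^ q := fun a => by rw [neg_pow]
  rw [hP a₂, hP a₁, hneg a₂, hneg a₁]
  linear_combination (-(-1) ^ q) * hgeom + (q : R) * hd

/-- **The relations at a triple point** (level `q²` from level `q`), in any domain. -/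
theorem exists_triple_relations [IsDomain R] (q : ℕ) (hq : q.Prime) (S T₁ T₂ G₁ G₂ g : R)
    (hT : T₁ ≠ T₂) (hG₁ : G₁ ≠ 0)
    (h₁ : (S ^ q - T₁) * (S - T₁ ^ q) + q * G₁ = 0)
    (h₂ : (S ^ q - T₂) * (S - T₂ ^ q) + q * G₂ = 0)
    (hg : G₂ - G₁ = (T₂ - T₁) * g) :
    ∃ h : R,
      (S ^ q - T₁) * (S ^ q - T₂) *
          (∑ i ∈ range q, (S ^ q - T₂) ^ i * (S ^ q - T₁) ^ (q - 1 - i)) =
        (-1) ^ (q + 1) * q * (G₂ + (S ^ q - T₂) * g + (S ^ q - T₁) * (S ^ q - T₂) * h) ∧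
      G₁ * (S - T₂ ^ q) =
        (S ^ q - T₁) * (G₁ * ((-1) ^ q *
          (∑ i ∈ range q, (S ^ q - T₂) ^ i * (S ^ q - T₁) ^ (q - 1 - i)) + q * h)
            - (S - T₁ ^ q) * g) := by
  obtain ⟨h, hh⟩ := exists_sub_pow_sub_pow q hq (S ^ q) (S ^ q - T₁) (S ^ q - T₂)
  have e₁ : S ^ q - (S ^ q - T₁) = T₁ := by ring
  have e₂ : S ^ q - (S ^ q - T₂) = T₂ := by ring
  rw [e₁, e₂] at hh
  generalize (∑ i ∈ range q, (S ^ q - T₂) ^ i * (S ^ q - T₁) ^ (q - 1 - i)) = N at hh ⊢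
  refine ⟨h, ?_⟩
  have h0 : (S ^ q - T₁) * (S - T₁ ^ q) * G₂ - (S ^ q - T₂) * (S - T₂ ^ q) * G₁ = 0 := by
    linear_combination G₂ * h₁ - G₁ * h₂
  have key : ((S ^ q - T₂) - (S ^ q - T₁)) *
      (G₁ * ((S ^ q - T₁) * ((-1) ^ q * N + q * h) - (S - T₂ ^ q))
        - (S ^ q - T₁) * (S - T₁ ^ q) * g) = 0 := by
    linear_combination h0 - G₁ * (S ^ q - T₁) * hh - (S ^ q - T₁) * (S - T₁ ^ q) * hg
  have hne : (S ^ q - T₂) - (S ^ q - T₁) ≠ 0 := by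
    intro h'
    apply hT
    linear_combination h'
  have star : G₁ * ((S ^ q - T₁) * ((-1) ^ q * N + q * h) - (S - T₂ ^ q))
        - (S ^ q - T₁) * (S - T₁ ^ q) * g = 0 := by
    rcases mul_eq_zero.mp key with h' | h'
    · exact absurd h' hne
    · exact h'
  have hb₂ : G₁ * (S - T₂ ^ q) =
      (S ^ q - T₁) * (G₁ * ((-1) ^ q * N + q * h) - (S - T₁ ^ q) * g) := by
    linear_combination -star
  refine ⟨?_, hb₂⟩
  have hM : (S ^ q - T₁) * (S ^ q - T₂) * ((-1) ^ q * N + q * h) =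
      -(q * (G₂ + (S ^ q - T₂) * g)) := by
    apply mul_left_cancel₀ hG₁
    linear_combination (S ^ q - T₂) * star + G₁ * h₂ + (S ^ q - T₂) * g * h₁
  have hsq : ((-1 : R) ^ q) ^ 2 = 1 := by
    rw [← pow_mul, mul_comm, pow_mul]
    simp
  rw [pow_succ]
  linear_combination ((-1 : R) ^ q) * hM - (S ^ q - T₁) * (S ^ q - T₂) * N * hsq

end Algebra

section Local

variable {R : Type*} [CommRing R] [IsDomain R] [IsLocalRing R]

/-- In a local domain, with `G₁, G₂` units and `a₂ = S^q - T₂` in the maximal ideal: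
`q = a₁ a₂ N · unit` and `b₂ ∈ (a₁)`. -/
theorem triple_local (q : ℕ) (hq : q.Prime) (S T₁ T₂ G₁ G₂ g : R)
    (hT : T₁ ≠ T₂) (hG₁ : IsUnit G₁) (hG₂ : IsUnit G₂)
    (h₁ : (S ^ q - T₁) * (S - T₁ ^ q) + q * G₁ = 0)
    (h₂ : (S ^ q - T₂) * (S - T₂ ^ q) + q * G₂ = 0)
    (hg : G₂ - G₁ = (T₂ - T₁) * g)
    (ha₂ : S ^ q - T₂ ∈ maximalIdeal R) :
    (∃ u : R, IsUnit u ∧ (q : R) = (S ^ q - T₁) * (S ^ q - T₂) *
        (∑ i ∈ range q, (S ^ q - T₂) ^ i * (S ^ q - T₁) ^ (q - 1 - i)) * u) ∧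
      S - T₂ ^ q ∈ Ideal.span {S ^ q - T₁} := by
  obtain ⟨h, hmain, hb₂⟩ := exists_triple_relations q hq S T₁ T₂ G₁ G₂ g hT hG₁.ne_zero h₁ h₂ hg
  constructor
  · have hu' : IsUnit (G₂ + (S ^ q - T₂) * g + (S ^ q - T₁) * (S ^ q - T₂) * h) := by
      by_contra hnu
      have hmem : G₂ + (S ^ q - T₂) * g + (S ^ q - T₁) * (S ^ q - T₂) * h ∈ maximalIdeal R :=
        (IsLocalRing.mem_maximalIdeal _).2 hnu
      have h2 : (S ^ q - T₂) * (g + (S ^ q - T₁) * h) ∈ maximalIdeal R :=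
        Ideal.mul_mem_right _ _ ha₂
      have h3 : G₂ ∈ maximalIdeal R := by
        have := Ideal.sub_mem _ hmem h2
        have e : G₂ + (S ^ q - T₂) * g + (S ^ q - T₁) * (S ^ q - T₂) * h
            - (S ^ q - T₂) * (g + (S ^ q - T₁) * h) = G₂ := by ring
        rwa [e] at this
      exact (IsLocalRing.mem_maximalIdeal _).1 h3 hG₂
    have hv : IsUnit ((-1 : R) ^ (q + 1) *
        (G₂ + (S ^ q - T₂) * g + (S ^ q - T₁) * (S ^ q - T₂) * h)) :=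
      (IsUnit.pow _ isUnit_one.neg).mul hu'
    obtain ⟨v, hv'⟩ := hv
    refine ⟨((v⁻¹ : Rˣ) : R), Units.isUnit _, ?_⟩
    rw [hmain, mul_assoc ((-1 : R) ^ (q + 1)) (q : R), mul_comm (q : R), ← mul_assoc, ← hv',
      mul_assoc, mul_comm (q : R), ← mul_assoc, Units.mul_inv, one_mul]
  · rw [Ideal.mem_span_singleton]
    obtain ⟨w, hw⟩ := hG₁
    refine ⟨((w⁻¹ : Rˣ) : R) * (G₁ * ((-1) ^ q *
      (∑ i ∈ range q, (S ^ q - T₂) ^ i * (S ^ q - T₁) ^ (q - 1 - i)) + q * h)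
        - (S - T₁ ^ q) * g), ?_⟩
    have : S - T₂ ^ q = ((w⁻¹ : Rˣ) : R) * (G₁ * (S - T₂ ^ q)) := by
      rw [← mul_assoc, ← hw, Units.inv_mul, one_mul]
    rw [this, hb₂]
    ring

/-- The ideal `(q, a₁, b₁, a₂, b₂)` is `(a₁, a₂)`. -/
theorem span_eq_span_pair (q : ℕ) (hq : q.Prime) (S T₁ T₂ G₁ G₂ g : R)
    (hT : T₁ ≠ T₂) (hG₁ : IsUnit G₁) (hG₂ : IsUnit G₂)
    (h₁ : (S ^ q - T₁) * (S - T₁ ^ q) + q * G₁ = 0)
    (h₂ : (S ^ q - T₂) * (S - T₂ ^ q) + q * G₂ = 0)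
    (hg : G₂ - G₁ = (T₂ - T₁) * g)
    (ha₁ : S ^ q - T₁ ∈ maximalIdeal R) (ha₂ : S ^ q - T₂ ∈ maximalIdeal R) :
    Ideal.span {(q : R), S ^ q - T₁, S - T₁ ^ q, S ^ q - T₂, S - T₂ ^ q} =
      Ideal.span {S ^ q - T₁, S ^ q - T₂} := by
  obtain ⟨⟨u, -, hu⟩, hb₂⟩ := triple_local q hq S T₁ T₂ G₁ G₂ g hT hG₁ hG₂ h₁ h₂ hg ha₂
  have hg' : G₁ - G₂ = (T₁ - T₂) * g := by linear_combination -hg
  obtain ⟨-, hb₁⟩ := triple_local q hq S T₂ T₁ G₂ G₁ g hT.symm hG₂ hG₁ h₂ h₁ hg' ha₁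
  have m₁ : S ^ q - T₁ ∈ Ideal.span {S ^ q - T₁, S ^ q - T₂} := Ideal.subset_span (by simp)
  have m₂ : S ^ q - T₂ ∈ Ideal.span {S ^ q - T₁, S ^ q - T₂} := Ideal.subset_span (by simp)
  apply le_antisymm
  · rw [Ideal.span_le]
    intro x hx
    simp only [Set.mem_insert_iff, Set.mem_singleton_iff] at hx
    rcases hx with rfl | rfl | rfl | rfl | rfl
    · rw [hu, mul_assoc, mul_assoc]
      exact Ideal.mul_mem_right _ _ m₁
    · exact m₁
    · obtain ⟨c, hc⟩ := Ideal.mem_span_singleton.mp hb₁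
      rw [hc]
      exact Ideal.mul_mem_right _ _ m₂
    · exact m₂
    · obtain ⟨c, hc⟩ := Ideal.mem_span_singleton.mp hb₂
      rw [hc]
      exact Ideal.mul_mem_right _ _ m₁
  · apply Ideal.span_mono
    intro x hx
    simp only [Set.mem_insert_iff, Set.mem_singleton_iff] at hx ⊢
    rcases hx with rfl | rfl
    · exact Or.inr (Or.inl rfl)
    · exact Or.inr (Or.inr (Or.inr (Or.inl rfl)))

end Local

section Height

variable {R : Type*} [CommRing R] [IsDomain R] [IsLocalRing R] [IsNoetherianRing R]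

/-- A local Noetherian domain with a nonzero `y ∈ 𝔪` and an `x ∈ 𝔪` no power of which lies in `(y)`
has `ht 𝔪 ≥ 2`. -/
theorem two_le_height_maximalIdeal_of_pow_notMem {x y : R} (hy : y ∈ maximalIdeal R)
    (hy0 : y ≠ 0) (hxm : x ∈ maximalIdeal R) (hx : ∀ n : ℕ, x ^ n ∉ Ideal.span {y}) :
    2 ≤ (maximalIdeal R).height := by
  have hle : Ideal.span {y} ≤ maximalIdeal R := (Ideal.span_singleton_le_iff_mem _).2 hy
  obtain ⟨p, hp, hpm⟩ := Ideal.exists_minimalPrimes_le hle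
  have hpp : p.IsPrime := hp.1.1
  have hyp : y ∈ p := hp.1.2 (Ideal.mem_span_singleton_self y)
  have hp0 : (⊥ : Ideal R) < p := by
    rw [bot_lt_iff_ne_bot]
    intro h
    rw [h] at hyp
    exact hy0 (by simpa using hyp)
  have hpne : p ≠ maximalIdeal R := by
    intro h
    -- then every prime containing `y` is the maximal ideal, so `x` is in the radical of `(y)`
    have hrad : x ∈ (Ideal.span {y}).radical := by
      rw [Ideal.radical_eq_sInf, Ideal.mem_sInf]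
      rintro P ⟨hPy, hPp⟩
      have hPm : P ≤ maximalIdeal R := IsLocalRing.le_maximalIdeal hPp.ne_top
      have : p ≤ P := hp.2 ⟨hPp, hPy⟩ (h ▸ hPm)
      exact this (h ▸ hxm)
    obtain ⟨n, hn⟩ := hrad
    exact hx n hn
  have hpm' : p < maximalIdeal R := lt_of_le_of_ne hpm hpne
  have : (⊥ : Ideal R).IsPrime := Ideal.isPrime_bot
  have h1 : (⊥ : Ideal R).height < p.height := Ideal.height_strict_mono_of_isPrime_of_isPrime hp0
  have h2 : p.height < (maximalIdeal R).height :=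
    Ideal.height_strict_mono_of_isPrime_of_isPrime hpm'
  have h3 : 1 ≤ p.height := Order.one_le_iff_pos.mpr (pos_of_gt h1)
  calc (2 : ℕ∞) = 1 + 1 := by norm_num
    _ ≤ p.height + 1 := by gcongr
    _ ≤ (maximalIdeal R).height := Order.add_one_le_of_lt h2

/-- **Regularity and factoriality at a supersingular triple point.** -/
theorem triplePoint (q : ℕ) (hq : q.Prime) (S T₁ T₂ G₁ G₂ g : R)
    (hT : T₁ ≠ T₂) (hG₁ : IsUnit G₁) (hG₂ : IsUnit G₂)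
    (h₁ : (S ^ q - T₁) * (S - T₁ ^ q) + q * G₁ = 0)
    (h₂ : (S ^ q - T₂) * (S - T₂ ^ q) + q * G₂ = 0)
    (hg : G₂ - G₁ = (T₂ - T₁) * g)
    (hq0 : (q : R) ≠ 0)
    (hm : maximalIdeal R =
      Ideal.span {(q : R), S ^ q - T₁, S - T₁ ^ q, S ^ q - T₂, S - T₂ ^ q})
    (hdim : ∀ n : ℕ, (S ^ q - T₁) ^ n ∉ Ideal.span {S ^ q - T₂}) :
    maximalIdeal R = Ideal.span {S ^ q - T₁, S ^ q - T₂} ∧
      (∃ u : R, IsUnit u ∧ (q : R) = (S ^ q - T₁) * (S ^ q - T₂) *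
        (∑ i ∈ range q, (S ^ q - T₂) ^ i * (S ^ q - T₁) ^ (q - 1 - i)) * u) ∧
      2 ≤ (maximalIdeal R).height ∧
      UniqueFactorizationMonoid R ∧
      ∀ p : Ideal R, p.IsPrime → p ≠ maximalIdeal R → p.IsPrincipal := by
  have ha₁ : S ^ q - T₁ ∈ maximalIdeal R := by
    rw [hm]; exact Ideal.subset_span (by simp)
  have ha₂ : S ^ q - T₂ ∈ maximalIdeal R := by
    rw [hm]; exact Ideal.subset_span (by simp)
  have hm' : maximalIdeal R = Ideal.span {S ^ q - T₁, S ^ q - T₂} := by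
    rw [hm]
    exact span_eq_span_pair q hq S T₁ T₂ G₁ G₂ g hT hG₁ hG₂ h₁ h₂ hg ha₁ ha₂
  obtain ⟨⟨u, hu, hqu⟩, -⟩ := triple_local q hq S T₁ T₂ G₁ G₂ g hT hG₁ hG₂ h₁ h₂ hg ha₂
  have ha₂0 : S ^ q - T₂ ≠ 0 := by
    intro h0
    apply hq0
    rw [hqu, h0]
    ring
  have hht : 2 ≤ (maximalIdeal R).height :=
    two_le_height_maximalIdeal_of_pow_notMem ha₂ ha₂0 ha₁ hdim
  refine ⟨hm', ⟨u, hu, hqu⟩, hht, ufm_of_maximalIdeal_eq_span_pair hm' hht, ?_⟩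
  intro p hp hpm
  have := hp
  exact isPrincipal_of_isPrime_of_ne_maximalIdeal hm' p hpm

end Height

end Fermat.Agent.CAR.Local
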