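import Mathlib
import Fermat.Agent.CAR.Local.Unmixed
import Fermat.Agent.CAR.Local.RegularTwo
import Fermat.Agent.CAR.Local.TriplePoint
import Fermat.Agent.CAR.Local.Exhaust

/-!
# CAR (L): THEOREM (L) — regularity of the normal model at a point, certificate form

Abstract setting (no modular objects): `A` a Noetherian integrally closed domain with fraction
field `F` (the normal model), `𝔫` a prime of `A` (a point), `R := pointRing F 𝔫 = A_𝔫 ⊆ F` its
local ring, `O ⊇ A` a valuation subring of `F` (a component of the special fibre through the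
point) with centre `centre O hO ⊆ 𝔫`.

* §0 `pointRing` of a normal domain: `A_𝔫` is integrally closed; the centre of a valuation ring
  on `A_𝔫` is the extension of its centre on `A` (`mem_nonunits_iff_mem_map_centre`); primes of
  `A_𝔫` minimal over `(b)` (`comap_mem_minimalPrimes`).
* §1 **local Hartogs** (`algebraMap_mem_span_singleton_of_forall_centre`,
  `exists_mul_mem_span_singleton_of_forall_centre`, `mem_pointRing_of_forall_centre`): `a / b`
  lies in `A_𝔫` as soon as it lies in a valuation ring centred at `𝔮` for every prime `𝔮 ⊆ 𝔫`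
  minimal over `(b)`.
* §2 **certificate criterion** (`mem_nonunits_iff_mem_span_of_certificate`): `d ∈ A` a
  uniformiser of `O`, `h u = s d ^ n` with `h, s ∉ 𝔫` and every prime `𝔮 ⊆ 𝔫` minimal over `(u)`
  equal to the centre of `O`; then `d` generates the centre of `O` on `A_𝔫`.  Consequences of
  the conclusion: `prime_algebraMap`, `exists_eq_pow_mul_of_div_mem`, ...
* §3 **THEOREM (L)** (`regular_of_certificate`, `regular_of_generates`): at a point
  `(O, s) = pointIdeal O red hred Vs hA`, if moreover `Vs` is the localisation of the reduction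
  of `A` (LIFT) and `redOn t` is a uniformiser of `Vs`, then the maximal ideal of the local ring
  is `(d, t)`, its height is `≥ 2`, the local ring is factorial and all its non-maximal primes
  are principal.
* §4 the hypothesis on the minimal primes of `(u)` from the family of vertical valuations
  (`minimalPrimes_le_eq_centre`).
* §5 the different bound (`exists_mul_eq_mul_of_div_mem`) and "equality iff regular"
  (`notMem_iff_generates`).
-/

set_option autoImplicit false

namespace Fermat.Agent.CAR.Local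

namespace LThm

open IsLocalRing

/-- A non-unit times an element of a valuation subring is a non-unit. -/
theorem mul_mem_nonunits_of_mem {F : Type*} [Field F] (V : ValuationSubring F) {x y : F}
    (hx : x ∈ V.nonunits) (hy : y ∈ V) : x * y ∈ V.nonunits := by
  have h1 : V.valuation x < 1 := V.mem_nonunits_iff.mp hx
  have h2 : V.valuation y ≤ 1 := (V.valuation_le_one_iff _).mpr hy
  rw [V.mem_nonunits_iff, map_mul]
  calc V.valuation x * V.valuation y ≤ V.valuation x * 1 := by gcongr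
    _ = V.valuation x := mul_one _
    _ < 1 := h1

/-- Non-units of a valuation subring belong to it. -/
theorem mem_of_mem_nonunits {F : Type*} [Field F] (V : ValuationSubring F) {x : F}
    (hx : x ∈ V.nonunits) : x ∈ V :=
  (V.valuation_le_one_iff _).mp (le_of_lt (V.mem_nonunits_iff.mp hx))

/-! ### 0. The local ring `A_𝔫 ⊆ F` of a normal domain -/

section PointRing

variable {A F : Type*} [CommRing A] [IsDomain A] [Field F] [Algebra A F] [IsFractionRing A F]
  (𝔫 : Ideal A) [𝔫.IsPrime]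

/-- `A_𝔫` is integrally closed if `A` is. -/
instance pointRing_isIntegrallyClosed [IsIntegrallyClosed A] :
    IsIntegrallyClosed (pointRing F 𝔫) :=
  isIntegrallyClosed_of_isLocalization (pointRing F 𝔫) 𝔫.primeCompl
    𝔫.primeCompl_le_nonZeroDivisors

theorem coe_algebraMap (a : A) :
    ((algebraMap A (pointRing F 𝔫) a : pointRing F 𝔫) : F) = algebraMap A F a :=
  rfl

theorem algebraMap_pointRing_apply (r : pointRing F 𝔫) :
    algebraMap (pointRing F 𝔫) F r = (r : F) :=
  rfl

theorem algebraMap_injective : Function.Injective (algebraMap A (pointRing F 𝔫)) :=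
  IsLocalization.injective _ 𝔫.primeCompl_le_nonZeroDivisors

/-- Elements of `A` outside `𝔫` are units of `A_𝔫`. -/
theorem isUnit_algebraMap {s : A} (hs : s ∉ 𝔫) : IsUnit (algebraMap A (pointRing F 𝔫) s) :=
  (IsLocalization.AtPrime.isUnit_to_map_iff (pointRing F 𝔫) 𝔫 s).2 hs

/-- Every element of `A_𝔫` is a fraction `a / s` with `s ∉ 𝔫`. -/
theorem exists_mul_eq (r : pointRing F 𝔫) :
    ∃ a s : A, s ∉ 𝔫 ∧ r * algebraMap A (pointRing F 𝔫) s = algebraMap A (pointRing F 𝔫) a := by
  obtain ⟨⟨a, s⟩, h⟩ := IsLocalization.surj 𝔫.primeCompl r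
  exact ⟨a, s, s.2, h⟩

/-- Membership of an element of `A` in an extended ideal of `A_𝔫`. -/
theorem algebraMap_mem_map_iff (I : Ideal A) (a : A) :
    algebraMap A (pointRing F 𝔫) a ∈ I.map (algebraMap A (pointRing F 𝔫)) ↔
      ∃ s, s ∉ 𝔫 ∧ s * a ∈ I := by
  rw [IsLocalization.algebraMap_mem_map_algebraMap_iff 𝔫.primeCompl]
  rfl

/-- Membership of an element of `A` in a principal ideal of `A_𝔫` generated by an element of
`A`. -/
theorem algebraMap_mem_span_singleton_iff (a b : A) :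
    algebraMap A (pointRing F 𝔫) a ∈ Ideal.span {algebraMap A (pointRing F 𝔫) b} ↔
      ∃ s, s ∉ 𝔫 ∧ s * a ∈ Ideal.span {b} := by
  rw [← algebraMap_mem_map_iff (F := F) 𝔫 (Ideal.span {b}) a, Ideal.map_span, Set.image_singleton]

/-- The same for an ideal generated by two elements of `A`. -/
theorem algebraMap_mem_span_pair_iff (a b c : A) :
    algebraMap A (pointRing F 𝔫) a ∈
        Ideal.span {algebraMap A (pointRing F 𝔫) b, algebraMap A (pointRing F 𝔫) c} ↔
      ∃ s, s ∉ 𝔫 ∧ s * a ∈ Ideal.span {b, c} := by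
  rw [← algebraMap_mem_map_iff (F := F) 𝔫 (Ideal.span {b, c}) a, Ideal.map_span, Set.image_pair]

/-- **The centre of a valuation ring on `A_𝔫`** is the extension of its centre on `A`. -/
theorem mem_nonunits_iff_mem_map_centre (V : ValuationSubring F)
    (hV : ∀ a : A, algebraMap A F a ∈ V) (h : centre V hV ≤ 𝔫) (r : pointRing F 𝔫) :
    (r : F) ∈ V.nonunits ↔ r ∈ (centre V hV).map (algebraMap A (pointRing F 𝔫)) := by
  have hRV : ∀ r : pointRing F 𝔫, algebraMap (pointRing F 𝔫) F r ∈ V :=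
    pointRing_le_of_centre_le 𝔫 V hV h
  constructor
  · intro hr
    obtain ⟨a, s, hs, has⟩ := exists_mul_eq 𝔫 r
    have haF : algebraMap A F a = (r : F) * algebraMap A F s := (congrArg Subtype.val has).symm
    have ha : a ∈ centre V hV := by
      rw [mem_centre_iff, haF]
      exact mul_mem_nonunits_of_mem V hr (hV s)
    obtain ⟨w, hw⟩ := (isUnit_algebraMap (F := F) 𝔫 hs).exists_right_inv
    have hrw : r = algebraMap A (pointRing F 𝔫) a * w := by rw [← has, mul_assoc, hw, mul_one]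
    rw [hrw]
    exact Ideal.mul_mem_right _ _ (Ideal.mem_map_of_mem _ ha)
  · intro hr
    have hle : (centre V hV).map (algebraMap A (pointRing F 𝔫)) ≤ centre V hRV := by
      rw [Ideal.map_le_iff_le_comap]
      intro a ha
      rw [Ideal.mem_comap, mem_centre_iff]
      exact (mem_centre_iff V hV a).1 ha
    exact (mem_centre_iff V hRV r).1 (hle hr)

/-- The contraction to `A` of a prime of `A_𝔫` minimal over `(b)`, `b ∈ A`, is a prime of `A`
minimal over `(b)` and contained in `𝔫`; the prime is the extension of its contraction. -/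
theorem comap_mem_minimalPrimes {b : A} {𝔮 : Ideal (pointRing F 𝔫)}
    (h𝔮 : 𝔮 ∈ (Ideal.span {algebraMap A (pointRing F 𝔫) b}).minimalPrimes) :
    𝔮.comap (algebraMap A (pointRing F 𝔫)) ∈ (Ideal.span {b}).minimalPrimes ∧
      𝔮.comap (algebraMap A (pointRing F 𝔫)) ≤ 𝔫 ∧
      (𝔮.comap (algebraMap A (pointRing F 𝔫))).map (algebraMap A (pointRing F 𝔫)) = 𝔮 := by
  have hp : 𝔮.IsPrime := h𝔮.1.1
  have h1 : Ideal.span {algebraMap A (pointRing F 𝔫) b} =
      (Ideal.span {b}).map (algebraMap A (pointRing F 𝔫)) := by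
    rw [Ideal.map_span, Set.image_singleton]
  rw [h1, IsLocalization.minimalPrimes_map 𝔫.primeCompl] at h𝔮
  refine ⟨h𝔮, ?_, IsLocalization.map_under 𝔫.primeCompl _ 𝔮⟩
  have hd := ((IsLocalization.isPrime_iff_isPrime_disjoint 𝔫.primeCompl (pointRing F 𝔫) 𝔮).1 hp).2
  intro x hx
  by_contra hxn
  exact Set.disjoint_left.1 hd hxn hx

end PointRing

/-! ### 1. Local Hartogs -/

section Hartogs

variable {A F : Type*} [CommRing A] [IsDomain A] [IsNoetherianRing A] [IsIntegrallyClosed A]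
  [Field F] [Algebra A F] [IsFractionRing A F] (𝔫 : Ideal A) [𝔫.IsPrime]

/-- **Local Hartogs**, in `A_𝔫`.  `a, b ∈ A`, `b ≠ 0`; if every prime `𝔮 ⊆ 𝔫` minimal over `(b)`
is the centre of a valuation subring `V ⊇ A` containing `a / b`, then `a ∈ b A_𝔫`. -/
theorem algebraMap_mem_span_singleton_of_forall_centre {a b : A} (hb : b ≠ 0)
    (h : ∀ 𝔮 ∈ (Ideal.span {b}).minimalPrimes, 𝔮 ≤ 𝔫 →
      ∃ (V : ValuationSubring F) (hV : ∀ r : A, algebraMap A F r ∈ V),
        centre V hV = 𝔮 ∧ algebraMap A F a / algebraMap A F b ∈ V) :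
    algebraMap A (pointRing F 𝔫) a ∈ Ideal.span {algebraMap A (pointRing F 𝔫) b} := by
  have hb' : algebraMap A (pointRing F 𝔫) b ≠ 0 := fun h0 =>
    hb (algebraMap_injective (F := F) 𝔫 (by rw [h0, map_zero]))
  refine mem_span_singleton_of_forall_valuationSubring (F := F) hb' (fun 𝔔 h𝔔 => ?_)
  obtain ⟨hmin, hle, hmap⟩ := comap_mem_minimalPrimes 𝔫 h𝔔
  obtain ⟨V, hV, hc, hz⟩ := h _ hmin hle
  have hc' : centre V hV ≤ 𝔫 := hc ▸ hle
  refine ⟨V, pointRing_le_of_centre_le 𝔫 V hV hc', ?_, ?_, hz⟩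
  · intro r hr
    show (r : F) ∈ V.nonunits
    rw [mem_nonunits_iff_mem_map_centre 𝔫 V hV hc', hc, hmap]
    exact hr
  · intro r hr
    have hr' : (r : F) ∈ V.nonunits := hr
    rw [mem_nonunits_iff_mem_map_centre 𝔫 V hV hc', hc, hmap] at hr'
    exact hr'

/-- **Local Hartogs**, in `A`: under the same hypothesis, `s a ∈ (b)` for some `s ∉ 𝔫`. -/
theorem exists_mul_mem_span_singleton_of_forall_centre {a b : A} (hb : b ≠ 0)
    (h : ∀ 𝔮 ∈ (Ideal.span {b}).minimalPrimes, 𝔮 ≤ 𝔫 →
      ∃ (V : ValuationSubring F) (hV : ∀ r : A, algebraMap A F r ∈ V),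
        centre V hV = 𝔮 ∧ algebraMap A F a / algebraMap A F b ∈ V) :
    ∃ s, s ∉ 𝔫 ∧ s * a ∈ Ideal.span {b} :=
  (algebraMap_mem_span_singleton_iff (F := F) 𝔫 a b).1
    (algebraMap_mem_span_singleton_of_forall_centre 𝔫 hb h)

/-- **Local Hartogs**, fraction-field form: `z ∈ F` belongs to `A_𝔫` as soon as, for every prime
`𝔮 ⊆ 𝔫` minimal over a nonzero principal ideal, `z` lies in a valuation subring `V ⊇ A` with
centre `𝔮`. -/
theorem mem_pointRing_of_forall_centre (z : F)
    (h : ∀ b : A, b ≠ 0 → ∀ 𝔮 ∈ (Ideal.span {b}).minimalPrimes, 𝔮 ≤ 𝔫 →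
      ∃ (V : ValuationSubring F) (hV : ∀ r : A, algebraMap A F r ∈ V),
        centre V hV = 𝔮 ∧ z ∈ V) :
    z ∈ pointRing F 𝔫 := by
  have hinj : Function.Injective (algebraMap A F) := IsFractionRing.injective A F
  obtain ⟨a, b, hb, rfl⟩ := IsFractionRing.div_surjective (A := A) z
  have hb0 : b ≠ 0 := nonZeroDivisors.ne_zero hb
  have hbF : algebraMap A F b ≠ 0 := fun h0 => hb0 (hinj (by rw [h0, map_zero]))
  obtain ⟨c, hc⟩ := Ideal.mem_span_singleton.mp
    (algebraMap_mem_span_singleton_of_forall_centre (F := F) 𝔫 hb0 (h b hb0))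
  have h1 : algebraMap A F a = algebraMap A F b * (c : F) := congrArg Subtype.val hc
  have h2 : algebraMap A F a / algebraMap A F b = (c : F) := by
    rw [h1, mul_div_cancel_left₀ _ hbF]
  rw [h2]
  exact c.2

end Hartogs

/-! ### 2. The certificate criterion -/

section Certificate

variable {A F : Type*} [CommRing A] [IsDomain A] [IsNoetherianRing A] [IsIntegrallyClosed A]
  [Field F] [Algebra A F] [IsFractionRing A F] (𝔫 : Ideal A) [𝔫.IsPrime]
  (O : ValuationSubring F) (hO : ∀ a : A, algebraMap A F a ∈ O)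

/-- **Certificate criterion** (#2076 §1, (b)).  `O ⊇ A` a valuation ring with centre `𝔭 ⊆ 𝔫`,
`d ∈ A` a uniformiser of `O`; `h u = s d ^ n` with `h ∉ 𝔫`, `n ≠ 0` (`s ∈ A` arbitrary, e.g.
`s = 1`), and every prime `𝔮 ⊆ 𝔫` minimal over `(u)` equal to `𝔭`.  Then `d` generates the centre
of `O` on `A_𝔫`: an element of `A_𝔫` is a non-unit of `O` iff it is a multiple of `d`. -/
theorem mem_nonunits_iff_mem_span_of_certificate (h𝔫 : centre O hO ≤ 𝔫)
    {d u h s : A} {n : ℕ} (hn : n ≠ 0) (hd : algebraMap A F d ∈ O.nonunits)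
    (hunif : ∀ z ∈ O.nonunits, z / algebraMap A F d ∈ O)
    (hcert : h * u = s * d ^ n) (hh : h ∉ 𝔫)
    (hu : ∀ 𝔮 ∈ (Ideal.span {u}).minimalPrimes, 𝔮 ≤ 𝔫 → 𝔮 = centre O hO)
    (r : pointRing F 𝔫) :
    (r : F) ∈ O.nonunits ↔ r ∈ Ideal.span {algebraMap A (pointRing F 𝔫) d} := by
  have hRO : ∀ r : pointRing F 𝔫, (r : F) ∈ O := pointRing_le_of_centre_le 𝔫 O hO h𝔫
  have hdc : d ∈ centre O hO := (mem_centre_iff O hO d).2 hd
  -- every prime `𝔮 ⊆ 𝔫` minimal over `(d)` is the centre
  have key : ∀ 𝔮 ∈ (Ideal.span {d}).minimalPrimes, 𝔮 ≤ 𝔫 → 𝔮 = centre O hO := by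
    rintro 𝔮 ⟨⟨h𝔮p, h𝔮d⟩, h𝔮min⟩ h𝔮𝔫
    have hd𝔮 : d ∈ 𝔮 := h𝔮d (Ideal.mem_span_singleton_self d)
    have hu𝔮 : u ∈ 𝔮 := by
      have h1 : h * u ∈ 𝔮 := by
        rw [hcert]
        exact Ideal.mul_mem_left _ _ (Ideal.pow_mem_of_mem _ hd𝔮 n (Nat.pos_of_ne_zero hn))
      exact (h𝔮p.mem_or_mem h1).resolve_left (fun hh' => hh (h𝔮𝔫 hh'))
    obtain ⟨𝔮', h𝔮', h𝔮'le⟩ :=
      Ideal.exists_minimalPrimes_le ((Ideal.span_singleton_le_iff_mem 𝔮).2 hu𝔮)
    have h2 : 𝔮' = centre O hO := hu 𝔮' h𝔮' (h𝔮'le.trans h𝔮𝔫)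
    have h3 : centre O hO ≤ 𝔮 := h2 ▸ h𝔮'le
    exact le_antisymm
      (h𝔮min ⟨inferInstance, (Ideal.span_singleton_le_iff_mem _).2 hdc⟩ h3) h3
  constructor
  · intro hr
    obtain ⟨a, s₁, hs₁, has⟩ := exists_mul_eq 𝔫 r
    have haF : algebraMap A F a = (r : F) * algebraMap A F s₁ := (congrArg Subtype.val has).symm
    have haO : algebraMap A F a ∈ O.nonunits := by
      rw [haF]
      exact mul_mem_nonunits_of_mem O hr (hO s₁)
    have hmem : algebraMap A (pointRing F 𝔫) a ∈ Ideal.span {algebraMap A (pointRing F 𝔫) d} := by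
      by_cases hd0 : d = 0
      · -- degenerate case: then `u = 0` and the centre is `⊥`
        have hu0 : u = 0 := by
          have h1 : h * u = 0 := by rw [hcert, hd0, zero_pow hn, mul_zero]
          rcases mul_eq_zero.1 h1 with h2 | h2
          · exact absurd (h2 ▸ 𝔫.zero_mem) hh
          · exact h2
        have hbot : (⊥ : Ideal A) ∈ (Ideal.span {u}).minimalPrimes :=
          ⟨⟨Ideal.isPrime_bot, by rw [hu0]; simp⟩, fun _ _ _ => bot_le⟩
        have hc : centre O hO = ⊥ := (hu ⊥ hbot bot_le).symm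
        have ha0 : a = 0 := by
          have : a ∈ centre O hO := (mem_centre_iff O hO a).2 haO
          rw [hc] at this
          simpa using this
        rw [ha0, map_zero]
        exact Ideal.zero_mem _
      · exact algebraMap_mem_span_singleton_of_forall_centre 𝔫 hd0
          (fun 𝔮 h𝔮 hle => ⟨O, hO, (key 𝔮 h𝔮 hle).symm, hunif _ haO⟩)
    obtain ⟨w, hw⟩ := (isUnit_algebraMap (F := F) 𝔫 hs₁).exists_right_inv
    have hrw : r = algebraMap A (pointRing F 𝔫) a * w := by rw [← has, mul_assoc, hw, mul_one]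
    rw [hrw]
    exact Ideal.mul_mem_right _ _ hmem
  · intro hr
    obtain ⟨c, rfl⟩ := Ideal.mem_span_singleton.1 hr
    show algebraMap A F d * (c : F) ∈ O.nonunits
    exact mul_mem_nonunits_of_mem O hd (hRO c)

/-- **Unramified form** (#2076 §1, (iv)): the certificate with `d = u = q`, `h = s = 1`. -/
theorem mem_nonunits_iff_mem_span_of_minimalPrimes (h𝔫 : centre O hO ≤ 𝔫)
    {q : A} (hq : algebraMap A F q ∈ O.nonunits)
    (hunif : ∀ z ∈ O.nonunits, z / algebraMap A F q ∈ O)
    (hmin : ∀ 𝔮 ∈ (Ideal.span {q}).minimalPrimes, 𝔮 ≤ 𝔫 → 𝔮 = centre O hO)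
    (r : pointRing F 𝔫) :
    (r : F) ∈ O.nonunits ↔ r ∈ Ideal.span {algebraMap A (pointRing F 𝔫) q} :=
  have h1 : (1 : A) ∉ 𝔫 := (Ideal.ne_top_iff_one 𝔫).1 Ideal.IsPrime.ne_top'
  mem_nonunits_iff_mem_span_of_certificate 𝔫 O hO h𝔫 (d := q) (u := q) (h := 1) (s := 1)
    (n := 1) one_ne_zero hq hunif (by rw [pow_one]) h1 hmin r

end Certificate

/-! ### 2'. Consequences of "`d` generates the centre of `O` on `A_𝔫`" -/

section Generates

variable {A F : Type*} [CommRing A] [IsDomain A] [Field F] [Algebra A F] [IsFractionRing A F]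
  (𝔫 : Ideal A) [𝔫.IsPrime] (O : ValuationSubring F) (hO : ∀ a : A, algebraMap A F a ∈ O)
  {d : A}

/-- The extension of the centre is `(d)`. -/
theorem map_centre_eq_span (h𝔫 : centre O hO ≤ 𝔫)
    (hdO : ∀ r : pointRing F 𝔫, (r : F) ∈ O.nonunits ↔
      r ∈ Ideal.span {algebraMap A (pointRing F 𝔫) d}) :
    (centre O hO).map (algebraMap A (pointRing F 𝔫)) =
      Ideal.span {algebraMap A (pointRing F 𝔫) d} := by
  ext r
  rw [← mem_nonunits_iff_mem_map_centre 𝔫 O hO h𝔫 r, hdO r]

/-- In `A`: every element of the centre is, up to a factor outside `𝔫`, a multiple of `d`. -/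
theorem exists_mul_mem_span_of_mem_centre
    (hdO : ∀ r : pointRing F 𝔫, (r : F) ∈ O.nonunits ↔
      r ∈ Ideal.span {algebraMap A (pointRing F 𝔫) d}) {a : A} (ha : a ∈ centre O hO) :
    ∃ s, s ∉ 𝔫 ∧ s * a ∈ Ideal.span {d} :=
  (algebraMap_mem_span_singleton_iff (F := F) 𝔫 a d).1
    ((hdO (algebraMap A (pointRing F 𝔫) a)).1 ((mem_centre_iff O hO a).1 ha))

/-- `d` is a prime element of `A_𝔫`. -/
theorem prime_algebraMap (h𝔫 : centre O hO ≤ 𝔫) (hd0 : d ≠ 0)
    (hdO : ∀ r : pointRing F 𝔫, (r : F) ∈ O.nonunits ↔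
      r ∈ Ideal.span {algebraMap A (pointRing F 𝔫) d}) :
    Prime (algebraMap A (pointRing F 𝔫) d) := by
  have hRO : ∀ r : pointRing F 𝔫, algebraMap (pointRing F 𝔫) F r ∈ O :=
    pointRing_le_of_centre_le 𝔫 O hO h𝔫
  have hd0' : algebraMap A (pointRing F 𝔫) d ≠ 0 := fun h0 =>
    hd0 (algebraMap_injective (F := F) 𝔫 (by rw [h0, map_zero]))
  rw [← Ideal.span_singleton_prime hd0']
  have h1 : Ideal.span {algebraMap A (pointRing F 𝔫) d} = centre O hRO := by
    ext r
    rw [mem_centre_iff]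
    exact (hdO r).symm
  rw [h1]
  infer_instance

/-- **Division by powers of the generator**: `r ∈ A_𝔫` with `r / d ^ k ∈ O` is divisible by
`d ^ k` in `A_𝔫`. -/
theorem exists_eq_pow_mul_of_div_mem (hd0 : d ≠ 0)
    (hdO : ∀ r : pointRing F 𝔫, (r : F) ∈ O.nonunits ↔
      r ∈ Ideal.span {algebraMap A (pointRing F 𝔫) d})
    (r : pointRing F 𝔫) (k : ℕ) (hr : (r : F) / algebraMap A F d ^ k ∈ O) :
    ∃ r' : pointRing F 𝔫, r = algebraMap A (pointRing F 𝔫) d ^ k * r' := by
  have hinj : Function.Injective (algebraMap A F) := IsFractionRing.injective A F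
  have hdF : algebraMap A F d ≠ 0 := fun h0 => hd0 (hinj (by rw [h0, map_zero]))
  have hdO' : algebraMap A F d ∈ O.nonunits :=
    (hdO (algebraMap A (pointRing F 𝔫) d)).2 (Ideal.mem_span_singleton_self _)
  induction k generalizing r with
  | zero => exact ⟨r, by rw [pow_zero, one_mul]⟩
  | succ k ih =>
    have h1 : (r : F) / algebraMap A F d ^ k =
        algebraMap A F d * ((r : F) / algebraMap A F d ^ (k + 1)) := by
      rw [pow_succ]
      field_simp
    have h2 : (r : F) / algebraMap A F d ^ k ∈ O.nonunits := by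
      rw [h1]
      exact mul_mem_nonunits_of_mem O hdO' hr
    obtain ⟨r', hr'⟩ := ih r (mem_of_mem_nonunits O h2)
    have h3 : (r' : F) = (r : F) / algebraMap A F d ^ k := by
      have h4 : (r : F) = algebraMap A F d ^ k * (r' : F) := congrArg Subtype.val hr'
      rw [h4, mul_div_cancel_left₀ _ (pow_ne_zero k hdF)]
    have h5 : (r' : F) ∈ O.nonunits := h3 ▸ h2
    obtain ⟨r'', hr''⟩ := Ideal.mem_span_singleton.1 ((hdO r').1 h5)
    exact ⟨r'', by rw [hr', hr'', pow_succ, mul_assoc]⟩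

end Generates

/-! ### 3. Regularity at the point `(O, s)` -/

section Regular

variable {A F κ : Type*} [CommRing A] [IsDomain A] [IsNoetherianRing A]
  [Field F] [Algebra A F] [IsFractionRing A F] [Field κ]
  (O : ValuationSubring F) (red : O →+* κ) (hred : ∀ x : O, red x = 0 ↔ x ∈ maximalIdeal O)
  (hAO : ∀ a : A, algebraMap A F a ∈ O) (Vs : ValuationSubring κ)
  (hA : ∀ a : A, algebraMap A F a ∈ compositeSubring O red hred Vs)

omit [IsDomain A] [IsNoetherianRing A] [IsFractionRing A F] in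
/-- **(LIFT) ⟹ the point is cut out on the component by one equation.**  If `redOn t` is a
uniformiser of `Vs` and `Vs` is the localisation of the reduction of `A`, then every element
of the point `(O, s)` is, up to a factor outside the point and modulo the centre of `O`, a
multiple of `t`. -/
theorem exists_mul_sub_mul_mem_centre {t : A}
    (ht : ∀ c ∈ Vs.nonunits, ∃ c' ∈ Vs, c = c' * redOn O red hAO t)
    (hlift : ∀ c ∈ Vs, ∃ a b : A, redOn O red hAO b ∉ Vs.nonunits ∧
      redOn O red hAO a = c * redOn O red hAO b)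
    {m : A} (hm : m ∈ pointIdeal O red hred Vs hA) :
    ∃ a b : A, b ∉ pointIdeal O red hred Vs hA ∧ b * m - a * t ∈ centre O hAO := by
  have hm' : redOn O red hAO m ∈ Vs.nonunits :=
    (mem_pointIdeal_iff_redOn O red hred hAO Vs hA m).1 hm
  obtain ⟨c, hc, hmc⟩ := ht _ hm'
  obtain ⟨a, b, hb, hab⟩ := hlift c hc
  refine ⟨a, b, fun hb' => hb ((mem_pointIdeal_iff_redOn O red hred hAO Vs hA b).1 hb'), ?_⟩
  rw [← redOn_eq_zero_iff O red hred hAO, map_sub, map_mul, map_mul, hmc, hab]
  ring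

omit [IsNoetherianRing A] in
/-- **Two generators.**  If moreover `d` generates the centre of `O` on the local ring `R` of
the point, the maximal ideal of `R` is `(d, t)`. -/
theorem maximalIdeal_pointRing_eq_span_pair {d t : A}
    (hdO : ∀ r : pointRing F (pointIdeal O red hred Vs hA), (r : F) ∈ O.nonunits ↔
      r ∈ Ideal.span {algebraMap A (pointRing F (pointIdeal O red hred Vs hA)) d})
    (htm : redOn O red hAO t ∈ Vs.nonunits)
    (ht : ∀ c ∈ Vs.nonunits, ∃ c' ∈ Vs, c = c' * redOn O red hAO t)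
    (hlift : ∀ c ∈ Vs, ∃ a b : A, redOn O red hAO b ∉ Vs.nonunits ∧
      redOn O red hAO a = c * redOn O red hAO b) :
    maximalIdeal (pointRing F (pointIdeal O red hred Vs hA)) =
      Ideal.span {algebraMap A (pointRing F (pointIdeal O red hred Vs hA)) d,
        algebraMap A (pointRing F (pointIdeal O red hred Vs hA)) t} := by
  apply le_antisymm
  · intro r hr
    obtain ⟨m, s₁, hs₁, hms⟩ := exists_mul_eq (pointIdeal O red hred Vs hA) r
    have hmP : m ∈ pointIdeal O red hred Vs hA := by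
      rw [← algebraMap_mem_maximalIdeal_pointRing_iff F (pointIdeal O red hred Vs hA) m, ← hms]
      exact Ideal.mul_mem_right _ _ hr
    obtain ⟨a, b, hb, hab⟩ := exists_mul_sub_mul_mem_centre O red hred hAO Vs hA ht hlift hmP
    have h1 : algebraMap A (pointRing F (pointIdeal O red hred Vs hA)) (b * m - a * t) ∈
        Ideal.span {algebraMap A (pointRing F (pointIdeal O red hred Vs hA)) d} :=
      (hdO _).1 ((mem_centre_iff O hAO _).1 hab)
    have h2 : algebraMap A (pointRing F (pointIdeal O red hred Vs hA)) b *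
        algebraMap A (pointRing F (pointIdeal O red hred Vs hA)) m ∈
        Ideal.span {algebraMap A (pointRing F (pointIdeal O red hred Vs hA)) d,
          algebraMap A (pointRing F (pointIdeal O red hred Vs hA)) t} := by
      have h3 : algebraMap A (pointRing F (pointIdeal O red hred Vs hA)) b *
          algebraMap A (pointRing F (pointIdeal O red hred Vs hA)) m =
          algebraMap A (pointRing F (pointIdeal O red hred Vs hA)) (b * m - a * t) +
            algebraMap A (pointRing F (pointIdeal O red hred Vs hA)) a *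
              algebraMap A (pointRing F (pointIdeal O red hred Vs hA)) t := by
        simp only [map_sub, map_mul]
        ring
      rw [h3]
      refine Ideal.add_mem _ ?_ (Ideal.mul_mem_left _ _ (Ideal.subset_span (by simp)))
      exact Ideal.span_mono (by simp) h1
    obtain ⟨wb, hwb⟩ := (isUnit_algebraMap (F := F) _ hb).exists_left_inv
    obtain ⟨ws, hws⟩ := (isUnit_algebraMap (F := F) _ hs₁).exists_right_inv
    have hr' : r = wb * ws * (algebraMap A (pointRing F (pointIdeal O red hred Vs hA)) b *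
        algebraMap A (pointRing F (pointIdeal O red hred Vs hA)) m) := by
      calc r = r * (algebraMap A (pointRing F (pointIdeal O red hred Vs hA)) s₁ * ws) := by
            rw [hws, mul_one]
        _ = (r * algebraMap A (pointRing F (pointIdeal O red hred Vs hA)) s₁) * ws := by ring
        _ = algebraMap A (pointRing F (pointIdeal O red hred Vs hA)) m * ws := by rw [hms]
        _ = (wb * algebraMap A (pointRing F (pointIdeal O red hred Vs hA)) b) *
              algebraMap A (pointRing F (pointIdeal O red hred Vs hA)) m * ws := by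
            rw [hwb, one_mul]
        _ = _ := by ring
    rw [hr']
    exact Ideal.mul_mem_left _ _ h2
  · rw [Ideal.span_le]
    rintro x (rfl | rfl)
    · have h1 : algebraMap A F d ∈ O.nonunits :=
        (hdO (algebraMap A _ d)).2 (Ideal.mem_span_singleton_self _)
      exact (algebraMap_mem_maximalIdeal_pointRing_iff F _ d).2
        (centre_le_pointIdeal O red hred hAO Vs hA ((mem_centre_iff O hAO d).2 h1))
    · exact (algebraMap_mem_maximalIdeal_pointRing_iff F _ t).2
        ((mem_pointIdeal_iff_redOn O red hred hAO Vs hA t).2 htm)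

omit [IsNoetherianRing A] in
/-- The same in `A`. -/
theorem exists_mul_mem_span_pair {d t : A}
    (hdO : ∀ r : pointRing F (pointIdeal O red hred Vs hA), (r : F) ∈ O.nonunits ↔
      r ∈ Ideal.span {algebraMap A (pointRing F (pointIdeal O red hred Vs hA)) d})
    (ht : ∀ c ∈ Vs.nonunits, ∃ c' ∈ Vs, c = c' * redOn O red hAO t)
    (hlift : ∀ c ∈ Vs, ∃ a b : A, redOn O red hAO b ∉ Vs.nonunits ∧
      redOn O red hAO a = c * redOn O red hAO b)
    {m : A} (hm : m ∈ pointIdeal O red hred Vs hA) :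
    ∃ s, s ∉ pointIdeal O red hred Vs hA ∧ s * m ∈ Ideal.span {d, t} := by
  obtain ⟨a, b, hb, hab⟩ := exists_mul_sub_mul_mem_centre O red hred hAO Vs hA ht hlift hm
  obtain ⟨s, hs, hsd⟩ := exists_mul_mem_span_of_mem_centre _ O hAO hdO hab
  refine ⟨s * b, fun h => ?_, ?_⟩
  · rcases Ideal.IsPrime.mem_or_mem inferInstance h with h' | h'
    · exact hs h'
    · exact hb h'
  · have h1 : s * b * m = s * (b * m - a * t) + s * a * t := by ring
    rw [h1]
    exact Ideal.add_mem _ (Ideal.span_mono (by simp) hsd)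
      (Ideal.mul_mem_left _ _ (Ideal.subset_span (by simp)))

/-- The local ring of the point has dimension at least two. -/
theorem two_le_height_maximalIdeal_pointRing {d t : A} (hd0 : d ≠ 0)
    (hdO : ∀ r : pointRing F (pointIdeal O red hred Vs hA), (r : F) ∈ O.nonunits ↔
      r ∈ Ideal.span {algebraMap A (pointRing F (pointIdeal O red hred Vs hA)) d})
    (htm : redOn O red hAO t ∈ Vs.nonunits) (ht0 : redOn O red hAO t ≠ 0) :
    2 ≤ (maximalIdeal (pointRing F (pointIdeal O red hred Vs hA))).height := by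
  refine two_le_height_maximalIdeal_of_pow_notMem
    (x := algebraMap A (pointRing F (pointIdeal O red hred Vs hA)) t)
    (y := algebraMap A (pointRing F (pointIdeal O red hred Vs hA)) d) ?_ ?_ ?_ ?_
  · have h1 : algebraMap A F d ∈ O.nonunits :=
      (hdO (algebraMap A _ d)).2 (Ideal.mem_span_singleton_self _)
    exact (algebraMap_mem_maximalIdeal_pointRing_iff F _ d).2
      (centre_le_pointIdeal O red hred hAO Vs hA ((mem_centre_iff O hAO d).2 h1))
  · exact fun h0 => hd0 (algebraMap_injective (F := F) _ (by rw [h0, map_zero]))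
  · exact (algebraMap_mem_maximalIdeal_pointRing_iff F _ t).2
      ((mem_pointIdeal_iff_redOn O red hred hAO Vs hA t).2 htm)
  · intro n hn
    have h1 : algebraMap A F (t ^ n) ∈ O.nonunits :=
      (hdO (algebraMap A _ (t ^ n))).2 (by rw [map_pow]; exact hn)
    have h2 : redOn O red hAO (t ^ n) = 0 :=
      (redOn_eq_zero_iff O red hred hAO _).2 ((mem_centre_iff O hAO _).2 h1)
    rw [map_pow] at h2
    exact ht0 (eq_zero_of_pow_eq_zero h2)

/-- **Regularity from a generator of the centre.** -/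
theorem regular_of_generates {d t : A} (hd0 : d ≠ 0)
    (hdO : ∀ r : pointRing F (pointIdeal O red hred Vs hA), (r : F) ∈ O.nonunits ↔
      r ∈ Ideal.span {algebraMap A (pointRing F (pointIdeal O red hred Vs hA)) d})
    (htm : redOn O red hAO t ∈ Vs.nonunits) (ht0 : redOn O red hAO t ≠ 0)
    (ht : ∀ c ∈ Vs.nonunits, ∃ c' ∈ Vs, c = c' * redOn O red hAO t)
    (hlift : ∀ c ∈ Vs, ∃ a b : A, redOn O red hAO b ∉ Vs.nonunits ∧
      redOn O red hAO a = c * redOn O red hAO b) :
    maximalIdeal (pointRing F (pointIdeal O red hred Vs hA)) =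
        Ideal.span {algebraMap A (pointRing F (pointIdeal O red hred Vs hA)) d,
          algebraMap A (pointRing F (pointIdeal O red hred Vs hA)) t} ∧
      2 ≤ (maximalIdeal (pointRing F (pointIdeal O red hred Vs hA))).height ∧
      UniqueFactorizationMonoid (pointRing F (pointIdeal O red hred Vs hA)) ∧
      (∀ p : Ideal (pointRing F (pointIdeal O red hred Vs hA)), p.IsPrime →
        p ≠ maximalIdeal (pointRing F (pointIdeal O red hred Vs hA)) → p.IsPrincipal) ∧
      Prime (algebraMap A (pointRing F (pointIdeal O red hred Vs hA)) d) := by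
  have hm := maximalIdeal_pointRing_eq_span_pair O red hred hAO Vs hA hdO htm ht hlift
  have hht := two_le_height_maximalIdeal_pointRing O red hred hAO Vs hA hd0 hdO htm ht0
  exact ⟨hm, hht, ufm_of_maximalIdeal_eq_span_pair hm hht,
    fun p hp hpm => isPrincipal_of_isPrime_of_ne_maximalIdeal hm p hpm,
    prime_algebraMap _ O hAO (centre_le_pointIdeal O red hred hAO Vs hA) hd0 hdO⟩

/-- **THEOREM (L)** (#2076 §1).  At the point `(O, s)`: `d` a uniformiser of `O` with a
certificate `h u = s d ^ n` (`h` a unit at the point, the centre of `O` the only prime through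
the point minimal over `(u)`), `t` a lift of a uniformiser of `Vs`, and (LIFT).  Then the local
ring of the point is regular of dimension two with parameters `d, t`, hence factorial, all its
non-maximal primes are principal, and `d` generates the centre of `O`. -/
theorem regular_of_certificate [IsIntegrallyClosed A] {d u h s t : A} {n : ℕ} (hn : n ≠ 0)
    (hd : algebraMap A F d ∈ O.nonunits) (hd0 : d ≠ 0)
    (hunif : ∀ z ∈ O.nonunits, z / algebraMap A F d ∈ O)
    (hcert : h * u = s * d ^ n) (hh : redOn O red hAO h ∉ Vs.nonunits)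
    (hu : ∀ 𝔮 ∈ (Ideal.span {u}).minimalPrimes, 𝔮 ≤ pointIdeal O red hred Vs hA →
      𝔮 = centre O hAO)
    (htm : redOn O red hAO t ∈ Vs.nonunits) (ht0 : redOn O red hAO t ≠ 0)
    (ht : ∀ c ∈ Vs.nonunits, ∃ c' ∈ Vs, c = c' * redOn O red hAO t)
    (hlift : ∀ c ∈ Vs, ∃ a b : A, redOn O red hAO b ∉ Vs.nonunits ∧
      redOn O red hAO a = c * redOn O red hAO b) :
    maximalIdeal (pointRing F (pointIdeal O red hred Vs hA)) =
        Ideal.span {algebraMap A (pointRing F (pointIdeal O red hred Vs hA)) d,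
          algebraMap A (pointRing F (pointIdeal O red hred Vs hA)) t} ∧
      2 ≤ (maximalIdeal (pointRing F (pointIdeal O red hred Vs hA))).height ∧
      UniqueFactorizationMonoid (pointRing F (pointIdeal O red hred Vs hA)) ∧
      (∀ p : Ideal (pointRing F (pointIdeal O red hred Vs hA)), p.IsPrime →
        p ≠ maximalIdeal (pointRing F (pointIdeal O red hred Vs hA)) → p.IsPrincipal) ∧
      Prime (algebraMap A (pointRing F (pointIdeal O red hred Vs hA)) d) ∧
      (∀ r : pointRing F (pointIdeal O red hred Vs hA), (r : F) ∈ O.nonunits ↔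
        r ∈ Ideal.span {algebraMap A (pointRing F (pointIdeal O red hred Vs hA)) d}) := by
  have hdO := mem_nonunits_iff_mem_span_of_certificate (pointIdeal O red hred Vs hA) O hAO
    (centre_le_pointIdeal O red hred hAO Vs hA) hn hd hunif hcert
    (fun h' => hh ((mem_pointIdeal_iff_redOn O red hred hAO Vs hA h).1 h')) hu
  obtain ⟨h1, h2, h3, h4, h5⟩ :=
    regular_of_generates O red hred hAO Vs hA hd0 hdO htm ht0 ht hlift
  exact ⟨h1, h2, h3, h4, h5, hdO⟩

omit [IsNoetherianRing A] in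
/-- **By-product (i)**: for `a` in the centre of `O`, the reduction of `a / d` is regular at
`s`. -/
theorem red_div_mem {d : A}
    (hdO : ∀ r : pointRing F (pointIdeal O red hred Vs hA), (r : F) ∈ O.nonunits ↔
      r ∈ Ideal.span {algebraMap A (pointRing F (pointIdeal O red hred Vs hA)) d})
    {a : A} (ha : a ∈ centre O hAO) :
    ∃ hz : algebraMap A F a / algebraMap A F d ∈ O,
      red ⟨algebraMap A F a / algebraMap A F d, hz⟩ ∈ Vs := by
  have key : ∀ (z : F) (r' : pointRing F (pointIdeal O red hred Vs hA)), z = (r' : F) →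
      ∃ hz : z ∈ O, red ⟨z, hz⟩ ∈ Vs := by
    rintro _ r' rfl
    exact pointRing_le_component O red hred Vs hA r'
  have hinj : Function.Injective (algebraMap A F) := IsFractionRing.injective A F
  by_cases hd0 : d = 0
  · exact key _ 0 (by rw [hd0, map_zero, div_zero]; rfl)
  · have hdF : algebraMap A F d ≠ 0 := fun h0 => hd0 (hinj (by rw [h0, map_zero]))
    obtain ⟨r', hr'⟩ := Ideal.mem_span_singleton.1
      ((hdO (algebraMap A _ a)).1 ((mem_centre_iff O hAO a).1 ha))
    refine key _ r' ?_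
    have h1 : algebraMap A F a = algebraMap A F d * (r' : F) := congrArg Subtype.val hr'
    rw [h1, mul_div_cancel_left₀ _ hdF]

end Regular

/-! ### 4. The hypothesis on minimal primes from the family of vertical valuations -/

section Family

variable {A F : Type*} [CommRing A] [IsDomain A] [IsNoetherianRing A]
  [Field F] [Algebra A F] {ι : Type*} (O : ι → ValuationSubring F)
  (hAO : ∀ i a, algebraMap A F a ∈ O i)

/-- If the centres of the `O i` are the only primes minimal over `(q)`, `u` divides a power of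
`q`, and `u` is a unit at every `O i`, `i ≠ i₀`, through `𝔫`, then every prime `𝔮 ⊆ 𝔫` minimal
over `(u)` is the centre of `O i₀`. -/
theorem minimalPrimes_le_eq_centre (𝔫 : Ideal A) {q u u' : A} {N : ℕ} (hq0 : q ≠ 0)
    (hmin : ∀ 𝔮 ∈ (Ideal.span {q}).minimalPrimes, ∃ i, 𝔮 = centre (O i) (hAO i))
    (huu' : u * u' = q ^ N) (i₀ : ι)
    (hu : ∀ i, i ≠ i₀ → centre (O i) (hAO i) ≤ 𝔫 → u ∉ centre (O i) (hAO i)) :
    ∀ 𝔮 ∈ (Ideal.span {u}).minimalPrimes, 𝔮 ≤ 𝔫 → 𝔮 = centre (O i₀) (hAO i₀) := by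
  intro 𝔮 h𝔮 h𝔮𝔫
  have h𝔮p : 𝔮.IsPrime := h𝔮.1.1
  have hu𝔮 : u ∈ 𝔮 := h𝔮.1.2 (Ideal.mem_span_singleton_self u)
  have hq𝔮 : q ∈ 𝔮 := by
    have h1 : q ^ N ∈ 𝔮 := by
      rw [← huu']
      exact Ideal.mul_mem_right _ _ hu𝔮
    exact h𝔮p.mem_of_pow_mem N h1
  obtain ⟨𝔮', h𝔮', hle⟩ :=
    Ideal.exists_minimalPrimes_le ((Ideal.span_singleton_le_iff_mem 𝔮).2 hq𝔮)
  have h𝔮'p : 𝔮'.IsPrime := h𝔮'.1.1
  have hq𝔮' : q ∈ 𝔮' := h𝔮'.1.2 (Ideal.mem_span_singleton_self q)
  have hht : 𝔮.height ≤ 1 :=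
    Ideal.height_le_one_of_isPrincipal_of_mem_minimalPrimes (Ideal.span {u}) 𝔮 h𝔮
  have heq : 𝔮' = 𝔮 := by
    by_contra hne
    have hlt : 𝔮' < 𝔮 := lt_of_le_of_ne hle hne
    have hbot : (⊥ : Ideal A) < 𝔮' := by
      rw [bot_lt_iff_ne_bot]
      intro h
      rw [h] at hq𝔮'
      exact hq0 (by simpa using hq𝔮')
    have : (⊥ : Ideal A).IsPrime := Ideal.isPrime_bot
    have h1 : (⊥ : Ideal A).height < 𝔮'.height :=
      Ideal.height_strict_mono_of_isPrime_of_isPrime hbot
    have h2 : 𝔮'.height < 𝔮.height := Ideal.height_strict_mono_of_isPrime_of_isPrime hlt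
    have h3 : 1 ≤ 𝔮'.height := Order.one_le_iff_pos.mpr (pos_of_gt h1)
    have h4 : (2 : ℕ∞) ≤ 𝔮.height := by
      calc (2 : ℕ∞) = 1 + 1 := by norm_num
        _ ≤ 𝔮'.height + 1 := by gcongr
        _ ≤ 𝔮.height := Order.add_one_le_of_lt h2
    exact absurd (h4.trans hht) (by norm_num)
  obtain ⟨i, hi⟩ := hmin 𝔮' h𝔮'
  by_cases hii : i = i₀
  · rw [← heq, hi, hii]
  · exfalso
    refine hu i hii ?_ ?_
    · rw [← hi, heq]
      exact h𝔮𝔫
    · rw [← hi, heq]
      exact hu𝔮

omit [IsDomain A] [IsNoetherianRing A] in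
/-- The case `u = q`: if no other centre passes through `𝔫`, the only prime `𝔮 ⊆ 𝔫` minimal over
`(q)` is the centre of `O i₀`. -/
theorem minimalPrimes_le_eq_centre_of_not_le (𝔫 : Ideal A) {q : A}
    (hmin : ∀ 𝔮 ∈ (Ideal.span {q}).minimalPrimes, ∃ i, 𝔮 = centre (O i) (hAO i)) (i₀ : ι)
    (hne : ∀ i, i ≠ i₀ → ¬ centre (O i) (hAO i) ≤ 𝔫) :
    ∀ 𝔮 ∈ (Ideal.span {q}).minimalPrimes, 𝔮 ≤ 𝔫 → 𝔮 = centre (O i₀) (hAO i₀) := by
  intro 𝔮 h𝔮 h𝔮𝔫
  obtain ⟨i, hi⟩ := hmin 𝔮 h𝔮
  by_cases hii : i = i₀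
  · rw [hi, hii]
  · exact absurd (hi ▸ h𝔮𝔫) (hne i hii)

end Family

/-! ### 5. The different bound -/

section Different

variable {A F : Type*} [CommRing A] [IsDomain A] [IsNoetherianRing A] [IsIntegrallyClosed A]
  [Field F] [Algebra A F] [IsFractionRing A F] (𝔫 : Ideal A) [𝔫.IsPrime]
  (O : ValuationSubring F) (hO : ∀ a : A, algebraMap A F a ∈ O)

/-- **The different bound** (#2076 §1, (ii)): if every prime `𝔮 ⊆ 𝔫` minimal over `(u)` is the
centre of `O` and `x / u ∈ O`, then `x ∈ u A_𝔫`. -/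
theorem exists_mul_eq_mul_of_div_mem {x u : A} (hu0 : u ≠ 0)
    (hu : ∀ 𝔮 ∈ (Ideal.span {u}).minimalPrimes, 𝔮 ≤ 𝔫 → 𝔮 = centre O hO)
    (hval : algebraMap A F x / algebraMap A F u ∈ O) :
    ∃ h s : A, s ∉ 𝔫 ∧ h * u = s * x := by
  obtain ⟨s, hs, hsx⟩ := exists_mul_mem_span_singleton_of_forall_centre (F := F) 𝔫 hu0 (a := x)
    (fun 𝔮 h𝔮 hle => ⟨O, hO, (hu 𝔮 h𝔮 hle).symm, hval⟩)
  obtain ⟨c, hc⟩ := Ideal.mem_span_singleton.1 hsx
  exact ⟨c, s, hs, by rw [hc, mul_comm]⟩

/-- **Equality in the different bound ⟺ regularity.**  With `h u = s d ^ n`, `s ∉ 𝔫`, and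
`u / d ^ n ∈ O`: the cofactor `h` is a unit at `𝔫` iff `d` generates the centre of `O` on
`A_𝔫`. -/
theorem notMem_iff_generates (h𝔫 : centre O hO ≤ 𝔫) {d u h s : A} {n : ℕ} (hn : n ≠ 0)
    (hd : algebraMap A F d ∈ O.nonunits) (hd0 : d ≠ 0)
    (hunif : ∀ z ∈ O.nonunits, z / algebraMap A F d ∈ O)
    (hcert : h * u = s * d ^ n) (hs : s ∉ 𝔫)
    (hu : ∀ 𝔮 ∈ (Ideal.span {u}).minimalPrimes, 𝔮 ≤ 𝔫 → 𝔮 = centre O hO)
    (hval : algebraMap A F u / algebraMap A F d ^ n ∈ O) :
    h ∉ 𝔫 ↔ ∀ r : pointRing F 𝔫, (r : F) ∈ O.nonunits ↔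
      r ∈ Ideal.span {algebraMap A (pointRing F 𝔫) d} := by
  constructor
  · intro hh
    exact mem_nonunits_iff_mem_span_of_certificate 𝔫 O hO h𝔫 hn hd hunif hcert hh hu
  · intro hdO hh
    have hdc : d ∈ centre O hO := (mem_centre_iff O hO d).2 hd
    have hdn0 : d ^ n ≠ 0 := pow_ne_zero n hd0
    -- every prime `𝔮 ⊆ 𝔫` minimal over `(d ^ n)` is the centre
    have key : ∀ 𝔮 ∈ (Ideal.span {d ^ n}).minimalPrimes, 𝔮 ≤ 𝔫 → 𝔮 = centre O hO := by
      rintro 𝔮 ⟨⟨h𝔮p, h𝔮d⟩, h𝔮min⟩ h𝔮𝔫
      have hd𝔮 : d ∈ 𝔮 := h𝔮p.mem_of_pow_mem n (h𝔮d (Ideal.mem_span_singleton_self _))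
      have h3 : centre O hO ≤ 𝔮 := by
        intro a ha
        obtain ⟨s', hs', hs'a⟩ := exists_mul_mem_span_of_mem_centre 𝔫 O hO hdO ha
        have h4 : s' * a ∈ 𝔮 := (Ideal.span_singleton_le_iff_mem 𝔮).2 hd𝔮 hs'a
        exact (h𝔮p.mem_or_mem h4).resolve_left (fun h5 => hs' (h𝔮𝔫 h5))
      exact le_antisymm (h𝔮min ⟨inferInstance, (Ideal.span_singleton_le_iff_mem _).2
        (Ideal.pow_mem_of_mem _ hdc n (Nat.pos_of_ne_zero hn))⟩ h3) h3
    obtain ⟨s₂, hs₂, hs₂u⟩ := exists_mul_mem_span_singleton_of_forall_centre (F := F) 𝔫 hdn0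
      (a := u) (fun 𝔮 h𝔮 hle => ⟨O, hO, (key 𝔮 h𝔮 hle).symm, by rw [map_pow]; exact hval⟩)
    obtain ⟨c, hc⟩ := Ideal.mem_span_singleton.1 hs₂u
    -- `h * c = s₂ * s`
    have h6 : h * c = s₂ * s := by
      have h7 : d ^ n * (h * c) = d ^ n * (s₂ * s) := by
        calc d ^ n * (h * c) = h * (d ^ n * c) := by ring
          _ = h * (s₂ * u) := by rw [hc]
          _ = s₂ * (h * u) := by ring
          _ = s₂ * (s * d ^ n) := by rw [hcert]
          _ = d ^ n * (s₂ * s) := by ring
      exact mul_left_cancel₀ hdn0 h7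
    have h8 : s₂ * s ∈ 𝔫 := by
      rw [← h6]
      exact Ideal.mul_mem_right _ _ hh
    rcases Ideal.IsPrime.mem_or_mem inferInstance h8 with h9 | h9
    · exact hs₂ h9
    · exact hs h9

end Different

end LThm

end Fermat.Agent.CAR.Local
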