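import Mathlib
import Fermat.Agent.CAR.Local.Exhaust
import Fermat.Agent.CAR.Local.Divisorial

/-!
# Meeting points of the components of the special fibre

* `exists_minimalPrimes_mem_of_mul_eq` (**second vertical prime**, Krull's principal ideal
  theorem): in a Noetherian domain, if `a ∈ 𝔫`, `a * c = s * q` with `s ∉ 𝔫` and `q ≠ 0`, there is
  a prime minimal over `(q)`, contained in `𝔫` and containing `a`.
* `exists_minimalPrimes_le_pointIdeal_ne_centre`, `exists_other_component` : at a point `(O, s)`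
  where a quotient `a / b` dividing `q` has a reduction vanishing at `s` (without vanishing
  identically), a second component passes through the point.
* `pointIdeal_le_pointIdeal_of_lift`, `pointIdeal_le_pointIdeal_of_common_lift`,
  `pointIdeal_eq_pointIdeal_of_common_lift` (**same point**): if the point `(O, s)` lies on the
  component `O'` and the functions at `s` lift through elements having the same reduction on both
  components, then `(O', s) = (O, s)`.
* `exists_unit_mul_prod_pow` (**vertical factorisation**): in a factorial domain, if the primes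
  dividing `q` are the generators `π i` of the centres of finitely many valuation rings `V i`
  and `q = π i ^ e i * unit` in `V i`, then `q = unit * ∏ π i ^ e i`.
-/

set_option autoImplicit false

namespace Fermat.Agent.CAR.Local

open IsLocalRing

section SecondPrime

variable {R : Type*} [CommRing R] [IsDomain R] [IsNoetherianRing R]

/-- **Second vertical prime.** In a Noetherian domain, let `a ∈ 𝔫` with `a * c = s * q`,
`s ∉ 𝔫`, `q ≠ 0`.  Then some prime minimal over `(q)` is contained in `𝔫` and contains `a`. -/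
theorem exists_minimalPrimes_mem_of_mul_eq (𝔫 : Ideal R) [𝔫.IsPrime] {q a c s : R} (hq : q ≠ 0)
    (ha : a ∈ 𝔫) (hs : s ∉ 𝔫) (h : a * c = s * q) :
    ∃ 𝔮 ∈ (Ideal.span {q}).minimalPrimes, 𝔮 ≤ 𝔫 ∧ a ∈ 𝔮 := by
  obtain ⟨𝔮, h𝔮, hle⟩ := Ideal.exists_minimalPrimes_le
    (show Ideal.span {a} ≤ 𝔫 from (Ideal.span_singleton_le_iff_mem 𝔫).2 ha)
  have hprime : 𝔮.IsPrime := h𝔮.1.1
  have ha𝔮 : a ∈ 𝔮 := h𝔮.1.2 (Ideal.mem_span_singleton_self a)
  have hq𝔮 : q ∈ 𝔮 := by
    have h1 : s * q ∈ 𝔮 := by rw [← h]; exact 𝔮.mul_mem_right c ha𝔮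
    rcases hprime.mem_or_mem h1 with h2 | h2
    · exact absurd (hle h2) hs
    · exact h2
  have hht : 𝔮.height ≤ 1 :=
    Ideal.height_le_one_of_isPrincipal_of_mem_minimalPrimes (Ideal.span {a}) 𝔮 h𝔮
  refine ⟨𝔮, ⟨⟨hprime, (Ideal.span_singleton_le_iff_mem 𝔮).2 hq𝔮⟩, ?_⟩, hle, ha𝔮⟩
  rintro 𝔮' ⟨h𝔮', hq𝔮'⟩ hle'
  by_contra hnot
  have hlt : 𝔮' < 𝔮 := lt_of_le_of_ne hle' (fun heq => hnot (heq ▸ le_rfl))
  have h1 : 𝔮'.height < 𝔮.height := Ideal.height_strict_mono_of_isPrime hlt
  have h0 : 𝔮'.height = 0 := Order.lt_one_iff.1 (lt_of_lt_of_le h1 hht)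
  rw [Ideal.height_eq_zero_iff_eq_bot] at h0
  have h2 : q ∈ 𝔮' := (Ideal.span_singleton_le_iff_mem 𝔮').1 hq𝔮'
  rw [h0] at h2
  exact hq ((Ideal.mem_bot).1 h2)

end SecondPrime

section Meeting

variable {A F κ : Type*} [CommRing A] [Field F] [Algebra A F] [Field κ]

/-- **Second vertical prime at a point.** Let `a, b, c, q ∈ A` with `a * c = b * q`, `q ≠ 0`,
the reduction of `a` on the component `O` vanishing at `s` but not identically, and the
reduction of `b` not vanishing at `s`.  Then some prime minimal over `(q)` passes through the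
point `(O, s)` and is not the centre of `O`. -/
theorem exists_minimalPrimes_le_pointIdeal_ne_centre [IsDomain A] [IsNoetherianRing A]
    (O : ValuationSubring F) (red : O →+* κ)
    (hred : ∀ x : O, red x = 0 ↔ x ∈ maximalIdeal O) (hAO : ∀ a : A, algebraMap A F a ∈ O)
    (Vs : ValuationSubring κ)
    (hA : ∀ a : A, algebraMap A F a ∈ compositeSubring O red hred Vs)
    {q a b c : A} (hq : q ≠ 0) (ha : redOn O red hAO a ∈ Vs.nonunits)
    (ha0 : redOn O red hAO a ≠ 0) (hb : redOn O red hAO b ∉ Vs.nonunits)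
    (h : a * c = b * q) :
    ∃ 𝔮 ∈ (Ideal.span {q}).minimalPrimes, 𝔮 ≤ pointIdeal O red hred Vs hA ∧
      𝔮 ≠ centre O hAO := by
  have haP : a ∈ pointIdeal O red hred Vs hA :=
    (mem_pointIdeal_iff_redOn O red hred hAO Vs hA a).2 ha
  have hbP : b ∉ pointIdeal O red hred Vs hA := fun hb' =>
    hb ((mem_pointIdeal_iff_redOn O red hred hAO Vs hA b).1 hb')
  obtain ⟨𝔮, h𝔮, hle, ha𝔮⟩ :=
    exists_minimalPrimes_mem_of_mul_eq (pointIdeal O red hred Vs hA) hq haP hbP h
  refine ⟨𝔮, h𝔮, hle, ?_⟩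
  rintro rfl
  exact ha0 ((redOn_eq_zero_iff O red hred hAO a).2 ha𝔮)

/-- **A second component through the point.** If moreover the primes minimal over `(q)` are the
centres of a family of valuation rings (the components), one of them, with centre different from
that of `O`, passes through the point `(O, s)`. -/
theorem exists_other_component [IsDomain A] [IsNoetherianRing A]
    (O : ValuationSubring F) (red : O →+* κ)
    (hred : ∀ x : O, red x = 0 ↔ x ∈ maximalIdeal O) (hAO : ∀ a : A, algebraMap A F a ∈ O)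
    (Vs : ValuationSubring κ)
    (hA : ∀ a : A, algebraMap A F a ∈ compositeSubring O red hred Vs)
    {ι : Type*} (Os : ι → ValuationSubring F) (hAOs : ∀ i, ∀ a : A, algebraMap A F a ∈ Os i)
    {q a b c : A} (hq : q ≠ 0)
    (hmin : ∀ 𝔮 ∈ (Ideal.span {q}).minimalPrimes, ∃ i, 𝔮 = centre (Os i) (hAOs i))
    (ha : redOn O red hAO a ∈ Vs.nonunits) (ha0 : redOn O red hAO a ≠ 0)
    (hb : redOn O red hAO b ∉ Vs.nonunits) (h : a * c = b * q) :
    ∃ i, centre (Os i) (hAOs i) ≠ centre O hAO ∧
      centre (Os i) (hAOs i) ≤ pointIdeal O red hred Vs hA := by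
  obtain ⟨𝔮, h𝔮, hle, hne⟩ :=
    exists_minimalPrimes_le_pointIdeal_ne_centre O red hred hAO Vs hA hq ha ha0 hb h
  obtain ⟨i, rfl⟩ := hmin 𝔮 h𝔮
  exact ⟨i, hne, hle⟩

/-- **Same point (general form).** Let `(O, s)` and `(O', s')` be points on two components.
Suppose the centre of `O'` is contained in the point `(O, s)`, and every function vanishing at
`s'` on `O'` is the reduction of a quotient `a / b` of elements of `A` with `a` vanishing at `s`
on `O` and `b` not vanishing at `s'` on `O'` nor at `s` on `O`.  Then `(O', s') ⊆ (O, s)`. -/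
theorem pointIdeal_le_pointIdeal_of_lift
    (O O' : ValuationSubring F) (red : O →+* κ) (red' : O' →+* κ)
    (hred : ∀ x : O, red x = 0 ↔ x ∈ maximalIdeal O)
    (hred' : ∀ x : O', red' x = 0 ↔ x ∈ maximalIdeal O')
    (hAO : ∀ a : A, algebraMap A F a ∈ O) (hAO' : ∀ a : A, algebraMap A F a ∈ O')
    (Vs Vs' : ValuationSubring κ)
    (hA : ∀ a : A, algebraMap A F a ∈ compositeSubring O red hred Vs)
    (hA' : ∀ a : A, algebraMap A F a ∈ compositeSubring O' red' hred' Vs')
    (hlift : ∀ c ∈ Vs'.nonunits, ∃ a b : A, redOn O' red' hAO' a = c * redOn O' red' hAO' b ∧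
      redOn O red hAO a ∈ Vs.nonunits ∧ redOn O red hAO b ∉ Vs.nonunits)
    (hle : centre O' hAO' ≤ pointIdeal O red hred Vs hA) :
    pointIdeal O' red' hred' Vs' hA' ≤ pointIdeal O red hred Vs hA := by
  intro x hx
  rw [mem_pointIdeal_iff_redOn O' red' hred' hAO' Vs' hA'] at hx
  obtain ⟨a, b, hab, ha, hb⟩ := hlift _ hx
  have h1 : x * b - a ∈ centre O' hAO' := by
    rw [← redOn_eq_zero_iff O' red' hred' hAO', map_sub, map_mul, hab, sub_self]
  have h2 : a ∈ pointIdeal O red hred Vs hA :=
    (mem_pointIdeal_iff_redOn O red hred hAO Vs hA a).2 ha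
  have h3 : x * b ∈ pointIdeal O red hred Vs hA := by
    have h4 : x * b = (x * b - a) + a := by ring
    rw [h4]
    exact Ideal.add_mem _ (hle h1) h2
  rcases (pointIdeal_isPrime O red hred Vs hA).mem_or_mem h3 with h5 | h5
  · exact h5
  · exact absurd ((mem_pointIdeal_iff_redOn O red hred hAO Vs hA b).1 h5) hb

/-- **Same point (lift through a common subring).** Two components `O`, `O'` with reductions
into the same field and the same place `s`; every element of `Vs` is a quotient of reductions of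
elements `a, b ∈ A` on which the two reductions agree, `b` not vanishing at `s`.  If the centre of
`O'` is contained in the point `(O, s)`, then `(O', s) ⊆ (O, s)`. -/
theorem pointIdeal_le_pointIdeal_of_common_lift
    (O O' : ValuationSubring F) (red : O →+* κ) (red' : O' →+* κ)
    (hred : ∀ x : O, red x = 0 ↔ x ∈ maximalIdeal O)
    (hred' : ∀ x : O', red' x = 0 ↔ x ∈ maximalIdeal O')
    (hAO : ∀ a : A, algebraMap A F a ∈ O) (hAO' : ∀ a : A, algebraMap A F a ∈ O')
    (Vs : ValuationSubring κ)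
    (hA : ∀ a : A, algebraMap A F a ∈ compositeSubring O red hred Vs)
    (hA' : ∀ a : A, algebraMap A F a ∈ compositeSubring O' red' hred' Vs)
    (hlift : ∀ c ∈ Vs, ∃ a b : A, redOn O red hAO a = redOn O' red' hAO' a ∧
      redOn O red hAO b = redOn O' red' hAO' b ∧ redOn O red hAO b ∉ Vs.nonunits ∧
      redOn O red hAO a = c * redOn O red hAO b)
    (hle : centre O' hAO' ≤ pointIdeal O red hred Vs hA) :
    pointIdeal O' red' hred' Vs hA' ≤ pointIdeal O red hred Vs hA := by
  refine pointIdeal_le_pointIdeal_of_lift O O' red red' hred hred' hAO hAO' Vs Vs hA hA' ?_ hle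
  intro c hc
  have hcV : c ∈ Vs := by
    have h1 : Vs.valuation c < 1 := (ValuationSubring.mem_nonunits_iff Vs).1 hc
    exact (Vs.valuation_le_one_iff c).1 h1.le
  obtain ⟨a, b, haa, hbb, hb, hab⟩ := hlift c hcV
  refine ⟨a, b, ?_, ?_, hb⟩
  · rw [← haa, ← hbb, hab]
  · rw [hab, ValuationSubring.mem_nonunits_iff, map_mul]
    have h1 : Vs.valuation c < 1 := (ValuationSubring.mem_nonunits_iff Vs).1 hc
    have h2 : Vs.valuation (redOn O red hAO b) ≤ 1 :=
      (Vs.valuation_le_one_iff _).2
        ((algebraMap_mem_compositeSubring_iff O red hred hAO Vs b).1 (hA b))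
    calc Vs.valuation c * Vs.valuation (redOn O red hAO b)
        ≤ Vs.valuation c * 1 := by gcongr
      _ = Vs.valuation c := mul_one _
      _ < 1 := h1

/-- **Same point.** Under the hypotheses of `pointIdeal_le_pointIdeal_of_common_lift`, if
`(O', s)` is a maximal ideal, then `(O', s) = (O, s)`. -/
theorem pointIdeal_eq_pointIdeal_of_common_lift
    (O O' : ValuationSubring F) (red : O →+* κ) (red' : O' →+* κ)
    (hred : ∀ x : O, red x = 0 ↔ x ∈ maximalIdeal O)
    (hred' : ∀ x : O', red' x = 0 ↔ x ∈ maximalIdeal O')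
    (hAO : ∀ a : A, algebraMap A F a ∈ O) (hAO' : ∀ a : A, algebraMap A F a ∈ O')
    (Vs : ValuationSubring κ)
    (hA : ∀ a : A, algebraMap A F a ∈ compositeSubring O red hred Vs)
    (hA' : ∀ a : A, algebraMap A F a ∈ compositeSubring O' red' hred' Vs)
    (hlift : ∀ c ∈ Vs, ∃ a b : A, redOn O red hAO a = redOn O' red' hAO' a ∧
      redOn O red hAO b = redOn O' red' hAO' b ∧ redOn O red hAO b ∉ Vs.nonunits ∧
      redOn O red hAO a = c * redOn O red hAO b)
    (hle : centre O' hAO' ≤ pointIdeal O red hred Vs hA)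
    (hmax : (pointIdeal O' red' hred' Vs hA').IsMaximal) :
    pointIdeal O' red' hred' Vs hA' = pointIdeal O red hred Vs hA :=
  hmax.eq_of_le (pointIdeal_isPrime O red hred Vs hA).ne_top
    (pointIdeal_le_pointIdeal_of_common_lift O O' red red' hred hred' hAO hAO' Vs hA hA' hlift
      hle)

end Meeting

section VerticalFactor

variable {R F : Type*} [CommRing R] [IsDomain R] [Field F] [Algebra R F] [IsFractionRing R F]

omit [IsDomain R] [IsFractionRing R F] in
/-- A multiple of a non-unit of a valuation ring by an element of the ring is a non-unit. -/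
theorem mul_mem_nonunits_of_mem (V : ValuationSubring F) {x y : F} (hx : x ∈ V)
    (hy : y ∈ V.nonunits) : x * y ∈ V.nonunits := by
  rw [ValuationSubring.mem_nonunits_iff, map_mul]
  have h1 : V.valuation x ≤ 1 := (V.valuation_le_one_iff x).2 hx
  have h2 : V.valuation y < 1 := (ValuationSubring.mem_nonunits_iff V).1 hy
  calc V.valuation x * V.valuation y ≤ 1 * V.valuation y := by gcongr
    _ = V.valuation y := one_mul _
    _ < 1 := h2

variable [IsNoetherianRing R] [UniqueFactorizationMonoid R]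

/-- **Vertical factorisation.** `R` a (Noetherian) factorial domain, `V i ⊇ R` finitely many
pairwise distinct valuation rings with centres `(π i)`, `π i` prime.  If `q = π i ^ e i * unit` in
`V i` for all `i`, and every prime element dividing `q` is (associated to) one of the `π i`, then
`q = unit * ∏ π i ^ e i` in `R`. -/
theorem exists_unit_mul_prod_pow {ι : Type*} (s : Finset ι) (V : ι → ValuationSubring F)
    (π : ι → R) (hV : ∀ i ∈ s, ∀ r : R, algebraMap R F r ∈ V i) (hπ : ∀ i ∈ s, Prime (π i))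
    (hc : ∀ i ∈ s, ∀ r : R, algebraMap R F r ∈ (V i).nonunits ↔ π i ∣ r)
    (hinj : ∀ i ∈ s, ∀ j ∈ s, V i = V j → i = j) (e : ι → ℕ) (q : R) (hq0 : q ≠ 0)
    (hq : ∀ i ∈ s, ∃ u : F, u ∈ V i ∧ u⁻¹ ∈ V i ∧
      algebraMap R F q = algebraMap R F (π i) ^ e i * u)
    (hprime : ∀ p : R, Prime p → p ∣ q → ∃ i ∈ s, π i ∣ p) :
    ∃ v : Rˣ, q = v * ∏ i ∈ s, π i ^ e i := by
  classical
  have hinjF : Function.Injective (algebraMap R F) := IsFractionRing.injective R F
  have hP0 : ∏ i ∈ s, π i ^ e i ≠ 0 :=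
    Finset.prod_ne_zero_iff.2 (fun i hi => pow_ne_zero _ (hπ i hi).ne_zero)
  have hPF : algebraMap R F (∏ i ∈ s, π i ^ e i) ≠ 0 := fun h =>
    hP0 (hinjF (by rw [h, map_zero]))
  have hqF : algebraMap R F q ≠ 0 := fun h => hq0 (hinjF (by rw [h, map_zero]))
  obtain ⟨hspec, -⟩ := prod_pow_spec s V π hV hπ hc hinj e
  -- `z := q / Π` is a unit of every `V i`
  have hz : ∀ i ∈ s, algebraMap R F q / algebraMap R F (∏ i ∈ s, π i ^ e i) ∈ V i ∧
      (algebraMap R F q / algebraMap R F (∏ i ∈ s, π i ^ e i))⁻¹ ∈ V i := by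
    intro i hi
    obtain ⟨u, hu, hu', hqu⟩ := hq i hi
    obtain ⟨u₁, hu₁, hu₁', hPu⟩ := hspec i hi
    have hπF : algebraMap R F (π i) ≠ 0 := fun h =>
      (hπ i hi).ne_zero (hinjF (by rw [h, map_zero]))
    have hu0 : u ≠ 0 := by
      rintro rfl
      rw [mul_zero] at hqu
      exact hqF hqu
    have hu₁0 : u₁ ≠ 0 := by
      rintro rfl
      rw [mul_zero] at hPu
      exact hPF hPu
    have e1 : algebraMap R F q / algebraMap R F (∏ i ∈ s, π i ^ e i) = u * u₁⁻¹ := by
      rw [hqu, hPu]
      field_simp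
    have e2 : (algebraMap R F q / algebraMap R F (∏ i ∈ s, π i ^ e i))⁻¹ = u₁ * u⁻¹ := by
      rw [e1]
      field_simp
    rw [e2, e1]
    exact ⟨(V i).mul_mem _ _ hu hu₁', (V i).mul_mem _ _ hu₁ hu'⟩
  -- a reduced fraction for `z`
  obtain ⟨a, ⟨b, hb⟩, hrel, hab⟩ := IsFractionRing.exists_reduced_fraction (A := R) (K := F)
    (algebraMap R F q / algebraMap R F (∏ i ∈ s, π i ^ e i))
  have hb0 : b ≠ 0 := nonZeroDivisors.ne_zero hb
  have hbF : algebraMap R F b ≠ 0 := fun h => hb0 (hinjF (by rw [h, map_zero]))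
  rw [IsFractionRing.mk'_eq_div] at hab
  have hab' : algebraMap R F a / algebraMap R F b =
      algebraMap R F q / algebraMap R F (∏ i ∈ s, π i ^ e i) := hab
  have hcross : q * b = (∏ i ∈ s, π i ^ e i) * a := by
    apply hinjF
    rw [map_mul, map_mul]
    field_simp at hab'
    linear_combination -hab'
  have ha0 : a ≠ 0 := by
    rintro rfl
    rw [mul_zero] at hcross
    exact (mul_ne_zero hq0 hb0) hcross
  have haF : algebraMap R F a ≠ 0 := fun h => ha0 (hinjF (by rw [h, map_zero]))
  -- `b` is a unit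
  have hbu : IsUnit b := by
    by_contra hnu
    obtain ⟨p, hp, hpb⟩ := WfDvdMonoid.exists_irreducible_factor hnu hb0
    have hp' : Prime p := UniqueFactorizationMonoid.irreducible_iff_prime.1 hp
    have hpa : ¬ p ∣ a := fun hpa => hp.not_isUnit (hrel hpa hpb)
    have hpP : p ∣ ∏ i ∈ s, π i ^ e i := by
      have h1 : p ∣ (∏ i ∈ s, π i ^ e i) * a := hcross ▸ Dvd.dvd.mul_left hpb q
      exact (hp'.dvd_or_dvd h1).resolve_right hpa
    obtain ⟨i, hi, hpi⟩ := (Prime.dvd_finsetProd_iff hp' _).1 hpP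
    have hassoc : Associated p (π i) :=
      hp.associated_of_dvd (hπ i hi).irreducible (hp'.dvd_of_dvd_pow hpi)
    have hπb : π i ∣ b := hassoc.dvd_iff_dvd_left.1 hpb
    have hπa : ¬ π i ∣ a := fun h => hpa (hassoc.dvd_iff_dvd_left.2 h)
    have hbn : algebraMap R F b ∈ (V i).nonunits := (hc i hi b).2 hπb
    have han : algebraMap R F a ∉ (V i).nonunits := fun h => hπa ((hc i hi a).1 h)
    apply han
    have h2 : algebraMap R F a =
        (algebraMap R F q / algebraMap R F (∏ i ∈ s, π i ^ e i)) * algebraMap R F b := by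
      rw [← hab']
      field_simp
    rw [h2]
    exact mul_mem_nonunits_of_mem (V i) (hz i hi).1 hbn
  -- `a` is a unit
  have hau : IsUnit a := by
    by_contra hnu
    obtain ⟨p, hp, hpa⟩ := WfDvdMonoid.exists_irreducible_factor hnu ha0
    have hp' : Prime p := UniqueFactorizationMonoid.irreducible_iff_prime.1 hp
    have hpb : ¬ p ∣ b := fun hpb => hp.not_isUnit (hrel hpa hpb)
    have hpq : p ∣ q := by
      have h1 : p ∣ q * b := hcross ▸ Dvd.dvd.mul_left hpa _
      exact (hp'.dvd_or_dvd h1).resolve_right hpb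
    obtain ⟨i, hi, hπp⟩ := hprime p hp' hpq
    have hassoc : Associated (π i) p :=
      (hπ i hi).irreducible.associated_of_dvd hp hπp
    have hπa : π i ∣ a := hassoc.dvd_iff_dvd_left.2 hpa
    have hπb : ¬ π i ∣ b := fun h => hpb (hassoc.dvd_iff_dvd_left.1 h)
    have han : algebraMap R F a ∈ (V i).nonunits := (hc i hi a).2 hπa
    have hbn : algebraMap R F b ∉ (V i).nonunits := fun h => hπb ((hc i hi b).1 h)
    apply hbn
    have h2 : algebraMap R F b =
        (algebraMap R F q / algebraMap R F (∏ i ∈ s, π i ^ e i))⁻¹ * algebraMap R F a := by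
      rw [← hab']
      field_simp
    rw [h2]
    exact mul_mem_nonunits_of_mem (V i) (hz i hi).2 han
  refine ⟨hau.unit * hbu.unit⁻¹, ?_⟩
  have h3 : q = (∏ i ∈ s, π i ^ e i) * a * ((hbu.unit⁻¹ : Rˣ) : R) := by
    rw [← hcross, mul_assoc]
    have h4 : b * ((hbu.unit⁻¹ : Rˣ) : R) = 1 := by
      have := hbu.unit.mul_inv
      rwa [IsUnit.unit_spec] at this
    rw [h4, mul_one]
  rw [h3, Units.val_mul, IsUnit.unit_spec]
  ring

end VerticalFactor

end Fermat.Agent.CAR.Local
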