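import Mathlib
import Fermat.Agent.CAR.Local.Exhaust
import Fermat.Agent.CAR.Local.Unmixed
import Fermat.Agent.CAR.Local.RegularTwo

/-!
# Regularity of the local ring of a point `(component, place)` from a certificate

Setting of `Centre.lean` / `Exhaust.lean`: `A` a domain with fraction field `F`, `O ⊇ A` a
valuation subring of `F` (a component of the special fibre) with reduction `red : O → κ`, `Vs` a
valuation subring of `κ` (a place `s` of the component), `P = pointIdeal O red hred Vs hA` the
point `(O, s)` of `Spec A` and `R = pointRing F P = A_P ⊆ F` its local ring.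

* `redPt` : the reduction map `R → κ` (with values in `Vs`: `redPt_mem`);
  `mem_maximalIdeal_iff_redPt` : `r ∈ 𝔪_R ↔ redPt r ∈ 𝔪_s`.
* `vertIdeal` : the vertical prime `𝔭_R = ker redPt` of `R` (the branch of the component through
  the point); `comap_vertIdeal` : its contraction to `A` is the centre of `O`.
* `exists_redPt_eq` : (LIFT) if `Vs` is the localisation of the reduction of `A`, then
  `redPt : R → Vs` is onto.
* `maximalIdeal_eq_vertIdeal_sup` : then `𝔪_R = 𝔭_R + (t)` for any `t` reducing to a
  uniformiser of `Vs`.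
* `vertIdeal_loc` : if `O` is the localisation of `A` at its centre and `d` is a uniformiser of
  `O`, then `d` generates `𝔭_R` locally at `𝔭_R`.
* `vertIdeal_min` : if the centre of `O` is the only prime of `A` through `P` minimal over `(u)`,
  then `𝔭_R` is the only prime of `R` minimal over `(u)`.
* `pointRing_regular` : **the certificate criterion**: `d ^ n = h * u` with `h` a unit at the
  point ⟹ `𝔭_R = (d)` and `𝔪_R = (d, t)`.
* `pointRing_ufm` : then `R` is a unique factorisation domain.
-/

set_option autoImplicit false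

namespace Fermat.Agent.CAR.Local

open IsLocalRing

section RedInv

variable {F κ : Type*} [Field F] [Field κ]

/-- For `x ∈ O` with non-zero reduction, `x⁻¹ ∈ O` and `red x⁻¹ = (red x)⁻¹`. -/
theorem exists_red_inv (O : ValuationSubring F) (red : O →+* κ)
    (hred : ∀ x : O, red x = 0 ↔ x ∈ maximalIdeal O) (x : F) (hx : x ∈ O)
    (h0 : red ⟨x, hx⟩ ≠ 0) : ∃ hxi : x⁻¹ ∈ O, red ⟨x⁻¹, hxi⟩ = (red ⟨x, hx⟩)⁻¹ := by
  have hu : IsUnit (⟨x, hx⟩ : O) := by
    by_contra hn
    exact h0 ((hred _).2 ((IsLocalRing.mem_maximalIdeal _).2 hn))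
  obtain ⟨y, hy⟩ := hu.exists_right_inv
  have hyx : (y : F) = x⁻¹ := by
    have h1 : x * (y : F) = 1 := congrArg Subtype.val hy
    exact eq_inv_of_mul_eq_one_right h1
  have hxi : x⁻¹ ∈ O := hyx ▸ y.2
  refine ⟨hxi, ?_⟩
  have h2 : (⟨x⁻¹, hxi⟩ : O) = y := Subtype.ext hyx.symm
  rw [h2]
  have h3 : red ⟨x, hx⟩ * red y = 1 := by rw [← map_mul, hy, map_one]
  exact eq_inv_of_mul_eq_one_right h3

end RedInv

section Point

variable {A F κ : Type*} [CommRing A] [IsDomain A] [Field F] [Algebra A F] [IsFractionRing A F]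
  [Field κ]
variable (O : ValuationSubring F) (red : O →+* κ)
  (hred : ∀ x : O, red x = 0 ↔ x ∈ maximalIdeal O) (Vs : ValuationSubring κ)
  (hA : ∀ a : A, algebraMap A F a ∈ compositeSubring O red hred Vs)

/-- The reduction map on the local ring of the point `(O, s)`. -/
noncomputable def redPt : pointRing F (pointIdeal O red hred Vs hA) →+* κ :=
  red.comp ((pointRing F (pointIdeal O red hred Vs hA)).val.toRingHom.codRestrict O
    (fun r => (pointRing_le_component O red hred Vs hA r).fst))

theorem redPt_apply (r : pointRing F (pointIdeal O red hred Vs hA)) :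
    redPt O red hred Vs hA r =
      red ⟨(r : F), (pointRing_le_component O red hred Vs hA r).fst⟩ :=
  rfl

/-- Reductions of elements of the local ring are regular at `s`. -/
theorem redPt_mem (r : pointRing F (pointIdeal O red hred Vs hA)) :
    redPt O red hred Vs hA r ∈ Vs :=
  (pointRing_le_component O red hred Vs hA r).snd

theorem redPt_algebraMap (hAO : ∀ a : A, algebraMap A F a ∈ O) (a : A) :
    redPt O red hred Vs hA (algebraMap A (pointRing F (pointIdeal O red hred Vs hA)) a) =
      redOn O red hAO a :=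
  rfl

/-- An element of the local ring lies in the maximal ideal iff its reduction vanishes at `s`. -/
theorem mem_maximalIdeal_iff_redPt (r : pointRing F (pointIdeal O red hred Vs hA)) :
    r ∈ maximalIdeal (pointRing F (pointIdeal O red hred Vs hA)) ↔
      redPt O red hred Vs hA r ∈ Vs.nonunits := by
  rw [mem_maximalIdeal_pointRing_iff]
  constructor
  · rintro ⟨_, h⟩
    exact h
  · intro h
    exact ⟨_, h⟩

/-- The vertical prime of the local ring of the point: the kernel of the reduction map. -/
noncomputable def vertIdeal : Ideal (pointRing F (pointIdeal O red hred Vs hA)) :=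
  RingHom.ker (redPt O red hred Vs hA)

instance vertIdeal_isPrime : (vertIdeal O red hred Vs hA).IsPrime :=
  RingHom.ker_isPrime _

theorem mem_vertIdeal_iff_redPt (r : pointRing F (pointIdeal O red hred Vs hA)) :
    r ∈ vertIdeal O red hred Vs hA ↔ redPt O red hred Vs hA r = 0 :=
  RingHom.mem_ker

theorem mem_vertIdeal_iff (r : pointRing F (pointIdeal O red hred Vs hA)) :
    r ∈ vertIdeal O red hred Vs hA ↔ (r : F) ∈ O.nonunits := by
  rw [mem_vertIdeal_iff_redPt, redPt_apply, hred]
  exact ValuationSubring.coe_mem_nonunits_iff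
    (a := (⟨(r : F), (pointRing_le_component O red hred Vs hA r).fst⟩ : O)).symm

theorem vertIdeal_le_maximalIdeal :
    vertIdeal O red hred Vs hA ≤ maximalIdeal (pointRing F (pointIdeal O red hred Vs hA)) := by
  intro r hr
  rw [mem_maximalIdeal_iff_redPt, (mem_vertIdeal_iff_redPt O red hred Vs hA r).1 hr]
  exact (ValuationSubring.mem_nonunits_iff_or Vs).2 (Or.inl rfl)

/-- The contraction of the vertical prime to `A` is the centre of the component. -/
theorem comap_vertIdeal (hAO : ∀ a : A, algebraMap A F a ∈ O) :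
    (vertIdeal O red hred Vs hA).comap
      (algebraMap A (pointRing F (pointIdeal O red hred Vs hA))) = centre O hAO := by
  ext a
  rw [Ideal.mem_comap, mem_vertIdeal_iff, mem_centre_iff]
  rfl

/-- **(LIFT) ⟹ onto.** If every element of `Vs` is a quotient of reductions of elements of `A`
with denominator a unit at `s`, the reduction map of the local ring is onto `Vs`. -/
theorem exists_redPt_eq (hAO : ∀ a : A, algebraMap A F a ∈ O)
    (hlift : ∀ c ∈ Vs, ∃ a b : A, redOn O red hAO b ∉ Vs.nonunits ∧
      redOn O red hAO a = c * redOn O red hAO b) (c : κ) (hc : c ∈ Vs) :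
    ∃ r : pointRing F (pointIdeal O red hred Vs hA), redPt O red hred Vs hA r = c := by
  obtain ⟨a, b, hb, hab⟩ := hlift c hc
  have hbP : b ∉ pointIdeal O red hred Vs hA := by
    rw [mem_pointIdeal_iff_redOn O red hred hAO Vs hA]
    exact hb
  have hb0 : red ⟨algebraMap A F b, hAO b⟩ ≠ 0 := by
    intro h
    apply hb
    rw [redOn_apply, h]
    exact (ValuationSubring.mem_nonunits_iff_or Vs).2 (Or.inl rfl)
  obtain ⟨hbi, hbr⟩ := exists_red_inv O red hred _ (hAO b) hb0
  refine ⟨⟨algebraMap A F a * (algebraMap A F b)⁻¹, mem_pointRing_iff.2 ⟨a, b, hbP, rfl⟩⟩, ?_⟩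
  rw [redPt_apply]
  have h1 : (⟨algebraMap A F a * (algebraMap A F b)⁻¹,
      (pointRing_le_component O red hred Vs hA
        ⟨algebraMap A F a * (algebraMap A F b)⁻¹, mem_pointRing_iff.2 ⟨a, b, hbP, rfl⟩⟩).fst⟩ : O)
      = ⟨algebraMap A F a, hAO a⟩ * ⟨(algebraMap A F b)⁻¹, hbi⟩ := rfl
  rw [h1, map_mul, hbr]
  rw [redOn_apply, redOn_apply] at hab
  rw [hab, mul_assoc, mul_inv_cancel₀ hb0, mul_one]

/-- **(LIFT) ⟹ `𝔪 = 𝔭 + (t)`.** If the reduction of the local ring is onto `Vs` and `t` reduces
to a uniformiser of `Vs`, the maximal ideal is generated by the vertical prime and `t`. -/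
theorem maximalIdeal_eq_vertIdeal_sup (hAO : ∀ a : A, algebraMap A F a ∈ O)
    (hlift : ∀ c ∈ Vs, ∃ a b : A, redOn O red hAO b ∉ Vs.nonunits ∧
      redOn O red hAO a = c * redOn O red hAO b)
    (t : pointRing F (pointIdeal O red hred Vs hA))
    (ht' : redPt O red hred Vs hA t ∈ Vs.nonunits)
    (ht : ∀ v ∈ Vs.nonunits, ∃ w ∈ Vs, v = redPt O red hred Vs hA t * w) :
    maximalIdeal (pointRing F (pointIdeal O red hred Vs hA)) =
      vertIdeal O red hred Vs hA ⊔ Ideal.span {t} := by
  apply le_antisymm
  · intro x hx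
    rw [mem_maximalIdeal_iff_redPt] at hx
    obtain ⟨w, hw, hxw⟩ := ht _ hx
    obtain ⟨y, hy⟩ := exists_redPt_eq O red hred Vs hA hAO hlift w hw
    have h1 : x - t * y ∈ vertIdeal O red hred Vs hA := by
      rw [mem_vertIdeal_iff_redPt, map_sub, map_mul, hy, hxw, sub_self]
    have h2 : x = (x - t * y) + t * y := by ring
    rw [h2]
    exact Submodule.add_mem_sup h1 (Ideal.mul_mem_right _ _ (Ideal.mem_span_singleton_self t))
  · refine sup_le (vertIdeal_le_maximalIdeal O red hred Vs hA) ?_
    rw [Ideal.span_singleton_le_iff_mem]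
    exact (mem_maximalIdeal_iff_redPt O red hred Vs hA t).2 ht'

/-- **`B_𝔭 = O` ⟹ local generator.** If `O` is the localisation of `A` at its centre and `d` is
a uniformiser of `O`, then `d` generates the vertical prime locally at the vertical prime. -/
theorem vertIdeal_loc
    (hloc : ∀ z ∈ O, ∃ a b : A, algebraMap A F b ∉ O.nonunits ∧
      z = algebraMap A F a / algebraMap A F b)
    (d : pointRing F (pointIdeal O red hred Vs hA)) (hd0 : d ≠ 0)
    (hd : ∀ z ∈ O.nonunits, z / (d : F) ∈ O) :
    ∀ a ∈ vertIdeal O red hred Vs hA, ∃ s, s ∉ vertIdeal O red hred Vs hA ∧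
      s * a ∈ Ideal.span {d} := by
  intro a ha
  rw [mem_vertIdeal_iff] at ha
  obtain ⟨a', b', hb', hz⟩ := hloc _ (hd _ ha)
  refine ⟨algebraMap A (pointRing F (pointIdeal O red hred Vs hA)) b', ?_, ?_⟩
  · rw [mem_vertIdeal_iff]
    exact hb'
  · rw [Ideal.mem_span_singleton]
    refine ⟨algebraMap A (pointRing F (pointIdeal O red hred Vs hA)) a', Subtype.ext ?_⟩
    show algebraMap A F b' * (a : F) = (d : F) * algebraMap A F a'
    have hb0 : algebraMap A F b' ≠ 0 := by
      intro h
      apply hb'
      rw [h]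
      exact (ValuationSubring.mem_nonunits_iff_or O).2 (Or.inl rfl)
    have hd0' : (d : F) ≠ 0 := fun h => hd0 (Subtype.ext h)
    field_simp at hz
    linear_combination hz

/-- **Minimal primes.** If the centre of `O` is the only prime of `A` contained in the point which
is minimal over `(u)`, then the vertical prime is the only prime of the local ring minimal over
`(u)`. -/
theorem vertIdeal_min (hAO : ∀ a : A, algebraMap A F a ∈ O) (u : A)
    (hu : ∀ 𝔮 ∈ (Ideal.span {u}).minimalPrimes, 𝔮 ≤ pointIdeal O red hred Vs hA →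
      𝔮 = centre O hAO) :
    ∀ 𝔮 ∈ (Ideal.span
        {algebraMap A (pointRing F (pointIdeal O red hred Vs hA)) u}).minimalPrimes,
      𝔮 = vertIdeal O red hred Vs hA := by
  intro 𝔮 h𝔮
  have hprime : 𝔮.IsPrime := h𝔮.1.1
  have hspan : Ideal.span {algebraMap A (pointRing F (pointIdeal O red hred Vs hA)) u} =
      (Ideal.span {u}).map (algebraMap A (pointRing F (pointIdeal O red hred Vs hA))) := by
    rw [Ideal.map_span, Set.image_singleton]
  rw [hspan, IsLocalization.minimalPrimes_map (pointIdeal O red hred Vs hA).primeCompl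
    (pointRing F (pointIdeal O red hred Vs hA)) (Ideal.span {u})] at h𝔮
  have h1 : 𝔮.comap (algebraMap A (pointRing F (pointIdeal O red hred Vs hA))) ∈
      (Ideal.span {u}).minimalPrimes := h𝔮
  have h2 : 𝔮.comap (algebraMap A (pointRing F (pointIdeal O red hred Vs hA))) ≤
      pointIdeal O red hred Vs hA := by
    intro a ha
    by_contra haP
    have hunit : IsUnit (algebraMap A (pointRing F (pointIdeal O red hred Vs hA)) a) :=
      (IsLocalization.AtPrime.isUnit_to_map_iff (pointRing F (pointIdeal O red hred Vs hA))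
        (pointIdeal O red hred Vs hA) a).2 haP
    exact hprime.ne_top (Ideal.eq_top_of_isUnit_mem _ (Ideal.mem_comap.1 ha) hunit)
  have h3 := hu _ h1 h2
  have e1 := IsLocalization.map_under (pointIdeal O red hred Vs hA).primeCompl
    (pointRing F (pointIdeal O red hred Vs hA)) 𝔮
  have e2 := IsLocalization.map_under (pointIdeal O red hred Vs hA).primeCompl
    (pointRing F (pointIdeal O red hred Vs hA)) (vertIdeal O red hred Vs hA)
  rw [← e1, ← e2]
  show (𝔮.comap (algebraMap A (pointRing F (pointIdeal O red hred Vs hA)))).map _ =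
    ((vertIdeal O red hred Vs hA).comap
      (algebraMap A (pointRing F (pointIdeal O red hred Vs hA)))).map _
  rw [h3, comap_vertIdeal O red hred Vs hA hAO]

variable [IsNoetherianRing A] [IsIntegrallyClosed A]

omit [IsNoetherianRing A] in
/-- The local ring of a point of a normal domain is normal (stated as a theorem, not an instance,
to avoid instance clashes; use `haveI`). -/
theorem isIntegrallyClosed_pointRing_of_isIntegrallyClosed (𝔫 : Ideal A) [𝔫.IsPrime] :
    IsIntegrallyClosed (pointRing F 𝔫) :=
  isIntegrallyClosed_of_isLocalization (pointRing F 𝔫) 𝔫.primeCompl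
    𝔫.primeCompl_le_nonZeroDivisors

/-- **The certificate criterion at a point `(O, s)` of the normal model.**
Hypotheses: (LIFT) `Vs` is the localisation of the reduction of `A`; `O` is the localisation of
`A` at its centre; `d` is a uniformiser of `O` lying in the local ring `R` of the point; `t ∈ R`
reduces to a uniformiser of `Vs`; the certificate `d ^ n = h * u` with `h` a unit at the point
and the centre of `O` the only prime through the point minimal over `(u)`.
Conclusion: the vertical prime is `(d)` and the maximal ideal of `R` is `(d, t)`. -/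
theorem pointRing_regular (hAO : ∀ a : A, algebraMap A F a ∈ O)
    (hlift : ∀ c ∈ Vs, ∃ a b : A, redOn O red hAO b ∉ Vs.nonunits ∧
      redOn O red hAO a = c * redOn O red hAO b)
    (hloc : ∀ z ∈ O, ∃ a b : A, algebraMap A F b ∉ O.nonunits ∧
      z = algebraMap A F a / algebraMap A F b)
    (d t : pointRing F (pointIdeal O red hred Vs hA)) (hd0 : d ≠ 0)
    (hdO : (d : F) ∈ O.nonunits) (hd : ∀ z ∈ O.nonunits, z / (d : F) ∈ O)
    (ht' : redPt O red hred Vs hA t ∈ Vs.nonunits)
    (ht : ∀ v ∈ Vs.nonunits, ∃ w ∈ Vs, v = redPt O red hred Vs hA t * w)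
    (h u : A) (n : ℕ) (hn : n ≠ 0)
    (hcert : d ^ n = algebraMap A (pointRing F (pointIdeal O red hred Vs hA)) h *
      algebraMap A (pointRing F (pointIdeal O red hred Vs hA)) u)
    (hh : redOn O red hAO h ∉ Vs.nonunits)
    (hu : ∀ 𝔮 ∈ (Ideal.span {u}).minimalPrimes, 𝔮 ≤ pointIdeal O red hred Vs hA →
      𝔮 = centre O hAO) :
    vertIdeal O red hred Vs hA = Ideal.span {d} ∧
      maximalIdeal (pointRing F (pointIdeal O red hred Vs hA)) = Ideal.span {d, t} := by
  have : IsIntegrallyClosed (pointRing F (pointIdeal O red hred Vs hA)) :=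
    isIntegrallyClosed_pointRing_of_isIntegrallyClosed (pointIdeal O red hred Vs hA)
  have hunit : IsUnit (algebraMap A (pointRing F (pointIdeal O red hred Vs hA)) h) :=
    (IsLocalization.AtPrime.isUnit_to_map_iff (pointRing F (pointIdeal O red hred Vs hA))
      (pointIdeal O red hred Vs hA) h).2 (by
        show h ∉ pointIdeal O red hred Vs hA
        rw [mem_pointIdeal_iff_redOn O red hred hAO Vs hA]
        exact hh)
  exact maximalIdeal_eq_span_pair_of_pow_eq hn hunit hcert hd0 (vertIdeal O red hred Vs hA)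
    ((mem_vertIdeal_iff O red hred Vs hA d).2 hdO)
    (vertIdeal_loc O red hred Vs hA hloc d hd0 hd)
    (vertIdeal_min O red hred Vs hA hAO u hu)
    (maximalIdeal_eq_vertIdeal_sup O red hred Vs hA hAO hlift t ht' ht)

omit [IsIntegrallyClosed A] in
/-- Under the hypotheses of `pointRing_regular` (and `t` with non-zero reduction), the local ring
of the point has dimension two. -/
theorem two_le_height_maximalIdeal_pointRing
    (d t : pointRing F (pointIdeal O red hred Vs hA)) (hd0 : d ≠ 0)
    (hdO : (d : F) ∈ O.nonunits) (ht' : redPt O red hred Vs hA t ∈ Vs.nonunits)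
    (ht0 : redPt O red hred Vs hA t ≠ 0) :
    2 ≤ (maximalIdeal (pointRing F (pointIdeal O red hred Vs hA))).height := by
  have hne : vertIdeal O red hred Vs hA ≠ ⊥ := by
    intro h
    have hdm : d ∈ vertIdeal O red hred Vs hA := (mem_vertIdeal_iff O red hred Vs hA d).2 hdO
    rw [h] at hdm
    exact hd0 hdm
  have hlt : vertIdeal O red hred Vs hA <
      maximalIdeal (pointRing F (pointIdeal O red hred Vs hA)) := by
    refine lt_of_le_of_ne (vertIdeal_le_maximalIdeal O red hred Vs hA) ?_
    intro h
    have htm : t ∈ maximalIdeal (pointRing F (pointIdeal O red hred Vs hA)) :=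
      (mem_maximalIdeal_iff_redPt O red hred Vs hA t).2 ht'
    rw [← h] at htm
    exact ht0 ((mem_vertIdeal_iff_redPt O red hred Vs hA t).1 htm)
  have h1 : (⊥ : Ideal (pointRing F (pointIdeal O red hred Vs hA))).height <
      (vertIdeal O red hred Vs hA).height :=
    Ideal.height_strict_mono_of_isPrime (bot_lt_iff_ne_bot.2 hne)
  have h2 : (vertIdeal O red hred Vs hA).height <
      (maximalIdeal (pointRing F (pointIdeal O red hred Vs hA))).height :=
    Ideal.height_strict_mono_of_isPrime hlt
  have h3 : 1 ≤ (vertIdeal O red hred Vs hA).height := Order.one_le_iff_pos.2 (pos_of_gt h1)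
  have h4 : (vertIdeal O red hred Vs hA).height + 1 ≤
      (maximalIdeal (pointRing F (pointIdeal O red hred Vs hA))).height :=
    Order.add_one_le_of_lt h2
  calc (2 : ℕ∞) = 1 + 1 := by norm_num
    _ ≤ (vertIdeal O red hred Vs hA).height + 1 := by gcongr
    _ ≤ _ := h4

/-- Under the hypotheses of `pointRing_regular`, the local ring of the point is a unique
factorisation domain. -/
theorem pointRing_ufm (hAO : ∀ a : A, algebraMap A F a ∈ O)
    (hlift : ∀ c ∈ Vs, ∃ a b : A, redOn O red hAO b ∉ Vs.nonunits ∧
      redOn O red hAO a = c * redOn O red hAO b)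
    (hloc : ∀ z ∈ O, ∃ a b : A, algebraMap A F b ∉ O.nonunits ∧
      z = algebraMap A F a / algebraMap A F b)
    (d t : pointRing F (pointIdeal O red hred Vs hA)) (hd0 : d ≠ 0)
    (hdO : (d : F) ∈ O.nonunits) (hd : ∀ z ∈ O.nonunits, z / (d : F) ∈ O)
    (ht' : redPt O red hred Vs hA t ∈ Vs.nonunits)
    (ht0 : redPt O red hred Vs hA t ≠ 0)
    (ht : ∀ v ∈ Vs.nonunits, ∃ w ∈ Vs, v = redPt O red hred Vs hA t * w)
    (h u : A) (n : ℕ) (hn : n ≠ 0)
    (hcert : d ^ n = algebraMap A (pointRing F (pointIdeal O red hred Vs hA)) h *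
      algebraMap A (pointRing F (pointIdeal O red hred Vs hA)) u)
    (hh : redOn O red hAO h ∉ Vs.nonunits)
    (hu : ∀ 𝔮 ∈ (Ideal.span {u}).minimalPrimes, 𝔮 ≤ pointIdeal O red hred Vs hA →
      𝔮 = centre O hAO) :
    UniqueFactorizationMonoid (pointRing F (pointIdeal O red hred Vs hA)) :=
  ufm_of_maximalIdeal_eq_span_pair
    (pointRing_regular O red hred Vs hA hAO hlift hloc d t hd0 hdO hd ht' ht h u n hn hcert hh
      hu).2
    (two_le_height_maximalIdeal_pointRing O red hred Vs hA d t hd0 hdO ht' ht0)

end Point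

end Fermat.Agent.CAR.Local
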