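import Mathlib
import Fermat.Agent.CAR.Local.PointRegular
import Fermat.Agent.CAR.Local.Meeting

/-!
# CAR-7 (L-Inst): regularity of the model at every non-special point of the special fibre

Abstract instance layer between the local theorems (`Centre`, `Exhaust`, `Unmixed`, `RegularTwo`,
`PointRegular`, `Meeting`) and the modular objects.  `B` is a Noetherian integrally closed domain
with fraction field `F` (for CAR: the integral closure of `W[J₀]` in `F = K₀·F_M`), and the three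
components of the special fibre are three valuation subrings `O 0 = O_inf`, `O 1 = O_mid`,
`O 2 = O_0` of `F` containing `B`, with reductions `red i : O i → κ`.

The record `V3` lists what the valuation layer (CAR-2..5) and (LIFT) (CAR-11) must deliver.
-/

set_option autoImplicit false

namespace Fermat.Agent.CAR.Local.Inst

open IsLocalRing Fermat.Agent.CAR.Local

section OneComponent

variable {A F κ : Type*} [CommRing A] [Field F] [Algebra A F] [Field κ]

/-- In a valuation ring, of two elements one divides the other. -/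
theorem exists_mul_or (Vs : ValuationSubring κ) (x y : κ) :
    (∃ w ∈ Vs, x = y * w) ∨ (∃ w ∈ Vs, y = x * w) := by
  by_cases hy : y = 0
  · right
    exact ⟨0, Vs.zero_mem, by rw [hy, mul_zero]⟩
  by_cases hx : x = 0
  · left
    exact ⟨0, Vs.zero_mem, by rw [hx, mul_zero]⟩
  rcases Vs.mem_or_inv_mem (x / y) with h | h
  · left
    exact ⟨x / y, h, by field_simp⟩
  · right
    exact ⟨(x / y)⁻¹, h, by field_simp⟩

/-- A finite set of elements of the point `(O, s)` is dominated by one of its elements (or `0`):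
all reductions are multiples, in `Vs`, of the reduction of a single element of the point. -/
theorem exists_dominating (O : ValuationSubring F) (red : O →+* κ)
    (hred : ∀ x : O, red x = 0 ↔ x ∈ maximalIdeal O) (hAO : ∀ a : A, algebraMap A F a ∈ O)
    (Vs : ValuationSubring κ)
    (hA : ∀ a : A, algebraMap A F a ∈ compositeSubring O red hred Vs) (s : Finset A)
    (hs : ∀ j ∈ s, j ∈ pointIdeal O red hred Vs hA) :
    ∃ t ∈ pointIdeal O red hred Vs hA, ∀ j ∈ s, ∃ w ∈ Vs,
      redOn O red hAO j = redOn O red hAO t * w := by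
  classical
  induction s using Finset.induction_on with
  | empty => exact ⟨0, Ideal.zero_mem _, fun j hj => absurd hj (Finset.notMem_empty j)⟩
  | insert j s hj ih =>
    obtain ⟨t, ht, htj⟩ := ih (fun i hi => hs i (Finset.mem_insert_of_mem hi))
    rcases exists_mul_or Vs (redOn O red hAO j) (redOn O red hAO t) with ⟨w, hw, h⟩ | ⟨w, hw, h⟩
    · refine ⟨t, ht, fun i hi => ?_⟩
      rcases Finset.mem_insert.1 hi with rfl | hi
      · exact ⟨w, hw, h⟩
      · exact htj i hi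
    · refine ⟨j, hs j (Finset.mem_insert_self j s), fun i hi => ?_⟩
      rcases Finset.mem_insert.1 hi with rfl | hi
      · exact ⟨1, Vs.one_mem, (mul_one _).symm⟩
      · obtain ⟨w', hw', h'⟩ := htj i hi
        exact ⟨w * w', Vs.mul_mem _ _ hw hw', by rw [h', h, mul_assoc]⟩

/-- **A uniformiser at every point, from (LIFT).**  If `A` is Noetherian and `Vs` is the
localisation of the reduction of `A` (LIFT), then the maximal ideal of `Vs` is generated by the
reduction of an element `t` of the point `(O, s)`. -/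
theorem exists_unif_of_lift [IsNoetherianRing A] (O : ValuationSubring F) (red : O →+* κ)
    (hred : ∀ x : O, red x = 0 ↔ x ∈ maximalIdeal O) (hAO : ∀ a : A, algebraMap A F a ∈ O)
    (Vs : ValuationSubring κ)
    (hA : ∀ a : A, algebraMap A F a ∈ compositeSubring O red hred Vs)
    (hlift : ∀ c ∈ Vs, ∃ a b : A, redOn O red hAO b ∉ Vs.nonunits ∧
      redOn O red hAO a = c * redOn O red hAO b) :
    ∃ t : A, redOn O red hAO t ∈ Vs.nonunits ∧
      ∀ v ∈ Vs.nonunits, ∃ w ∈ Vs, v = redOn O red hAO t * w := by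
  classical
  have hmem : ∀ a : A, redOn O red hAO a ∈ Vs := fun a =>
    (algebraMap_mem_compositeSubring_iff O red hred hAO Vs a).1 (hA a)
  obtain ⟨s, hs⟩ := (isNoetherianRing_iff_ideal_fg A).1 inferInstance
    (pointIdeal O red hred Vs hA)
  have hsP : ∀ j ∈ s, j ∈ pointIdeal O red hred Vs hA := fun j hj => by
    rw [← hs]; exact Ideal.subset_span hj
  obtain ⟨t, ht, htj⟩ := exists_dominating O red hred hAO Vs hA s hsP
  refine ⟨t, (mem_pointIdeal_iff_redOn O red hred hAO Vs hA t).1 ht, ?_⟩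
  -- every element of the point reduces to a multiple of `red t`
  have key : ∀ a ∈ pointIdeal O red hred Vs hA, ∃ w ∈ Vs,
      redOn O red hAO a = redOn O red hAO t * w := by
    intro a ha
    rw [← hs] at ha
    refine Submodule.span_induction (p := fun a _ => ∃ w ∈ Vs,
      redOn O red hAO a = redOn O red hAO t * w) ?_ ?_ ?_ ?_ ha
    · intro x hx
      exact htj x hx
    · exact ⟨0, Vs.zero_mem, by rw [map_zero, mul_zero]⟩
    · rintro x y _ _ ⟨w, hw, h⟩ ⟨w', hw', h'⟩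
      exact ⟨w + w', Vs.add_mem _ _ hw hw', by rw [map_add, h, h', mul_add]⟩
    · rintro c x _ ⟨w, hw, h⟩
      refine ⟨redOn O red hAO c * w, Vs.mul_mem _ _ (hmem c) hw, ?_⟩
      rw [smul_eq_mul, map_mul, h]
      ring
  intro v hv
  obtain ⟨a, b, hb, hab⟩ := hlift v (Vs.nonunits_subset hv)
  have hb0 : redOn O red hAO b ≠ 0 := by
    intro h
    apply hb
    rw [h]
    exact (ValuationSubring.mem_nonunits_iff_or Vs).2 (Or.inl rfl)
  have hbinv : (redOn O red hAO b)⁻¹ ∈ Vs := by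
    rw [ValuationSubring.mem_nonunits_iff_or] at hb
    push Not at hb
    exact hb.2
  have haP : a ∈ pointIdeal O red hred Vs hA := by
    rw [mem_pointIdeal_iff_redOn O red hred hAO Vs hA, hab, mul_comm]
    exact mul_mem_nonunits_of_mem Vs (hmem b) hv
  obtain ⟨w, hw, h⟩ := key a haP
  refine ⟨w * (redOn O red hAO b)⁻¹, Vs.mul_mem _ _ hw hbinv, ?_⟩
  rw [← mul_assoc, ← h, hab, mul_assoc, mul_inv_cancel₀ hb0, mul_one]

end OneComponent

section Krull

variable {R : Type*} [CommRing R] [IsDomain R] [IsNoetherianRing R]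

/-- A prime minimal over a principal ideal and containing `q ≠ 0` is minimal over `(q)`
(Krull's principal ideal theorem). -/
theorem mem_minimalPrimes_of_mem {q u : R} (hq : q ≠ 0) {𝔮 : Ideal R}
    (h𝔮 : 𝔮 ∈ (Ideal.span {u}).minimalPrimes) (hq𝔮 : q ∈ 𝔮) :
    𝔮 ∈ (Ideal.span {q}).minimalPrimes := by
  have hprime : 𝔮.IsPrime := h𝔮.1.1
  have hht : 𝔮.height ≤ 1 :=
    Ideal.height_le_one_of_isPrincipal_of_mem_minimalPrimes (Ideal.span {u}) 𝔮 h𝔮
  refine ⟨⟨hprime, (Ideal.span_singleton_le_iff_mem 𝔮).2 hq𝔮⟩, ?_⟩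
  rintro 𝔮' ⟨h𝔮', hq𝔮'⟩ hle'
  by_contra hnot
  have hlt : 𝔮' < 𝔮 := lt_of_le_of_ne hle' (fun heq => hnot (heq ▸ le_rfl))
  have h1 : 𝔮'.height < 𝔮.height := Ideal.height_strict_mono_of_isPrime hlt
  have h0 : 𝔮'.height = 0 := Order.lt_one_iff.1 (lt_of_lt_of_le h1 hht)
  rw [Ideal.height_eq_zero_iff_eq_bot] at h0
  have h2 : q ∈ 𝔮' := (Ideal.span_singleton_le_iff_mem 𝔮').1 hq𝔮'
  rw [h0] at h2
  exact hq ((Ideal.mem_bot).1 h2)

omit [IsDomain R] [IsNoetherianRing R] in
/-- A prime `𝔮 ⊆ 𝔫` containing `u`, where `u * u' = s' * q ^ N` with `s' ∉ 𝔫`, contains `q`. -/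
theorem mem_of_mul_eq {q u u' s' : R} {N : ℕ} (h : u * u' = s' * q ^ N) {𝔮 𝔫 : Ideal R}
    [h𝔮 : 𝔮.IsPrime] (hle : 𝔮 ≤ 𝔫) (hs' : s' ∉ 𝔫) (hu : u ∈ 𝔮) : q ∈ 𝔮 := by
  have h1 : s' * q ^ N ∈ 𝔮 := by rw [← h]; exact 𝔮.mul_mem_right u' hu
  rcases h𝔮.mem_or_mem h1 with h2 | h2
  · exact absurd (hle h2) hs'
  · exact h𝔮.mem_of_pow_mem N h2

end Krull

section Family

variable {A F : Type*} [CommRing A] [IsDomain A] [IsNoetherianRing A] [Field F] [Algebra A F]

/-- If the primes minimal over `(q)` are centres of members of a family of valuation rings, every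
prime minimal over a principal ideal `(u)` and containing `q` is the centre of a member of the
family containing `u`. -/
theorem exists_eq_centre_of_mem_minimalPrimes {ι : Type*} (O : ι → ValuationSubring F)
    (hAO : ∀ i, ∀ a : A, algebraMap A F a ∈ O i) {q u : A} (hq0 : q ≠ 0)
    (hmin : ∀ 𝔮 ∈ (Ideal.span {q}).minimalPrimes, ∃ i, 𝔮 = centre (O i) (hAO i))
    {𝔮 : Ideal A} (h𝔮 : 𝔮 ∈ (Ideal.span {u}).minimalPrimes) (hq𝔮 : q ∈ 𝔮) :
    ∃ i, 𝔮 = centre (O i) (hAO i) ∧ u ∈ centre (O i) (hAO i) := by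
  obtain ⟨i, rfl⟩ := hmin 𝔮 (mem_minimalPrimes_of_mem hq0 h𝔮 hq𝔮)
  exact ⟨i, rfl, h𝔮.1.2 (Ideal.mem_span_singleton_self u)⟩

/-- `hu` from the vertical family: if `u * u' = s' * q ^ N` with `s' ∉ 𝔫` and `u` lies in no
centre through `𝔫` other than that of `O i₀`, the centre of `O i₀` is the only prime minimal over
`(u)` contained in `𝔫`. -/
theorem minimalPrimes_le_eq_centre {ι : Type*} (O : ι → ValuationSubring F)
    (hAO : ∀ i, ∀ a : A, algebraMap A F a ∈ O i) (𝔫 : Ideal A) {q u u' s' : A} {N : ℕ}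
    (hq0 : q ≠ 0)
    (hmin : ∀ 𝔮 ∈ (Ideal.span {q}).minimalPrimes, ∃ i, 𝔮 = centre (O i) (hAO i))
    (huu' : u * u' = s' * q ^ N) (hs' : s' ∉ 𝔫) (i₀ : ι)
    (hu : ∀ i, i ≠ i₀ → centre (O i) (hAO i) ≤ 𝔫 → u ∉ centre (O i) (hAO i)) :
    ∀ 𝔮 ∈ (Ideal.span {u}).minimalPrimes, 𝔮 ≤ 𝔫 → 𝔮 = centre (O i₀) (hAO i₀) := by
  intro 𝔮 h𝔮 hle
  have hprime : 𝔮.IsPrime := h𝔮.1.1
  have hq𝔮 : q ∈ 𝔮 :=
    mem_of_mul_eq huu' hle hs' (h𝔮.1.2 (Ideal.mem_span_singleton_self u))
  obtain ⟨i, rfl, hui⟩ := exists_eq_centre_of_mem_minimalPrimes O hAO hq0 hmin h𝔮 hq𝔮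
  by_cases hi : i = i₀
  · rw [hi]
  · exact absurd hui (hu i hi hle)

/-- If `u * u' = s' * q ^ N` with `s' ∉ 𝔫`, `u ∈ 𝔫`, and `u` lies in no centre other than that of
`O i₀`, then the centre of `O i₀` is contained in `𝔫`. -/
theorem centre_le_of_mem {ι : Type*} (O : ι → ValuationSubring F)
    (hAO : ∀ i, ∀ a : A, algebraMap A F a ∈ O i) (𝔫 : Ideal A) [𝔫.IsPrime] {q u u' s' : A}
    {N : ℕ} (hq0 : q ≠ 0)
    (hmin : ∀ 𝔮 ∈ (Ideal.span {q}).minimalPrimes, ∃ i, 𝔮 = centre (O i) (hAO i))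
    (huu' : u * u' = s' * q ^ N) (hs' : s' ∉ 𝔫) (i₀ : ι)
    (hu : ∀ i, i ≠ i₀ → u ∉ centre (O i) (hAO i)) (hmem : u ∈ 𝔫) :
    centre (O i₀) (hAO i₀) ≤ 𝔫 := by
  obtain ⟨𝔮, h𝔮, hle⟩ := Ideal.exists_minimalPrimes_le
    (show Ideal.span {u} ≤ 𝔫 from (Ideal.span_singleton_le_iff_mem 𝔫).2 hmem)
  have hprime : 𝔮.IsPrime := h𝔮.1.1
  have hq𝔮 : q ∈ 𝔮 :=
    mem_of_mul_eq huu' hle hs' (h𝔮.1.2 (Ideal.mem_span_singleton_self u))
  obtain ⟨i, rfl, hui⟩ := exists_eq_centre_of_mem_minimalPrimes O hAO hq0 hmin h𝔮 hq𝔮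
  by_cases hi : i = i₀
  · rw [← hi]; exact hle
  · exact absurd hui (hu i hi)

end Family

section Certificate

variable {A F κ : Type*} [CommRing A] [IsDomain A] [Field F] [Algebra A F] [IsFractionRing A F]
  [Field κ] [IsNoetherianRing A] [IsIntegrallyClosed A]
variable (O : ValuationSubring F) (red : O →+* κ)
  (hred : ∀ x : O, red x = 0 ↔ x ∈ maximalIdeal O) (Vs : ValuationSubring κ)
  (hA : ∀ a : A, algebraMap A F a ∈ compositeSubring O red hred Vs)

/-- **The vertical prime is `(d)`** (certificate criterion, no hypothesis `A_𝔭 = O`):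
`d` a uniformiser of `O`, `h * u = s * d ^ n` with `h`, `s` units at the point and the centre of
`O` the only prime through the point minimal over `(u)`. -/
theorem vertIdeal_eq_span (hAO : ∀ a : A, algebraMap A F a ∈ O) (d : A) (hd0 : d ≠ 0)
    (hdO : algebraMap A F d ∈ O.nonunits)
    (hd : ∀ z ∈ O.nonunits, z / algebraMap A F d ∈ O)
    (h u s : A) (n : ℕ) (hn : n ≠ 0) (hcert : h * u = s * d ^ n)
    (hh : redOn O red hAO h ∉ Vs.nonunits) (hs : redOn O red hAO s ∉ Vs.nonunits)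
    (hu : ∀ 𝔮 ∈ (Ideal.span {u}).minimalPrimes, 𝔮 ≤ pointIdeal O red hred Vs hA →
      𝔮 = centre O hAO) :
    vertIdeal O red hred Vs hA =
      Ideal.span {algebraMap A (pointRing F (pointIdeal O red hred Vs hA)) d} := by
  have : IsIntegrallyClosed (pointRing F (pointIdeal O red hred Vs hA)) :=
    isIntegrallyClosed_pointRing_of_isIntegrallyClosed (pointIdeal O red hred Vs hA)
  have hunit : ∀ a : A, redOn O red hAO a ∉ Vs.nonunits →
      IsUnit (algebraMap A (pointRing F (pointIdeal O red hred Vs hA)) a) := fun a ha =>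
    (IsLocalization.AtPrime.isUnit_to_map_iff (pointRing F (pointIdeal O red hred Vs hA))
      (pointIdeal O red hred Vs hA) a).2 (by
        show a ∉ pointIdeal O red hred Vs hA
        rw [mem_pointIdeal_iff_redOn O red hred hAO Vs hA]
        exact ha)
  have hinj : Function.Injective (algebraMap A (pointRing F (pointIdeal O red hred Vs hA))) :=
    IsLocalization.injective _ (pointIdeal O red hred Vs hA).primeCompl_le_nonZeroDivisors
  have hdR0 : algebraMap A (pointRing F (pointIdeal O red hred Vs hA)) d ≠ 0 := fun h0 =>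
    hd0 (hinj (by rw [h0, map_zero]))
  obtain ⟨s', hs'⟩ := (hunit s hs).exists_left_inv
  have hs'u : IsUnit s' := IsUnit.of_mul_eq_one _ hs'
  have hpow : algebraMap A (pointRing F (pointIdeal O red hred Vs hA)) d ^ n =
      (s' * algebraMap A (pointRing F (pointIdeal O red hred Vs hA)) h) *
        algebraMap A (pointRing F (pointIdeal O red hred Vs hA)) u := by
    have h1 : algebraMap A (pointRing F (pointIdeal O red hred Vs hA)) h *
        algebraMap A (pointRing F (pointIdeal O red hred Vs hA)) u =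
        algebraMap A (pointRing F (pointIdeal O red hred Vs hA)) s *
          algebraMap A (pointRing F (pointIdeal O red hred Vs hA)) d ^ n := by
      rw [← map_pow, ← map_mul, ← map_mul, hcert]
    rw [mul_assoc, h1, ← mul_assoc, hs', one_mul]
  have hminEq := minimalPrimes_span_eq_of_pow_eq hn (hs'u.mul (hunit h hh)) hpow
  apply le_antisymm
  · intro r hr
    rw [mem_vertIdeal_iff] at hr
    refine mem_span_singleton_of_mem_nonunits (F := F) hdR0 O
      (fun r => (pointRing_le_component O red hred Vs hA r).fst) ?_ hd hr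
    intro 𝔮 h𝔮 r
    rw [hminEq] at h𝔮
    rw [vertIdeal_min O red hred Vs hA hAO u hu 𝔮 h𝔮]
    exact mem_vertIdeal_iff O red hred Vs hA r
  · rw [Ideal.span_singleton_le_iff_mem, mem_vertIdeal_iff]
    exact hdO

/-- **Theorem (L) at a point `(O, s)`**, from a certificate and (LIFT): the local ring of the
point has maximal ideal `(d, t)` (`t` any element of `A` reducing to a uniformiser of `Vs`), the
vertical prime is `(d)`, and the local ring is factorial. -/
theorem pointRing_regular_of_certificate (hAO : ∀ a : A, algebraMap A F a ∈ O)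
    (hlift : ∀ c ∈ Vs, ∃ a b : A, redOn O red hAO b ∉ Vs.nonunits ∧
      redOn O red hAO a = c * redOn O red hAO b)
    (d t : A) (hd0 : d ≠ 0) (hdO : algebraMap A F d ∈ O.nonunits)
    (hd : ∀ z ∈ O.nonunits, z / algebraMap A F d ∈ O)
    (ht' : redOn O red hAO t ∈ Vs.nonunits) (ht0 : redOn O red hAO t ≠ 0)
    (ht : ∀ v ∈ Vs.nonunits, ∃ w ∈ Vs, v = redOn O red hAO t * w)
    (h u s : A) (n : ℕ) (hn : n ≠ 0) (hcert : h * u = s * d ^ n)
    (hh : redOn O red hAO h ∉ Vs.nonunits) (hs : redOn O red hAO s ∉ Vs.nonunits)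
    (hu : ∀ 𝔮 ∈ (Ideal.span {u}).minimalPrimes, 𝔮 ≤ pointIdeal O red hred Vs hA →
      𝔮 = centre O hAO) :
    vertIdeal O red hred Vs hA =
        Ideal.span {algebraMap A (pointRing F (pointIdeal O red hred Vs hA)) d} ∧
      maximalIdeal (pointRing F (pointIdeal O red hred Vs hA)) =
        Ideal.span {algebraMap A (pointRing F (pointIdeal O red hred Vs hA)) d,
          algebraMap A (pointRing F (pointIdeal O red hred Vs hA)) t} ∧
      UniqueFactorizationMonoid (pointRing F (pointIdeal O red hred Vs hA)) := by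
  have hv := vertIdeal_eq_span O red hred Vs hA hAO d hd0 hdO hd h u s n hn hcert hh hs hu
  have hm : maximalIdeal (pointRing F (pointIdeal O red hred Vs hA)) =
      Ideal.span {algebraMap A (pointRing F (pointIdeal O red hred Vs hA)) d,
        algebraMap A (pointRing F (pointIdeal O red hred Vs hA)) t} := by
    rw [maximalIdeal_eq_vertIdeal_sup O red hred Vs hA hAO hlift
      (algebraMap A (pointRing F (pointIdeal O red hred Vs hA)) t) ht' ht, hv,
      Ideal.span_insert]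
  have hinj : Function.Injective (algebraMap A (pointRing F (pointIdeal O red hred Vs hA))) :=
    IsLocalization.injective _ (pointIdeal O red hred Vs hA).primeCompl_le_nonZeroDivisors
  have hdR0 : algebraMap A (pointRing F (pointIdeal O red hred Vs hA)) d ≠ 0 := fun h0 =>
    hd0 (hinj (by rw [h0, map_zero]))
  exact ⟨hv, hm, ufm_of_maximalIdeal_eq_span_pair hm
    (two_le_height_maximalIdeal_pointRing O red hred Vs hA
      (algebraMap A (pointRing F (pointIdeal O red hred Vs hA)) d)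
      (algebraMap A (pointRing F (pointIdeal O red hred Vs hA)) t) hdR0 hdO ht' ht0)⟩

end Certificate

section Three

variable {B F κ : Type*} [CommRing B] [IsDomain B] [Field F] [Algebra B F] [IsFractionRing B F]
  [Field κ]

/-- **The interface of the valuation layer (V3) and of (LIFT)** for the three components
`O 0 = O_inf`, `O 1 = O_mid`, `O 2 = O_0` of the special fibre of a chart `B` (for CAR: the
integral closure of `W[J₀]`, or of `W[1/J₀]`, in `F = K₀·F_M`), `q` the residue characteristic. -/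
structure V3Base (O : Fin 3 → ValuationSubring F) (red : ∀ i, O i →+* κ)
    (hred : ∀ i, ∀ x : O i, red i x = 0 ↔ x ∈ maximalIdeal (O i))
    (hBO : ∀ i, ∀ b : B, algebraMap B F b ∈ O i) (q : B) : Prop where
  /-- `q ≠ 0` in `B`. -/
  q_ne : q ≠ 0
  /-- "exactly three": the primes of `B` minimal over `(q)` are centres of the components. -/
  hmin : ∀ 𝔮 ∈ (Ideal.span {q}).minimalPrimes, ∃ i, 𝔮 = centre (O i) (hBO i)
  /-- no component is a closed point. -/
  not_max : ∀ i, ¬ (centre (O i) (hBO i)).IsMaximal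
  /-- `q` vanishes on every component. -/
  q_mem : ∀ i, algebraMap B F q ∈ (O i).nonunits
  /-- `q` is a uniformiser of `O_inf`. -/
  unif_inf : ∀ z ∈ (O 0).nonunits, z / algebraMap B F q ∈ O 0
  /-- `q` is a uniformiser of `O_0`. -/
  unif_zero : ∀ z ∈ (O 2).nonunits, z / algebraMap B F q ∈ O 2
  /-- (LIFT): every valuation ring `Vs ≠ ⊤` of `κ` containing the reduction of `B` on a
  component is a localisation of that reduction. -/
  lift : ∀ i, ∀ Vs : ValuationSubring κ, Vs ≠ ⊤ →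
    (∀ b : B, redOn (O i) (red i) (hBO i) b ∈ Vs) →
    ∀ c ∈ Vs, ∃ a b : B, redOn (O i) (red i) (hBO i) b ∉ Vs.nonunits ∧
      redOn (O i) (red i) (hBO i) a = c * redOn (O i) (red i) (hBO i) b

/-- **The vertical functions** of the finite chart, which control the meeting locus of the
components.  For CAR (level `q² M'`): `u = Δ(qz)² / (Δ(z) Δ(q²z))` (valuation vector
`(0, 12, 0)`), `u₁ = Δ(z)/Δ(qz)` (`(0, 0, 12)`), `v₁ = q¹² Δ(q²z)/Δ(qz)` (`(12, 0, 0)`),
`N = 12`, `e = q - 1`; `red_inf u₁ = red_0 v₁ = Δ̄^(1-q)`. -/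
structure V3Meet (O : Fin 3 → ValuationSubring F) (red : ∀ i, O i →+* κ)
    (hBO : ∀ i, ∀ b : B, algebraMap B F b ∈ O i) (q u u₁ v₁ : B) (N e : ℕ) : Prop where
  e_ne : e ≠ 0
  /-- `u`, `u₁`, `v₁` are vertical: their product is a power of `q`. -/
  prod : u * u₁ * v₁ = q ^ N
  /-- `u` vanishes on `C_mid`. -/
  u_mid : redOn (O 1) (red 1) (hBO 1) u = 0
  /-- on `C_inf`, `u` reduces to the `e`-th power of the reduction of `u₁`. -/
  u_inf : redOn (O 0) (red 0) (hBO 0) u = redOn (O 0) (red 0) (hBO 0) u₁ ^ e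
  /-- on `C_0`, `u` reduces to the `e`-th power of the reduction of `v₁`. -/
  u_zero : redOn (O 2) (red 2) (hBO 2) u = redOn (O 2) (red 2) (hBO 2) v₁ ^ e
  u₁_inf : redOn (O 0) (red 0) (hBO 0) u₁ ≠ 0
  u₁_mid : redOn (O 1) (red 1) (hBO 1) u₁ ≠ 0
  u₁_zero : redOn (O 2) (red 2) (hBO 2) u₁ = 0
  v₁_inf : redOn (O 0) (red 0) (hBO 0) v₁ = 0
  v₁_mid : redOn (O 1) (red 1) (hBO 1) v₁ ≠ 0
  v₁_zero : redOn (O 2) (red 2) (hBO 2) v₁ ≠ 0

/-- **A certificate at a point `𝔪` of `C_mid`**: `d` a uniformiser of `O_mid`, `u` a function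
which is vertical near `𝔪` (`u * u' = s' * q ^ N`) and does not vanish on the other components
through `𝔪`, and `h * u = s * d ^ n` with `h`, `s`, `s'` units at `𝔪`.

For CAR, finite chart, `J̄(s) ∉ {0, 1728}`: `d = J₂ - J₀`, `u` as in `V3Meet`, `u' = u₁ v₁`,
`s = s' = 1`, `n = 12 (q - 1)`, `h = d ^ n / u` with `red_mid h = (J̄⁸ (J̄ - 1728)⁶) ^ (q - 1)`.
At the elliptic points (good auxiliary level): `d = d_t = π₂^* t - π₀^* t`.  At the cusps of
`C_mid` (chart at infinity): `d = 1 - J₀/J₂`, `u` a numerator of `u · J₀ ^ (2 (q - 1))`. -/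
structure MidCert (O : Fin 3 → ValuationSubring F) (hBO : ∀ i, ∀ b : B, algebraMap B F b ∈ O i)
    (q : B) (𝔪 : Ideal B) (d h s u u' s' : B) (n N : ℕ) : Prop where
  n_ne : n ≠ 0
  /-- `d` vanishes on `C_mid`. -/
  d_mem : algebraMap B F d ∈ (O 1).nonunits
  /-- `d` is a uniformiser of `O_mid`. -/
  unif : ∀ z ∈ (O 1).nonunits, z / algebraMap B F d ∈ O 1
  /-- the certificate. -/
  cert : h * u = s * d ^ n
  /-- `u` is vertical near `𝔪`. -/
  vert : u * u' = s' * q ^ N
  h_notMem : h ∉ 𝔪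
  s_notMem : s ∉ 𝔪
  s'_notMem : s' ∉ 𝔪
  /-- `u` does not vanish on `C_inf` (if `C_inf` passes through `𝔪`). -/
  u_inf : centre (O 0) (hBO 0) ≤ 𝔪 → u ∉ centre (O 0) (hBO 0)
  /-- `u` does not vanish on `C_0` (if `C_0` passes through `𝔪`). -/
  u_zero : centre (O 2) (hBO 2) ≤ 𝔪 → u ∉ centre (O 2) (hBO 2)
  /-- the complementary vertical function `u'` does not vanish on `C_mid`. -/
  u'_mid : u' ∉ centre (O 1) (hBO 1)

namespace MidCert

variable {O : Fin 3 → ValuationSubring F} {hBO : ∀ i, ∀ b : B, algebraMap B F b ∈ O i} {q : B}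
  {𝔪 : Ideal B} {d h s u u' s' : B} {n N : ℕ}

omit [IsDomain B] [IsFractionRing B F] in
/-- The multiplicity of `C_mid` is bounded: `q ^ N` divides `d ^ n` in `O_mid`. -/
theorem pow_div_mem (C : MidCert O hBO q 𝔪 d h s u u' s' n N) (hq0 : q ≠ 0)
    (hinj : Function.Injective (algebraMap B F)) (h1 : centre (O 1) (hBO 1) ≤ 𝔪) :
    algebraMap B F d ^ n / algebraMap B F q ^ N ∈ O 1 := by
  have hs1 : (algebraMap B F s)⁻¹ ∈ O 1 := inv_mem_of_not_mem_nonunits (O 1)
    (fun hc => C.s_notMem (h1 ((mem_centre_iff (O 1) (hBO 1) s).2 hc)))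
  have hu1 : (algebraMap B F u')⁻¹ ∈ O 1 := inv_mem_of_not_mem_nonunits (O 1)
    (fun hc => C.u'_mid ((mem_centre_iff (O 1) (hBO 1) u').2 hc))
  have hne : ∀ a : B, a ≠ 0 → algebraMap B F a ≠ 0 := fun a ha h0 =>
    ha (hinj (by rw [h0, map_zero]))
  have hs0 : algebraMap B F s ≠ 0 := hne s (fun h0 => C.s_notMem (by rw [h0]; exact 𝔪.zero_mem))
  have hu0 : algebraMap B F u' ≠ 0 := hne u' (fun h0 => C.u'_mid (by rw [h0]; exact Ideal.zero_mem _))
  have hq0' : algebraMap B F q ≠ 0 := hne q hq0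
  have key : algebraMap B F s * algebraMap B F d ^ n * algebraMap B F u' =
      algebraMap B F h * algebraMap B F s' * algebraMap B F q ^ N := by
    rw [← map_pow, ← map_pow, ← map_mul, ← map_mul, ← map_mul, ← map_mul, ← C.cert, mul_assoc,
      C.vert, mul_assoc]
  have heq : algebraMap B F d ^ n / algebraMap B F q ^ N =
      algebraMap B F h * algebraMap B F s' * (algebraMap B F s)⁻¹ * (algebraMap B F u')⁻¹ := by
    field_simp
    linear_combination key
  rw [heq]
  exact (O 1).mul_mem _ _ ((O 1).mul_mem _ _ ((O 1).mul_mem _ _ (hBO 1 h) (hBO 1 s')) hs1) hu1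

end MidCert

namespace V3Meet

variable {O : Fin 3 → ValuationSubring F} {red : ∀ i, O i →+* κ}
  {hred : ∀ i, ∀ x : O i, red i x = 0 ↔ x ∈ maximalIdeal (O i)}
  {hBO : ∀ i, ∀ b : B, algebraMap B F b ∈ O i} {q u u₁ v₁ : B} {N e : ℕ}

include hred

omit [IsDomain B] [IsFractionRing B F] in
theorem u_notMem_inf (H : V3Meet O red hBO q u u₁ v₁ N e) : u ∉ centre (O 0) (hBO 0) := by
  rw [← redOn_eq_zero_iff (O 0) (red 0) (hred 0) (hBO 0), H.u_inf]
  exact pow_ne_zero _ H.u₁_inf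

omit [IsDomain B] [IsFractionRing B F] in
theorem u_notMem_zero (H : V3Meet O red hBO q u u₁ v₁ N e) : u ∉ centre (O 2) (hBO 2) := by
  rw [← redOn_eq_zero_iff (O 2) (red 2) (hred 2) (hBO 2), H.u_zero]
  exact pow_ne_zero _ H.v₁_zero

omit [IsDomain B] [IsFractionRing B F] in
theorem u_mem_mid (H : V3Meet O red hBO q u u₁ v₁ N e) : u ∈ centre (O 1) (hBO 1) :=
  (redOn_eq_zero_iff (O 1) (red 1) (hred 1) (hBO 1) u).1 H.u_mid

omit [IsDomain B] [IsFractionRing B F] in
/-- `u - u₁ ^ e` vanishes on `C_inf`. -/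
theorem sub_mem_inf (H : V3Meet O red hBO q u u₁ v₁ N e) :
    u - u₁ ^ e ∈ centre (O 0) (hBO 0) := by
  rw [← redOn_eq_zero_iff (O 0) (red 0) (hred 0) (hBO 0), map_sub, map_pow, H.u_inf, sub_self]

omit [IsDomain B] [IsFractionRing B F] in
/-- `u - v₁ ^ e` vanishes on `C_0`. -/
theorem sub_mem_zero (H : V3Meet O red hBO q u u₁ v₁ N e) :
    u - v₁ ^ e ∈ centre (O 2) (hBO 2) := by
  rw [← redOn_eq_zero_iff (O 2) (red 2) (hred 2) (hBO 2), map_sub, map_pow, H.u_zero, sub_self]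

variable [IsNoetherianRing B]

omit [IsFractionRing B F] in
/-- **(I-3), first case**: a point of `C_inf ∩ C_0` lies on `C_mid`. -/
theorem mid_le_of_inf_zero (H : V3Meet O red hBO q u u₁ v₁ N e) (hq0 : q ≠ 0)
    (hmin : ∀ 𝔮 ∈ (Ideal.span {q}).minimalPrimes, ∃ i, 𝔮 = centre (O i) (hBO i))
    (P : Ideal B) [hP : P.IsPrime] (h0 : centre (O 0) (hBO 0) ≤ P)
    (h2 : centre (O 2) (hBO 2) ≤ P) : centre (O 1) (hBO 1) ≤ P := by
  have hu₁ : u₁ ∈ P := h2 ((redOn_eq_zero_iff (O 2) (red 2) (hred 2) (hBO 2) u₁).1 H.u₁_zero)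
  have hu : u ∈ P := by
    have h1 : u = (u - u₁ ^ e) + u₁ ^ e := by ring
    rw [h1]
    exact P.add_mem (h0 (H.sub_mem_inf (hred := hred)))
      (P.pow_mem_of_mem hu₁ e (Nat.pos_of_ne_zero H.e_ne))
  refine centre_le_of_mem O hBO P hq0 hmin (u := u) (u' := u₁ * v₁) (s' := 1) (N := N)
    (by rw [← mul_assoc, one_mul]; exact H.prod) (fun h1 => hP.ne_top ((Ideal.eq_top_iff_one P).2 h1))
    1 ?_ hu
  intro i hi
  fin_cases i
  · exact H.u_notMem_inf (hred := hred)
  · exact absurd rfl hi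
  · exact H.u_notMem_zero (hred := hred)

omit [IsFractionRing B F] in
/-- **(I-3), second case**: a point of `C_mid ∩ C_inf` lies on `C_0`. -/
theorem zero_le_of_mid_inf (H : V3Meet O red hBO q u u₁ v₁ N e) (hq0 : q ≠ 0)
    (hmin : ∀ 𝔮 ∈ (Ideal.span {q}).minimalPrimes, ∃ i, 𝔮 = centre (O i) (hBO i))
    (P : Ideal B) [hP : P.IsPrime] (h1 : centre (O 1) (hBO 1) ≤ P)
    (h0 : centre (O 0) (hBO 0) ≤ P) : centre (O 2) (hBO 2) ≤ P := by
  have hu : u ∈ P := h1 (H.u_mem_mid (hred := hred))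
  have hu₁ : u₁ ∈ P := by
    have h3 : u₁ ^ e = u - (u - u₁ ^ e) := by ring
    have h4 : u₁ ^ e ∈ P := by
      rw [h3]; exact P.sub_mem hu (h0 (H.sub_mem_inf (hred := hred)))
    exact hP.mem_of_pow_mem e h4
  refine centre_le_of_mem O hBO P hq0 hmin (u := u₁) (u' := u * v₁) (s' := 1) (N := N)
    (by rw [← H.prod]; ring) (fun h1 => hP.ne_top ((Ideal.eq_top_iff_one P).2 h1)) 2 ?_ hu₁
  intro i hi
  fin_cases i
  · exact fun hc => H.u₁_inf ((redOn_eq_zero_iff (O 0) (red 0) (hred 0) (hBO 0) u₁).2 hc)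
  · exact fun hc => H.u₁_mid ((redOn_eq_zero_iff (O 1) (red 1) (hred 1) (hBO 1) u₁).2 hc)
  · exact absurd rfl hi

omit [IsFractionRing B F] in
/-- **(I-3), third case**: a point of `C_mid ∩ C_0` lies on `C_inf`. -/
theorem inf_le_of_mid_zero (H : V3Meet O red hBO q u u₁ v₁ N e) (hq0 : q ≠ 0)
    (hmin : ∀ 𝔮 ∈ (Ideal.span {q}).minimalPrimes, ∃ i, 𝔮 = centre (O i) (hBO i))
    (P : Ideal B) [hP : P.IsPrime] (h1 : centre (O 1) (hBO 1) ≤ P)
    (h2 : centre (O 2) (hBO 2) ≤ P) : centre (O 0) (hBO 0) ≤ P := by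
  have hu : u ∈ P := h1 (H.u_mem_mid (hred := hred))
  have hv₁ : v₁ ∈ P := by
    have h3 : v₁ ^ e = u - (u - v₁ ^ e) := by ring
    have h4 : v₁ ^ e ∈ P := by
      rw [h3]; exact P.sub_mem hu (h2 (H.sub_mem_zero (hred := hred)))
    exact hP.mem_of_pow_mem e h4
  refine centre_le_of_mem O hBO P hq0 hmin (u := v₁) (u' := u * u₁) (s' := 1) (N := N)
    (by rw [← H.prod]; ring) (fun h1 => hP.ne_top ((Ideal.eq_top_iff_one P).2 h1)) 0 ?_ hv₁
  intro i hi
  fin_cases i
  · exact absurd rfl hi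
  · exact fun hc => H.v₁_mid ((redOn_eq_zero_iff (O 1) (red 1) (hred 1) (hBO 1) v₁).2 hc)
  · exact fun hc => H.v₁_zero ((redOn_eq_zero_iff (O 2) (red 2) (hred 2) (hBO 2) v₁).2 hc)

omit [IsNoetherianRing B] [IsDomain B] [IsFractionRing B F] in
/-- A global certificate `h * u = d ^ n` (with `u` the vertical function of `V3Meet`) is a
certificate at every point where `h` does not vanish. -/
theorem midCert (H : V3Meet O red hBO q u u₁ v₁ N e) {d h : B} {n : ℕ} (hn : n ≠ 0)
    (hd : algebraMap B F d ∈ (O 1).nonunits)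
    (hunif : ∀ z ∈ (O 1).nonunits, z / algebraMap B F d ∈ O 1) (hcert : h * u = d ^ n)
    (𝔪 : Ideal B) (h𝔪 : 𝔪 ≠ ⊤) (hh : h ∉ 𝔪) :
    MidCert O hBO q 𝔪 d h 1 u (u₁ * v₁) 1 n N where
  n_ne := hn
  d_mem := hd
  unif := hunif
  cert := by rw [one_mul]; exact hcert
  vert := by rw [← mul_assoc, one_mul]; exact H.prod
  h_notMem := hh
  s_notMem := fun h1 => h𝔪 ((Ideal.eq_top_iff_one 𝔪).2 h1)
  s'_notMem := fun h1 => h𝔪 ((Ideal.eq_top_iff_one 𝔪).2 h1)
  u_inf := fun _ => H.u_notMem_inf (hred := hred)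
  u_zero := fun _ => H.u_notMem_zero (hred := hred)
  u'_mid := fun hc => by
    rcases (centre_isPrime (O 1) (hBO 1)).mem_or_mem hc with h1 | h1
    · exact H.u₁_mid ((redOn_eq_zero_iff (O 1) (red 1) (hred 1) (hBO 1) u₁).2 h1)
    · exact H.v₁_mid ((redOn_eq_zero_iff (O 1) (red 1) (hred 1) (hBO 1) v₁).2 h1)

end V3Meet

namespace V3Base

variable {O : Fin 3 → ValuationSubring F} {red : ∀ i, O i →+* κ}
  {hred : ∀ i, ∀ x : O i, red i x = 0 ↔ x ∈ maximalIdeal (O i)}
  {hBO : ∀ i, ∀ b : B, algebraMap B F b ∈ O i} {q : B}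

omit [IsDomain B] [IsFractionRing B F] in
/-- **(I-1)**: every maximal ideal of `B` containing `q` is a point `(component, place)`. -/
theorem exists_point (H : V3Base O red hred hBO q) (𝔪 : Ideal B) [𝔪.IsMaximal] (hq : q ∈ 𝔪) :
    ∃ (i : Fin 3) (Vs : ValuationSubring κ)
      (hA : ∀ b : B, algebraMap B F b ∈ compositeSubring (O i) (red i) (hred i) Vs),
      centre (O i) (hBO i) ≤ 𝔪 ∧ pointIdeal (O i) (red i) (hred i) Vs hA = 𝔪 := by
  obtain ⟨i, hi⟩ := exists_centre_le_of_mem O hBO q H.hmin 𝔪 hq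
  obtain ⟨Vs, hA, hP⟩ :=
    exists_pointIdeal_eq_of_isMaximal (O i) (red i) (hred i) (hBO i) 𝔪 hi
  exact ⟨i, Vs, hA, hi, hP⟩

omit [IsDomain B] [IsFractionRing B F] in
/-- The place of a closed point is not the trivial valuation ring. -/
theorem ne_top_of_isMaximal (H : V3Base O red hred hBO q) (i : Fin 3)
    (Vs : ValuationSubring κ)
    (hA : ∀ b : B, algebraMap B F b ∈ compositeSubring (O i) (red i) (hred i) Vs)
    (hmax : (pointIdeal (O i) (red i) (hred i) Vs hA).IsMaximal) : Vs ≠ ⊤ := by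
  intro htop
  apply H.not_max i
  have heq : pointIdeal (O i) (red i) (hred i) Vs hA = centre (O i) (hBO i) := by
    refine le_antisymm (fun a ha => ?_) (centre_le_pointIdeal (O i) (red i) (hred i) (hBO i) Vs hA)
    rw [mem_pointIdeal_iff_redOn (O i) (red i) (hred i) (hBO i) Vs hA,
      ValuationSubring.mem_nonunits_iff_or] at ha
    rcases ha with ha | ha
    · exact (redOn_eq_zero_iff (O i) (red i) (hred i) (hBO i) a).1 ha
    · exact absurd (htop ▸ ValuationSubring.mem_top _) ha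
  rw [← heq]
  exact hmax

omit [IsDomain B] [IsFractionRing B F] in
/-- (LIFT) at a closed point. -/
theorem lift_point (H : V3Base O red hred hBO q) (i : Fin 3) (Vs : ValuationSubring κ)
    (hA : ∀ b : B, algebraMap B F b ∈ compositeSubring (O i) (red i) (hred i) Vs)
    (hmax : (pointIdeal (O i) (red i) (hred i) Vs hA).IsMaximal) :
    ∀ c ∈ Vs, ∃ a b : B, redOn (O i) (red i) (hBO i) b ∉ Vs.nonunits ∧
      redOn (O i) (red i) (hBO i) a = c * redOn (O i) (red i) (hBO i) b :=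
  H.lift i Vs (H.ne_top_of_isMaximal i Vs hA hmax) (fun b =>
    (algebraMap_mem_compositeSubring_iff (O i) (red i) (hred i) (hBO i) Vs b).1 (hA b))

variable [IsNoetherianRing B]

omit [IsDomain B] [IsFractionRing B F] in
/-- At a closed point `(O i, s)` there is `t ∈ B` whose reduction is a uniformiser of `Vs`. -/
theorem exists_unif (H : V3Base O red hred hBO q) (i : Fin 3) (Vs : ValuationSubring κ)
    (hA : ∀ b : B, algebraMap B F b ∈ compositeSubring (O i) (red i) (hred i) Vs)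
    (hmax : (pointIdeal (O i) (red i) (hred i) Vs hA).IsMaximal) :
    ∃ t : B, redOn (O i) (red i) (hBO i) t ∈ Vs.nonunits ∧
      redOn (O i) (red i) (hBO i) t ≠ 0 ∧
      ∀ v ∈ Vs.nonunits, ∃ w ∈ Vs, v = redOn (O i) (red i) (hBO i) t * w := by
  obtain ⟨t, ht, hunif⟩ := exists_unif_of_lift (O i) (red i) (hred i) (hBO i) Vs hA
    (H.lift_point i Vs hA hmax)
  refine ⟨t, ht, fun h0 => H.not_max i ?_, hunif⟩
  have heq : pointIdeal (O i) (red i) (hred i) Vs hA = centre (O i) (hBO i) := by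
    refine le_antisymm (fun a ha => ?_) (centre_le_pointIdeal (O i) (red i) (hred i) (hBO i) Vs hA)
    rw [mem_pointIdeal_iff_redOn (O i) (red i) (hred i) (hBO i) Vs hA] at ha
    obtain ⟨w, -, hw⟩ := hunif _ ha
    rw [h0, zero_mul] at hw
    exact (redOn_eq_zero_iff (O i) (red i) (hred i) (hBO i) a).1 hw
  rw [← heq]
  exact hmax

variable [IsIntegrallyClosed B]

/-- **(I-2), points of `C_mid`**: at a closed point `(mid, s)` with a certificate, the vertical
prime is `(d)`, the maximal ideal is `(d, t)` and the local ring is factorial. -/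
theorem regular_mid (H : V3Base O red hred hBO q) (Vs : ValuationSubring κ)
    (hA : ∀ b : B, algebraMap B F b ∈ compositeSubring (O 1) (red 1) (hred 1) Vs)
    (hmax : (pointIdeal (O 1) (red 1) (hred 1) Vs hA).IsMaximal)
    {d h s u u' s' : B} {n N : ℕ}
    (C : MidCert O hBO q (pointIdeal (O 1) (red 1) (hred 1) Vs hA) d h s u u' s' n N) :
    ∃ t : B, redOn (O 1) (red 1) (hBO 1) t ∈ Vs.nonunits ∧
      (∀ v ∈ Vs.nonunits, ∃ w ∈ Vs, v = redOn (O 1) (red 1) (hBO 1) t * w) ∧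
      vertIdeal (O 1) (red 1) (hred 1) Vs hA =
        Ideal.span {algebraMap B (pointRing F (pointIdeal (O 1) (red 1) (hred 1) Vs hA)) d} ∧
      maximalIdeal (pointRing F (pointIdeal (O 1) (red 1) (hred 1) Vs hA)) =
        Ideal.span {algebraMap B (pointRing F (pointIdeal (O 1) (red 1) (hred 1) Vs hA)) d,
          algebraMap B (pointRing F (pointIdeal (O 1) (red 1) (hred 1) Vs hA)) t} ∧
      UniqueFactorizationMonoid (pointRing F (pointIdeal (O 1) (red 1) (hred 1) Vs hA)) := by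
  obtain ⟨t, ht, ht0, hunif⟩ := H.exists_unif 1 Vs hA hmax
  have hd0 : d ≠ 0 := by
    intro h0
    have h1 : h * u = 0 := by rw [C.cert, h0, zero_pow C.n_ne, mul_zero]
    rcases mul_eq_zero.1 h1 with h2 | h2
    · exact C.h_notMem (by rw [h2]; exact Ideal.zero_mem _)
    · have h3 : s' * q ^ N = 0 := by rw [← C.vert, h2, zero_mul]
      rcases mul_eq_zero.1 h3 with h4 | h4
      · exact C.s'_notMem (by rw [h4]; exact Ideal.zero_mem _)
      · exact H.q_ne (eq_zero_of_pow_eq_zero h4)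
  have hu := minimalPrimes_le_eq_centre O hBO (pointIdeal (O 1) (red 1) (hred 1) Vs hA)
    H.q_ne H.hmin C.vert C.s'_notMem 1
    (by
      intro i hi hle
      fin_cases i
      · exact C.u_inf hle
      · exact absurd rfl hi
      · exact C.u_zero hle)
  have hlift := H.lift_point 1 Vs hA hmax
  have hh' : redOn (O 1) (red 1) (hBO 1) h ∉ Vs.nonunits := fun hc =>
    C.h_notMem ((mem_pointIdeal_iff_redOn (O 1) (red 1) (hred 1) (hBO 1) Vs hA h).2 hc)
  have hs' : redOn (O 1) (red 1) (hBO 1) s ∉ Vs.nonunits := fun hc =>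
    C.s_notMem ((mem_pointIdeal_iff_redOn (O 1) (red 1) (hred 1) (hBO 1) Vs hA s).2 hc)
  obtain ⟨hv, hm, hufm⟩ := pointRing_regular_of_certificate (O 1) (red 1) (hred 1) Vs hA
    (hBO 1) hlift d t hd0 C.d_mem C.unif ht ht0 hunif h u s n C.n_ne C.cert hh' hs' hu
  exact ⟨t, ht, hunif, hv, hm, hufm⟩

/-- **(I-2), points off the other components**: at a closed point `(O i, s)`, `i ≠ mid`, through
which no other component passes, the vertical prime is `(q)`, the maximal ideal is `(q, t)` and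
the local ring is factorial. -/
theorem regular_single (H : V3Base O red hred hBO q) (i : Fin 3) (hi1 : i ≠ 1)
    (Vs : ValuationSubring κ)
    (hA : ∀ b : B, algebraMap B F b ∈ compositeSubring (O i) (red i) (hred i) Vs)
    (hmax : (pointIdeal (O i) (red i) (hred i) Vs hA).IsMaximal)
    (hi : ∀ j, j ≠ i → ¬ centre (O j) (hBO j) ≤ pointIdeal (O i) (red i) (hred i) Vs hA) :
    ∃ t : B, redOn (O i) (red i) (hBO i) t ∈ Vs.nonunits ∧
      (∀ v ∈ Vs.nonunits, ∃ w ∈ Vs, v = redOn (O i) (red i) (hBO i) t * w) ∧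
      vertIdeal (O i) (red i) (hred i) Vs hA =
        Ideal.span {algebraMap B (pointRing F (pointIdeal (O i) (red i) (hred i) Vs hA)) q} ∧
      maximalIdeal (pointRing F (pointIdeal (O i) (red i) (hred i) Vs hA)) =
        Ideal.span {algebraMap B (pointRing F (pointIdeal (O i) (red i) (hred i) Vs hA)) q,
          algebraMap B (pointRing F (pointIdeal (O i) (red i) (hred i) Vs hA)) t} ∧
      UniqueFactorizationMonoid (pointRing F (pointIdeal (O i) (red i) (hred i) Vs hA)) := by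
  obtain ⟨t, ht, ht0, hunif⟩ := H.exists_unif i Vs hA hmax
  have hd : ∀ z ∈ (O i).nonunits, z / algebraMap B F q ∈ O i := by
    have h02 : i = 0 ∨ i = 2 := by
      fin_cases i
      · exact Or.inl rfl
      · exact absurd rfl hi1
      · exact Or.inr rfl
    rcases h02 with rfl | rfl
    · exact H.unif_inf
    · exact H.unif_zero
  have hu : ∀ 𝔮 ∈ (Ideal.span {q}).minimalPrimes,
      𝔮 ≤ pointIdeal (O i) (red i) (hred i) Vs hA → 𝔮 = centre (O i) (hBO i) := by
    intro 𝔮 h𝔮 hle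
    obtain ⟨j, rfl⟩ := H.hmin 𝔮 h𝔮
    by_cases hj : j = i
    · rw [hj]
    · exact absurd hle (hi j hj)
  have hlift := H.lift_point i Vs hA hmax
  have hh' : redOn (O i) (red i) (hBO i) (1 : B) ∉ Vs.nonunits := by
    rw [map_one, ValuationSubring.mem_nonunits_iff, map_one]
    exact lt_irrefl 1
  obtain ⟨hv, hm, hufm⟩ := pointRing_regular_of_certificate (O i) (red i) (hred i) Vs hA
    (hBO i) hlift q t H.q_ne (H.q_mem i) hd ht ht0 hunif 1 q 1 1 one_ne_zero
    (by rw [one_mul, one_mul, pow_one]) hh' hh' hu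
  exact ⟨t, ht, hunif, hv, hm, hufm⟩

omit [IsNoetherianRing B] [IsIntegrallyClosed B] [IsDomain B] [IsFractionRing B F] in
/-- The primes minimal over `(q ^ M)`, `M ≠ 0`, are centres of the components. -/
theorem hmin_pow (H : V3Base O red hred hBO q) {M : ℕ} (hM : M ≠ 0) :
    ∀ 𝔮 ∈ (Ideal.span {q ^ M}).minimalPrimes, ∃ i, 𝔮 = centre (O i) (hBO i) := by
  intro 𝔮 h𝔮
  apply H.hmin
  have hprime : 𝔮.IsPrime := h𝔮.1.1
  refine ⟨⟨hprime, ?_⟩, ?_⟩
  · rw [Ideal.span_singleton_le_iff_mem]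
    exact hprime.mem_of_pow_mem M (h𝔮.1.2 (Ideal.mem_span_singleton_self _))
  · rintro 𝔮' ⟨h𝔮', hq𝔮'⟩ hle'
    refine h𝔮.2 ⟨h𝔮', ?_⟩ hle'
    rw [Ideal.span_singleton_le_iff_mem]
    exact Ideal.pow_mem_of_mem _ ((Ideal.span_singleton_le_iff_mem 𝔮').1 hq𝔮') M
      (Nat.pos_of_ne_zero hM)

/-- **Saturation** (algebraic Hartogs): an element `z` of `F` lying in the three components and
such that `q ^ M * z ∈ B` lies in `B`. -/
theorem mem_range_of_forall_mem (H : V3Base O red hred hBO q) (z : F) (M : ℕ) (a : B)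
    (ha : algebraMap B F a = algebraMap B F q ^ M * z) (hz : ∀ i, z ∈ O i) :
    z ∈ (algebraMap B F).range := by
  have hinj : Function.Injective (algebraMap B F) := IsFractionRing.injective B F
  have hqF : algebraMap B F q ≠ 0 := fun h0 => H.q_ne (hinj (by rw [h0, map_zero]))
  by_cases hM : M = 0
  · exact ⟨a, by rw [ha, hM, pow_zero, one_mul]⟩
  have hmem : a ∈ Ideal.span {q ^ M} := by
    refine mem_span_singleton_of_forall_valuationSubring (F := F) (pow_ne_zero M H.q_ne) ?_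
    intro 𝔮 h𝔮
    obtain ⟨i, rfl⟩ := H.hmin_pow hM 𝔮 h𝔮
    refine ⟨O i, hBO i, fun r hr => (mem_centre_iff (O i) (hBO i) r).1 hr,
      fun r hr => (mem_centre_iff (O i) (hBO i) r).2 hr, ?_⟩
    rw [ha, map_pow, mul_div_cancel_left₀ _ (pow_ne_zero M hqF)]
    exact hz i
  obtain ⟨c, rfl⟩ := Ideal.mem_span_singleton.1 hmem
  refine ⟨c, ?_⟩
  rw [map_mul, map_pow] at ha
  exact mul_left_cancel₀ (pow_ne_zero M hqF) ha

/-- **Theorem (L) at a closed point of a chart**: the local ring of `B` at a maximal ideal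
`𝔪 ∋ q` is factorial, provided there is a certificate at `𝔪` when `𝔪` lies on `C_mid`, and only
one component passes through `𝔪` otherwise. -/
theorem ufm_of_cert (H : V3Base O red hred hBO q) (𝔪 : Ideal B) [h𝔪 : 𝔪.IsMaximal]
    (hq : q ∈ 𝔪)
    (hcert : centre (O 1) (hBO 1) ≤ 𝔪 →
      ∃ (d h s u u' s' : B) (n N : ℕ), MidCert O hBO q 𝔪 d h s u u' s' n N)
    (hoff : ¬ centre (O 1) (hBO 1) ≤ 𝔪 → ∀ i j, centre (O i) (hBO i) ≤ 𝔪 →
      centre (O j) (hBO j) ≤ 𝔪 → i = j) :
    UniqueFactorizationMonoid (pointRing F 𝔪) := by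
  by_cases h1 : centre (O 1) (hBO 1) ≤ 𝔪
  · obtain ⟨d, h, s, u, u', s', n, N, C⟩ := hcert h1
    obtain ⟨Vs, hA, hP⟩ :=
      exists_pointIdeal_eq_of_isMaximal (O 1) (red 1) (hred 1) (hBO 1) 𝔪 h1
    subst hP
    obtain ⟨t, -, -, -, -, hufm⟩ := H.regular_mid Vs hA h𝔪 C
    exact hufm
  · obtain ⟨i, hi⟩ := exists_centre_le_of_mem O hBO q H.hmin 𝔪 hq
    have hi1 : i ≠ 1 := fun hc => h1 (hc ▸ hi)
    have hoth : ∀ j, j ≠ i → ¬ centre (O j) (hBO j) ≤ 𝔪 := fun j hj hle =>
      hj (hoff h1 j i hle hi)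
    obtain ⟨Vs, hA, hP⟩ :=
      exists_pointIdeal_eq_of_isMaximal (O i) (red i) (hred i) (hBO i) 𝔪 hi
    subst hP
    obtain ⟨t, -, -, -, -, hufm⟩ := H.regular_single i hi1 Vs hA h𝔪 hoth
    exact hufm

/-- **Theorem (L), finite chart**: with the vertical functions of `V3Meet`, the local ring of
`B` at a maximal ideal `𝔪 ∋ q` is factorial as soon as there is a certificate at `𝔪` when `𝔪`
lies on `C_mid`. -/
theorem ufm_pointRing (H : V3Base O red hred hBO q) {u u₁ v₁ : B} {N e : ℕ}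
    (Hm : V3Meet O red hBO q u u₁ v₁ N e) (𝔪 : Ideal B) [h𝔪 : 𝔪.IsMaximal] (hq : q ∈ 𝔪)
    (hcert : centre (O 1) (hBO 1) ≤ 𝔪 →
      ∃ (d h s u u' s' : B) (n N : ℕ), MidCert O hBO q 𝔪 d h s u u' s' n N) :
    UniqueFactorizationMonoid (pointRing F 𝔪) := by
  refine H.ufm_of_cert 𝔪 hq hcert ?_
  intro h1 i j hi hj
  by_contra hij
  apply h1
  have hi1 : i ≠ 1 := fun hc => h1 (hc ▸ hi)
  have hj1 : j ≠ 1 := fun hc => h1 (hc ▸ hj)
  have h02 : (i = 0 ∧ j = 2) ∨ (i = 2 ∧ j = 0) := by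
    fin_cases i <;> fin_cases j <;> simp_all
  rcases h02 with ⟨rfl, rfl⟩ | ⟨rfl, rfl⟩
  · exact Hm.mid_le_of_inf_zero (hred := hred) H.q_ne H.hmin 𝔪 hi hj
  · exact Hm.mid_le_of_inf_zero (hred := hred) H.q_ne H.hmin 𝔪 hj hi

end V3Base

end Three

end Fermat.Agent.CAR.Local.Inst
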