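import Mathlib
import Fermat.Agent.CAR.Local.Inst
import Fermat.Agent.CAR.Local.LocalThm
import Fermat.Agent.CAR.Local.Inst.Meet

/-!
# CAR-17 (P-5): the cusps — regularity of the chart at infinity at the points over `x = ∞`

Abstract instance layer for the chart `B = B_∞` (for CAR: the integral closure of `W[x⁻¹]` in
`F = K₀·F_M`, `x = J₀·J₂`), in the vocabulary of `Inst.lean` (`V3Base`, `MidCert`): three
components `O 0 = O_inf`, `O 1 = O_mid`, `O 2 = O_0` with reductions `red i : O i → κ`.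

The cusp points are the maximal ideals of `B` containing `q` and `x⁻¹`.  Everything comes from
four "Kronecker quotients" (for CAR: `y₁ = J₁/J₀^q`, `y₂ = J₁/J₂^q`, `y₃ = J₂/J₀^(q²)`,
`y₀ = J₀/J₂^(q²)`, all in `B_∞`) and integral closedness:

* `V3Cusp` : the record of the reductions of `x⁻¹` and of the four quotients (each reduces to `1`
  or to a positive power of `yb = 1/J̄` on each component).
* `V3Cusp.not_centre_le`, `V3Cusp.eq_of_centre_le`, `V3Cusp.exists_point` : **at the cusps the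
  three components are disjoint** — the separators are `1 - y₂` (seen from `C_inf`), `1 - y₁`
  (seen from `C_0`), `1 - y₃` and `1 - y₀` (seen from `C_mid`).
* `mem_pointRing_of_pow_mul_eq` : a root of `w ^ m = y₂ / y₁`, `y₁` a unit at the point, lies in
  the local ring of the point (integral closedness).  For CAR: `w = J₀/J₂`.
* `exists_cert_of_local_unif` : a uniformiser `e` of the component lying in the local ring of the
  point, with `e ^ n / q ^ N` reducing to a unit at the place, has a numerator `d ∈ B` with a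
  certificate `h * q ^ N = s * d ^ n`, `h, s` units at the point.
* `V3CuspMid` : the record for the cusps of `C_mid` (`e = 1 - J₀/J₂`), and
  `V3CuspMid.exists_midCert` : the `MidCert` at every cusp of `C_mid`.
* `ufm_pointRing_cusp`, `regular_mid_cusp`, `regular_single_cusp`, `regular_cusp` : Theorem (L) at
  every cusp point.
-/

set_option autoImplicit false

namespace Fermat.Agent.CAR.Local.InstCusp

open IsLocalRing Fermat.Agent.CAR.Local Fermat.Agent.CAR.Local.Inst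

/-! ### 0. Valuation subrings -/

section Val

variable {κ : Type*} [Field κ] (Vs : ValuationSubring κ)

theorem one_notMem_nonunits : (1 : κ) ∉ Vs.nonunits := by
  rw [ValuationSubring.mem_nonunits_iff, map_one]
  exact lt_irrefl 1

theorem add_mem_nonunits {x y : κ} (hx : x ∈ Vs.nonunits) (hy : y ∈ Vs.nonunits) :
    x + y ∈ Vs.nonunits := by
  rw [ValuationSubring.mem_nonunits_iff] at *
  exact lt_of_le_of_lt (Vs.valuation.map_add _ _) (max_lt hx hy)

theorem mem_nonunits_of_pow_mem {y : κ} {a : ℕ} (h : y ^ a ∈ Vs.nonunits) : y ∈ Vs.nonunits := by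
  rw [ValuationSubring.mem_nonunits_iff] at *
  rw [map_pow] at h
  by_contra hc
  exact absurd h (not_lt.2 (one_le_pow₀ (not_lt.1 hc)))

theorem pow_mem_nonunits {y : κ} (hy : y ∈ Vs.nonunits) {b : ℕ} (hb : b ≠ 0) :
    y ^ b ∈ Vs.nonunits := by
  rw [ValuationSubring.mem_nonunits_iff] at *
  rw [map_pow]
  exact pow_lt_one₀ zero_le hy hb

theorem one_sub_notMem_nonunits {c : κ} (hc : c ∈ Vs.nonunits) : 1 - c ∉ Vs.nonunits := by
  intro h
  apply one_notMem_nonunits Vs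
  have h1 : (1 : κ) = (1 - c) + c := by ring
  rw [h1]
  exact add_mem_nonunits Vs h hc

theorem one_add_mul_notMem_nonunits {y a : κ} (hy : y ∈ Vs.nonunits) (ha : a ∈ Vs) :
    1 + y * a ∉ Vs.nonunits := by
  intro h
  apply one_notMem_nonunits Vs
  have h1 : (1 : κ) = (1 + y * a) + y * (-a) := by ring
  rw [h1]
  exact add_mem_nonunits Vs h (LThm.mul_mem_nonunits_of_mem Vs hy (Vs.neg_mem _ ha))

/-- **A unit at the cusps** ((Cu-5), abstract form): if `g ^ k * (1 + yb a) = 1 + yb b` with `a`,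
`b` regular at the place and `yb` vanishing there, then `g` is a unit at the place. -/
theorem notMem_nonunits_of_pow_mul_eq {g y a b : κ} {k : ℕ} (hk : k ≠ 0)
    (hy : y ∈ Vs.nonunits) (ha : a ∈ Vs) (hb : b ∈ Vs)
    (h : g ^ k * (1 + y * a) = 1 + y * b) : g ∉ Vs.nonunits := by
  intro hg
  apply one_add_mul_notMem_nonunits Vs hy hb
  rw [← h]
  refine LThm.mul_mem_nonunits_of_mem Vs (pow_mem_nonunits Vs hg hk) ?_
  exact Vs.add_mem _ _ Vs.one_mem (Vs.mul_mem _ _ (Vs.nonunits_subset hy) ha)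

end Val

/-! ### 1. (Cu-2): at the cusps the components are disjoint -/

section Sep

variable {B F κ : Type*} [CommRing B] [Field F] [Algebra B F] [Field κ] {ι : Type*}
  (O : ι → ValuationSubring F) (red : ∀ i, O i →+* κ)
  (hred : ∀ i, ∀ x : O i, red i x = 0 ↔ x ∈ maximalIdeal (O i))
  (hBO : ∀ i, ∀ b : B, algebraMap B F b ∈ O i)

/-- **One separator.**  If `y` reduces to `1` on the component `i` and to a non-unit of `Vs` on
the component `j`, then `1 - y` vanishes on `C_i` and is a unit at `(j, s)`: the component `i`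
does not pass through the point `(j, s)`. -/
theorem not_centre_le_pointIdeal_of_red_eq_one (i j : ι) (Vs : ValuationSubring κ)
    (hA : ∀ b : B, algebraMap B F b ∈ compositeSubring (O j) (red j) (hred j) Vs) {y : B}
    (hi : redOn (O i) (red i) (hBO i) y = 1)
    (hj : redOn (O j) (red j) (hBO j) y ∈ Vs.nonunits) :
    ¬ centre (O i) (hBO i) ≤ pointIdeal (O j) (red j) (hred j) Vs hA := by
  refine Inst.Meet.not_centre_le_pointIdeal_of_notMem O red hred hBO i j Vs hA (b := 1 - y) ?_ ?_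
  · rw [map_sub, map_one, hi, sub_self]
  · rw [map_sub, map_one]
    exact one_sub_notMem_nonunits Vs hj

end Sep

section Cusp

variable {B F κ : Type*} [CommRing B] [Field F] [Algebra B F] [Field κ]

/-- **The Kronecker quotients at the cusps** of the chart at infinity `B = B_∞`.  `yb ∈ κ` is the
local parameter at the cusps of the residue field (for CAR: `yb = 1/J̄`), `xinv` the inverse of
the chart function, and each of `y₀, y₁, y₂, y₃ ∈ B` reduces to `1` or to a positive power of `yb`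
on each component.

For CAR (`red_inf J_i = J̄^(q^i)`, `red_mid (J₀, J₁, J₂) = (J̄, J̄^q, J̄)`,
`red_0 J_i = J̄^(q^(2-i))`): `xinv = 1/(J₀ J₂)` reduces to `(yb^(1+q²), yb², yb^(1+q²))`,
`y₁ = J₁/J₀^q` to `(1, 1, yb^(q³-q))`, `y₂ = J₁/J₂^q` to `(yb^(q³-q), 1, 1)`,
`y₃ = J₂/J₀^(q²)` to `(1, yb^(q²-1), yb^(q⁴-1))`, `y₀ = J₀/J₂^(q²)` to
`(yb^(q⁴-1), yb^(q²-1), 1)`.  (The quotients `J₂/J₁^q`, `J₀/J₁^q` would have the same reductions
on the components used here but do NOT lie in `B_∞`: `J₁` vanishes at finite points of the chart.)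
-/
structure V3Cusp (O : Fin 3 → ValuationSubring F) (red : ∀ i, O i →+* κ)
    (hBO : ∀ i, ∀ b : B, algebraMap B F b ∈ O i) (xinv y₀ y₁ y₂ y₃ : B) (yb : κ) : Prop where
  /-- on each component `x⁻¹` reduces to a power of `yb`. -/
  xinv_red : ∀ i, ∃ a : ℕ, redOn (O i) (red i) (hBO i) xinv = yb ^ a
  y₁_inf : redOn (O 0) (red 0) (hBO 0) y₁ = 1
  y₁_mid : redOn (O 1) (red 1) (hBO 1) y₁ = 1
  y₁_zero : ∃ b : ℕ, b ≠ 0 ∧ redOn (O 2) (red 2) (hBO 2) y₁ = yb ^ b
  y₂_inf : ∃ b : ℕ, b ≠ 0 ∧ redOn (O 0) (red 0) (hBO 0) y₂ = yb ^ b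
  y₂_mid : redOn (O 1) (red 1) (hBO 1) y₂ = 1
  y₂_zero : redOn (O 2) (red 2) (hBO 2) y₂ = 1
  y₃_inf : redOn (O 0) (red 0) (hBO 0) y₃ = 1
  y₃_mid : ∃ c : ℕ, c ≠ 0 ∧ redOn (O 1) (red 1) (hBO 1) y₃ = yb ^ c
  y₀_mid : ∃ c : ℕ, c ≠ 0 ∧ redOn (O 1) (red 1) (hBO 1) y₀ = yb ^ c
  y₀_zero : redOn (O 2) (red 2) (hBO 2) y₀ = 1

namespace V3Cusp

variable {O : Fin 3 → ValuationSubring F} {red : ∀ i, O i →+* κ}
  {hred : ∀ i, ∀ x : O i, red i x = 0 ↔ x ∈ maximalIdeal (O i)}
  {hBO : ∀ i, ∀ b : B, algebraMap B F b ∈ O i} {q xinv y₀ y₁ y₂ y₃ : B} {yb : κ}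

include hred in
/-- At a point containing `x⁻¹` the parameter `yb` vanishes. -/
theorem ybar_mem (C : V3Cusp O red hBO xinv y₀ y₁ y₂ y₃ yb) (i : Fin 3)
    (Vs : ValuationSubring κ)
    (hA : ∀ b : B, algebraMap B F b ∈ compositeSubring (O i) (red i) (hred i) Vs)
    (hx : xinv ∈ pointIdeal (O i) (red i) (hred i) Vs hA) : yb ∈ Vs.nonunits := by
  obtain ⟨a, ha⟩ := C.xinv_red i
  rw [mem_pointIdeal_iff_redOn (O i) (red i) (hred i) (hBO i) Vs hA, ha] at hx
  exact mem_nonunits_of_pow_mem Vs hx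

/-- **(Cu-2)**: at a cusp point `(i, s)` no other component passes. -/
theorem not_centre_le (C : V3Cusp O red hBO xinv y₀ y₁ y₂ y₃ yb) (i : Fin 3)
    (Vs : ValuationSubring κ)
    (hA : ∀ b : B, algebraMap B F b ∈ compositeSubring (O i) (red i) (hred i) Vs)
    (hy : yb ∈ Vs.nonunits) :
    ∀ j, j ≠ i → ¬ centre (O j) (hBO j) ≤ pointIdeal (O i) (red i) (hred i) Vs hA := by
  obtain ⟨b₁, hb₁, h₁⟩ := C.y₁_zero
  obtain ⟨b₂, hb₂, h₂⟩ := C.y₂_inf
  obtain ⟨c₃, hc₃, h₃⟩ := C.y₃_mid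
  obtain ⟨c₀, hc₀, h₀⟩ := C.y₀_mid
  intro j hj
  fin_cases i <;> fin_cases j
  · exact absurd rfl hj
  · exact not_centre_le_pointIdeal_of_red_eq_one O red hred hBO 1 0 Vs hA C.y₂_mid
      (h₂ ▸ pow_mem_nonunits Vs hy hb₂)
  · exact not_centre_le_pointIdeal_of_red_eq_one O red hred hBO 2 0 Vs hA C.y₂_zero
      (h₂ ▸ pow_mem_nonunits Vs hy hb₂)
  · exact not_centre_le_pointIdeal_of_red_eq_one O red hred hBO 0 1 Vs hA C.y₃_inf
      (h₃ ▸ pow_mem_nonunits Vs hy hc₃)
  · exact absurd rfl hj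
  · exact not_centre_le_pointIdeal_of_red_eq_one O red hred hBO 2 1 Vs hA C.y₀_zero
      (h₀ ▸ pow_mem_nonunits Vs hy hc₀)
  · exact not_centre_le_pointIdeal_of_red_eq_one O red hred hBO 0 2 Vs hA C.y₁_inf
      (h₁ ▸ pow_mem_nonunits Vs hy hb₁)
  · exact not_centre_le_pointIdeal_of_red_eq_one O red hred hBO 1 2 Vs hA C.y₁_mid
      (h₁ ▸ pow_mem_nonunits Vs hy hb₁)
  · exact absurd rfl hj

include hred in
/-- **A cusp lies on exactly one component.** -/
theorem eq_of_centre_le (C : V3Cusp O red hBO xinv y₀ y₁ y₂ y₃ yb) (𝔪 : Ideal B)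
    [h𝔪 : 𝔪.IsMaximal] (hx : xinv ∈ 𝔪) {i j : Fin 3} (hi : centre (O i) (hBO i) ≤ 𝔪)
    (hj : centre (O j) (hBO j) ≤ 𝔪) : i = j := by
  obtain ⟨Vs, hA, hP⟩ :=
    exists_pointIdeal_eq_of_isMaximal (O i) (red i) (hred i) (hBO i) 𝔪 hi
  subst hP
  by_contra hij
  exact C.not_centre_le i Vs hA (C.ybar_mem (hred := hred) i Vs hA hx) j (fun h => hij h.symm) hj

/-- **Exhaustion at the cusps**: a maximal ideal containing `q` and `x⁻¹` is a point `(i, s)` with
`yb` vanishing at `s`, and no other component passes through it. -/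
theorem exists_point (C : V3Cusp O red hBO xinv y₀ y₁ y₂ y₃ yb)
    (H : V3Base O red hred hBO q) (𝔪 : Ideal B) [h𝔪 : 𝔪.IsMaximal] (hq : q ∈ 𝔪)
    (hx : xinv ∈ 𝔪) :
    ∃ (i : Fin 3) (Vs : ValuationSubring κ)
      (hA : ∀ b : B, algebraMap B F b ∈ compositeSubring (O i) (red i) (hred i) Vs),
      pointIdeal (O i) (red i) (hred i) Vs hA = 𝔪 ∧ yb ∈ Vs.nonunits ∧
        ∀ j, j ≠ i → ¬ centre (O j) (hBO j) ≤ 𝔪 := by
  obtain ⟨i, Vs, hA, -, hP⟩ := H.exists_point 𝔪 hq
  subst hP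
  have hy := C.ybar_mem (hred := hred) i Vs hA hx
  exact ⟨i, Vs, hA, rfl, hy, C.not_centre_le i Vs hA hy⟩

end V3Cusp

end Cusp

/-! ### 2. (Cu-4): the root and the certificate in the local ring -/

section Local

variable {B F κ : Type*} [CommRing B] [IsDomain B] [Field F] [Algebra B F] [IsFractionRing B F]
  [Field κ]

/-- **The root lies in the local ring.**  If `y₁ ∈ B` is a unit at the prime `𝔫` of the
integrally closed domain `B` and `w ^ m * y₁ = y₂` with `m ≠ 0`, then `w ∈ B_𝔫`.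
(For CAR: `w = J₀/J₂`, `m = q`, `y₁ = J₁/J₀^q`, `y₂ = J₁/J₂^q`.) -/
theorem mem_pointRing_of_pow_mul_eq [IsIntegrallyClosed B] (𝔫 : Ideal B) [𝔫.IsPrime]
    {y₁ y₂ : B} {w : F} {m : ℕ} (hm : m ≠ 0) (hy₁ : y₁ ∉ 𝔫)
    (hroot : w ^ m * algebraMap B F y₁ = algebraMap B F y₂) : w ∈ pointRing F 𝔫 := by
  have hinj : Function.Injective (algebraMap B F) := IsFractionRing.injective B F
  have hy0 : algebraMap B F y₁ ≠ 0 := fun h0 =>
    hy₁ (by rw [hinj (h0.trans (map_zero _).symm)]; exact 𝔫.zero_mem)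
  have hpow : w ^ m ∈ pointRing F 𝔫 := by
    rw [mem_pointRing_iff]
    exact ⟨y₂, y₁, hy₁, by rw [← hroot, mul_assoc, mul_inv_cancel₀ hy0, mul_one]⟩
  have hint : IsIntegral (pointRing F 𝔫) w := by
    refine IsIntegral.of_pow (Nat.pos_of_ne_zero hm) ?_
    have h1 : w ^ m = algebraMap (pointRing F 𝔫) F ⟨w ^ m, hpow⟩ := rfl
    rw [h1]
    exact isIntegral_algebraMap
  obtain ⟨r, hr⟩ := (IsIntegrallyClosed.isIntegral_iff (R := pointRing F 𝔫) (K := F)).1 hint
  rw [← hr]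
  exact r.2

variable [IsNoetherianRing B] [IsIntegrallyClosed B]
  (O : ValuationSubring F) (red : O →+* κ) (hred : ∀ x : O, red x = 0 ↔ x ∈ maximalIdeal O)
  (hBO : ∀ b : B, algebraMap B F b ∈ O) (Vs : ValuationSubring κ)
  (hA : ∀ b : B, algebraMap B F b ∈ compositeSubring O red hred Vs)

/-- **A certificate from a uniformiser in the local ring.**  At the point `P = (O, s)`: let
`e ∈ B_P` be a uniformiser of `O` such that `e ^ n / q ^ N ∈ O` reduces to a unit at `s`, and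
suppose the centre of `O` is the only prime through `P` minimal over `(q ^ N)`.  Then `e` has a
numerator `d ∈ B` (`d = e * s₀`, `s₀ ∉ P`) which is a uniformiser of `O` with a certificate
`h * q ^ N = s * d ^ n`, `h, s ∉ P`. -/
theorem exists_cert_of_local_unif {q : B} {e : F} {n N : ℕ} (hn : n ≠ 0)
    (heR : e ∈ pointRing F (pointIdeal O red hred Vs hA)) (he : e ∈ O.nonunits)
    (hunif : ∀ z ∈ O.nonunits, z / e ∈ O)
    (hcert : ∃ hz : e ^ n / algebraMap B F q ^ N ∈ O, red ⟨_, hz⟩ ∉ Vs.nonunits)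
    (hq0 : q ≠ 0)
    (hu : ∀ 𝔮 ∈ (Ideal.span {q ^ N}).minimalPrimes, 𝔮 ≤ pointIdeal O red hred Vs hA →
      𝔮 = centre O hBO) :
    ∃ d h s s₀ : B, s₀ ∉ pointIdeal O red hred Vs hA ∧
      algebraMap B F d = e * algebraMap B F s₀ ∧ d ≠ 0 ∧ algebraMap B F d ∈ O.nonunits ∧
      (∀ z ∈ O.nonunits, z / algebraMap B F d ∈ O) ∧ h * q ^ N = s * d ^ n ∧
      h ∉ pointIdeal O red hred Vs hA ∧ s ∉ pointIdeal O red hred Vs hA := by
  have hinj : Function.Injective (algebraMap B F) := IsFractionRing.injective B F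
  have hne : ∀ a : B, a ≠ 0 → algebraMap B F a ≠ 0 := fun a ha h0 =>
    ha (hinj (h0.trans (map_zero _).symm))
  have hmem : ∀ a : B, redOn O red hBO a ∈ Vs := fun a =>
    (algebraMap_mem_compositeSubring_iff O red hred hBO Vs a).1 (hA a)
  obtain ⟨hz, hc⟩ := hcert
  -- `e ≠ 0`
  have he0 : e ≠ 0 := by
    rintro rfl
    apply hc
    have h0 : (⟨(0 : F) ^ n / algebraMap B F q ^ N, hz⟩ : O) = 0 := by
      apply Subtype.ext
      show (0 : F) ^ n / algebraMap B F q ^ N = 0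
      rw [zero_pow hn, zero_div]
    rw [h0, map_zero]
    exact (ValuationSubring.mem_nonunits_iff_or Vs).2 (Or.inl rfl)
  obtain ⟨d, s₀, hs₀, hes⟩ := mem_pointRing_iff.1 heR
  have hs₀0 : algebraMap B F s₀ ≠ 0 :=
    hne s₀ (fun h0 => hs₀ (by rw [h0]; exact Ideal.zero_mem _))
  have hd : algebraMap B F d = e * algebraMap B F s₀ := by
    rw [hes, mul_assoc, inv_mul_cancel₀ hs₀0, mul_one]
  have hd0F : algebraMap B F d ≠ 0 := by rw [hd]; exact mul_ne_zero he0 hs₀0
  have hd0 : d ≠ 0 := fun h0 => hd0F (by rw [h0, map_zero])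
  have hdO : algebraMap B F d ∈ O.nonunits := by
    rw [hd]
    exact LThm.mul_mem_nonunits_of_mem O he (hBO s₀)
  -- units of `O` outside the point
  have hinvO : ∀ a : B, a ∉ pointIdeal O red hred Vs hA → (algebraMap B F a)⁻¹ ∈ O := by
    intro a ha
    have h1 : algebraMap B F a ∉ O.nonunits := fun h =>
      ha (centre_le_pointIdeal O red hred hBO Vs hA ((mem_centre_iff O hBO a).2 h))
    rw [ValuationSubring.mem_nonunits_iff_or] at h1
    push Not at h1
    exact h1.2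
  have hdunif : ∀ z ∈ O.nonunits, z / algebraMap B F d ∈ O := by
    intro z hz'
    have h1 : z / algebraMap B F d = z / e * (algebraMap B F s₀)⁻¹ := by
      rw [hd]
      field_simp
    rw [h1]
    exact O.mul_mem _ _ (hunif z hz') (hinvO s₀ hs₀)
  -- the different bound
  have hqN0 : q ^ N ≠ 0 := pow_ne_zero N hq0
  have hqF : algebraMap B F q ^ N ≠ 0 := pow_ne_zero N (hne q hq0)
  have hkey : algebraMap B F (d ^ n) / algebraMap B F (q ^ N) =
      e ^ n / algebraMap B F q ^ N * algebraMap B F s₀ ^ n := by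
    rw [map_pow, map_pow, hd, mul_pow]
    field_simp
  have hval : algebraMap B F (d ^ n) / algebraMap B F (q ^ N) ∈ O := by
    rw [hkey]
    exact O.mul_mem _ _ hz (O.pow_mem (hBO s₀) n)
  obtain ⟨h, s, hs, hhs⟩ := LThm.exists_mul_eq_mul_of_div_mem
    (pointIdeal O red hred Vs hA) O hBO hqN0 hu hval
  refine ⟨d, h, s, s₀, hs₀, hd, hd0, hdO, hdunif, hhs, ?_, hs⟩
  -- `h` is a unit at the point: its reduction is `red s * red s₀ ^ n * red (e ^ n / q ^ N)`
  intro hh
  rw [mem_pointIdeal_iff_redOn O red hred hBO Vs hA] at hh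
  have hredeq : redOn O red hBO h =
      redOn O red hBO s * redOn O red hBO s₀ ^ n * red ⟨_, hz⟩ := by
    rw [redOn_apply, redOn_apply, redOn_apply, ← map_pow, ← map_mul, ← map_mul]
    congr 1
    apply Subtype.ext
    show algebraMap B F h =
      algebraMap B F s * algebraMap B F s₀ ^ n * (e ^ n / algebraMap B F q ^ N)
    have h1 : algebraMap B F h * algebraMap B F q ^ N =
        algebraMap B F s * (e * algebraMap B F s₀) ^ n := by
      rw [← hd, ← map_pow, ← map_pow, ← map_mul, ← map_mul, hhs]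
    field_simp
    rw [h1]
    ring
  have hunit : ∀ a : B, a ∉ pointIdeal O red hred Vs hA →
      Vs.valuation (redOn O red hBO a) = 1 := by
    intro a ha
    rw [mem_pointIdeal_iff_redOn O red hred hBO Vs hA, ValuationSubring.mem_nonunits_iff] at ha
    exact le_antisymm ((Vs.valuation_le_one_iff _).2 (hmem a)) (not_lt.1 ha)
  apply hc
  rw [ValuationSubring.mem_nonunits_iff] at hh ⊢
  rw [hredeq, map_mul, map_mul, map_pow, hunit s hs, hunit s₀ hs₀, one_pow, one_mul, one_mul]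
    at hh
  exact hh

end Local

/-! ### 3. The cusps of `C_mid` -/

section Mid

variable {B F κ : Type*} [CommRing B] [IsDomain B] [Field F] [Algebra B F] [IsFractionRing B F]
  [Field κ]

/-- **The data at the cusps of `C_mid`.**  `1 - e` is an `m`-th root of `y₂ / y₁` (for CAR:
`1 - e = J₀/J₂`, `m = q`), `e` is a uniformiser of `O_mid`, and `e ^ n / q ^ N ∈ O_mid` reduces
to `g`, a unit at every place of `κ` where `yb` vanishes.

For CAR: `e = d/J₂` with `d = J₂ - J₀`, `(n, N) = (q - 1, 1)`, `g = -(θJ̄/J̄)^(q-1)`, and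
`g ^ 6 * D̃(yb) = (1 - 1728 yb)^(3(q-1))` with `D̃(yb) = yb^(q-1) Δ̄^(1-q) ∈ 1 + yb k[yb]`
(`notMem_nonunits_of_pow_mul_eq`). -/
structure V3CuspMid (O : Fin 3 → ValuationSubring F) (red : ∀ i, O i →+* κ)
    (hBO : ∀ i, ∀ b : B, algebraMap B F b ∈ O i) (q y₁ y₂ : B) (e : F) (m n N : ℕ)
    (yb g : κ) : Prop where
  m_ne : m ≠ 0
  n_ne : n ≠ 0
  /-- `1 - e` is an `m`-th root of `y₂ / y₁`. -/
  root : (1 - e) ^ m * algebraMap B F y₁ = algebraMap B F y₂
  /-- `e` vanishes on `C_mid`. -/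
  e_mem : e ∈ (O 1).nonunits
  /-- `e` is a uniformiser of `O_mid`. -/
  e_unif : ∀ z ∈ (O 1).nonunits, z / e ∈ O 1
  /-- the multiplicity: `e ^ n / q ^ N ∈ O_mid` reduces to `g`. -/
  cert : ∃ hz : e ^ n / algebraMap B F q ^ N ∈ O 1, red 1 ⟨_, hz⟩ = g
  /-- `g` is a unit at the cusps. -/
  g_unit : ∀ Vs : ValuationSubring κ, (∀ b : B, redOn (O 1) (red 1) (hBO 1) b ∈ Vs) →
    yb ∈ Vs.nonunits → g ∉ Vs.nonunits

variable [IsNoetherianRing B] [IsIntegrallyClosed B]
  {O : Fin 3 → ValuationSubring F} {red : ∀ i, O i →+* κ}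
  {hred : ∀ i, ∀ x : O i, red i x = 0 ↔ x ∈ maximalIdeal (O i)}
  {hBO : ∀ i, ∀ b : B, algebraMap B F b ∈ O i} {q xinv y₀ y₁ y₂ y₃ : B} {e : F} {m n N : ℕ}
  {yb g : κ}

/-- **The certificate at a point of `C_mid` through which no other component passes**, from a
uniformiser `e` of `O_mid` in the local ring with `e ^ n / q ^ N` a unit at the place. -/
theorem exists_midCert_of_local_unif (H : V3Base O red hred hBO q) (Vs : ValuationSubring κ)
    (hA : ∀ b : B, algebraMap B F b ∈ compositeSubring (O 1) (red 1) (hred 1) Vs)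
    (hoff : ∀ j, j ≠ 1 → ¬ centre (O j) (hBO j) ≤ pointIdeal (O 1) (red 1) (hred 1) Vs hA)
    (hn : n ≠ 0) (heR : e ∈ pointRing F (pointIdeal (O 1) (red 1) (hred 1) Vs hA))
    (he : e ∈ (O 1).nonunits) (hunif : ∀ z ∈ (O 1).nonunits, z / e ∈ O 1)
    (hcert : ∃ hz : e ^ n / algebraMap B F q ^ N ∈ O 1, red 1 ⟨_, hz⟩ ∉ Vs.nonunits) :
    ∃ d h s : B,
      MidCert O hBO q (pointIdeal (O 1) (red 1) (hred 1) Vs hA) d h s (q ^ N) 1 1 n N ∧
      ∃ s₀ : B, s₀ ∉ pointIdeal (O 1) (red 1) (hred 1) Vs hA ∧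
        algebraMap B F d = e * algebraMap B F s₀ := by
  have h1P : (1 : B) ∉ pointIdeal (O 1) (red 1) (hred 1) Vs hA :=
    (Ideal.ne_top_iff_one _).1 (pointIdeal_isPrime (O 1) (red 1) (hred 1) Vs hA).ne_top
  have hu : ∀ 𝔮 ∈ (Ideal.span {q ^ N}).minimalPrimes,
      𝔮 ≤ pointIdeal (O 1) (red 1) (hred 1) Vs hA → 𝔮 = centre (O 1) (hBO 1) := by
    intro 𝔮 h𝔮 hle
    by_cases hN : N = 0
    · exfalso
      have hprime : 𝔮.IsPrime := h𝔮.1.1
      apply hprime.ne_top
      rw [Ideal.eq_top_iff_one]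
      have h2 := h𝔮.1.2 (Ideal.mem_span_singleton_self (q ^ N))
      rwa [hN, pow_zero] at h2
    · exact LThm.minimalPrimes_le_eq_centre_of_not_le O hBO _ H.hmin 1 hoff 𝔮
        (Inst.Meet.mem_minimalPrimes_of_pow hN h𝔮) hle
  obtain ⟨d, h, s, s₀, hs₀, hd, hd0, hdO, hdunif, hhs, hh, hs⟩ :=
    exists_cert_of_local_unif (O 1) (red 1) (hred 1) (hBO 1) Vs hA hn heR he hunif hcert
      H.q_ne hu
  refine ⟨d, h, s, ⟨hn, hdO, hdunif, hhs, by rw [mul_one, one_mul], hh, hs, h1P, ?_, ?_, ?_⟩,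
    s₀, hs₀, hd⟩
  · intro hle
    exact absurd hle (hoff 0 (by decide))
  · intro hle
    exact absurd hle (hoff 2 (by decide))
  · exact (Ideal.ne_top_iff_one _).1 (centre_isPrime (O 1) (hBO 1)).ne_top

namespace V3CuspMid

omit [IsNoetherianRing B] in
/-- **`e = 1 - J₀/J₂` lies in the local ring of every cusp of `C_mid`** (integral closedness). -/
theorem e_mem_pointRing (M : V3CuspMid O red hBO q y₁ y₂ e m n N yb g)
    (C : V3Cusp O red hBO xinv y₀ y₁ y₂ y₃ yb) (Vs : ValuationSubring κ)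
    (hA : ∀ b : B, algebraMap B F b ∈ compositeSubring (O 1) (red 1) (hred 1) Vs) :
    e ∈ pointRing F (pointIdeal (O 1) (red 1) (hred 1) Vs hA) := by
  have hy₁ : y₁ ∉ pointIdeal (O 1) (red 1) (hred 1) Vs hA := by
    rw [mem_pointIdeal_iff_redOn (O 1) (red 1) (hred 1) (hBO 1) Vs hA, C.y₁_mid]
    exact one_notMem_nonunits Vs
  have hw := mem_pointRing_of_pow_mul_eq (pointIdeal (O 1) (red 1) (hred 1) Vs hA)
    M.m_ne hy₁ M.root
  have h1 : e = 1 - (1 - e) := by ring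
  rw [h1]
  exact Subalgebra.sub_mem _ (Subalgebra.one_mem _) hw

/-- **(Cu-4): the certificate at every cusp of `C_mid`.** -/
theorem exists_midCert (M : V3CuspMid O red hBO q y₁ y₂ e m n N yb g)
    (C : V3Cusp O red hBO xinv y₀ y₁ y₂ y₃ yb) (H : V3Base O red hred hBO q)
    (Vs : ValuationSubring κ)
    (hA : ∀ b : B, algebraMap B F b ∈ compositeSubring (O 1) (red 1) (hred 1) Vs)
    (hy : yb ∈ Vs.nonunits) :
    ∃ d h s : B,
      MidCert O hBO q (pointIdeal (O 1) (red 1) (hred 1) Vs hA) d h s (q ^ N) 1 1 n N ∧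
      ∃ s₀ : B, s₀ ∉ pointIdeal (O 1) (red 1) (hred 1) Vs hA ∧
        algebraMap B F d = e * algebraMap B F s₀ := by
  obtain ⟨hz, hg⟩ := M.cert
  refine exists_midCert_of_local_unif H Vs hA (C.not_centre_le 1 Vs hA hy) M.n_ne
    (M.e_mem_pointRing C Vs hA) M.e_mem M.e_unif ⟨hz, ?_⟩
  rw [hg]
  exact M.g_unit Vs (fun b =>
    (algebraMap_mem_compositeSubring_iff (O 1) (red 1) (hred 1) (hBO 1) Vs b).1 (hA b)) hy

end V3CuspMid

/-! ### 4. Theorem (L) at the cusps -/

/-- **Theorem (L) at the cusps of `C_mid`**: the vertical prime is `(d)` for a numerator `d` of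
`e`, the maximal ideal is `(d, t)`, the local ring is factorial. -/
theorem regular_mid_cusp (H : V3Base O red hred hBO q)
    (C : V3Cusp O red hBO xinv y₀ y₁ y₂ y₃ yb)
    (M : V3CuspMid O red hBO q y₁ y₂ e m n N yb g) (Vs : ValuationSubring κ)
    (hA : ∀ b : B, algebraMap B F b ∈ compositeSubring (O 1) (red 1) (hred 1) Vs)
    (hmax : (pointIdeal (O 1) (red 1) (hred 1) Vs hA).IsMaximal) (hy : yb ∈ Vs.nonunits) :
    ∃ d s₀ t : B, s₀ ∉ pointIdeal (O 1) (red 1) (hred 1) Vs hA ∧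
      algebraMap B F d = e * algebraMap B F s₀ ∧
      redOn (O 1) (red 1) (hBO 1) t ∈ Vs.nonunits ∧
      (∀ v ∈ Vs.nonunits, ∃ w ∈ Vs, v = redOn (O 1) (red 1) (hBO 1) t * w) ∧
      vertIdeal (O 1) (red 1) (hred 1) Vs hA =
        Ideal.span {algebraMap B (pointRing F (pointIdeal (O 1) (red 1) (hred 1) Vs hA)) d} ∧
      maximalIdeal (pointRing F (pointIdeal (O 1) (red 1) (hred 1) Vs hA)) =
        Ideal.span {algebraMap B (pointRing F (pointIdeal (O 1) (red 1) (hred 1) Vs hA)) d,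
          algebraMap B (pointRing F (pointIdeal (O 1) (red 1) (hred 1) Vs hA)) t} ∧
      UniqueFactorizationMonoid (pointRing F (pointIdeal (O 1) (red 1) (hred 1) Vs hA)) := by
  obtain ⟨d, h, s, hC, s₀, hs₀, hd⟩ := M.exists_midCert C H Vs hA hy
  obtain ⟨t, ht, hunif, hv, hm, hufm⟩ := H.regular_mid Vs hA hmax hC
  exact ⟨d, s₀, t, hs₀, hd, ht, hunif, hv, hm, hufm⟩

/-- **Theorem (L) at the cusps of `C_inf` and `C_0`**: the vertical prime is `(q)`, the maximal
ideal is `(q, t)`, the local ring is factorial. -/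
theorem regular_single_cusp (H : V3Base O red hred hBO q)
    (C : V3Cusp O red hBO xinv y₀ y₁ y₂ y₃ yb) (i : Fin 3) (hi1 : i ≠ 1)
    (Vs : ValuationSubring κ)
    (hA : ∀ b : B, algebraMap B F b ∈ compositeSubring (O i) (red i) (hred i) Vs)
    (hmax : (pointIdeal (O i) (red i) (hred i) Vs hA).IsMaximal) (hy : yb ∈ Vs.nonunits) :
    ∃ t : B, redOn (O i) (red i) (hBO i) t ∈ Vs.nonunits ∧
      (∀ v ∈ Vs.nonunits, ∃ w ∈ Vs, v = redOn (O i) (red i) (hBO i) t * w) ∧
      vertIdeal (O i) (red i) (hred i) Vs hA =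
        Ideal.span {algebraMap B (pointRing F (pointIdeal (O i) (red i) (hred i) Vs hA)) q} ∧
      maximalIdeal (pointRing F (pointIdeal (O i) (red i) (hred i) Vs hA)) =
        Ideal.span {algebraMap B (pointRing F (pointIdeal (O i) (red i) (hred i) Vs hA)) q,
          algebraMap B (pointRing F (pointIdeal (O i) (red i) (hred i) Vs hA)) t} ∧
      UniqueFactorizationMonoid (pointRing F (pointIdeal (O i) (red i) (hred i) Vs hA)) :=
  H.regular_single i hi1 Vs hA hmax (C.not_centre_le i Vs hA hy)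

/-- **Theorem (L) at every cusp point**: the local ring of `B` at a maximal ideal containing `q`
and `x⁻¹` is factorial. -/
theorem ufm_pointRing_cusp (H : V3Base O red hred hBO q)
    (C : V3Cusp O red hBO xinv y₀ y₁ y₂ y₃ yb)
    (M : V3CuspMid O red hBO q y₁ y₂ e m n N yb g) (𝔪 : Ideal B) [h𝔪 : 𝔪.IsMaximal]
    (hq : q ∈ 𝔪) (hx : xinv ∈ 𝔪) : UniqueFactorizationMonoid (pointRing F 𝔪) := by
  refine H.ufm_of_cert 𝔪 hq ?_ ?_
  · intro h1
    obtain ⟨Vs, hA, hP⟩ :=
      exists_pointIdeal_eq_of_isMaximal (O 1) (red 1) (hred 1) (hBO 1) 𝔪 h1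
    subst hP
    obtain ⟨d, h, s, hC, -⟩ :=
      M.exists_midCert C H Vs hA (C.ybar_mem (hred := hred) 1 Vs hA hx)
    exact ⟨d, h, s, q ^ N, 1, 1, n, N, hC⟩
  · intro _ i j hi hj
    exact C.eq_of_centre_le (hred := hred) 𝔪 hx hi hj

/-- **Theorem (L) at every cusp point, detailed form**: a maximal ideal `𝔪` containing `q` and
`x⁻¹` is a point `(i, s)` on exactly one component; the vertical prime of its local ring is
principal, generated by some `d ∈ B` (`d = q` off `C_mid`, a numerator of `e` on `C_mid`), its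
maximal ideal is `(d, t)`, and the local ring is factorial. -/
theorem regular_cusp (H : V3Base O red hred hBO q)
    (C : V3Cusp O red hBO xinv y₀ y₁ y₂ y₃ yb)
    (M : V3CuspMid O red hBO q y₁ y₂ e m n N yb g) (𝔪 : Ideal B) [h𝔪 : 𝔪.IsMaximal]
    (hq : q ∈ 𝔪) (hx : xinv ∈ 𝔪) :
    ∃ (i : Fin 3) (Vs : ValuationSubring κ)
      (hA : ∀ b : B, algebraMap B F b ∈ compositeSubring (O i) (red i) (hred i) Vs),
      pointIdeal (O i) (red i) (hred i) Vs hA = 𝔪 ∧ yb ∈ Vs.nonunits ∧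
      (∀ j, j ≠ i → ¬ centre (O j) (hBO j) ≤ 𝔪) ∧
      ∃ d t : B, (i ≠ 1 → d = q) ∧
        (i = 1 → ∃ s₀ : B, s₀ ∉ 𝔪 ∧ algebraMap B F d = e * algebraMap B F s₀) ∧
        redOn (O i) (red i) (hBO i) t ∈ Vs.nonunits ∧
        (∀ v ∈ Vs.nonunits, ∃ w ∈ Vs, v = redOn (O i) (red i) (hBO i) t * w) ∧
        vertIdeal (O i) (red i) (hred i) Vs hA =
          Ideal.span {algebraMap B (pointRing F (pointIdeal (O i) (red i) (hred i) Vs hA)) d} ∧
        maximalIdeal (pointRing F (pointIdeal (O i) (red i) (hred i) Vs hA)) =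
          Ideal.span {algebraMap B (pointRing F (pointIdeal (O i) (red i) (hred i) Vs hA)) d,
            algebraMap B (pointRing F (pointIdeal (O i) (red i) (hred i) Vs hA)) t} ∧
        UniqueFactorizationMonoid (pointRing F (pointIdeal (O i) (red i) (hred i) Vs hA)) := by
  obtain ⟨i, Vs, hA, hP, hy, hoff⟩ := C.exists_point H 𝔪 hq hx
  subst hP
  refine ⟨i, Vs, hA, rfl, hy, hoff, ?_⟩
  by_cases hi : i = 1
  · subst hi
    obtain ⟨d, s₀, t, hs₀, hd, ht, hunif, hv, hm, hufm⟩ :=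
      regular_mid_cusp H C M Vs hA h𝔪 hy
    exact ⟨d, t, fun h => absurd rfl h, fun _ => ⟨s₀, hs₀, hd⟩, ht, hunif, hv, hm, hufm⟩
  · obtain ⟨t, ht, hunif, hv, hm, hufm⟩ := regular_single_cusp H C i hi Vs hA h𝔪 hy
    exact ⟨q, t, fun _ => rfl, fun h => absurd h hi, ht, hunif, hv, hm, hufm⟩

/-- At a cusp of `C_mid` the vertical prime is generated by `e` itself. -/
theorem vertIdeal_eq_span_e (H : V3Base O red hred hBO q)
    (C : V3Cusp O red hBO xinv y₀ y₁ y₂ y₃ yb)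
    (M : V3CuspMid O red hBO q y₁ y₂ e m n N yb g) (Vs : ValuationSubring κ)
    (hA : ∀ b : B, algebraMap B F b ∈ compositeSubring (O 1) (red 1) (hred 1) Vs)
    (hmax : (pointIdeal (O 1) (red 1) (hred 1) Vs hA).IsMaximal) (hy : yb ∈ Vs.nonunits) :
    vertIdeal (O 1) (red 1) (hred 1) Vs hA =
      Ideal.span {(⟨e, M.e_mem_pointRing C Vs hA⟩ :
        pointRing F (pointIdeal (O 1) (red 1) (hred 1) Vs hA))} := by
  obtain ⟨d, s₀, t, hs₀, hd, -, -, hv, -, -⟩ := regular_mid_cusp H C M Vs hA hmax hy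
  rw [hv, Ideal.span_singleton_eq_span_singleton]
  have hu : IsUnit (algebraMap B (pointRing F (pointIdeal (O 1) (red 1) (hred 1) Vs hA)) s₀) :=
    LThm.isUnit_algebraMap (F := F) _ hs₀
  refine ⟨hu.unit⁻¹, ?_⟩
  rw [Units.mul_inv_eq_iff_eq_mul, IsUnit.unit_spec]
  exact Subtype.ext hd

end Mid

end Fermat.Agent.CAR.Local.InstCusp
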