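import Mathlib
import Fermat.Agent.CAR.Local.InstCusp

/-!
# CAR-17 (P-5): the cusps with (LIFT) required ONLY at the cusp places

`InstCusp.lean` proves Theorem (L) at the cusp points of the chart at infinity from helper38's
base record `V3Base`, whose field `lift` asks for (LIFT) at EVERY place of the chart.  Here the
same conclusions are obtained from the weaker record `V3BaseCusp`: (LIFT) only at the places of
`κ` where the cusp parameter `yb` vanishes.  So the instance for `B_∞` needs no information at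
the finite points of the chart at infinity.

* `V3BaseCusp` and `V3Base.toCusp`;
* `V3BaseCusp.exists_point`, `exists_unif`, `regular_mid`, `regular_single`, `exists_midCert`,
  `regular_cusp`, `ufm_pointRing`;
* `V3BaseCusp.cusp_package` : at a maximal ideal `𝔪 ∋ q, x⁻¹` — factoriality, the unique branch
  `i₀`, the place `Vs`, `𝔪 = (i₀, Vs)` and (LIFT) there: exactly the hypotheses `hUFM`, `Vs`, `hbr`,
  `hlift`, `i₀`, `hi₀`, `hone` of `Glue.LStart.hlocal_at_point_of_unique_branch`.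
-/

set_option autoImplicit false

namespace Fermat.Agent.CAR.Local.InstCusp

open IsLocalRing Fermat.Agent.CAR.Local Fermat.Agent.CAR.Local.Inst

section Base

variable {B F κ : Type*} [CommRing B] [IsDomain B] [Field F] [Algebra B F] [IsFractionRing B F]
  [Field κ]

/-- **The base record at the cusps**: as `Inst.V3Base`, but (LIFT) is required only at the places
of `κ` where `yb` vanishes (the cusps). -/
structure V3BaseCusp (O : Fin 3 → ValuationSubring F) (red : ∀ i, O i →+* κ)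
    (hred : ∀ i, ∀ x : O i, red i x = 0 ↔ x ∈ maximalIdeal (O i))
    (hBO : ∀ i, ∀ b : B, algebraMap B F b ∈ O i) (q : B) (yb : κ) : Prop where
  /-- `q ≠ 0` in `B`. -/
  q_ne : q ≠ 0
  /-- "exactly three": the primes of `B` minimal over `(q)` are centres of the components. -/
  hmin : ∀ 𝔮 ∈ (Ideal.span {q}).minimalPrimes, ∃ i, 𝔮 = centre (O i) (hBO i)
  /-- no component is a closed point. -/
  not_max : ∀ i, ¬ (centre (O i) (hBO i)).IsMaximal
  /-- `q` vanishes on every component. -/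
  q_mem : ∀ i, algebraMap B F q ∈ (O i).nonunits
  /-- `q` is a uniformiser of `O_inf`. -/
  unif_inf : ∀ z ∈ (O 0).nonunits, z / algebraMap B F q ∈ O 0
  /-- `q` is a uniformiser of `O_0`. -/
  unif_zero : ∀ z ∈ (O 2).nonunits, z / algebraMap B F q ∈ O 2
  /-- (LIFT) at the cusps: every valuation ring of `κ` containing the reduction of `B` on a
  component, at which `yb` vanishes, is a localisation of that reduction. -/
  lift : ∀ i, ∀ Vs : ValuationSubring κ, (∀ b : B, redOn (O i) (red i) (hBO i) b ∈ Vs) →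
    yb ∈ Vs.nonunits →
    ∀ c ∈ Vs, ∃ a b : B, redOn (O i) (red i) (hBO i) b ∉ Vs.nonunits ∧
      redOn (O i) (red i) (hBO i) a = c * redOn (O i) (red i) (hBO i) b

variable {O : Fin 3 → ValuationSubring F} {red : ∀ i, O i →+* κ}
  {hred : ∀ i, ∀ x : O i, red i x = 0 ↔ x ∈ maximalIdeal (O i)}
  {hBO : ∀ i, ∀ b : B, algebraMap B F b ∈ O i} {q xinv y₀ y₁ y₂ y₃ : B} {e : F} {m n N : ℕ}
  {yb g : κ}

omit [IsDomain B] [IsFractionRing B F] in
/-- The base record of `Inst.lean` gives the base record at the cusps, provided `yb ≠ 0`. -/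
theorem V3Base.toCusp (H : V3Base O red hred hBO q) (hyb : yb ≠ 0) :
    V3BaseCusp O red hred hBO q yb where
  q_ne := H.q_ne
  hmin := H.hmin
  not_max := H.not_max
  q_mem := H.q_mem
  unif_inf := H.unif_inf
  unif_zero := H.unif_zero
  lift := by
    intro i Vs hVs hy
    refine H.lift i Vs ?_ hVs
    rintro rfl
    rw [ValuationSubring.mem_nonunits_iff_or] at hy
    rcases hy with hy | hy
    · exact hyb hy
    · exact hy (ValuationSubring.mem_top _)

namespace V3BaseCusp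

omit [IsDomain B] [IsFractionRing B F] in
/-- **Exhaustion at the cusps.** -/
theorem exists_point (H : V3BaseCusp O red hred hBO q yb)
    (C : V3Cusp O red hBO xinv y₀ y₁ y₂ y₃ yb) (𝔪 : Ideal B) [h𝔪 : 𝔪.IsMaximal] (hq : q ∈ 𝔪)
    (hx : xinv ∈ 𝔪) :
    ∃ (i : Fin 3) (Vs : ValuationSubring κ)
      (hA : ∀ b : B, algebraMap B F b ∈ compositeSubring (O i) (red i) (hred i) Vs),
      pointIdeal (O i) (red i) (hred i) Vs hA = 𝔪 ∧ yb ∈ Vs.nonunits ∧
        ∀ j, j ≠ i → ¬ centre (O j) (hBO j) ≤ 𝔪 := by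
  obtain ⟨i, hi⟩ := exists_centre_le_of_mem O hBO q H.hmin 𝔪 hq
  obtain ⟨Vs, hA, hP⟩ :=
    exists_pointIdeal_eq_of_isMaximal (O i) (red i) (hred i) (hBO i) 𝔪 hi
  subst hP
  have hy := C.ybar_mem (hred := hred) i Vs hA hx
  exact ⟨i, Vs, hA, rfl, hy, C.not_centre_le i Vs hA hy⟩

omit [IsDomain B] [IsFractionRing B F] in
/-- (LIFT) at a cusp point. -/
theorem lift_point (H : V3BaseCusp O red hred hBO q yb) (i : Fin 3) (Vs : ValuationSubring κ)
    (hA : ∀ b : B, algebraMap B F b ∈ compositeSubring (O i) (red i) (hred i) Vs)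
    (hy : yb ∈ Vs.nonunits) :
    ∀ c ∈ Vs, ∃ a b : B, redOn (O i) (red i) (hBO i) b ∉ Vs.nonunits ∧
      redOn (O i) (red i) (hBO i) a = c * redOn (O i) (red i) (hBO i) b :=
  H.lift i Vs (fun b =>
    (algebraMap_mem_compositeSubring_iff (O i) (red i) (hred i) (hBO i) Vs b).1 (hA b)) hy

variable [IsNoetherianRing B]

omit [IsDomain B] [IsFractionRing B F] in
/-- At a cusp point `(O i, s)` there is `t ∈ B` whose reduction is a uniformiser of `Vs`. -/
theorem exists_unif (H : V3BaseCusp O red hred hBO q yb) (i : Fin 3) (Vs : ValuationSubring κ)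
    (hA : ∀ b : B, algebraMap B F b ∈ compositeSubring (O i) (red i) (hred i) Vs)
    (hmax : (pointIdeal (O i) (red i) (hred i) Vs hA).IsMaximal) (hy : yb ∈ Vs.nonunits) :
    ∃ t : B, redOn (O i) (red i) (hBO i) t ∈ Vs.nonunits ∧
      redOn (O i) (red i) (hBO i) t ≠ 0 ∧
      ∀ v ∈ Vs.nonunits, ∃ w ∈ Vs, v = redOn (O i) (red i) (hBO i) t * w := by
  obtain ⟨t, ht, hunif⟩ := exists_unif_of_lift (O i) (red i) (hred i) (hBO i) Vs hA
    (H.lift_point i Vs hA hy)
  refine ⟨t, ht, fun h0 => H.not_max i ?_, hunif⟩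
  have heq : pointIdeal (O i) (red i) (hred i) Vs hA = centre (O i) (hBO i) := by
    refine le_antisymm (fun a ha => ?_) (centre_le_pointIdeal (O i) (red i) (hred i) (hBO i) Vs hA)
    rw [mem_pointIdeal_iff_redOn (O i) (red i) (hred i) (hBO i) Vs hA] at ha
    obtain ⟨w, -, hw⟩ := hunif _ ha
    rw [h0, zero_mul] at hw
    exact (redOn_eq_zero_iff (O i) (red i) (hred i) (hBO i) a).1 hw
  rw [← heq]
  exact hmax

variable [IsIntegrallyClosed B]

/-- **Points of `C_mid` with a certificate**, (LIFT) at the cusps only. -/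
theorem regular_mid (H : V3BaseCusp O red hred hBO q yb) (Vs : ValuationSubring κ)
    (hA : ∀ b : B, algebraMap B F b ∈ compositeSubring (O 1) (red 1) (hred 1) Vs)
    (hmax : (pointIdeal (O 1) (red 1) (hred 1) Vs hA).IsMaximal) (hy : yb ∈ Vs.nonunits)
    {d h s u u' s' : B} {n N : ℕ}
    (C : MidCert O hBO q (pointIdeal (O 1) (red 1) (hred 1) Vs hA) d h s u u' s' n N) :
    ∃ t : B, redOn (O 1) (red 1) (hBO 1) t ∈ Vs.nonunits ∧
      (∀ v ∈ Vs.nonunits, ∃ w ∈ Vs, v = redOn (O 1) (red 1) (hBO 1) t * w) ∧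
      vertIdeal (O 1) (red 1) (hred 1) Vs hA =
        Ideal.span {algebraMap B (pointRing F (pointIdeal (O 1) (red 1) (hred 1) Vs hA)) d} ∧
      maximalIdeal (pointRing F (pointIdeal (O 1) (red 1) (hred 1) Vs hA)) =
        Ideal.span {algebraMap B (pointRing F (pointIdeal (O 1) (red 1) (hred 1) Vs hA)) d,
          algebraMap B (pointRing F (pointIdeal (O 1) (red 1) (hred 1) Vs hA)) t} ∧
      UniqueFactorizationMonoid (pointRing F (pointIdeal (O 1) (red 1) (hred 1) Vs hA)) := by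
  obtain ⟨t, ht, ht0, hunif⟩ := H.exists_unif 1 Vs hA hmax hy
  have hd0 : d ≠ 0 := by
    intro h0
    have h1 : h * u = 0 := by rw [C.cert, h0, zero_pow C.n_ne, mul_zero]
    rcases mul_eq_zero.1 h1 with h2 | h2
    · exact C.h_notMem (by rw [h2]; exact Ideal.zero_mem _)
    · have h3 : s' * q ^ N = 0 := by rw [← C.vert, h2, zero_mul]
      rcases mul_eq_zero.1 h3 with h4 | h4
      · exact C.s'_notMem (by rw [h4]; exact Ideal.zero_mem _)
      · exact H.q_ne (eq_zero_of_pow_eq_zero h4)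
  have hu := Inst.minimalPrimes_le_eq_centre O hBO (pointIdeal (O 1) (red 1) (hred 1) Vs hA)
    H.q_ne H.hmin C.vert C.s'_notMem 1
    (by
      intro i hi hle
      fin_cases i
      · exact C.u_inf hle
      · exact absurd rfl hi
      · exact C.u_zero hle)
  have hlift := H.lift_point 1 Vs hA hy
  have hh' : redOn (O 1) (red 1) (hBO 1) h ∉ Vs.nonunits := fun hc =>
    C.h_notMem ((mem_pointIdeal_iff_redOn (O 1) (red 1) (hred 1) (hBO 1) Vs hA h).2 hc)
  have hs' : redOn (O 1) (red 1) (hBO 1) s ∉ Vs.nonunits := fun hc =>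
    C.s_notMem ((mem_pointIdeal_iff_redOn (O 1) (red 1) (hred 1) (hBO 1) Vs hA s).2 hc)
  obtain ⟨hv, hm, hufm⟩ := pointRing_regular_of_certificate (O 1) (red 1) (hred 1) Vs hA
    (hBO 1) hlift d t hd0 C.d_mem C.unif ht ht0 hunif h u s n C.n_ne C.cert hh' hs' hu
  exact ⟨t, ht, hunif, hv, hm, hufm⟩

/-- **Cusp points off `C_mid`**: the vertical prime is `(q)`, the maximal ideal is `(q, t)`, the
local ring is factorial. -/
theorem regular_single (H : V3BaseCusp O red hred hBO q yb) (i : Fin 3) (hi1 : i ≠ 1)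
    (Vs : ValuationSubring κ)
    (hA : ∀ b : B, algebraMap B F b ∈ compositeSubring (O i) (red i) (hred i) Vs)
    (hmax : (pointIdeal (O i) (red i) (hred i) Vs hA).IsMaximal) (hy : yb ∈ Vs.nonunits)
    (hi : ∀ j, j ≠ i → ¬ centre (O j) (hBO j) ≤ pointIdeal (O i) (red i) (hred i) Vs hA) :
    ∃ t : B, redOn (O i) (red i) (hBO i) t ∈ Vs.nonunits ∧
      (∀ v ∈ Vs.nonunits, ∃ w ∈ Vs, v = redOn (O i) (red i) (hBO i) t * w) ∧
      vertIdeal (O i) (red i) (hred i) Vs hA =
        Ideal.span {algebraMap B (pointRing F (pointIdeal (O i) (red i) (hred i) Vs hA)) q} ∧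
      maximalIdeal (pointRing F (pointIdeal (O i) (red i) (hred i) Vs hA)) =
        Ideal.span {algebraMap B (pointRing F (pointIdeal (O i) (red i) (hred i) Vs hA)) q,
          algebraMap B (pointRing F (pointIdeal (O i) (red i) (hred i) Vs hA)) t} ∧
      UniqueFactorizationMonoid (pointRing F (pointIdeal (O i) (red i) (hred i) Vs hA)) := by
  obtain ⟨t, ht, ht0, hunif⟩ := H.exists_unif i Vs hA hmax hy
  have hd : ∀ z ∈ (O i).nonunits, z / algebraMap B F q ∈ O i := by
    have h02 : i = 0 ∨ i = 2 := by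
      fin_cases i
      · exact Or.inl rfl
      · exact absurd rfl hi1
      · exact Or.inr rfl
    rcases h02 with rfl | rfl
    · exact H.unif_inf
    · exact H.unif_zero
  have hu : ∀ 𝔮 ∈ (Ideal.span {q}).minimalPrimes,
      𝔮 ≤ pointIdeal (O i) (red i) (hred i) Vs hA → 𝔮 = centre (O i) (hBO i) := by
    intro 𝔮 h𝔮 hle
    obtain ⟨j, rfl⟩ := H.hmin 𝔮 h𝔮
    by_cases hj : j = i
    · rw [hj]
    · exact absurd hle (hi j hj)
  have hlift := H.lift_point i Vs hA hy
  have hh' : redOn (O i) (red i) (hBO i) (1 : B) ∉ Vs.nonunits := by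
    rw [map_one]
    exact one_notMem_nonunits Vs
  obtain ⟨hv, hm, hufm⟩ := pointRing_regular_of_certificate (O i) (red i) (hred i) Vs hA
    (hBO i) hlift q t H.q_ne (H.q_mem i) hd ht ht0 hunif 1 q 1 1 one_ne_zero
    (by rw [one_mul, one_mul, pow_one]) hh' hh' hu
  exact ⟨t, ht, hunif, hv, hm, hufm⟩

/-- **(Cu-4): the certificate at every cusp of `C_mid`.** -/
theorem exists_midCert (H : V3BaseCusp O red hred hBO q yb)
    (C : V3Cusp O red hBO xinv y₀ y₁ y₂ y₃ yb)
    (M : V3CuspMid O red hBO q y₁ y₂ e m n N yb g) (Vs : ValuationSubring κ)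
    (hA : ∀ b : B, algebraMap B F b ∈ compositeSubring (O 1) (red 1) (hred 1) Vs)
    (hy : yb ∈ Vs.nonunits) :
    ∃ d h s : B,
      MidCert O hBO q (pointIdeal (O 1) (red 1) (hred 1) Vs hA) d h s (q ^ N) 1 1 n N ∧
      ∃ s₀ : B, s₀ ∉ pointIdeal (O 1) (red 1) (hred 1) Vs hA ∧
        algebraMap B F d = e * algebraMap B F s₀ := by
  have hoff := C.not_centre_le 1 Vs hA hy
  have h1P : (1 : B) ∉ pointIdeal (O 1) (red 1) (hred 1) Vs hA :=
    (Ideal.ne_top_iff_one _).1 (pointIdeal_isPrime (O 1) (red 1) (hred 1) Vs hA).ne_top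
  have hu : ∀ 𝔮 ∈ (Ideal.span {q ^ N}).minimalPrimes,
      𝔮 ≤ pointIdeal (O 1) (red 1) (hred 1) Vs hA → 𝔮 = centre (O 1) (hBO 1) := by
    intro 𝔮 h𝔮 hle
    by_cases hN : N = 0
    · exfalso
      have hprime : 𝔮.IsPrime := h𝔮.1.1
      apply hprime.ne_top
      rw [Ideal.eq_top_iff_one]
      have h2 := h𝔮.1.2 (Ideal.mem_span_singleton_self (q ^ N))
      rwa [hN, pow_zero] at h2
    · exact LThm.minimalPrimes_le_eq_centre_of_not_le O hBO _ H.hmin 1 hoff 𝔮
        (Inst.Meet.mem_minimalPrimes_of_pow hN h𝔮) hle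
  obtain ⟨hz, hg⟩ := M.cert
  have hcert : ∃ hz : e ^ n / algebraMap B F q ^ N ∈ O 1, red 1 ⟨_, hz⟩ ∉ Vs.nonunits := by
    refine ⟨hz, ?_⟩
    rw [hg]
    exact M.g_unit Vs (fun b =>
      (algebraMap_mem_compositeSubring_iff (O 1) (red 1) (hred 1) (hBO 1) Vs b).1 (hA b)) hy
  obtain ⟨d, h, s, s₀, hs₀, hd, hd0, hdO, hdunif, hhs, hh, hs⟩ :=
    exists_cert_of_local_unif (O 1) (red 1) (hred 1) (hBO 1) Vs hA M.n_ne
      (M.e_mem_pointRing C Vs hA) M.e_mem M.e_unif hcert H.q_ne hu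
  refine ⟨d, h, s, ⟨M.n_ne, hdO, hdunif, hhs, by rw [mul_one, one_mul], hh, hs, h1P, ?_, ?_, ?_⟩,
    s₀, hs₀, hd⟩
  · intro hle
    exact absurd hle (hoff 0 (by decide))
  · intro hle
    exact absurd hle (hoff 2 (by decide))
  · exact (Ideal.ne_top_iff_one _).1 (centre_isPrime (O 1) (hBO 1)).ne_top

/-- **Theorem (L) at every cusp point, detailed form** ((LIFT) at the cusps only): a maximal ideal
`𝔪` containing `q` and `x⁻¹` is a point `(i, s)` on exactly one component; the vertical prime of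
its local ring is `(d)` (`d = q` off `C_mid`, a numerator of `e` on `C_mid`), its maximal ideal is
`(d, t)`, and the local ring is factorial. -/
theorem regular_cusp (H : V3BaseCusp O red hred hBO q yb)
    (C : V3Cusp O red hBO xinv y₀ y₁ y₂ y₃ yb)
    (M : V3CuspMid O red hBO q y₁ y₂ e m n N yb g) (𝔪 : Ideal B) [h𝔪 : 𝔪.IsMaximal]
    (hq : q ∈ 𝔪) (hx : xinv ∈ 𝔪) :
    ∃ (i : Fin 3) (Vs : ValuationSubring κ)
      (hA : ∀ b : B, algebraMap B F b ∈ compositeSubring (O i) (red i) (hred i) Vs),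
      pointIdeal (O i) (red i) (hred i) Vs hA = 𝔪 ∧ yb ∈ Vs.nonunits ∧
      (∀ j, j ≠ i → ¬ centre (O j) (hBO j) ≤ 𝔪) ∧
      ∃ d t : B, (i ≠ 1 → d = q) ∧
        (i = 1 → ∃ s₀ : B, s₀ ∉ 𝔪 ∧ algebraMap B F d = e * algebraMap B F s₀) ∧
        redOn (O i) (red i) (hBO i) t ∈ Vs.nonunits ∧
        (∀ v ∈ Vs.nonunits, ∃ w ∈ Vs, v = redOn (O i) (red i) (hBO i) t * w) ∧
        vertIdeal (O i) (red i) (hred i) Vs hA =
          Ideal.span {algebraMap B (pointRing F (pointIdeal (O i) (red i) (hred i) Vs hA)) d} ∧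
        maximalIdeal (pointRing F (pointIdeal (O i) (red i) (hred i) Vs hA)) =
          Ideal.span {algebraMap B (pointRing F (pointIdeal (O i) (red i) (hred i) Vs hA)) d,
            algebraMap B (pointRing F (pointIdeal (O i) (red i) (hred i) Vs hA)) t} ∧
        UniqueFactorizationMonoid (pointRing F (pointIdeal (O i) (red i) (hred i) Vs hA)) := by
  obtain ⟨i, Vs, hA, hP, hy, hoff⟩ := H.exists_point C 𝔪 hq hx
  subst hP
  refine ⟨i, Vs, hA, rfl, hy, hoff, ?_⟩
  by_cases hi : i = 1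
  · subst hi
    obtain ⟨d, h, s, hC, s₀, hs₀, hd⟩ := H.exists_midCert C M Vs hA hy
    obtain ⟨t, ht, hunif, hv, hm, hufm⟩ := H.regular_mid Vs hA h𝔪 hy hC
    exact ⟨d, t, fun h => absurd rfl h, fun _ => ⟨s₀, hs₀, hd⟩, ht, hunif, hv, hm, hufm⟩
  · obtain ⟨t, ht, hunif, hv, hm, hufm⟩ := H.regular_single i hi Vs hA h𝔪 hy hoff
    exact ⟨q, t, fun _ => rfl, fun h => absurd h hi, ht, hunif, hv, hm, hufm⟩

/-- **Theorem (L) at every cusp point** ((LIFT) at the cusps only): the local ring of `B` at a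
maximal ideal containing `q` and `x⁻¹` is factorial. -/
theorem ufm_pointRing (H : V3BaseCusp O red hred hBO q yb)
    (C : V3Cusp O red hBO xinv y₀ y₁ y₂ y₃ yb)
    (M : V3CuspMid O red hBO q y₁ y₂ e m n N yb g) (𝔪 : Ideal B) [h𝔪 : 𝔪.IsMaximal]
    (hq : q ∈ 𝔪) (hx : xinv ∈ 𝔪) : UniqueFactorizationMonoid (pointRing F 𝔪) := by
  obtain ⟨i, Vs, hA, hP, -, -, d, t, -, -, -, -, -, -, hufm⟩ := H.regular_cusp C M 𝔪 hq hx
  subst hP
  exact hufm

/-- **The package at a cusp point, in the shape of the local gluing step**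
(`Glue.LStart.hlocal_at_point_of_unique_branch`, with the constant family `fun _ => Vs`):
factoriality, the unique branch `i₀`, the place `Vs` with `𝔪 = (i₀, Vs)`, and (LIFT) there. -/
theorem cusp_package (H : V3BaseCusp O red hred hBO q yb)
    (C : V3Cusp O red hBO xinv y₀ y₁ y₂ y₃ yb)
    (M : V3CuspMid O red hBO q y₁ y₂ e m n N yb g) (𝔪 : Ideal B) [h𝔪 : 𝔪.IsMaximal]
    (hq : q ∈ 𝔪) (hx : xinv ∈ 𝔪) :
    UniqueFactorizationMonoid (pointRing F 𝔪) ∧
    ∃ (i₀ : Fin 3) (Vs : ValuationSubring κ), centre (O i₀) (hBO i₀) ≤ 𝔪 ∧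
      (∀ i, centre (O i) (hBO i) ≤ 𝔪 → i = i₀) ∧
      (∀ i, centre (O i) (hBO i) ≤ 𝔪 →
        ∃ hA : ∀ a : B, algebraMap B F a ∈ compositeSubring (O i) (red i) (hred i) Vs,
          pointIdeal (O i) (red i) (hred i) Vs hA = 𝔪) ∧
      (∀ i, centre (O i) (hBO i) ≤ 𝔪 → ∀ c ∈ Vs, ∃ a b : B,
        redOn (O i) (red i) (hBO i) b ∉ Vs.nonunits ∧
        redOn (O i) (red i) (hBO i) a = c * redOn (O i) (red i) (hBO i) b) := by
  refine ⟨H.ufm_pointRing C M 𝔪 hq hx, ?_⟩
  obtain ⟨i₀, Vs, hA, hP, hy, hoff⟩ := H.exists_point C 𝔪 hq hx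
  have hi₀ : centre (O i₀) (hBO i₀) ≤ 𝔪 := by
    rw [← hP]
    exact centre_le_pointIdeal (O i₀) (red i₀) (hred i₀) (hBO i₀) Vs hA
  have hone : ∀ i, centre (O i) (hBO i) ≤ 𝔪 → i = i₀ := fun i hi => by
    by_contra hne
    exact hoff i hne hi
  refine ⟨i₀, Vs, hi₀, hone, ?_, ?_⟩
  · intro i hi
    obtain rfl := hone i hi
    exact ⟨hA, hP⟩
  · intro i hi
    obtain rfl := hone i hi
    exact H.lift_point i Vs hA hy

end V3BaseCusp

end Base

end Fermat.Agent.CAR.Local.InstCusp
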