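import Mathlib
import Fermat.Agent.CAR.Local.InstCusp

/-!
# CAR-17 (P-5): the cusp records from the reductions of `J₀, J₁, J₂`

Constructors of the records `V3Cusp`, `V3CuspMid` of `InstCusp.lean` from the reductions of three
elements `J₀, J₁, J₂ ∈ F` (for CAR: `J_i = π_i^* J`) on the three components:

* `RedTo O red J c` : `J ∈ O` and `J` reduces to `c`; calculus (`mul`, `pow`, `inv`, `div`);
* `redOn_eq_div` : the reduction of `y ∈ B` with `y * v = u`;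
* `V3Cusp.of_J` : reductions `(Jb, Jb^p, Jb^(p²))`, `(Jb, Jb^p, Jb)`, `(Jb^(p²), Jb^p, Jb)` of
  `(J₀, J₁, J₂)` on `C_inf`, `C_mid`, `C_0` and `xinv = 1/(J₀J₂)`, `y₁ = J₁/J₀^p`, `y₂ = J₁/J₂^p`,
  `y₃ = J₂/J₀^(p²)`, `y₀ = J₀/J₂^(p²)` in `B` give `V3Cusp … Jb⁻¹`;
* `V3CuspMid.of_J` : `d = J₂ - J₀` a uniformiser of `O_mid` with `d ^ n / q ^ N` reducing to `c`
  gives `V3CuspMid` with `e = 1 - J₀/J₂`, `g = c / Jb ^ n`.
-/

set_option autoImplicit false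

namespace Fermat.Agent.CAR.Local.InstCusp

open IsLocalRing Fermat.Agent.CAR.Local Fermat.Agent.CAR.Local.Inst

/-! ### Reduction of elements of a component -/

section RedTo

variable {F κ : Type*} [Field F] [Field κ]

/-- `J` lies in the valuation ring `O` and reduces to `c`. -/
def RedTo (O : ValuationSubring F) (red : O →+* κ) (J : F) (c : κ) : Prop :=
  ∃ h : J ∈ O, red ⟨J, h⟩ = c

namespace RedTo

variable {O : ValuationSubring F} {red : O →+* κ}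

theorem mem {J : F} {c : κ} (h : RedTo O red J c) : J ∈ O := h.1

theorem one : RedTo O red 1 1 := ⟨O.one_mem, map_one red⟩

theorem mul {J J' : F} {c c' : κ} (h : RedTo O red J c) (h' : RedTo O red J' c') :
    RedTo O red (J * J') (c * c') := by
  obtain ⟨hJ, rfl⟩ := h
  obtain ⟨hJ', rfl⟩ := h'
  exact ⟨O.mul_mem _ _ hJ hJ', map_mul red ⟨J, hJ⟩ ⟨J', hJ'⟩⟩

theorem pow {J : F} {c : κ} (h : RedTo O red J c) (n : ℕ) : RedTo O red (J ^ n) (c ^ n) := by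
  induction n with
  | zero => simpa using (one : RedTo O red 1 1)
  | succ n ih => rw [pow_succ, pow_succ]; exact ih.mul h

theorem sub {J J' : F} {c c' : κ} (h : RedTo O red J c) (h' : RedTo O red J' c') :
    RedTo O red (J - J') (c - c') := by
  obtain ⟨hJ, rfl⟩ := h
  obtain ⟨hJ', rfl⟩ := h'
  exact ⟨O.sub_mem hJ hJ', map_sub red ⟨J, hJ⟩ ⟨J', hJ'⟩⟩

theorem unique {J : F} {c c' : κ} (h : RedTo O red J c) (h' : RedTo O red J c') : c = c' := by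
  obtain ⟨hJ, rfl⟩ := h
  obtain ⟨hJ', rfl⟩ := h'
  rfl

theorem ne_zero {J : F} {c : κ} (h : RedTo O red J c) (hc : c ≠ 0) : J ≠ 0 := by
  rintro rfl
  obtain ⟨hJ, h0⟩ := h
  apply hc
  rw [← h0]
  exact map_zero red

/-- An element with non-zero reduction is a unit of `O`, and its inverse reduces to the
inverse. -/
theorem inv (hred : ∀ x : O, red x = 0 ↔ x ∈ maximalIdeal O) {J : F} {c : κ}
    (h : RedTo O red J c) (hc : c ≠ 0) : RedTo O red J⁻¹ c⁻¹ := by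
  have hJ0 : J ≠ 0 := h.ne_zero hc
  obtain ⟨hJ, rfl⟩ := h
  have hnon : J ∉ O.nonunits := by
    intro hn
    apply hc
    rw [hred]
    exact (ValuationSubring.coe_mem_nonunits_iff (a := (⟨J, hJ⟩ : O))).1 hn
  have hinv : J⁻¹ ∈ O := by
    rw [ValuationSubring.mem_nonunits_iff_or] at hnon
    push Not at hnon
    exact hnon.2
  refine ⟨hinv, ?_⟩
  have h1 : red ⟨J⁻¹, hinv⟩ * red ⟨J, hJ⟩ = 1 := by
    rw [← map_mul, ← map_one red]
    congr 1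
    apply Subtype.ext
    show J⁻¹ * J = 1
    exact inv_mul_cancel₀ hJ0
  exact eq_inv_of_mul_eq_one_left h1

theorem div (hred : ∀ x : O, red x = 0 ↔ x ∈ maximalIdeal O) {J J' : F} {c c' : κ}
    (h : RedTo O red J c) (h' : RedTo O red J' c') (hc' : c' ≠ 0) :
    RedTo O red (J / J') (c / c') := by
  rw [div_eq_mul_inv, div_eq_mul_inv]
  exact h.mul (h'.inv hred hc')

/-- An element with non-zero reduction is not in the maximal ideal. -/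
theorem notMem_nonunits (hred : ∀ x : O, red x = 0 ↔ x ∈ maximalIdeal O) {J : F} {c : κ}
    (h : RedTo O red J c) (hc : c ≠ 0) : J ∉ O.nonunits := by
  obtain ⟨hJ, rfl⟩ := h
  intro hn
  apply hc
  rw [hred]
  exact (ValuationSubring.coe_mem_nonunits_iff (a := (⟨J, hJ⟩ : O))).1 hn

end RedTo

variable {B : Type*} [CommRing B] [Algebra B F]

/-- The reduction of an element of `B` in terms of `RedTo`. -/
theorem redTo_algebraMap (O : ValuationSubring F) (red : O →+* κ)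
    (hBO : ∀ b : B, algebraMap B F b ∈ O) (y : B) :
    RedTo O red (algebraMap B F y) (redOn O red hBO y) :=
  ⟨hBO y, rfl⟩

/-- The reduction of `y ∈ B` with `y * v = u`, `v` reducing to `b ≠ 0`, is `a / b`. -/
theorem redOn_eq_div (O : ValuationSubring F) (red : O →+* κ)
    (hBO : ∀ b : B, algebraMap B F b ∈ O) {y : B} {u v : F} {a b : κ}
    (h : algebraMap B F y * v = u) (hu : RedTo O red u a) (hv : RedTo O red v b) (hb : b ≠ 0) :
    redOn O red hBO y = a / b := by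
  have h1 : RedTo O red u (redOn O red hBO y * b) := h ▸ (redTo_algebraMap O red hBO y).mul hv
  rw [eq_div_iff hb]
  exact h1.unique hu

end RedTo

/-! ### Powers of the inverse -/

section Pow

variable {κ : Type*} [Field κ]

/-- `J ^ b / J ^ a = (J⁻¹) ^ (a - b)` for `b ≤ a`. -/
theorem pow_div_pow_eq_inv_pow {J : κ} (hJ : J ≠ 0) {a b : ℕ} (hab : b ≤ a) :
    J ^ b / J ^ a = J⁻¹ ^ (a - b) := by
  obtain ⟨c, rfl⟩ := Nat.exists_eq_add_of_le hab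
  rw [Nat.add_sub_cancel_left, pow_add, inv_pow]
  field_simp

end Pow

/-! ### The records -/

section Of

variable {B F κ : Type*} [CommRing B] [Field F] [Algebra B F] [Field κ]
  {O : Fin 3 → ValuationSubring F} {red : ∀ i, O i →+* κ}
  {hBO : ∀ i, ∀ b : B, algebraMap B F b ∈ O i}

/-- **The cusp record from the reductions of `J₀, J₁, J₂`.**  `p` is the residue characteristic
(for CAR: `J_i = π_i^* J`, `Jb = J̄`, and `ψ J̄ = J̄ ^ p` for the Frobenius twist `ψ`). -/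
theorem V3Cusp.of_J {J₀ J₁ J₂ : F} {Jb : κ} (hJb : Jb ≠ 0) {p : ℕ} (hp : 2 ≤ p)
    (inf₀ : RedTo (O 0) (red 0) J₀ Jb) (inf₁ : RedTo (O 0) (red 0) J₁ (Jb ^ p))
    (inf₂ : RedTo (O 0) (red 0) J₂ (Jb ^ p ^ 2))
    (mid₀ : RedTo (O 1) (red 1) J₀ Jb) (mid₁ : RedTo (O 1) (red 1) J₁ (Jb ^ p))
    (mid₂ : RedTo (O 1) (red 1) J₂ Jb)
    (zero₀ : RedTo (O 2) (red 2) J₀ (Jb ^ p ^ 2)) (zero₁ : RedTo (O 2) (red 2) J₁ (Jb ^ p))
    (zero₂ : RedTo (O 2) (red 2) J₂ Jb)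
    {xinv y₀ y₁ y₂ y₃ : B} (hxinv : algebraMap B F xinv * (J₀ * J₂) = 1)
    (hy₁ : algebraMap B F y₁ * J₀ ^ p = J₁) (hy₂ : algebraMap B F y₂ * J₂ ^ p = J₁)
    (hy₃ : algebraMap B F y₃ * J₀ ^ p ^ 2 = J₂) (hy₀ : algebraMap B F y₀ * J₂ ^ p ^ 2 = J₀) :
    V3Cusp O red hBO xinv y₀ y₁ y₂ y₃ Jb⁻¹ := by
  have hpn : ∀ n : ℕ, Jb ^ n ≠ 0 := fun n => pow_ne_zero n hJb
  have hp0 : p ≠ 0 := by omega
  have hp2 : 1 ≤ p ^ 2 := Nat.one_le_pow _ _ (by omega)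
  have hpp : p < p ^ 2 * p := by nlinarith
  have h1 : 1 < p ^ 2 := by nlinarith
  refine ⟨?_, ?_, ?_, ?_, ?_, ?_, ?_, ?_, ?_, ?_, ?_⟩
  · -- `x⁻¹`
    intro i
    fin_cases i
    · refine ⟨1 + p ^ 2, ?_⟩
      have h := redOn_eq_div (O 0) (red 0) (hBO 0) hxinv RedTo.one (inf₀.mul inf₂)
        (mul_ne_zero hJb (hpn _))
      show redOn (O 0) (red 0) (hBO 0) xinv = _
      rw [h, inv_pow, pow_add, pow_one, one_div]
    · refine ⟨2, ?_⟩
      have h := redOn_eq_div (O 1) (red 1) (hBO 1) hxinv RedTo.one (mid₀.mul mid₂)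
        (mul_ne_zero hJb hJb)
      show redOn (O 1) (red 1) (hBO 1) xinv = _
      rw [h, inv_pow, pow_two, one_div]
    · refine ⟨p ^ 2 + 1, ?_⟩
      have h := redOn_eq_div (O 2) (red 2) (hBO 2) hxinv RedTo.one (zero₀.mul zero₂)
        (mul_ne_zero (hpn _) hJb)
      show redOn (O 2) (red 2) (hBO 2) xinv = _
      rw [h, inv_pow, pow_add, pow_one, one_div]
  · -- `y₁` on `C_inf`
    rw [redOn_eq_div (O 0) (red 0) (hBO 0) hy₁ inf₁ (inf₀.pow p) (hpn _), div_self (hpn _)]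
  · -- `y₁` on `C_mid`
    rw [redOn_eq_div (O 1) (red 1) (hBO 1) hy₁ mid₁ (mid₀.pow p) (hpn _), div_self (hpn _)]
  · -- `y₁` on `C_0`
    refine ⟨p ^ 2 * p - p, by omega, ?_⟩
    rw [redOn_eq_div (O 2) (red 2) (hBO 2) hy₁ zero₁ (zero₀.pow p) (pow_ne_zero _ (hpn _)),
      ← pow_mul, pow_div_pow_eq_inv_pow hJb hpp.le]
  · -- `y₂` on `C_inf`
    refine ⟨p ^ 2 * p - p, by omega, ?_⟩
    rw [redOn_eq_div (O 0) (red 0) (hBO 0) hy₂ inf₁ (inf₂.pow p) (pow_ne_zero _ (hpn _)),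
      ← pow_mul, pow_div_pow_eq_inv_pow hJb hpp.le]
  · -- `y₂` on `C_mid`
    rw [redOn_eq_div (O 1) (red 1) (hBO 1) hy₂ mid₁ (mid₂.pow p) (hpn _), div_self (hpn _)]
  · -- `y₂` on `C_0`
    rw [redOn_eq_div (O 2) (red 2) (hBO 2) hy₂ zero₁ (zero₂.pow p) (hpn _), div_self (hpn _)]
  · -- `y₃` on `C_inf`
    rw [redOn_eq_div (O 0) (red 0) (hBO 0) hy₃ inf₂ (inf₀.pow (p ^ 2)) (hpn _),
      div_self (hpn _)]
  · -- `y₃` on `C_mid`
    refine ⟨p ^ 2 - 1, by omega, ?_⟩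
    have h := redOn_eq_div (O 1) (red 1) (hBO 1) hy₃ mid₂ (mid₀.pow (p ^ 2)) (hpn _)
    rw [h, ← pow_div_pow_eq_inv_pow hJb hp2, pow_one]
  · -- `y₀` on `C_mid`
    refine ⟨p ^ 2 - 1, by omega, ?_⟩
    have h := redOn_eq_div (O 1) (red 1) (hBO 1) hy₀ mid₀ (mid₂.pow (p ^ 2)) (hpn _)
    rw [h, ← pow_div_pow_eq_inv_pow hJb hp2, pow_one]
  · -- `y₀` on `C_0`
    rw [redOn_eq_div (O 2) (red 2) (hBO 2) hy₀ zero₀ (zero₂.pow (p ^ 2)) (hpn _),
      div_self (hpn _)]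

/-- **The record at the cusps of `C_mid` from `d = J₂ - J₀`.**  `d` a uniformiser of `O_mid`,
`d ^ n / q ^ N ∈ O_mid` reducing to `c`, and `g = c / Jb ^ n` a unit at the cusps.
(For CAR: `(n, N) = (p - 1, 1)`, `c = -(θJ̄)^(p-1)`, `g = -(θJ̄/J̄)^(p-1)`.) -/
theorem V3CuspMid.of_J (hred : ∀ i, ∀ x : O i, red i x = 0 ↔ x ∈ maximalIdeal (O i))
    {J₀ J₁ J₂ : F} {Jb : κ} (hJb : Jb ≠ 0) {p : ℕ} (hp : p ≠ 0)
    (mid₀ : RedTo (O 1) (red 1) J₀ Jb) (mid₂ : RedTo (O 1) (red 1) J₂ Jb)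
    {q y₁ y₂ : B} (hy₁ : algebraMap B F y₁ * J₀ ^ p = J₁)
    (hy₂ : algebraMap B F y₂ * J₂ ^ p = J₁) {n N : ℕ} (hn : n ≠ 0)
    (hd : J₂ - J₀ ∈ (O 1).nonunits) (hunif : ∀ z ∈ (O 1).nonunits, z / (J₂ - J₀) ∈ O 1)
    {c g : κ} (hc : RedTo (O 1) (red 1) ((J₂ - J₀) ^ n / algebraMap B F q ^ N) c)
    (hg : g * Jb ^ n = c)
    (hgu : ∀ Vs : ValuationSubring κ, (∀ b : B, redOn (O 1) (red 1) (hBO 1) b ∈ Vs) →
      Jb⁻¹ ∈ Vs.nonunits → g ∉ Vs.nonunits) :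
    V3CuspMid O red hBO q y₁ y₂ (1 - J₀ / J₂) p n N Jb⁻¹ g := by
  have hJ₀ : J₀ ≠ 0 := mid₀.ne_zero hJb
  have hJ₂ : J₂ ≠ 0 := mid₂.ne_zero hJb
  have hinv : RedTo (O 1) (red 1) J₂⁻¹ Jb⁻¹ := mid₂.inv (hred 1) hJb
  have he : 1 - J₀ / J₂ = (J₂ - J₀) * J₂⁻¹ := by field_simp
  refine ⟨hp, hn, ?_, ?_, ?_, ?_, hgu⟩
  · -- the root
    have h1 : (1 - (1 - J₀ / J₂)) ^ p * algebraMap B F y₁ * (J₂ ^ p) =
        algebraMap B F y₂ * J₂ ^ p := by
      rw [hy₂, sub_sub_cancel, div_pow, ← hy₁]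
      field_simp
    exact mul_right_cancel₀ (pow_ne_zero p hJ₂) h1
  · rw [he]
    exact LThm.mul_mem_nonunits_of_mem (O 1) hd hinv.mem
  · intro z hz
    have h1 : z / (1 - J₀ / J₂) = z / (J₂ - J₀) * J₂ := by
      rw [he]
      by_cases hd0 : J₂ - J₀ = 0
      · rw [hd0]; simp
      · field_simp
    rw [h1]
    exact (O 1).mul_mem _ _ (hunif z hz) mid₂.mem
  · have h1 : (1 - J₀ / J₂) ^ n / algebraMap B F q ^ N =
        (J₂ - J₀) ^ n / algebraMap B F q ^ N * J₂⁻¹ ^ n := by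
      rw [he, mul_pow]
      ring
    have h2 : RedTo (O 1) (red 1) ((1 - J₀ / J₂) ^ n / algebraMap B F q ^ N)
        (c * Jb⁻¹ ^ n) := h1 ▸ hc.mul (hinv.pow n)
    obtain ⟨hz, hz'⟩ := h2
    refine ⟨hz, ?_⟩
    rw [hz', ← hg, inv_pow, mul_assoc, mul_inv_cancel₀ (pow_ne_zero n hJb), mul_one]

end Of

end Fermat.Agent.CAR.Local.InstCusp
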