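/-
helper83 — CAR (L1), level `q`: the supersingular points are exactly the poles of `Δ^(q-1)`
(as a function of `j`), and there the "thickness" `G(ρ^q, ρ)` of the Kronecker form of the modular
equation is nonzero.  Pure algebra (Mathlib only).

Setting: `k` a field of characteristic `q`, `K ⊇ k` a field with a `k`-derivation `θ`
(think `K = k((t))`, `θ = t d/dt`), `j ∈ K` with `θ j ≠ 0`, and elements `φ, D ∈ K`, `g ∈ k[X]` with

* (H3) `φ * (j - j^(q²)) = -g(j)`            (`φ = ((j^q - V j)/q mod q)`, `g = G(X^q, X)`),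
* (H1) `θ φ = j^(q-1) θ j - (θ j)^q`          (`θ` of the Frobenius-lift defect),
* (H2) `(θ j)^6 = j^4 (j - 1728)^3 D`         (`D = Δ`).

Then `(θ j)^(q-1) (j - j^(q²))² = P₀(j)` with
`P₀ = X^(q-1) (X - X^(q²))² + g' (X - X^(q²)) - g`, hence

  `(j^4 (j - 1728)^3)^(q-1) * D^(q-1) * (j - j^(q²))^12 = P₀(j)^6`.

Consequently, for a valuation `v` of `K` trivial on `k` and centred at `j = ρ`, `ρ ≠ 0, 1728`:
`D` has a pole (`1 < v D`) iff `ρ^(q²) = ρ` and `g(ρ) ≠ 0`, and then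
`v(D)^(q-1) * v(j - ρ)^12 = 1`.
-/
import Mathlib

set_option autoImplicit false

namespace Fermat.Agent.CAR.Local

open Polynomial

section Identity

variable {k K : Type*} [Field k] [CommRing K] [IsDomain K] [Algebra k K]

/-- The polynomial `P₀ = X^(q-1) (X - X^(q²))² + g' (X - X^(q²)) - g`. -/
noncomputable def ssPoly (q : ℕ) (g : k[X]) : k[X] :=
  X ^ (q - 1) * (X - X ^ (q ^ 2)) ^ 2 + derivative g * (X - X ^ (q ^ 2)) - g

theorem eval_ssPoly (q : ℕ) (g : k[X]) (ρ : k) (hρ : ρ ^ (q ^ 2) = ρ) :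
    (ssPoly q g).eval ρ = -g.eval ρ := by
  simp [ssPoly, hρ]

/-- `(θ j)^(q-1) (j - j^(q²))² = P₀(j)`. -/
theorem theta_pow_mul_sq (q : ℕ) [hq : Fact q.Prime] [CharP k q] (θ : Derivation k K K)
    (j φ : K) (g : k[X]) (hθ : θ j ≠ 0)
    (h3 : φ * (j - j ^ (q ^ 2)) = -aeval j g)
    (h1 : θ φ = j ^ (q - 1) * θ j - (θ j) ^ q) :
    (θ j) ^ (q - 1) * (j - j ^ (q ^ 2)) ^ 2 = aeval j (ssPoly q g) := by
  have hchar : CharP K q := charP_of_injective_algebraMap (algebraMap k K).injective q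
  have hq2 : θ (j ^ (q ^ 2)) = 0 := by
    rw [Derivation.leibniz_pow, nsmul_eq_mul, Nat.cast_pow, CharP.cast_eq_zero K q,
      zero_pow (by norm_num), zero_mul]
  have hw : θ (j - j ^ (q ^ 2)) = θ j := by rw [map_sub, hq2, sub_zero]
  have hg : θ (aeval j g) = aeval j (derivative g) * θ j := by
    rw [Derivation.map_aeval, smul_eq_mul]
  have h3' := congrArg θ h3
  rw [Derivation.leibniz, hw, map_neg, hg, smul_eq_mul, smul_eq_mul] at h3'
  have hq1 : (θ j) ^ q = (θ j) ^ (q - 1) * θ j := by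
    rw [← pow_succ, Nat.sub_add_cancel hq.out.one_le]
  rw [h1, hq1] at h3'
  apply mul_right_cancel₀ hθ
  simp only [ssPoly, map_add, map_sub, map_mul, map_pow, aeval_X]
  linear_combination (-(j - j ^ (q ^ 2))) * h3' + θ j * h3

/-- **The supersingular identity**:
`(j^4 (j - 1728)^3)^(q-1) * D^(q-1) * (j - j^(q²))^12 = P₀(j)^6`. -/
theorem ss_identity (q : ℕ) [hq : Fact q.Prime] [CharP k q] (θ : Derivation k K K)
    (j φ D : K) (g : k[X]) (hθ : θ j ≠ 0)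
    (h3 : φ * (j - j ^ (q ^ 2)) = -aeval j g)
    (h1 : θ φ = j ^ (q - 1) * θ j - (θ j) ^ q)
    (h2 : (θ j) ^ 6 = j ^ 4 * (j - 1728) ^ 3 * D) :
    (j ^ 4 * (j - 1728) ^ 3) ^ (q - 1) * D ^ (q - 1) * (j - j ^ (q ^ 2)) ^ 12 =
      (aeval j (ssPoly q g)) ^ 6 := by
  rw [← theta_pow_mul_sq q θ j φ g hθ h3 h1]
  have e : ((θ j) ^ (q - 1) * (j - j ^ (q ^ 2)) ^ 2) ^ 6 =
      ((θ j) ^ 6) ^ (q - 1) * (j - j ^ (q ^ 2)) ^ 12 := by ring
  rw [e, h2, mul_pow (j ^ 4 * (j - 1728) ^ 3) D]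

/-- The `k`-derivation of `K` given by a function satisfying the Leibniz rule and killing `k`
(a form of the hypotheses that avoids instance-path problems for concrete `K`, e.g. Laurent
series). -/
def derivationOfFun (θ : K → K) (hadd : ∀ x y, θ (x + y) = θ x + θ y)
    (hmul : ∀ x y, θ (x * y) = x * θ y + y * θ x) (hconst : ∀ c : k, θ (algebraMap k K c) = 0) :
    Derivation k K K where
  toFun := θ
  map_add' := hadd
  map_smul' c x := by
    rw [RingHom.id_apply, Algebra.smul_def, hmul, hconst, mul_zero, add_zero, Algebra.smul_def]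
  map_one_eq_zero' := by
    have h := hconst 1
    rwa [map_one] at h
  leibniz' x y := by
    show θ (x * y) = x • θ y + y • θ x
    rw [hmul, smul_eq_mul, smul_eq_mul]

omit [IsDomain K] in
theorem derivationOfFun_apply (θ : K → K) (hadd : ∀ x y, θ (x + y) = θ x + θ y)
    (hmul : ∀ x y, θ (x * y) = x * θ y + y * θ x) (hconst : ∀ c : k, θ (algebraMap k K c) = 0)
    (x : K) : derivationOfFun θ hadd hmul hconst x = θ x := rfl

/-- `ss_identity` for a function `θ` satisfying the Leibniz rule. -/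
theorem ss_identity_of_fun (q : ℕ) [hq : Fact q.Prime] [CharP k q] (θ : K → K)
    (hadd : ∀ x y, θ (x + y) = θ x + θ y)
    (hmul : ∀ x y, θ (x * y) = x * θ y + y * θ x) (hconst : ∀ c : k, θ (algebraMap k K c) = 0)
    (j φ D : K) (g : k[X]) (hθ : θ j ≠ 0)
    (h3 : φ * (j - j ^ (q ^ 2)) = -aeval j g)
    (h1 : θ φ = j ^ (q - 1) * θ j - (θ j) ^ q)
    (h2 : (θ j) ^ 6 = j ^ 4 * (j - 1728) ^ 3 * D) :
    (j ^ 4 * (j - 1728) ^ 3) ^ (q - 1) * D ^ (q - 1) * (j - j ^ (q ^ 2)) ^ 12 =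
      (aeval j (ssPoly q g)) ^ 6 :=
  ss_identity q (derivationOfFun θ hadd hmul hconst) j φ D g hθ h3 h1 h2

end Identity

section Val

variable {k K : Type*} [Field k] [Field K] [Algebra k K]
variable {Γ₀ : Type*} [LinearOrderedCommGroupWithZero Γ₀] (v : Valuation K Γ₀)

theorem val_aeval_le_one (hv : ∀ c : k, v (algebraMap k K c) ≤ 1) {j : K} (hj : v j ≤ 1)
    (p : k[X]) : v (aeval j p) ≤ 1 := by
  rw [aeval_eq_sum_range]
  apply Valuation.map_sum_le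
  intro i _
  rw [Algebra.smul_def, map_mul, map_pow]
  exact mul_le_one' (hv _) (pow_le_one' hj i)

theorem aeval_eq_add_mul (j : K) (ρ : k) (p : k[X]) :
    aeval j p = algebraMap k K (p.eval ρ) +
      (j - algebraMap k K ρ) * aeval j (p /ₘ (X - C ρ)) := by
  have h := modByMonic_add_div p (X - C ρ)
  rw [modByMonic_X_sub_C_eq_C_eval] at h
  have h' := congrArg (aeval j) h
  rw [map_add, map_mul, map_sub, aeval_X, aeval_C, aeval_C] at h'
  exact h'.symm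

variable {v}

theorem val_le_one_of_center (hv : ∀ c : k, v (algebraMap k K c) ≤ 1) {j : K} {ρ : k}
    (hjρ : v (j - algebraMap k K ρ) < 1) : v j ≤ 1 := by
  have : j = algebraMap k K ρ + (j - algebraMap k K ρ) := by ring
  rw [this]
  exact (v.map_add _ _).trans (max_le (hv ρ) hjρ.le)

theorem val_aeval_eq_one (hv : ∀ c : k, c ≠ 0 → v (algebraMap k K c) = 1) {j : K} {ρ : k}
    (hjρ : v (j - algebraMap k K ρ) < 1) {p : k[X]} (hp : p.eval ρ ≠ 0) :
    v (aeval j p) = 1 := by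
  have hv' : ∀ c : k, v (algebraMap k K c) ≤ 1 := by
    intro c
    by_cases hc : c = 0
    · rw [hc, map_zero, map_zero]; exact zero_le_one
    · exact (hv c hc).le
  have hj : v j ≤ 1 := val_le_one_of_center hv' hjρ
  rw [aeval_eq_add_mul j ρ p]
  have h1 : v (algebraMap k K (p.eval ρ)) = 1 := hv _ hp
  have h2 : v ((j - algebraMap k K ρ) * aeval j (p /ₘ (X - C ρ))) < 1 := by
    rw [map_mul]
    calc v (j - algebraMap k K ρ) * v (aeval j (p /ₘ (X - C ρ)))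
        ≤ v (j - algebraMap k K ρ) * 1 := by
          gcongr
          exact val_aeval_le_one v hv' hj _
      _ = v (j - algebraMap k K ρ) := mul_one _
      _ < 1 := hjρ
  rw [← h1] at h2
  rw [Valuation.map_add_eq_of_lt_left v h2, h1]

end Val

section Pole

variable {k K : Type*} [Field k] [Field K] [Algebra k K]
variable {Γ₀ : Type*} [LinearOrderedCommGroupWithZero Γ₀]

/-- The valuation form of the supersingular identity at a centre `ρ ≠ 0, 1728` (from the identity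
alone; `E` plays the role of `Δ^(q-1)`). -/
theorem val_identity_gen (q : ℕ) (j E : K) (g : k[X])
    (hid : (j ^ 4 * (j - 1728) ^ 3) ^ (q - 1) * E * (j - j ^ (q ^ 2)) ^ 12 =
      (aeval j (ssPoly q g)) ^ 6)
    (v : Valuation K Γ₀) (hv : ∀ c : k, c ≠ 0 → v (algebraMap k K c) = 1)
    (ρ : k) (hρ0 : ρ ≠ 0) (hρ1 : ρ ≠ 1728) (hjρ : v (j - algebraMap k K ρ) < 1) :
    v E * v (j - j ^ (q ^ 2)) ^ 12 = v (aeval j (ssPoly q g)) ^ 6 := by
  have hvj : v j = 1 := by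
    have := val_aeval_eq_one hv hjρ (p := X) (by simpa using hρ0)
    simpa using this
  have hvj' : v (j - 1728) = 1 := by
    have := val_aeval_eq_one hv hjρ (p := X - C 1728)
      (by simpa [sub_eq_zero] using hρ1)
    simpa [map_ofNat] using this
  have key := congrArg v hid
  simpa [hvj, hvj'] using key

/-- The valuation form of the supersingular identity at a centre `ρ ≠ 0, 1728` (from the identity
alone). -/
theorem val_identity (q : ℕ) (j D : K) (g : k[X])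
    (hid : (j ^ 4 * (j - 1728) ^ 3) ^ (q - 1) * D ^ (q - 1) * (j - j ^ (q ^ 2)) ^ 12 =
      (aeval j (ssPoly q g)) ^ 6)
    (v : Valuation K Γ₀) (hv : ∀ c : k, c ≠ 0 → v (algebraMap k K c) = 1)
    (ρ : k) (hρ0 : ρ ≠ 0) (hρ1 : ρ ≠ 1728) (hjρ : v (j - algebraMap k K ρ) < 1) :
    v D ^ (q - 1) * v (j - j ^ (q ^ 2)) ^ 12 = v (aeval j (ssPoly q g)) ^ 6 := by
  have h := val_identity_gen q j (D ^ (q - 1)) g hid v hv ρ hρ0 hρ1 hjρ
  rwa [map_pow] at h

/-- `X - X^(q²) = (X - ρ) u` with `u(ρ) = 1` at a point `ρ ∈ 𝔽_{q²}`, hence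
`v(j - j^(q²)) = v(j - ρ)`. -/
theorem val_sub_pow_eq (q : ℕ) [CharP k q] (j : K)
    (v : Valuation K Γ₀) (hv : ∀ c : k, c ≠ 0 → v (algebraMap k K c) = 1)
    (ρ : k) (hjρ : v (j - algebraMap k K ρ) < 1) (hρ : ρ ^ (q ^ 2) = ρ) :
    ∃ u : k[X], (X - X ^ (q ^ 2) : k[X]) = (X - C ρ) * u ∧ u.eval ρ = 1 ∧
      v (j - j ^ (q ^ 2)) = v (j - algebraMap k K ρ) := by
  have hw : j - j ^ (q ^ 2) = aeval j (X - X ^ (q ^ 2) : k[X]) := by simp
  have hroot : (X - X ^ (q ^ 2) : k[X]).IsRoot ρ := by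
    simp [hρ]
  obtain ⟨u, hu⟩ := dvd_iff_isRoot.mpr hroot
  have huρ : u.eval ρ = 1 := by
    have hd := congrArg (fun p : k[X] => (derivative p).eval ρ) hu
    simp only [derivative_sub, derivative_X, derivative_X_pow, derivative_mul, derivative_C,
      sub_zero, one_mul, eval_add, eval_sub, eval_mul, eval_one, eval_X, eval_C, sub_self,
      zero_mul, add_zero, eval_pow, Nat.cast_pow, CharP.cast_eq_zero k q] at hd
    rw [← hd]
    simp
  refine ⟨u, hu, huρ, ?_⟩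
  rw [hw, hu, map_mul, map_mul, map_sub, aeval_X, aeval_C,
    val_aeval_eq_one hv hjρ (p := u) (by rw [huρ]; exact one_ne_zero), mul_one]

/-- **Poles of `E = Δ^(q-1)` are supersingular points of thickness one** (from the identity
alone): if `v` is centred at `j = ρ`, `ρ ≠ 0, 1728`, and `E` has a pole at `v`, then `ρ ∈ 𝔽_{q²}`
and `g(ρ) ≠ 0`. -/
theorem ss_of_pole_of_identity_gen (q : ℕ) [CharP k q] (j E : K) (g : k[X])
    (hid : (j ^ 4 * (j - 1728) ^ 3) ^ (q - 1) * E * (j - j ^ (q ^ 2)) ^ 12 =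
      (aeval j (ssPoly q g)) ^ 6)
    (v : Valuation K Γ₀) (hv : ∀ c : k, c ≠ 0 → v (algebraMap k K c) = 1)
    (ρ : k) (hρ0 : ρ ≠ 0) (hρ1 : ρ ≠ 1728) (hjρ : v (j - algebraMap k K ρ) < 1)
    (hne : j ≠ algebraMap k K ρ) (hDq : 1 < v E) :
    ρ ^ (q ^ 2) = ρ ∧ g.eval ρ ≠ 0 := by
  have hv' : ∀ c : k, v (algebraMap k K c) ≤ 1 := by
    intro c
    by_cases hc : c = 0
    · rw [hc, map_zero, map_zero]; exact zero_le_one
    · exact (hv c hc).le
  have hj : v j ≤ 1 := val_le_one_of_center hv' hjρ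
  have hkey := val_identity_gen q j E g hid v hv ρ hρ0 hρ1 hjρ
  have hP : v (aeval j (ssPoly q g)) ^ 6 ≤ 1 := pow_le_one' (val_aeval_le_one v hv' hj _) 6
  have hw : j - j ^ (q ^ 2) = aeval j (X - X ^ (q ^ 2) : k[X]) := by simp
  -- Step 1: `ρ ∈ 𝔽_{q²}`
  have hρ : ρ ^ (q ^ 2) = ρ := by
    by_contra hne
    have h1w : v (j - j ^ (q ^ 2)) = 1 := by
      rw [hw]
      apply val_aeval_eq_one hv hjρ
      simp only [eval_sub, eval_X, eval_pow]
      exact fun h => hne (sub_eq_zero.mp h).symm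
    rw [h1w, one_pow, mul_one] at hkey
    exact absurd (hkey ▸ hP) (not_le.mpr hDq)
  refine ⟨hρ, ?_⟩
  -- Step 2: `X - X^(q²) = (X - ρ) u`, `u(ρ) = 1`
  obtain ⟨u, hu, huρ, hvw⟩ := val_sub_pow_eq q j v hv ρ hjρ hρ
  have hε0 : v (j - algebraMap k K ρ) ≠ 0 := by
    rw [Ne, Valuation.zero_iff, sub_eq_zero]
    exact hne
  -- Step 3: if `g(ρ) = 0` then `(X - ρ)² ∣ P₀`
  intro hgρ
  obtain ⟨g₁, hg₁⟩ := dvd_iff_isRoot.mpr (show g.IsRoot ρ from hgρ)
  have hroot1 : (u - 1 : k[X]).IsRoot ρ := by simp [huρ]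
  obtain ⟨u₁, hu₁⟩ := dvd_iff_isRoot.mpr hroot1
  have hfac : ssPoly q g =
      (X - C ρ) ^ 2 * (X ^ (q - 1) * u ^ 2 + derivative g₁ * u + g₁ * u₁) := by
    rw [ssPoly, hu, hg₁, derivative_mul, derivative_sub, derivative_X, derivative_C, sub_zero,
      one_mul]
    linear_combination ((X - C ρ) * g₁) * hu₁
  have hP2 : v (aeval j (ssPoly q g)) ≤ v (j - algebraMap k K ρ) ^ 2 := by
    rw [hfac, map_mul, map_pow, map_sub, aeval_X, aeval_C, map_mul, map_pow]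
    calc v (j - algebraMap k K ρ) ^ 2 *
          v (aeval j (X ^ (q - 1) * u ^ 2 + derivative g₁ * u + g₁ * u₁))
        ≤ v (j - algebraMap k K ρ) ^ 2 * 1 := by
          gcongr
          exact val_aeval_le_one v hv' hj _
      _ = v (j - algebraMap k K ρ) ^ 2 := mul_one _
  rw [hvw] at hkey
  have h12 : v E * v (j - algebraMap k K ρ) ^ 12 ≤
      1 * v (j - algebraMap k K ρ) ^ 12 := by
    rw [hkey, one_mul]
    calc v (aeval j (ssPoly q g)) ^ 6 ≤ (v (j - algebraMap k K ρ) ^ 2) ^ 6 := by gcongr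
      _ = v (j - algebraMap k K ρ) ^ 12 := by rw [← pow_mul]
  have hpos : 0 < v (j - algebraMap k K ρ) ^ 12 := pow_pos (zero_lt_iff.mpr hε0) 12
  have := le_of_mul_le_mul_right h12 hpos
  exact absurd this (not_le.mpr hDq)

/-- **Poles of `D = Δ` are supersingular points of thickness one** (from the identity alone): if
`v` is centred at `j = ρ`, `ρ ≠ 0, 1728`, and `D` has a pole at `v`, then `ρ ∈ 𝔽_{q²}` and
`g(ρ) ≠ 0`. -/
theorem ss_of_pole_of_identity (q : ℕ) [hq : Fact q.Prime] [CharP k q] (j D : K) (g : k[X])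
    (hid : (j ^ 4 * (j - 1728) ^ 3) ^ (q - 1) * D ^ (q - 1) * (j - j ^ (q ^ 2)) ^ 12 =
      (aeval j (ssPoly q g)) ^ 6)
    (v : Valuation K Γ₀) (hv : ∀ c : k, c ≠ 0 → v (algebraMap k K c) = 1)
    (ρ : k) (hρ0 : ρ ≠ 0) (hρ1 : ρ ≠ 1728) (hjρ : v (j - algebraMap k K ρ) < 1)
    (hne : j ≠ algebraMap k K ρ) (hD : 1 < v D) :
    ρ ^ (q ^ 2) = ρ ∧ g.eval ρ ≠ 0 := by
  have hq1 : q - 1 ≠ 0 := by have := hq.out.two_le; omega
  have hDq : 1 < v (D ^ (q - 1)) := by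
    rw [map_pow]
    exact one_lt_pow' hD hq1
  exact ss_of_pole_of_identity_gen q j (D ^ (q - 1)) g hid v hv ρ hρ0 hρ1 hjρ hne hDq

/-- **Supersingular points of thickness one are poles of `E = Δ^(q-1)`, of order `12`** (from the
identity alone; multiplicative notation: `v(E) * v(j - ρ)^12 = 1`). -/
theorem pole_of_ss_of_identity_gen (q : ℕ) [CharP k q] (j E : K) (g : k[X])
    (hid : (j ^ 4 * (j - 1728) ^ 3) ^ (q - 1) * E * (j - j ^ (q ^ 2)) ^ 12 =
      (aeval j (ssPoly q g)) ^ 6)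
    (v : Valuation K Γ₀) (hv : ∀ c : k, c ≠ 0 → v (algebraMap k K c) = 1)
    (ρ : k) (hρ0 : ρ ≠ 0) (hρ1 : ρ ≠ 1728) (hjρ : v (j - algebraMap k K ρ) < 1)
    (hρ : ρ ^ (q ^ 2) = ρ) (hg : g.eval ρ ≠ 0) :
    v E * v (j - algebraMap k K ρ) ^ 12 = 1 := by
  have hkey := val_identity_gen q j E g hid v hv ρ hρ0 hρ1 hjρ
  obtain ⟨u, hu, huρ, hvw⟩ := val_sub_pow_eq q j v hv ρ hjρ hρ
  have hP : v (aeval j (ssPoly q g)) = 1 := by
    apply val_aeval_eq_one hv hjρ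
    rw [eval_ssPoly q g ρ hρ]
    exact neg_ne_zero.mpr hg
  rw [hvw, hP, one_pow] at hkey
  exact hkey

/-- **Supersingular points of thickness one are poles of `D = Δ`, of order `12/(q-1)`** (from the
identity alone; multiplicative notation: `v(D)^(q-1) * v(j - ρ)^12 = 1`). -/
theorem pole_of_ss_of_identity (q : ℕ) [CharP k q] (j D : K) (g : k[X])
    (hid : (j ^ 4 * (j - 1728) ^ 3) ^ (q - 1) * D ^ (q - 1) * (j - j ^ (q ^ 2)) ^ 12 =
      (aeval j (ssPoly q g)) ^ 6)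
    (v : Valuation K Γ₀) (hv : ∀ c : k, c ≠ 0 → v (algebraMap k K c) = 1)
    (ρ : k) (hρ0 : ρ ≠ 0) (hρ1 : ρ ≠ 1728) (hjρ : v (j - algebraMap k K ρ) < 1)
    (hρ : ρ ^ (q ^ 2) = ρ) (hg : g.eval ρ ≠ 0) :
    v D ^ (q - 1) * v (j - algebraMap k K ρ) ^ 12 = 1 := by
  have h := pole_of_ss_of_identity_gen q j (D ^ (q - 1)) g hid v hv ρ hρ0 hρ1 hjρ hρ hg
  rwa [map_pow] at h

/-- The valuation form of the supersingular identity at a centre `ρ ≠ 0, 1728`. -/
theorem val_ss_identity (q : ℕ) [hq : Fact q.Prime] [CharP k q] (θ : Derivation k K K)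
    (j φ D : K) (g : k[X]) (hθ : θ j ≠ 0)
    (h3 : φ * (j - j ^ (q ^ 2)) = -aeval j g)
    (h1 : θ φ = j ^ (q - 1) * θ j - (θ j) ^ q)
    (h2 : (θ j) ^ 6 = j ^ 4 * (j - 1728) ^ 3 * D)
    (v : Valuation K Γ₀) (hv : ∀ c : k, c ≠ 0 → v (algebraMap k K c) = 1)
    (ρ : k) (hρ0 : ρ ≠ 0) (hρ1 : ρ ≠ 1728) (hjρ : v (j - algebraMap k K ρ) < 1) :
    v D ^ (q - 1) * v (j - j ^ (q ^ 2)) ^ 12 = v (aeval j (ssPoly q g)) ^ 6 :=
  val_identity q j D g (ss_identity q θ j φ D g hθ h3 h1 h2) v hv ρ hρ0 hρ1 hjρ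

/-- **Poles of `D = Δ` are supersingular points of thickness one**: if `v` is centred at `j = ρ`,
`ρ ≠ 0, 1728`, and `D` has a pole at `v`, then `ρ ∈ 𝔽_{q²}` and `g(ρ) ≠ 0`. -/
theorem ss_of_pole (q : ℕ) [hq : Fact q.Prime] [CharP k q] (θ : Derivation k K K)
    (j φ D : K) (g : k[X]) (hθ : θ j ≠ 0)
    (h3 : φ * (j - j ^ (q ^ 2)) = -aeval j g)
    (h1 : θ φ = j ^ (q - 1) * θ j - (θ j) ^ q)
    (h2 : (θ j) ^ 6 = j ^ 4 * (j - 1728) ^ 3 * D)
    (v : Valuation K Γ₀) (hv : ∀ c : k, c ≠ 0 → v (algebraMap k K c) = 1)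
    (ρ : k) (hρ0 : ρ ≠ 0) (hρ1 : ρ ≠ 1728) (hjρ : v (j - algebraMap k K ρ) < 1)
    (hD : 1 < v D) :
    ρ ^ (q ^ 2) = ρ ∧ g.eval ρ ≠ 0 :=
  ss_of_pole_of_identity q j D g (ss_identity q θ j φ D g hθ h3 h1 h2) v hv ρ hρ0 hρ1 hjρ
    (fun h => hθ (by rw [h, Derivation.map_algebraMap])) hD

/-- **Supersingular points of thickness one are poles of `D = Δ`, of order `12/(q-1)`** (in the
multiplicative notation: `v(D)^(q-1) * v(j - ρ)^12 = 1`). -/
theorem pole_of_ss (q : ℕ) [hq : Fact q.Prime] [CharP k q] (θ : Derivation k K K)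
    (j φ D : K) (g : k[X]) (hθ : θ j ≠ 0)
    (h3 : φ * (j - j ^ (q ^ 2)) = -aeval j g)
    (h1 : θ φ = j ^ (q - 1) * θ j - (θ j) ^ q)
    (h2 : (θ j) ^ 6 = j ^ 4 * (j - 1728) ^ 3 * D)
    (v : Valuation K Γ₀) (hv : ∀ c : k, c ≠ 0 → v (algebraMap k K c) = 1)
    (ρ : k) (hρ0 : ρ ≠ 0) (hρ1 : ρ ≠ 1728) (hjρ : v (j - algebraMap k K ρ) < 1)
    (hρ : ρ ^ (q ^ 2) = ρ) (hg : g.eval ρ ≠ 0) :
    v D ^ (q - 1) * v (j - algebraMap k K ρ) ^ 12 = 1 :=
  pole_of_ss_of_identity q j D g (ss_identity q θ j φ D g hθ h3 h1 h2) v hv ρ hρ0 hρ1 hjρ hρ hg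

end Pole

end Fermat.Agent.CAR.Local
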