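/-
helper83 — CAR (L1), level `q`: the Frobenius-lift defect `δ = (J^p - V J)/p` of a `q`-series
`J ∈ ℤ((q))` satisfying a modular equation in Kronecker form, and its `θ`-derivative.

Input: `J ∈ ℤ((q))`, `V J = J(q^p)`, and `Q ∈ ℤ[Y][X]` with
  `(V J - J^p) * ((V J)^p - J) + p * Q(V J, J) = 0`
(i.e. `Φ(V J, J) = 0` for `Φ = (X - Y^p)(X^p - Y) + p Q`).  Output, over `𝔽_p`, with `J̄ = J mod p`:
there is `φ ∈ 𝔽_p((q))` with

* (H3) `φ * (J̄ - J̄^(p²)) = -g(J̄)`, `g = Q(X^p, X) mod p` (`thickPoly`),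
* (H1) `θ φ = J̄^(p-1) θ J̄ - (θ J̄)^p`.

These are the hypotheses (H3), (H1) of `SSPole.lean`.
-/
import Mathlib
import Fermat.Prelude.Thm_ModularCurve_coeffMap_qExpand
import Fermat.Agent.S28.Kummer.Kronecker
import Fermat.Agent.CAR.Local.ThetaJ
import Fermat.Agent.CAR.Local.SSPole

set_option autoImplicit false

namespace Fermat.Agent.CAR.Local

open ModularCurve Polynomial Fermat.Agent.S28.Kummer Fermat.Agent.CAR.Local.ThetaJ

noncomputable section

/-- `θ (c · x) = c · θ x` for a constant `c`. -/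
theorem thetaL_C_mul {R : Type*} [CommRing R] (c : R) (x : LaurentSeries R) :
    thetaL R (HahnSeries.C c * x) = HahnSeries.C c * thetaL R x := by
  ext n
  rw [coeff_thetaL, HahnSeries.C_mul_eq_smul, HahnSeries.C_mul_eq_smul, HahnSeries.coeff_smul,
    HahnSeries.coeff_smul, coeff_thetaL, smul_eq_mul, smul_eq_mul]
  ring

/-- A Laurent series over `ℤ` vanishing mod `p` is divisible by `p`. -/
theorem exists_eq_C_mul_of_coeffMap_eq_zero (p : ℕ) (x : LaurentSeries ℤ)
    (hx : coeffMap (Int.castRingHom (ZMod p)) x = 0) :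
    ∃ y : LaurentSeries ℤ, x = HahnSeries.C (p : ℤ) * y := by
  have hdiv : ∀ n, (p : ℤ) ∣ x.coeff n := by
    intro n
    have h := congrArg (fun z : LaurentSeries (ZMod p) => z.coeff n) hx
    simp only [coeffMap_coeff, HahnSeries.coeff_zero, eq_intCast] at h
    exact (ZMod.intCast_zmod_eq_zero_iff_dvd _ _).mp h
  refine ⟨HahnSeries.mk (fun n => x.coeff n / p) (x.isPWO_support.mono ?_), ?_⟩
  · intro n hn
    rw [Function.mem_support] at hn
    rw [HahnSeries.mem_support]
    intro h0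
    rw [h0] at hn
    simp at hn
  · ext n
    rw [HahnSeries.C_mul_eq_smul, HahnSeries.coeff_smul, smul_eq_mul]
    exact (Int.mul_ediv_cancel' (hdiv n)).symm

/-- `g(X) = Q(X^p, X)` over a commutative ring `k`. -/
def thickPoly (k : Type*) [CommRing k] (p : ℕ) (Q : Polynomial (Polynomial ℤ)) : k[X] :=
  ev Q (X ^ p) X

theorem eval_thickPoly (k : Type*) [CommRing k] (p : ℕ) (Q : Polynomial (Polynomial ℤ)) (ρ : k) :
    (thickPoly k p Q).eval ρ = ev Q (ρ ^ p) ρ := by
  have h := map_ev (Polynomial.evalRingHom ρ) Q (X ^ p) X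
  simpa [thickPoly] using h

theorem aeval_thickPoly {k A : Type*} [CommRing k] [CommRing A] [Algebra k A] (p : ℕ)
    (Q : Polynomial (Polynomial ℤ)) (x : A) :
    aeval x (thickPoly k p Q) = ev Q (x ^ p) x := by
  have h := map_ev ((aeval x : k[X] →ₐ[k] A) : k[X] →+* A) Q (X ^ p) X
  simpa [thickPoly] using h

theorem map_thickPoly {k k' : Type*} [CommRing k] [CommRing k'] (f : k →+* k') (p : ℕ)
    (Q : Polynomial (Polynomial ℤ)) :
    (thickPoly k p Q).map f = thickPoly k' p Q := by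
  have h := map_ev (Polynomial.mapRingHom f) Q (X ^ p) X
  simpa [thickPoly] using h

/-- **The Frobenius-lift defect and its `θ`-derivative.** -/
theorem exists_frobLift_defect (p : ℕ) [hp : Fact p.Prime] [NeZero p] (J : LaurentSeries ℤ)
    (Q : Polynomial (Polynomial ℤ))
    (hrel : (qExpand ℤ p J - J ^ p) * ((qExpand ℤ p J) ^ p - J) +
      HahnSeries.C (p : ℤ) * ev Q (qExpand ℤ p J) J = 0) :
    ∃ φ : LaurentSeries (ZMod p),
      φ * (coeffMap (Int.castRingHom (ZMod p)) J -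
          (coeffMap (Int.castRingHom (ZMod p)) J) ^ (p ^ 2)) =
        -aeval (coeffMap (Int.castRingHom (ZMod p)) J) (thickPoly (ZMod p) p Q) ∧
      thetaL (ZMod p) φ =
        (coeffMap (Int.castRingHom (ZMod p)) J) ^ (p - 1) *
            thetaL (ZMod p) (coeffMap (Int.castRingHom (ZMod p)) J) -
          (thetaL (ZMod p) (coeffMap (Int.castRingHom (ZMod p)) J)) ^ p := by
  have hfrob : coeffMap (Int.castRingHom (ZMod p)) (J ^ p - qExpand ℤ p J) = 0 := by
    rw [map_sub, map_pow, coeffMap_qExpand, laurent_pow_char, sub_self]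
  obtain ⟨δ, hδ⟩ := exists_eq_C_mul_of_coeffMap_eq_zero p _ hfrob
  have hC : (HahnSeries.C (p : ℤ) : LaurentSeries ℤ) ≠ 0 :=
    HahnSeries.C_ne_zero (by exact_mod_cast hp.out.ne_zero)
  have h3Z : δ * ((qExpand ℤ p J) ^ p - J) = ev Q (qExpand ℤ p J) J := by
    apply mul_left_cancel₀ hC
    linear_combination (-1 : LaurentSeries ℤ) * hrel - ((qExpand ℤ p J) ^ p - J) * hδ
  refine ⟨coeffMap (Int.castRingHom (ZMod p)) δ, ?_, ?_⟩
  · have h := congrArg (coeffMap (Int.castRingHom (ZMod p))) h3Z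
    rw [map_mul, map_sub, map_pow, coeffMap_qExpand, ← laurent_pow_char, map_ev,
      coeffMap_qExpand, ← laurent_pow_char] at h
    rw [aeval_thickPoly, ← h, pow_two, pow_mul]
    ring
  · have hθ := congrArg (thetaL ℤ) hδ
    rw [map_sub, Derivation.leibniz_pow, thetaL_qExpand, thetaL_C_mul] at hθ
    have hcast : ((p : ℕ) : LaurentSeries ℤ) = HahnSeries.C (p : ℤ) := by
      rw [← map_natCast (HahnSeries.C : ℤ →+* LaurentSeries ℤ)]
    have hθZ : thetaL ℤ δ = J ^ (p - 1) * thetaL ℤ J - qExpand ℤ p (thetaL ℤ J) := by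
      apply mul_left_cancel₀ hC
      rw [← hθ, nsmul_eq_mul, smul_eq_mul, hcast]
      ring
    have h := congrArg (coeffMap (Int.castRingHom (ZMod p))) hθZ
    rw [coeffMap_thetaL, map_sub, map_mul, map_pow, coeffMap_thetaL, coeffMap_qExpand,
      coeffMap_thetaL, ← laurent_pow_char] at h
    exact h

end

end Fermat.Agent.CAR.Local
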