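/-
helper83 — CAR (L1), level `q`: THE SUPERSINGULAR IDENTITY FOR THE MODULAR `j`, and the
consumer statement "a zero of `Δ(z)/Δ(pz) mod p` at `j = ρ ∉ {0, 1728}` is a supersingular point
`ρ ∈ 𝔽_{p²}` at which the Kronecker remainder `Q(ρ^p, ρ)` of the modular equation is nonzero".

For a prime `p`, any modular-equation datum `Dm : Kummer.ModEqData p` and `Q` with
`Φ_p = (X - Y^p)(X^p - Y) + p Q`, over every field `k` of characteristic `p`, in `k((q))`:

  `(j^4 (j - 1728)^3)^(p-1) * Δ^(p-1) * (j - j^(p²))^12 = P₀(j)^6`,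
  `P₀ = X^(p-1) (X - X^(p²))² + g' (X - X^(p²)) - g`,   `g = Q(X^p, X)`.

Assembly of `FrobLift.lean` (H1, H3), helper7's `ThetaJ.lean` (H2: `theta_jq_pow_six`) and
`SSPole.lean`.  Here `Δ = ThetaJ.deltaL k` (`= S28.ModEq.DA k`, by `rfl`).
-/
import Mathlib
import Fermat.Agent.CAR.Local.FrobLift

set_option autoImplicit false

namespace Fermat.Agent.CAR.Local

open ModularCurve Polynomial
open Fermat.Agent.S28.Kummer Fermat.Agent.S28.ModEq Fermat.Agent.CAR.Local.ThetaJ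

noncomputable section

theorem ev_kronecker {A : Type*} [CommRing A] (p : ℕ) (Q : Polynomial (Polynomial ℤ)) (x y : A) :
    ev ((X - C (X ^ p)) * (X ^ p - C X) + C (C (p : ℤ)) * Q) x y =
      (x - y ^ p) * (x ^ p - y) + (p : A) * ev Q x y := by
  rw [ev, eval₂_add, eval₂_mul, eval₂_sub, eval₂_sub, eval₂_X, eval₂_C, eval₂_pow, eval₂_X,
    eval₂_C, eval₂_mul, eval₂_C, map_pow, evalIn_X, ev]
  simp [evalIn]

/-- (H3), (H1) for the modular `j` modulo `p`. -/
theorem exists_frobLift_defect_jq (p : ℕ) [Fact p.Prime] [NeZero p] (Dm : ModEqData p)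
    (Q : Polynomial (Polynomial ℤ))
    (hQ : Dm.Φ = (X - C (X ^ p)) * (X ^ p - C X) + C (C (p : ℤ)) * Q) :
    ∃ φ : LaurentSeries (ZMod p),
      φ * (jqModC (ZMod p) - (jqModC (ZMod p)) ^ (p ^ 2)) =
        -aeval (jqModC (ZMod p)) (thickPoly (ZMod p) p Q) ∧
      thetaL (ZMod p) φ =
        (jqModC (ZMod p)) ^ (p - 1) * thetaL (ZMod p) (jqModC (ZMod p)) -
          (thetaL (ZMod p) (jqModC (ZMod p))) ^ p := by
  have hrel : (qExpand ℤ p (jqModC ℤ) - jqModC ℤ ^ p) * ((qExpand ℤ p (jqModC ℤ)) ^ p - jqModC ℤ) +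
      HahnSeries.C (p : ℤ) * ev Q (qExpand ℤ p (jqModC ℤ)) (jqModC ℤ) = 0 := by
    have h := Dm.rel₁
    rw [hQ, ev_kronecker] at h
    rw [← map_natCast (HahnSeries.C : ℤ →+* LaurentSeries ℤ)] at h
    exact h
  have h := exists_frobLift_defect p (jqModC ℤ) Q hrel
  simpa only [ModularCurve.coeffMap_jqModC] using h

theorem thetaL_jqModC_ne_zero (k : Type*) [Field k] : thetaL k (jqModC k) ≠ 0 := by
  intro h
  have h1 := congrArg (fun z : LaurentSeries k => z.coeff (-1)) h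
  simp only [coeff_thetaL, (isLead_jqModC k).coeff_eq, HahnSeries.coeff_zero] at h1
  simp at h1

theorem deltaL_eq_DA (R : Type*) [CommRing R] : deltaL R = DA R := rfl

/-- **The supersingular identity over `𝔽_p`.** -/
theorem ss_identity_zmod (p : ℕ) [Fact p.Prime] [NeZero p] (Dm : ModEqData p)
    (Q : Polynomial (Polynomial ℤ))
    (hQ : Dm.Φ = (X - C (X ^ p)) * (X ^ p - C X) + C (C (p : ℤ)) * Q) :
    ((jqModC (ZMod p)) ^ 4 * (jqModC (ZMod p) - 1728) ^ 3) ^ (p - 1) * (deltaL (ZMod p)) ^ (p - 1) *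
        (jqModC (ZMod p) - (jqModC (ZMod p)) ^ (p ^ 2)) ^ 12 =
      (aeval (jqModC (ZMod p)) (ssPoly p (thickPoly (ZMod p) p Q))) ^ 6 := by
  obtain ⟨φ, h3, h1⟩ := exists_frobLift_defect_jq p Dm Q hQ
  exact ss_identity_of_fun p (fun x => thetaL (ZMod p) x) (fun x y => map_add _ x y)
    (fun x y => by rw [Derivation.leibniz, smul_eq_mul, smul_eq_mul])
    (fun c => Derivation.map_algebraMap _ c) (jqModC (ZMod p)) φ (deltaL (ZMod p)) _
    (thetaL_jqModC_ne_zero (ZMod p)) h3 h1 (theta_jq_pow_six (ZMod p))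

theorem coeffMap_algebraMap_apply {R S : Type*} [CommRing R] [CommRing S] (f : R →+* S) (c : R) :
    coeffMap f (algebraMap R (LaurentSeries R) c) = algebraMap S (LaurentSeries S) (f c) := by
  rw [algebraMap_eq_single, algebraMap_eq_single]
  exact coeffMap_single f 0 c

theorem coeffMap_aeval {R S : Type*} [CommRing R] [CommRing S] (f : R →+* S)
    (x : LaurentSeries R) (g : R[X]) :
    coeffMap f (aeval x g) = aeval (coeffMap f x) (g.map f) := by
  rw [aeval_def, aeval_def, hom_eval₂, eval₂_map]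
  congr 1
  ext c
  exact congrArg (fun z : LaurentSeries S => z.coeff _) (coeffMap_algebraMap_apply f c)

theorem map_ssPoly {R S : Type*} [Field R] [Field S] (f : R →+* S) (q : ℕ) (g : R[X]) :
    (ssPoly q g).map f = ssPoly q (g.map f) := by
  simp [ssPoly, derivative_map]

/-- **The supersingular identity over any field of characteristic `p`.** -/
theorem ss_identity_field (p : ℕ) [Fact p.Prime] [NeZero p] (k : Type*) [Field k] [CharP k p]
    (Dm : ModEqData p) (Q : Polynomial (Polynomial ℤ))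
    (hQ : Dm.Φ = (X - C (X ^ p)) * (X ^ p - C X) + C (C (p : ℤ)) * Q) :
    ((jqModC k) ^ 4 * (jqModC k - 1728) ^ 3) ^ (p - 1) * (deltaL k) ^ (p - 1) *
        (jqModC k - (jqModC k) ^ (p ^ 2)) ^ 12 =
      (aeval (jqModC k) (ssPoly p (thickPoly k p Q))) ^ 6 := by
  have h := congrArg (coeffMap (ZMod.castHom (dvd_refl p) k)) (ss_identity_zmod p Dm Q hQ)
  rw [map_mul, map_mul, map_pow, map_mul, map_pow, map_pow, map_sub, map_pow, map_pow, map_sub,
    map_pow, map_pow, coeffMap_aeval, ModularCurve.coeffMap_jqModC, coeffMap_deltaL, map_ofNat,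
    map_ssPoly, map_thickPoly] at h
  exact h

section Consumer

variable {k K : Type*} [Field k] [Field K] [Algebra k K]
variable {Γ₀ : Type*} [LinearOrderedCommGroupWithZero Γ₀]

/-- **Consumer form.**  Let `K` be a field over `k` (char `p`) with a `q`-expansion embedding
`ι : K → k((q))`, `j ∈ K` the modular invariant (`ι j = j(q)`), and `E ∈ K` with `q`-expansion
`Δ^(p-1)` (the inverse of the reduction of `Δ(z)/Δ(pz)`).  If a valuation `v` of `K`, trivial on
`k`, is centred at `j = ρ` with `ρ ≠ 0, 1728` and `E` has a pole at `v`, then `ρ ∈ 𝔽_{p²}` and the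
Kronecker remainder `Q(ρ^p, ρ)` is nonzero ("thickness one"). -/
theorem ss_of_pole_of_qExpansion (p : ℕ) [Fact p.Prime] [NeZero p] [CharP k p]
    (Dm : ModEqData p) (Q : Polynomial (Polynomial ℤ))
    (hQ : Dm.Φ = (X - C (X ^ p)) * (X ^ p - C X) + C (C (p : ℤ)) * Q)
    (ι : K →ₐ[k] LaurentSeries k) (j E : K) (hj : ι j = jqModC k)
    (hE : ι E = (deltaL k) ^ (p - 1))
    (v : Valuation K Γ₀) (hv : ∀ c : k, c ≠ 0 → v (algebraMap k K c) = 1)
    (ρ : k) (hρ0 : ρ ≠ 0) (hρ1 : ρ ≠ 1728) (hjρ : v (j - algebraMap k K ρ) < 1)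
    (hEv : 1 < v E) :
    ρ ^ (p ^ 2) = ρ ∧ ev Q (ρ ^ p) ρ ≠ 0 := by
  have hid : (j ^ 4 * (j - 1728) ^ 3) ^ (p - 1) * E * (j - j ^ (p ^ 2)) ^ 12 =
      (aeval j (ssPoly p (thickPoly k p Q))) ^ 6 := by
    apply ι.toRingHom.injective
    simp only [AlgHom.toRingHom_eq_coe, RingHom.coe_coe, map_mul, map_pow, map_sub, map_ofNat,
      hj, hE]
    rw [← aeval_algHom_apply, hj]
    exact ss_identity_field p k Dm Q hQ
  have hne : j ≠ algebraMap k K ρ := by
    intro h
    have h1 := congrArg ι h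
    rw [hj, AlgHom.commutes, algebraMap_eq_single] at h1
    have h2 := congrArg (fun z : LaurentSeries k => z.coeff (-1)) h1
    simp only [(isLead_jqModC k).coeff_eq] at h2
    rw [HahnSeries.coeff_single_of_ne (by norm_num)] at h2
    exact one_ne_zero h2
  have h := ss_of_pole_of_identity_gen p j E (thickPoly k p Q) hid v hv ρ hρ0 hρ1 hjρ hne hEv
  rw [eval_thickPoly] at h
  exact h

/-- **Consumer form, converse.**  At a point `ρ ∈ 𝔽_{p²}`, `ρ ≠ 0, 1728`, with `Q(ρ^p, ρ) ≠ 0`,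
the function `E` (with `q`-expansion `Δ^(p-1)`) has a pole of order exactly `12` in the
uniformiser `j - ρ`: `v(E) * v(j - ρ)^12 = 1`. -/
theorem pole_of_ss_of_qExpansion (p : ℕ) [Fact p.Prime] [NeZero p] [CharP k p]
    (Dm : ModEqData p) (Q : Polynomial (Polynomial ℤ))
    (hQ : Dm.Φ = (X - C (X ^ p)) * (X ^ p - C X) + C (C (p : ℤ)) * Q)
    (ι : K →ₐ[k] LaurentSeries k) (j E : K) (hj : ι j = jqModC k)
    (hE : ι E = (deltaL k) ^ (p - 1))
    (v : Valuation K Γ₀) (hv : ∀ c : k, c ≠ 0 → v (algebraMap k K c) = 1)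
    (ρ : k) (hρ0 : ρ ≠ 0) (hρ1 : ρ ≠ 1728) (hjρ : v (j - algebraMap k K ρ) < 1)
    (hρ : ρ ^ (p ^ 2) = ρ) (hg : ev Q (ρ ^ p) ρ ≠ 0) :
    v E * v (j - algebraMap k K ρ) ^ 12 = 1 := by
  have hid : (j ^ 4 * (j - 1728) ^ 3) ^ (p - 1) * E * (j - j ^ (p ^ 2)) ^ 12 =
      (aeval j (ssPoly p (thickPoly k p Q))) ^ 6 := by
    apply ι.toRingHom.injective
    simp only [AlgHom.toRingHom_eq_coe, RingHom.coe_coe, map_mul, map_pow, map_sub, map_ofNat,
      hj, hE]
    rw [← aeval_algHom_apply, hj]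
    exact ss_identity_field p k Dm Q hQ
  exact pole_of_ss_of_identity_gen p j E (thickPoly k p Q) hid v hv ρ hρ0 hρ1 hjρ hρ
    (by rw [eval_thickPoly]; exact hg)

end Consumer

end

end Fermat.Agent.CAR.Local
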