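/-
CAR, wall (ELL), steps (E-c) + (E-d) in abstract form (helper91's finding, report #2235).

`κ` is the mod-`q` function field of the good level, `Vs` the discrete valuation ring of a place
`s` of `κ` over the elliptic branch value `z` of the base function `x`, `D = d/dx` a derivation
of `κ`, `S ⊆ Vs` the ring of reductions of the integral functions, and `G` the reduction of the
certificate function (`G = x^8 (x - 1728)^6` for `x = J`), whose order at `s` is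
`12 (1 - 1/e₀) * ord_s (x - z)`, `e₀` the elliptic order.

Input `(E-c)`: `12 * ord_s (D y) + ord_s G ≥ 0` for every `y ∈ S` (integrality of
`d_y^(12 (q-1)) / u`).

Output: `e := ord_s (x - z) ≤ e₀`, tameness (`(e : κ) ≠ 0`) and, if `e = e₀`, for every
uniformiser `t ∈ S` at `s`:  `D t ≠ 0` and `(D t)^12 * G` is a unit at `s`, i.e. the certificate
of `d_t` is a unit at the point `(mid, s)`.
-/
import Mathlib
import Fermat.Agent.CAR.Formal.DiscVal

set_option autoImplicit false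

namespace Fermat.Agent.CAR.Local.EllOrder

open Fermat.Agent.CAR.Formal

variable {κ : Type*} [Field κ]

/-- An additive map satisfying the Leibniz rule. -/
structure IsDeriv (D : κ → κ) : Prop where
  add : ∀ a b, D (a + b) = D a + D b
  mul : ∀ a b, D (a * b) = a * D b + D a * b

namespace IsDeriv

variable {D : κ → κ}

theorem zero (h : IsDeriv D) : D 0 = 0 := by
  have h1 := h.add 0 0
  rw [add_zero] at h1
  linear_combination -h1

theorem one (h : IsDeriv D) : D 1 = 0 := by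
  have h1 := h.mul 1 1
  rw [mul_one, one_mul, mul_one] at h1
  linear_combination -h1

theorem neg (h : IsDeriv D) (a : κ) : D (-a) = -D a := by
  have h1 := h.add a (-a)
  rw [add_neg_cancel, h.zero] at h1
  linear_combination -h1

theorem sub (h : IsDeriv D) (a b : κ) : D (a - b) = D a - D b := by
  rw [sub_eq_add_neg, h.add, h.neg]
  ring

theorem pow_succ (h : IsDeriv D) (t : κ) (n : ℕ) :
    D (t ^ (n + 1)) = ((n + 1 : ℕ) : κ) * t ^ n * D t := by
  induction n with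
  | zero => simp
  | succ k ih =>
    rw [_root_.pow_succ, h.mul, ih]
    push_cast
    ring

end IsDeriv

/-- A "derivation relative to `θ`": if `ι : κ → Λ` is an injective ring homomorphism, `θ` is
additive and Leibniz on `Λ`, `ω ≠ 0` and `θ (ι y) = ι (D y) * ω` for all `y`, then `D` is
additive and Leibniz.  (Instance: `Λ` the Laurent series, `θ = q d/dq`, `ω = θ x`.) -/
theorem isDeriv_of_theta {Λ : Type*} [CommRing Λ] [IsDomain Λ] (ι : κ →+* Λ)
    (hι : Function.Injective ι) (θ : Λ → Λ) (hθadd : ∀ a b, θ (a + b) = θ a + θ b)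
    (hθmul : ∀ a b, θ (a * b) = a * θ b + θ a * b) (ω : Λ) (hω : ω ≠ 0) (D : κ → κ)
    (hD : ∀ y, θ (ι y) = ι (D y) * ω) : IsDeriv D := by
  constructor
  · intro a b
    apply hι
    have h1 := hD (a + b)
    rw [map_add, hθadd, hD a, hD b] at h1
    have h2 : (ι (D a) + ι (D b) - ι (D (a + b))) * ω = 0 := by linear_combination h1
    rcases mul_eq_zero.mp h2 with h | h
    · rw [map_add]
      linear_combination -h
    · exact absurd h hω
  · intro a b
    apply hι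
    have h1 := hD (a * b)
    rw [map_mul, hθmul, hD a, hD b] at h1
    have h2 : (ι a * ι (D b) + ι (D a) * ι b - ι (D (a * b))) * ω = 0 := by
      linear_combination h1
    rcases mul_eq_zero.mp h2 with h | h
    · rw [map_add, map_mul, map_mul]
      linear_combination -h
    · exact absurd h hω

variable {Vs : ValuationSubring κ} {τ : κ}

/-- `(E-c)` rewritten with the order of `G` eliminated. -/
private theorem scaled_bound (hτ : IsUnif Vs τ) {G y : κ} {e e₀ : ℕ}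
    (hG : (e₀ : ℤ) * hτ.ord G = 12 * ((e₀ : ℤ) - 1) * e)
    (hy : 0 ≤ 12 * hτ.ord y + hτ.ord G) :
    -(((e₀ : ℤ) - 1) * e) ≤ (e₀ : ℤ) * hτ.ord y := by
  have h1 : 0 ≤ (e₀ : ℤ) * (12 * hτ.ord y + hτ.ord G) :=
    mul_nonneg (Int.natCast_nonneg _) hy
  have h2 : (e₀ : ℤ) * (12 * hτ.ord y + hτ.ord G)
      = 12 * ((e₀ : ℤ) * hτ.ord y) + 12 * (((e₀ : ℤ) - 1) * e) := by
    rw [mul_add, hG]
    ring
  rw [h2] at h1
  linarith

/-- a product `c * w` with `ord w = e` and `D`-bounded `c` is a non-unit -/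
private theorem mul_mem_nonunits (hτ : IsUnif Vs τ) {G c w : κ} {e e₀ : ℕ} (he : 0 < e)
    (he₀ : 0 < e₀) (hG : (e₀ : ℤ) * hτ.ord G = 12 * ((e₀ : ℤ) - 1) * e)
    (hc : c = 0 ∨ 0 ≤ 12 * hτ.ord c + hτ.ord G) (hw0 : w ≠ 0) (hw : hτ.ord w = e) :
    c * w ∈ Vs.nonunits := by
  rcases hc with hc | hc
  · rw [hc, zero_mul]
    exact Vs.nonunits.zero_mem
  · by_cases hc0 : c = 0
    · rw [hc0, zero_mul]
      exact Vs.nonunits.zero_mem
    · rw [← hτ.ord_pos_iff (mul_ne_zero hc0 hw0), hτ.ord_mul hc0 hw0, hw]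
      have h1 := scaled_bound hτ hG hc
      by_contra hcon
      push Not at hcon
      have h2 : (0 : ℤ) < e₀ := by exact_mod_cast he₀
      have h3 : (0 : ℤ) < e := by exact_mod_cast he
      have h4 : (e₀ : ℤ) * (hτ.ord c + e) ≤ 0 :=
        mul_nonpos_of_nonneg_of_nonpos h2.le hcon
      have h5 : (e₀ : ℤ) * (hτ.ord c + e) = (e₀ : ℤ) * hτ.ord c + (e₀ : ℤ) * e := by ring
      have h6 : ((e₀ : ℤ) - 1) * e = (e₀ : ℤ) * e - e := by ring
      linarith

/-- **(E-d), explicit form.**  From a relation `b * (x - z) = t ^ e * a` with `a`, `b` units and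
`t` a uniformiser at `s`, and the bound `(E-c)` for `a`, `b`, `t`. -/
theorem ord_deriv_of_rel {D : κ → κ} (hD : IsDeriv D) (hτ : IsUnif Vs τ) {x z a b t G : κ}
    {e e₀ : ℕ} (he : 0 < e) (hx : D x = 1) (hz : D z = 0) (ht : hτ.ord t = 1)
    (ha0 : a ≠ 0) (ha : hτ.ord a = 0) (hb0 : b ≠ 0) (hb : hτ.ord b = 0)
    (hrel : b * (x - z) = t ^ e * a)
    (hG : (e₀ : ℤ) * hτ.ord G = 12 * ((e₀ : ℤ) - 1) * e)
    (hbd : ∀ y ∈ ({a, b, t} : Set κ), D y = 0 ∨ 0 ≤ 12 * hτ.ord (D y) + hτ.ord G) :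
    (e : κ) ≠ 0 ∧ D t ≠ 0 ∧ hτ.ord (D t) + hτ.ord (e : κ) = 1 - e ∧ e ≤ e₀ ∧
      (e = e₀ → 12 * hτ.ord (D t) + hτ.ord G = 0) := by
  have hepos : (0 : ℤ) < e := by exact_mod_cast he
  have ht0 : t ≠ 0 := by
    rintro rfl
    simp at ht
  have he₀ : 0 < e₀ := by
    rcases Nat.eq_zero_or_pos e₀ with h0 | h0
    · subst h0
      simp only [Nat.cast_zero, zero_mul, zero_sub] at hG
      linarith
    · exact h0
  have he₀' : (0 : ℤ) < e₀ := by exact_mod_cast he₀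
  have hte0 : t ^ e ≠ 0 := pow_ne_zero _ ht0
  have hxz0 : x - z ≠ 0 := by
    intro h0
    rw [h0, mul_zero] at hrel
    exact mul_ne_zero hte0 ha0 hrel.symm
  have hxz : hτ.ord (x - z) = e := by
    have h1 := congrArg hτ.ord hrel
    rw [hτ.ord_mul hb0 hxz0, hτ.ord_mul hte0 ha0, hτ.ord_pow, ht, ha, hb] at h1
    linarith
  have htn : hτ.ord (t ^ e) = e := by rw [hτ.ord_pow, ht, mul_one]
  obtain ⟨n, rfl⟩ : ∃ n, e = n + 1 := ⟨e - 1, by omega⟩
  -- differentiate the relation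
  have hkey : b = ((n + 1 : ℕ) : κ) * t ^ n * D t * a
      + (D a * t ^ (n + 1) - D b * (x - z)) := by
    have h1 := congrArg D hrel
    rw [hD.mul, hD.sub, hx, hz, hD.mul, hD.pow_succ] at h1
    linear_combination h1
  have hw1 : D a * t ^ (n + 1) ∈ Vs.nonunits :=
    mul_mem_nonunits hτ he he₀ hG (hbd a (by simp)) hte0 htn
  have hw2 : D b * (x - z) ∈ Vs.nonunits :=
    mul_mem_nonunits hτ he he₀ hG (hbd b (by simp)) hxz0 hxz
  have hw : D a * t ^ (n + 1) - D b * (x - z) ∈ Vs.nonunits := Vs.nonunits.sub_mem hw1 hw2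
  obtain ⟨hbV, hbV'⟩ := (hτ.ord_eq_zero_iff hb0).mp hb
  set U : κ := ((n + 1 : ℕ) : κ) * t ^ n * D t * a with hU
  have hUV : U ∈ Vs := by
    have h1 : U = b - (D a * t ^ (n + 1) - D b * (x - z)) := by linear_combination -hkey
    rw [h1]
    exact sub_mem hbV (Vs.nonunits_subset hw)
  have hUn : U ∉ Vs.nonunits := by
    intro hUn
    have h1 : b ∈ Vs.nonunits := by
      rw [hkey]
      exact Vs.nonunits.add_mem hUn hw
    rw [ValuationSubring.mem_nonunits_iff_or] at h1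
    rcases h1 with h1 | h1
    · exact hb0 h1
    · exact h1 hbV'
  rw [ValuationSubring.mem_nonunits_iff_or] at hUn
  push Not at hUn
  obtain ⟨hU0, hUV'⟩ := hUn
  have hUord : hτ.ord U = 0 := hτ.ord_unit hUV hUV' hU0
  have hn0 : ((n + 1 : ℕ) : κ) ≠ 0 := by
    intro h0
    apply hU0
    rw [hU, h0]
    ring
  have hDt0 : D t ≠ 0 := by
    intro h0
    apply hU0
    rw [hU, h0]
    ring
  have htn0 : t ^ n ≠ 0 := pow_ne_zero _ ht0
  have hsum : hτ.ord (D t) + hτ.ord ((n + 1 : ℕ) : κ) = -n := by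
    have h1 : hτ.ord U = hτ.ord ((n + 1 : ℕ) : κ) + n + hτ.ord (D t) := by
      rw [hU, hτ.ord_mul (mul_ne_zero (mul_ne_zero hn0 htn0) hDt0) ha0,
        hτ.ord_mul (mul_ne_zero hn0 htn0) hDt0, hτ.ord_mul hn0 htn0, hτ.ord_pow, ht, ha]
      ring
    rw [hUord] at h1
    linarith
  have hnn : 0 ≤ hτ.ord ((n + 1 : ℕ) : κ) :=
    (hτ.ord_nonneg_iff hn0).mpr (natCast_mem Vs (n + 1))
  have hbt : -(((e₀ : ℤ) - 1) * ((n + 1 : ℕ) : ℤ)) ≤ (e₀ : ℤ) * hτ.ord (D t) := by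
    rcases hbd t (by simp) with h | h
    · exact absurd h hDt0
    · exact scaled_bound hτ hG h
  have hprod : 0 ≤ (e₀ : ℤ) * hτ.ord ((n + 1 : ℕ) : κ) := mul_nonneg he₀'.le hnn
  have hDt : hτ.ord (D t) = -n - hτ.ord ((n + 1 : ℕ) : κ) := by linarith
  have hexp : (e₀ : ℤ) * hτ.ord (D t)
      = -((e₀ : ℤ) * n) - (e₀ : ℤ) * hτ.ord ((n + 1 : ℕ) : κ) := by
    rw [hDt]
    ring
  have hle : ((n + 1 : ℕ) : ℤ) ≤ e₀ := by
    push_cast at hbt ⊢
    nlinarith
  refine ⟨hn0, hDt0, ?_, by exact_mod_cast hle, ?_⟩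
  · rw [hsum]
    push_cast
    ring
  · intro heq
    have heq' : ((n + 1 : ℕ) : ℤ) = e₀ := by exact_mod_cast heq
    have hz0 : hτ.ord ((n + 1 : ℕ) : κ) = 0 := by
      have h1 : (e₀ : ℤ) * hτ.ord ((n + 1 : ℕ) : κ) ≤ 0 := by
        rw [← heq'] at hbt hexp ⊢
        push_cast at hbt hexp ⊢
        nlinarith
      have h2 : hτ.ord ((n + 1 : ℕ) : κ) ≤ 0 := by
        by_contra hcon
        push Not at hcon
        have := mul_pos he₀' hcon
        linarith
      linarith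
    have hGo : hτ.ord G = 12 * ((e₀ : ℤ) - 1) := by
      have h1 : (e₀ : ℤ) * hτ.ord G = (e₀ : ℤ) * (12 * ((e₀ : ℤ) - 1)) := by
        rw [hG, heq']
        ring
      exact mul_left_cancel₀ he₀'.ne' h1
    rw [hDt, hz0, hGo, ← heq']
    push_cast
    ring

/-- **(E-c) + (E-d), packaged.**  `S ⊆ Vs` a subring with the lifting property, `x, z ∈ S` with
`D x = 1`, `D z = 0`, `x - z` a non-unit at `s`, `e₀ * ord G = 12 (e₀ - 1) * ord (x - z)` and
`12 * ord (D y) + ord G ≥ 0` on `S`.  Then `ord (x - z) ≤ e₀`, and in the case of equality every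
uniformiser `t ∈ S` has `D t ≠ 0` and `(D t)^12 * G` a unit at `s`. -/
theorem le_and_unit_certificate {D : κ → κ} (hD : IsDeriv D) (hτ : IsUnif Vs τ) (S : Subring κ)
    (hS : ∀ y ∈ S, y ∈ Vs)
    (hlift : ∀ c ∈ Vs, ∃ a ∈ S, ∃ b ∈ S, b ∉ Vs.nonunits ∧ a = c * b)
    {x z G : κ} {e₀ : ℕ} (hx : D x = 1) (hz : D z = 0) (hxz0 : x - z ≠ 0)
    (hxz : x - z ∈ Vs.nonunits) (hG0 : G ≠ 0)
    (hG : (e₀ : ℤ) * hτ.ord G = 12 * ((e₀ : ℤ) - 1) * hτ.ord (x - z))
    (hbd : ∀ y ∈ S, D y = 0 ∨ 0 ≤ 12 * hτ.ord (D y) + hτ.ord G) :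
    hτ.ord (x - z) ≤ e₀ ∧ ((hτ.ord (x - z)).toNat : κ) ≠ 0 ∧
      (hτ.ord (x - z) = e₀ → ∀ t ∈ S, hτ.ord t = 1 →
        D t ≠ 0 ∧ (D t) ^ 12 * G ∈ Vs ∧ ((D t) ^ 12 * G)⁻¹ ∈ Vs) := by
  have hpos : 0 < hτ.ord (x - z) := (hτ.ord_pos_iff hxz0).mpr hxz
  obtain ⟨e, hee⟩ : ∃ e : ℕ, hτ.ord (x - z) = e := ⟨(hτ.ord (x - z)).toNat, by omega⟩
  have he : 0 < e := by
    rw [hee] at hpos
    exact_mod_cast hpos
  rw [hee] at hG
  -- the relation for an arbitrary uniformiser in `S`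
  have hrel : ∀ t ∈ S, hτ.ord t = 1 → (e : κ) ≠ 0 ∧ D t ≠ 0 ∧
      hτ.ord (D t) + hτ.ord (e : κ) = 1 - e ∧ e ≤ e₀ ∧
      (e = e₀ → 12 * hτ.ord (D t) + hτ.ord G = 0) := by
    intro t htS ht
    have ht0 : t ≠ 0 := by
      rintro rfl
      simp at ht
    have hte0 : t ^ e ≠ 0 := pow_ne_zero _ ht0
    have hc0 : (x - z) / t ^ e ≠ 0 := div_ne_zero hxz0 hte0
    have hcord : hτ.ord ((x - z) / t ^ e) = 0 := by
      rw [hτ.ord_div hxz0 hte0, hee, hτ.ord_pow, ht]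
      ring
    obtain ⟨hcV, hcV'⟩ := (hτ.ord_eq_zero_iff hc0).mp hcord
    obtain ⟨a, haS, b, hbS, hbn, hab⟩ := hlift _ hcV
    have hbV := hS b hbS
    rw [ValuationSubring.mem_nonunits_iff_or] at hbn
    push Not at hbn
    obtain ⟨hb0, hbV'⟩ := hbn
    have hb : hτ.ord b = 0 := hτ.ord_unit hbV hbV' hb0
    have ha0 : a ≠ 0 := by
      rw [hab]
      exact mul_ne_zero hc0 hb0
    have ha : hτ.ord a = 0 := by
      rw [hab, hτ.ord_mul hc0 hb0, hcord, hb, add_zero]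
    have hr : b * (x - z) = t ^ e * a := by
      rw [hab]
      field_simp
    refine ord_deriv_of_rel hD hτ he hx hz ht ha0 ha hb0 hb hr hG ?_
    intro y hy
    simp only [Set.mem_insert_iff, Set.mem_singleton_iff] at hy
    rcases hy with rfl | rfl | rfl
    · exact hbd _ haS
    · exact hbd _ hbS
    · exact hbd _ htS
  -- a uniformiser in `S`
  obtain ⟨t₀, ht₀S, b₀, hb₀S, hb₀n, hab₀⟩ := hlift τ hτ.mem
  have hb₀V := hS b₀ hb₀S
  rw [ValuationSubring.mem_nonunits_iff_or] at hb₀n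
  push Not at hb₀n
  obtain ⟨hb₀0, hb₀V'⟩ := hb₀n
  have ht₀ : hτ.ord t₀ = 1 := by
    rw [hab₀, hτ.ord_mul hτ.ne_zero hb₀0, hτ.ord_self, hτ.ord_unit hb₀V hb₀V' hb₀0, add_zero]
  obtain ⟨hechar, -, -, hle, -⟩ := hrel t₀ ht₀S ht₀
  refine ⟨by rw [hee]; exact_mod_cast hle, ?_, ?_⟩
  · rw [hee, Int.toNat_natCast]
    exact hechar
  · intro heq t htS ht
    have heq' : e = e₀ := by
      rw [hee] at heq
      exact_mod_cast heq
    obtain ⟨-, hDt0, -, -, hcert⟩ := hrel t htS ht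
    have hne : (D t) ^ 12 * G ≠ 0 := mul_ne_zero (pow_ne_zero _ hDt0) hG0
    have hord : hτ.ord ((D t) ^ 12 * G) = 0 := by
      rw [hτ.ord_mul (pow_ne_zero _ hDt0) hG0, hτ.ord_pow]
      push_cast
      exact hcert heq'
    exact ⟨hDt0, (hτ.ord_eq_zero_iff hne).mp hord⟩

end Fermat.Agent.CAR.Local.EllOrder
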