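import Mathlib
import Fermat.Agent.CAR.Local.Meeting

/-!
# Which components pass through a point: the criterion

Complements `Meeting.lean` (relations `a * c = s * q ^ N` instead of `a * c = s * q`).

* `exists_minimalPrimes_mem_of_mul_eq_pow` : in a Noetherian domain, if `a ∈ 𝔫`,
  `a * c = s * q ^ N`, `s ∉ 𝔫`, `q ≠ 0`, some prime minimal over `(q)` is contained in `𝔫` and
  contains `a`.
* `centre_le_pointIdeal_of_mul_eq_pow` : if the primes minimal over `(q)` are the centres of the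
  components `Os i`, `a` divides a power of `q`, `a` lies in the centre of no component other
  than `Os j₀`, and the reduction of `a` on the component `O` vanishes at `s`, then the component
  `Os j₀` passes through the point `(O, s)`.
* `centre_le_pointIdeal_iff` : if moreover `a` lies in the centre of `Os j₀`: the component
  `Os j₀` passes through the point `(O, s)` **iff** the reduction of `a` on `O` vanishes at `s`.
  (Instance: `a = u₁ = Δ(z)/Δ(qz)`, `j₀ = 0`-component, or `a = q¹²/u₂`, `j₀ = ∞`-component; the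
  reduction on the middle component is `D̄ = Δ̄^(1-q)` in both cases: the three components meet
  exactly at the zeros of `D̄`.)
-/

set_option autoImplicit false

namespace Fermat.Agent.CAR.Local

open IsLocalRing

section SecondPrimePow

variable {R : Type*} [CommRing R] [IsDomain R] [IsNoetherianRing R]

/-- **Second vertical prime, power form.** In a Noetherian domain, let `a ∈ 𝔫` with
`a * c = s * q ^ N`, `s ∉ 𝔫`, `q ≠ 0`.  Then some prime minimal over `(q)` is contained in `𝔫`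
and contains `a`. -/
theorem exists_minimalPrimes_mem_of_mul_eq_pow (𝔫 : Ideal R) [𝔫.IsPrime] {q a c s : R} {N : ℕ}
    (hq : q ≠ 0) (ha : a ∈ 𝔫) (hs : s ∉ 𝔫) (h : a * c = s * q ^ N) :
    ∃ 𝔮 ∈ (Ideal.span {q}).minimalPrimes, 𝔮 ≤ 𝔫 ∧ a ∈ 𝔮 := by
  obtain ⟨𝔮, h𝔮, hle⟩ := Ideal.exists_minimalPrimes_le
    (show Ideal.span {a} ≤ 𝔫 from (Ideal.span_singleton_le_iff_mem 𝔫).2 ha)
  have hprime : 𝔮.IsPrime := h𝔮.1.1
  have ha𝔮 : a ∈ 𝔮 := h𝔮.1.2 (Ideal.mem_span_singleton_self a)
  have hq𝔮 : q ∈ 𝔮 := by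
    have h1 : s * q ^ N ∈ 𝔮 := by rw [← h]; exact 𝔮.mul_mem_right c ha𝔮
    rcases hprime.mem_or_mem h1 with h2 | h2
    · exact absurd (hle h2) hs
    · exact hprime.mem_of_pow_mem N h2
  have hht : 𝔮.height ≤ 1 :=
    Ideal.height_le_one_of_isPrincipal_of_mem_minimalPrimes (Ideal.span {a}) 𝔮 h𝔮
  refine ⟨𝔮, ⟨⟨hprime, (Ideal.span_singleton_le_iff_mem 𝔮).2 hq𝔮⟩, ?_⟩, hle, ha𝔮⟩
  rintro 𝔮' ⟨h𝔮', hq𝔮'⟩ hle'
  by_contra hnot
  have hlt : 𝔮' < 𝔮 := lt_of_le_of_ne hle' (fun heq => hnot (heq ▸ le_rfl))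
  have h1 : 𝔮'.height < 𝔮.height := Ideal.height_strict_mono_of_isPrime hlt
  have h0 : 𝔮'.height = 0 := Order.lt_one_iff.1 (lt_of_lt_of_le h1 hht)
  rw [Ideal.height_eq_zero_iff_eq_bot] at h0
  have h2 : q ∈ 𝔮' := (Ideal.span_singleton_le_iff_mem 𝔮').1 hq𝔮'
  rw [h0] at h2
  exact hq ((Ideal.mem_bot).1 h2)

end SecondPrimePow

section Criterion

variable {A F κ : Type*} [CommRing A] [IsDomain A] [IsNoetherianRing A] [Field F] [Algebra A F]
  [Field κ]

/-- If `a` divides a power of `q`, lies in the centre of no component other than `Os j₀`, and its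
reduction on the component `O` vanishes at `s`, then the component `Os j₀` passes through the
point `(O, s)`. -/
theorem centre_le_pointIdeal_of_mul_eq_pow (O : ValuationSubring F) (red : O →+* κ)
    (hred : ∀ x : O, red x = 0 ↔ x ∈ maximalIdeal O) (hAO : ∀ a : A, algebraMap A F a ∈ O)
    (Vs : ValuationSubring κ)
    (hA : ∀ a : A, algebraMap A F a ∈ compositeSubring O red hred Vs)
    {ι : Type*} (Os : ι → ValuationSubring F) (hAOs : ∀ i, ∀ a : A, algebraMap A F a ∈ Os i)
    {q a a' : A} {N : ℕ} (hq : q ≠ 0)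
    (hmin : ∀ 𝔮 ∈ (Ideal.span {q}).minimalPrimes, ∃ i, 𝔮 = centre (Os i) (hAOs i))
    (h : a * a' = q ^ N) (ha : redOn O red hAO a ∈ Vs.nonunits) (j₀ : ι)
    (hj : ∀ i, i ≠ j₀ → a ∉ centre (Os i) (hAOs i)) :
    centre (Os j₀) (hAOs j₀) ≤ pointIdeal O red hred Vs hA := by
  have haP : a ∈ pointIdeal O red hred Vs hA :=
    (mem_pointIdeal_iff_redOn O red hred hAO Vs hA a).2 ha
  have h1 : (1 : A) ∉ pointIdeal O red hred Vs hA := fun h1 =>
    (pointIdeal_isPrime O red hred Vs hA).ne_top ((Ideal.eq_top_iff_one _).2 h1)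
  obtain ⟨𝔮, h𝔮, hle, ha𝔮⟩ := exists_minimalPrimes_mem_of_mul_eq_pow
    (pointIdeal O red hred Vs hA) hq haP h1 (show a * a' = 1 * q ^ N by rw [one_mul, h])
  obtain ⟨i, rfl⟩ := hmin 𝔮 h𝔮
  by_cases hi : i = j₀
  · subst hi
    exact hle
  · exact absurd ha𝔮 (hj i hi)

/-- **The meeting criterion.** Under the hypotheses of `centre_le_pointIdeal_of_mul_eq_pow`, if
moreover `a` lies in the centre of `Os j₀`, then the component `Os j₀` passes through the point
`(O, s)` if and only if the reduction of `a` on `O` vanishes at `s`. -/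
theorem centre_le_pointIdeal_iff (O : ValuationSubring F) (red : O →+* κ)
    (hred : ∀ x : O, red x = 0 ↔ x ∈ maximalIdeal O) (hAO : ∀ a : A, algebraMap A F a ∈ O)
    (Vs : ValuationSubring κ)
    (hA : ∀ a : A, algebraMap A F a ∈ compositeSubring O red hred Vs)
    {ι : Type*} (Os : ι → ValuationSubring F) (hAOs : ∀ i, ∀ a : A, algebraMap A F a ∈ Os i)
    {q a a' : A} {N : ℕ} (hq : q ≠ 0)
    (hmin : ∀ 𝔮 ∈ (Ideal.span {q}).minimalPrimes, ∃ i, 𝔮 = centre (Os i) (hAOs i))
    (h : a * a' = q ^ N) (j₀ : ι) (haj : a ∈ centre (Os j₀) (hAOs j₀))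
    (hj : ∀ i, i ≠ j₀ → a ∉ centre (Os i) (hAOs i)) :
    centre (Os j₀) (hAOs j₀) ≤ pointIdeal O red hred Vs hA ↔
      redOn O red hAO a ∈ Vs.nonunits := by
  constructor
  · intro hle
    exact (mem_pointIdeal_iff_redOn O red hred hAO Vs hA a).1 (hle haj)
  · intro ha
    exact centre_le_pointIdeal_of_mul_eq_pow O red hred hAO Vs hA Os hAOs hq hmin h ha j₀ hj

end Criterion

end Fermat.Agent.CAR.Local
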