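import Mathlib
import Fermat.Agent.CAR.Local.LocalThm
import Fermat.Agent.CAR.Local.EllOrder

/-!
# CAR (L), instance wiring: regularity at the finite points of the middle component

Abstract form of part (P-3) of the points instance (finite non-supersingular points `(mid, s)`,
*including the elliptic points*), in the vocabulary of `Exhaust` / `LocalThm` / `EllOrder`.

Setting: `A` the normal model (Noetherian, integrally closed), `O ⊇ A` a component with reduction
`red : O → κ`, `Vs` a place of `κ` with uniformiser `τ`, `P = pointIdeal O red hred Vs hA`.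
`B'` is a ring with `φ : B' →+* A` (the integral functions of the good level, `φ = π_0^*`),
`ρ y := redOn (φ y)` and `δ : B' → A` (`δ y = d_y = π_2^* y - π_0^* y`).  `D` is a derivation of
`κ` (`D = d/dx̄`), `G ∈ κ` the reduction of the certificate function, `u ∈ A` the modular unit.

* `redOn_cofactor` : `h * u = s * x` and `x / u ∈ O` ⟹ `redOn h = redOn s * red (x / u)`.
* `red_div_mem_of_minimalPrimes` : **the different bound on reductions**: if the centre of `O` is
  the only prime through the point minimal over `(u)` and `x / u ∈ O`, then `red (x / u)` is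
  regular at `s` (and `x / u = h / s` with `s` a unit at the point).
* `ord_deriv_bound` : **(E-c)** derived: `D ȳ = 0 ∨ 0 ≤ 12 * ord_s (D ȳ) + ord_s G`.
* `ord_le_of_cert` : `ord_s (x̄ - z̄) ≤ e₀` and tameness.
* `regular_of_ell` : **regularity at `(mid, s)`** when `ord_s (x̄ - z̄) = e₀`: for every `t : B'`
  with `ρ t` a uniformiser at `s`, the local ring of the point is regular with parameters
  `(δ t, φ t)` (the full conclusion of `LThm.regular_of_certificate`).
* `regular_of_unramified` : the case `e₀ = 1` (`x̄ - z̄` a uniformiser, `G` a unit at `s`).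
* `cert_of_quot`, `unif_of_quot` : the hypotheses `hcert`, `hunif` from
  `red (δ y / d) = D (ρ y)` and `h₀ * u = d ^ (12 m)`, `redOn h₀ = G ^ m`.
-/

set_option autoImplicit false

namespace Fermat.Agent.CAR.Local.EllPoint

open IsLocalRing
open Fermat.Agent.CAR.Formal
open Fermat.Agent.CAR.Local
open Fermat.Agent.CAR.Local.EllOrder

section Cofactor

variable {A F κ : Type*} [CommRing A] [IsDomain A]
  [Field F] [Algebra A F] [IsFractionRing A F] [Field κ]
  (O : ValuationSubring F) (red : O →+* κ)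
  (hAO : ∀ a : A, algebraMap A F a ∈ O)

omit [IsDomain A] in
/-- If `h * u = s * x` and `x / u ∈ O`, then `redOn h = redOn s * red (x / u)`. -/
theorem redOn_cofactor {x u h s : A} (hu0 : u ≠ 0) (hcert : h * u = s * x)
    (hz : algebraMap A F x / algebraMap A F u ∈ O) :
    redOn O red hAO h = redOn O red hAO s * red ⟨_, hz⟩ := by
  have hinj : Function.Injective (algebraMap A F) := IsFractionRing.injective A F
  have huF : algebraMap A F u ≠ 0 := fun h0 => hu0 (hinj (by rw [h0, map_zero]))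
  have h1 : algebraMap A F h = algebraMap A F s * (algebraMap A F x / algebraMap A F u) := by
    have h2 : algebraMap A F h * algebraMap A F u = algebraMap A F s * algebraMap A F x := by
      rw [← map_mul, ← map_mul, hcert]
    field_simp
    exact h2
  rw [redOn_apply, redOn_apply, ← map_mul]
  exact congrArg red (Subtype.ext h1)

end Cofactor

section Point

variable {A F κ : Type*} [CommRing A] [IsDomain A] [IsNoetherianRing A] [IsIntegrallyClosed A]
  [Field F] [Algebra A F] [IsFractionRing A F] [Field κ]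
  (O : ValuationSubring F) (red : O →+* κ) (hred : ∀ x : O, red x = 0 ↔ x ∈ maximalIdeal O)
  (hAO : ∀ a : A, algebraMap A F a ∈ O) (Vs : ValuationSubring κ)
  (hA : ∀ a : A, algebraMap A F a ∈ compositeSubring O red hred Vs)

omit [IsDomain A] [IsNoetherianRing A] [IsIntegrallyClosed A] [IsFractionRing A F] in
include hA in
/-- The reduction of an element of `A` is regular at `s`. -/
theorem redOn_mem (a : A) : redOn O red hAO a ∈ Vs :=
  (algebraMap_mem_compositeSubring_iff O red hred hAO Vs a).1 (hA a)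

/-- **The different bound on reductions.** If the centre of `O` is the only prime through the
point `(O, s)` minimal over `(u)` and `x / u ∈ O`, then the reduction of `x / u` is regular at
`s`; more precisely `x / u = h / s` with `h, s ∈ A` and `s` a unit at the point. -/
theorem red_div_mem_of_minimalPrimes {x u : A} (hu0 : u ≠ 0)
    (hu : ∀ 𝔮 ∈ (Ideal.span {u}).minimalPrimes, 𝔮 ≤ pointIdeal O red hred Vs hA →
      𝔮 = centre O hAO)
    (hz : algebraMap A F x / algebraMap A F u ∈ O) :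
    red ⟨_, hz⟩ ∈ Vs ∧ ∃ h s : A, redOn O red hAO s ∉ Vs.nonunits ∧ h * u = s * x ∧
      redOn O red hAO h = redOn O red hAO s * red ⟨_, hz⟩ := by
  obtain ⟨h, s, hs, hcert⟩ := LThm.exists_mul_eq_mul_of_div_mem (pointIdeal O red hred Vs hA)
    O hAO hu0 hu hz
  have hs' : redOn O red hAO s ∉ Vs.nonunits := fun h' =>
    hs ((mem_pointIdeal_iff_redOn O red hred hAO Vs hA s).2 h')
  have hco := redOn_cofactor O red hAO hu0 hcert hz
  refine ⟨?_, h, s, hs', hcert, hco⟩
  have hsV : redOn O red hAO s ∈ Vs := redOn_mem O red hred hAO Vs hA s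
  have hhV : redOn O red hAO h ∈ Vs := redOn_mem O red hred hAO Vs hA h
  rw [ValuationSubring.mem_nonunits_iff_or] at hs'
  push Not at hs'
  obtain ⟨hs0, hsi⟩ := hs'
  have h1 : red ⟨_, hz⟩ = redOn O red hAO h * (redOn O red hAO s)⁻¹ := by
    rw [hco]
    field_simp
  rw [h1]
  exact Vs.mul_mem _ _ hhV hsi

variable {B' : Type*} [CommRing B'] (φ : B' →+* A) (δ : B' → A) {τ : κ} (hτ : IsUnif Vs τ)
  {D : κ → κ} {G : κ} {u : A} {m : ℕ}

/-- **(E-c), derived.** If the centre of `O` is the only prime through the point minimal over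
`(u)` and `(δ y) ^ (12 m) / u ∈ O` has reduction `((D ȳ) ^ 12 * G) ^ m`, then
`D ȳ = 0 ∨ 0 ≤ 12 * ord_s (D ȳ) + ord_s G`. -/
theorem ord_deriv_bound (hG0 : G ≠ 0) (hu0 : u ≠ 0) (hm : m ≠ 0)
    (hu : ∀ 𝔮 ∈ (Ideal.span {u}).minimalPrimes, 𝔮 ≤ pointIdeal O red hred Vs hA →
      𝔮 = centre O hAO)
    (y : B')
    (hcert : ∃ hz : algebraMap A F (δ y ^ (12 * m)) / algebraMap A F u ∈ O,
      red ⟨_, hz⟩ = ((D (redOn O red hAO (φ y))) ^ 12 * G) ^ m) :
    D (redOn O red hAO (φ y)) = 0 ∨
      0 ≤ 12 * hτ.ord (D (redOn O red hAO (φ y))) + hτ.ord G := by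
  by_cases h0 : D (redOn O red hAO (φ y)) = 0
  · exact Or.inl h0
  · right
    obtain ⟨hz, hr⟩ := hcert
    have hmem := (red_div_mem_of_minimalPrimes O red hred hAO Vs hA hu0 hu hz).1
    rw [hr] at hmem
    have hne : (D (redOn O red hAO (φ y))) ^ 12 * G ≠ 0 := mul_ne_zero (pow_ne_zero _ h0) hG0
    have h1 : 0 ≤ hτ.ord (((D (redOn O red hAO (φ y))) ^ 12 * G) ^ m) :=
      (hτ.ord_nonneg_iff (pow_ne_zero _ hne)).2 hmem
    rw [hτ.ord_pow, hτ.ord_mul (pow_ne_zero _ h0) hG0, hτ.ord_pow] at h1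
    have hmpos : (0 : ℤ) < m := by exact_mod_cast Nat.pos_of_ne_zero hm
    have h2 : (0 : ℤ) ≤ ((12 : ℕ) : ℤ) * hτ.ord (D (redOn O red hAO (φ y))) + hτ.ord G :=
      nonneg_of_mul_nonneg_right h1 hmpos
    exact_mod_cast h2

omit [IsDomain A] [IsNoetherianRing A] [IsIntegrallyClosed A] [IsFractionRing A F] in
include hA in
/-- The range of the reduction of `B'` lies in `Vs`. -/
theorem range_le (y : κ) (hy : y ∈ ((redOn O red hAO).comp φ).range) : y ∈ Vs := by
  obtain ⟨b, rfl⟩ := hy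
  exact redOn_mem O red hred hAO Vs hA (φ b)

omit [IsDomain A] [IsNoetherianRing A] [IsIntegrallyClosed A] [IsFractionRing A F] in
/-- (LIFT) for `B'` in the `Subring` form of `EllOrder`. -/
theorem lift_range
    (hlift : ∀ c ∈ Vs, ∃ a b : B', redOn O red hAO (φ b) ∉ Vs.nonunits ∧
      redOn O red hAO (φ a) = c * redOn O red hAO (φ b)) :
    ∀ c ∈ Vs, ∃ a ∈ ((redOn O red hAO).comp φ).range,
      ∃ b ∈ ((redOn O red hAO).comp φ).range, b ∉ Vs.nonunits ∧ a = c * b := by
  intro c hc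
  obtain ⟨a, b, hb, hab⟩ := hlift c hc
  exact ⟨_, ⟨a, rfl⟩, _, ⟨b, rfl⟩, hb, hab⟩

/-- **Ramification bound and tameness at `s`** (no hypothesis on the characteristic-zero
ramification): `ord_s (x̄ - z̄) ≤ e₀`, and `ord_s (x̄ - z̄)` is prime to the characteristic. -/
theorem ord_le_of_cert (hD : IsDeriv D) (hG0 : G ≠ 0) (hu0 : u ≠ 0) (hm : m ≠ 0)
    (hu : ∀ 𝔮 ∈ (Ideal.span {u}).minimalPrimes, 𝔮 ≤ pointIdeal O red hred Vs hA →
      𝔮 = centre O hAO)
    (hcert : ∀ y : B', ∃ hz : algebraMap A F (δ y ^ (12 * m)) / algebraMap A F u ∈ O,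
      red ⟨_, hz⟩ = ((D (redOn O red hAO (φ y))) ^ 12 * G) ^ m)
    (hlift : ∀ c ∈ Vs, ∃ a b : B', redOn O red hAO (φ b) ∉ Vs.nonunits ∧
      redOn O red hAO (φ a) = c * redOn O red hAO (φ b))
    {x z : κ} {e₀ : ℕ} (hx : D x = 1) (hz : D z = 0) (hxz0 : x - z ≠ 0)
    (hxz : x - z ∈ Vs.nonunits)
    (hG : (e₀ : ℤ) * hτ.ord G = 12 * ((e₀ : ℤ) - 1) * hτ.ord (x - z)) :
    hτ.ord (x - z) ≤ e₀ ∧ ((hτ.ord (x - z)).toNat : κ) ≠ 0 := by
  have key := le_and_unit_certificate hD hτ ((redOn O red hAO).comp φ).range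
    (range_le O red hred hAO Vs hA φ) (lift_range O red hAO Vs φ hlift) hx hz hxz0 hxz hG0 hG
    (by
      rintro _ ⟨y, rfl⟩
      exact ord_deriv_bound O red hred hAO Vs hA φ δ hτ hG0 hu0 hm hu y (hcert y))
  exact ⟨key.1, key.2.1⟩

/-- **Regularity at the finite points of the middle component, elliptic points included.**
If `ord_s (x̄ - z̄) = e₀` (the characteristic-zero ramification index of the base function over
the branch value), then for every `t : B'` whose reduction is a uniformiser at `s`, the local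
ring of the point `(O, s)` is regular with parameters `(δ t, φ t)`. -/
theorem regular_of_ell (hD : IsDeriv D) (hG0 : G ≠ 0) (hu0 : u ≠ 0) (hm : m ≠ 0)
    (hu : ∀ 𝔮 ∈ (Ideal.span {u}).minimalPrimes, 𝔮 ≤ pointIdeal O red hred Vs hA →
      𝔮 = centre O hAO)
    (hcert : ∀ y : B', ∃ hz : algebraMap A F (δ y ^ (12 * m)) / algebraMap A F u ∈ O,
      red ⟨_, hz⟩ = ((D (redOn O red hAO (φ y))) ^ 12 * G) ^ m)
    (hunif : ∀ y : B', D (redOn O red hAO (φ y)) ≠ 0 →
      δ y ≠ 0 ∧ algebraMap A F (δ y) ∈ O.nonunits ∧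
        ∀ z ∈ O.nonunits, z / algebraMap A F (δ y) ∈ O)
    (hlift : ∀ c ∈ Vs, ∃ a b : B', redOn O red hAO (φ b) ∉ Vs.nonunits ∧
      redOn O red hAO (φ a) = c * redOn O red hAO (φ b))
    {x z : κ} {e₀ : ℕ} (hx : D x = 1) (hz : D z = 0) (hxz0 : x - z ≠ 0)
    (hxz : x - z ∈ Vs.nonunits)
    (hG : (e₀ : ℤ) * hτ.ord G = 12 * ((e₀ : ℤ) - 1) * hτ.ord (x - z))
    (he : hτ.ord (x - z) = e₀)
    (t : B') (ht : hτ.ord (redOn O red hAO (φ t)) = 1) :
    maximalIdeal (pointRing F (pointIdeal O red hred Vs hA)) =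
        Ideal.span {algebraMap A (pointRing F (pointIdeal O red hred Vs hA)) (δ t),
          algebraMap A (pointRing F (pointIdeal O red hred Vs hA)) (φ t)} ∧
      2 ≤ (maximalIdeal (pointRing F (pointIdeal O red hred Vs hA))).height ∧
      UniqueFactorizationMonoid (pointRing F (pointIdeal O red hred Vs hA)) ∧
      (∀ p : Ideal (pointRing F (pointIdeal O red hred Vs hA)), p.IsPrime →
        p ≠ maximalIdeal (pointRing F (pointIdeal O red hred Vs hA)) → p.IsPrincipal) ∧
      Prime (algebraMap A (pointRing F (pointIdeal O red hred Vs hA)) (δ t)) ∧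
      (∀ r : pointRing F (pointIdeal O red hred Vs hA), (r : F) ∈ O.nonunits ↔
        r ∈ Ideal.span {algebraMap A (pointRing F (pointIdeal O red hred Vs hA)) (δ t)}) := by
  have key := le_and_unit_certificate hD hτ ((redOn O red hAO).comp φ).range
    (range_le O red hred hAO Vs hA φ) (lift_range O red hAO Vs φ hlift) hx hz hxz0 hxz hG0 hG
    (by
      rintro _ ⟨y, rfl⟩
      exact ord_deriv_bound O red hred hAO Vs hA φ δ hτ hG0 hu0 hm hu y (hcert y))
  obtain ⟨hDt, hcV, hcV'⟩ := key.2.2 he _ ⟨t, rfl⟩ ht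
  have hDt' : D (redOn O red hAO (φ t)) ≠ 0 := hDt
  obtain ⟨hd0, hdO, hdunif⟩ := hunif t hDt'
  obtain ⟨hz', hr⟩ := hcert t
  obtain ⟨-, h, s, hs, hc, hco⟩ :=
    red_div_mem_of_minimalPrimes O red hred hAO Vs hA hu0 hu hz'
  -- the cofactor is a unit at the point
  have hcne : (D (redOn O red hAO (φ t))) ^ 12 * G ≠ 0 :=
    mul_ne_zero (pow_ne_zero _ hDt') hG0
  have hh : redOn O red hAO h ∉ Vs.nonunits := by
    rw [hco, hr, ValuationSubring.mem_nonunits_iff_or]
    rw [ValuationSubring.mem_nonunits_iff_or] at hs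
    push Not at hs ⊢
    obtain ⟨hs0, hsi⟩ := hs
    refine ⟨mul_ne_zero hs0 (pow_ne_zero _ hcne), ?_⟩
    rw [mul_inv, ← inv_pow]
    exact Vs.mul_mem _ _ hsi (pow_mem hcV' m)
  -- the reduction of `φ t` is a uniformiser
  have ht0 : redOn O red hAO (φ t) ≠ 0 := by
    intro h0
    rw [h0, hτ.ord_zero] at ht
    exact absurd ht (by norm_num)
  have htm : redOn O red hAO (φ t) ∈ Vs.nonunits :=
    (hτ.ord_pos_iff ht0).1 (by rw [ht]; norm_num)
  have htgen : ∀ c ∈ Vs.nonunits, ∃ c' ∈ Vs, c = c' * redOn O red hAO (φ t) := by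
    intro c hc
    by_cases hc0 : c = 0
    · exact ⟨0, Vs.zero_mem, by rw [hc0, zero_mul]⟩
    · refine ⟨c / redOn O red hAO (φ t), ?_, by field_simp⟩
      have hpos : 0 < hτ.ord c := (hτ.ord_pos_iff hc0).2 hc
      rw [← hτ.ord_nonneg_iff (div_ne_zero hc0 ht0), hτ.ord_div hc0 ht0, ht]
      omega
  have hliftA : ∀ c ∈ Vs, ∃ a b : A, redOn O red hAO b ∉ Vs.nonunits ∧
      redOn O red hAO a = c * redOn O red hAO b := by
    intro c hc
    obtain ⟨a, b, hb, hab⟩ := hlift c hc
    exact ⟨φ a, φ b, hb, hab⟩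
  have hn : 12 * m ≠ 0 := by omega
  exact LThm.regular_of_certificate O red hred hAO Vs hA hn hdO hd0 hdunif hc hh hu htm ht0
    htgen hliftA

/-- **The unramified case** (`e₀ = 1`): if `x̄ - z̄` is a uniformiser at `s` and `G` is a unit at
`s`, then for every `t : B'` whose reduction is a uniformiser at `s` the local ring of the point
is regular with parameters `(δ t, φ t)`. -/
theorem regular_of_unramified (hD : IsDeriv D) (hG0 : G ≠ 0) (hu0 : u ≠ 0) (hm : m ≠ 0)
    (hu : ∀ 𝔮 ∈ (Ideal.span {u}).minimalPrimes, 𝔮 ≤ pointIdeal O red hred Vs hA →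
      𝔮 = centre O hAO)
    (hcert : ∀ y : B', ∃ hz : algebraMap A F (δ y ^ (12 * m)) / algebraMap A F u ∈ O,
      red ⟨_, hz⟩ = ((D (redOn O red hAO (φ y))) ^ 12 * G) ^ m)
    (hunif : ∀ y : B', D (redOn O red hAO (φ y)) ≠ 0 →
      δ y ≠ 0 ∧ algebraMap A F (δ y) ∈ O.nonunits ∧
        ∀ z ∈ O.nonunits, z / algebraMap A F (δ y) ∈ O)
    (hlift : ∀ c ∈ Vs, ∃ a b : B', redOn O red hAO (φ b) ∉ Vs.nonunits ∧
      redOn O red hAO (φ a) = c * redOn O red hAO (φ b))
    {x z : κ} (hx : D x = 1) (hz : D z = 0)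
    (hxz : hτ.ord (x - z) = 1) (hGord : hτ.ord G = 0)
    (t : B') (ht : hτ.ord (redOn O red hAO (φ t)) = 1) :
    maximalIdeal (pointRing F (pointIdeal O red hred Vs hA)) =
        Ideal.span {algebraMap A (pointRing F (pointIdeal O red hred Vs hA)) (δ t),
          algebraMap A (pointRing F (pointIdeal O red hred Vs hA)) (φ t)} ∧
      2 ≤ (maximalIdeal (pointRing F (pointIdeal O red hred Vs hA))).height ∧
      UniqueFactorizationMonoid (pointRing F (pointIdeal O red hred Vs hA)) ∧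
      (∀ p : Ideal (pointRing F (pointIdeal O red hred Vs hA)), p.IsPrime →
        p ≠ maximalIdeal (pointRing F (pointIdeal O red hred Vs hA)) → p.IsPrincipal) ∧
      Prime (algebraMap A (pointRing F (pointIdeal O red hred Vs hA)) (δ t)) ∧
      (∀ r : pointRing F (pointIdeal O red hred Vs hA), (r : F) ∈ O.nonunits ↔
        r ∈ Ideal.span {algebraMap A (pointRing F (pointIdeal O red hred Vs hA)) (δ t)}) := by
  have hxz0 : x - z ≠ 0 := by
    intro h0
    rw [h0, hτ.ord_zero] at hxz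
    exact absurd hxz (by norm_num)
  have hxzm : x - z ∈ Vs.nonunits := (hτ.ord_pos_iff hxz0).1 (by rw [hxz]; norm_num)
  refine regular_of_ell O red hred hAO Vs hA φ δ hτ hD hG0 hu0 hm hu hcert hunif hlift
    (e₀ := 1) hx hz hxz0 hxzm ?_ ?_ t ht
  · rw [hGord, hxz]
    norm_num
  · rw [hxz]
    norm_num

end Point

section Quot

variable {A F κ : Type*} [CommRing A] [IsDomain A]
  [Field F] [Algebra A F] [IsFractionRing A F] [Field κ]
  (O : ValuationSubring F) (red : O →+* κ) (hred : ∀ x : O, red x = 0 ↔ x ∈ maximalIdeal O)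
  (hAO : ∀ a : A, algebraMap A F a ∈ O)

omit [IsDomain A] in
/-- **`hcert` from the quotient form.** If `d ^ (12 m) = h₀ * u` with `redOn h₀ = G ^ m` and
`a / d ∈ O` has reduction `c`, then `a ^ (12 m) / u ∈ O` has reduction `(c ^ 12 * G) ^ m`. -/
theorem cert_of_quot {d u h₀ a : A} {G c : κ} {m : ℕ} (hd0 : d ≠ 0) (hu0 : u ≠ 0)
    (hh₀ : h₀ * u = d ^ (12 * m)) (hG : redOn O red hAO h₀ = G ^ m)
    (hq : ∃ hz : algebraMap A F a / algebraMap A F d ∈ O, red ⟨_, hz⟩ = c) :
    ∃ hz : algebraMap A F (a ^ (12 * m)) / algebraMap A F u ∈ O,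
      red ⟨_, hz⟩ = (c ^ 12 * G) ^ m := by
  obtain ⟨hz, hr⟩ := hq
  have hinj : Function.Injective (algebraMap A F) := IsFractionRing.injective A F
  have hdF : algebraMap A F d ≠ 0 := fun h0 => hd0 (hinj (by rw [h0, map_zero]))
  have huF : algebraMap A F u ≠ 0 := fun h0 => hu0 (hinj (by rw [h0, map_zero]))
  have h1 : algebraMap A F (a ^ (12 * m)) / algebraMap A F u =
      (algebraMap A F a / algebraMap A F d) ^ (12 * m) * algebraMap A F h₀ := by
    have h2 : algebraMap A F h₀ * algebraMap A F u = algebraMap A F d ^ (12 * m) := by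
      rw [← map_mul, hh₀, map_pow]
    have hh₀F : algebraMap A F h₀ ≠ 0 := by
      intro h0
      rw [h0, zero_mul] at h2
      exact pow_ne_zero _ hdF h2.symm
    rw [map_pow, div_pow, ← h2]
    field_simp
  have hmem : (algebraMap A F a / algebraMap A F d) ^ (12 * m) * algebraMap A F h₀ ∈ O :=
    O.mul_mem _ _ (pow_mem hz _) (hAO h₀)
  refine ⟨h1 ▸ hmem, ?_⟩
  have h3 : (⟨algebraMap A F (a ^ (12 * m)) / algebraMap A F u, h1 ▸ hmem⟩ : O) =
      (⟨algebraMap A F a / algebraMap A F d, hz⟩ : O) ^ (12 * m) * ⟨algebraMap A F h₀, hAO h₀⟩ :=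
    Subtype.ext h1
  rw [h3, map_mul, map_pow, hr]
  have h4 : red ⟨algebraMap A F h₀, hAO h₀⟩ = G ^ m := hG
  rw [h4, mul_pow, ← pow_mul]

omit [IsDomain A] in
include hred in
/-- **`hunif` from the quotient form.** If `d` is a uniformiser of `O` and `a / d ∈ O` has
non-zero reduction, then `a` is a uniformiser of `O`. -/
theorem unif_of_quot {d a : A} (hd0 : d ≠ 0) (hdO : algebraMap A F d ∈ O.nonunits)
    (hdunif : ∀ z ∈ O.nonunits, z / algebraMap A F d ∈ O)
    (hz : algebraMap A F a / algebraMap A F d ∈ O) (hr : red ⟨_, hz⟩ ≠ 0) :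
    a ≠ 0 ∧ algebraMap A F a ∈ O.nonunits ∧ ∀ z ∈ O.nonunits, z / algebraMap A F a ∈ O := by
  have hinj : Function.Injective (algebraMap A F) := IsFractionRing.injective A F
  have hdF : algebraMap A F d ≠ 0 := fun h0 => hd0 (hinj (by rw [h0, map_zero]))
  have hzi : (algebraMap A F a / algebraMap A F d)⁻¹ ∈ O := by
    by_contra hcon
    apply hr
    rw [hred, ← ValuationSubring.coe_mem_nonunits_iff, ValuationSubring.mem_nonunits_iff_or]
    exact Or.inr hcon
  have ha0 : a ≠ 0 := by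
    rintro rfl
    apply hr
    have h1 : (⟨algebraMap A F 0 / algebraMap A F d, hz⟩ : O) = 0 :=
      Subtype.ext (by simp)
    rw [h1, map_zero]
  have haF : algebraMap A F a ≠ 0 := fun h0 => ha0 (hinj (by rw [h0, map_zero]))
  refine ⟨ha0, ?_, ?_⟩
  · have h1 : algebraMap A F a = algebraMap A F d * (algebraMap A F a / algebraMap A F d) := by
      field_simp
    rw [h1]
    exact LThm.mul_mem_nonunits_of_mem O hdO hz
  · intro z hzO
    have h1 : z / algebraMap A F a =
        z / algebraMap A F d * (algebraMap A F a / algebraMap A F d)⁻¹ := by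
      field_simp
    rw [h1]
    exact O.mul_mem _ _ (hdunif z hzO) hzi

end Quot

end Fermat.Agent.CAR.Local.EllPoint
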