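import Mathlib
import Fermat.Agent.CAR.Local.Centre
import Fermat.Agent.CAR.Local.Unmixed

/-!
# The vertical primes of a normal model are the centres of the extensions of the base valuation

`A₀ ⊆ B` an integral extension of domains, `A₀` integrally closed, with fraction fields
`K₀ ⊆ F`; `q ∈ A₀`; `V₀` a valuation subring of `K₀` containing `A₀` ("the Gauss valuation").

* `exists_valuationSubring_centre_eq` : every prime of `B` is the centre of a valuation subring of
  `F` containing `B` (Chevalley).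
* `exists_valuationSubring_comap_eq_of_minimalPrimes` : if `centre V₀` is the only prime of `A₀`
  minimal over `(q)`, `V₀ = (A₀)_{centre}` and `q` is a uniformiser of `V₀`, then every prime of
  `B` minimal over `(q)` is the centre of a valuation subring of `F` extending `V₀` (going-down).
* `minimalPrimes_eq_centre_of_forall_comap` : hence, if the extensions of `V₀` to `F` are the
  members of a family `O i`, every prime of `B` minimal over `(q)` is some `centre (O i)`.
* `centre_mem_minimalPrimes` : conversely the centre of an extension of `V₀` is minimal over `(q)`.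
* `exists_div_of_mem_of_centre_mem_minimalPrimes` : for `B` Noetherian and integrally closed, a
  valuation subring `O ⊇ B` whose centre is minimal over a non-zero principal ideal is the
  localisation of `B` at its centre.
-/

set_option autoImplicit false

namespace Fermat.Agent.CAR.Local

open IsLocalRing

section Chevalley

variable {B F : Type*} [CommRing B] [IsDomain B] [Field F] [Algebra B F] [IsFractionRing B F]

/-- **Chevalley.** Every prime of `B` is the centre of a valuation subring of the fraction field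
containing `B`. -/
theorem exists_valuationSubring_centre_eq (𝔮 : Ideal B) [𝔮.IsPrime] :
    ∃ (V : ValuationSubring F) (hV : ∀ b : B, algebraMap B F b ∈ V), centre V hV = 𝔮 := by
  classical
  let A' : Subring F := (pointRing F 𝔮).toSubring
  let e : A' →+* pointRing F 𝔮 := (A'.subtype).codRestrict (pointRing F 𝔮) (fun x => x.2)
  let I : Ideal A' := (maximalIdeal (pointRing F 𝔮)).comap e
  have hI : I ≠ ⊤ := by
    intro h
    have h1 : (1 : A') ∈ I := by rw [h]; trivial
    have h2 : e 1 ∈ maximalIdeal (pointRing F 𝔮) := h1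
    rw [map_one] at h2
    exact (Ideal.ne_top_iff_one _).1 (IsLocalRing.maximalIdeal.isMaximal _).ne_top h2
  obtain ⟨V, hle, hnon⟩ := Ideal.image_subset_nonunits_valuationSubring I hI
  have hV : ∀ b : B, algebraMap B F b ∈ V := fun b =>
    hle (show algebraMap B F b ∈ pointRing F 𝔮 from (pointRing F 𝔮).algebraMap_mem b)
  refine ⟨V, hV, ?_⟩
  ext b
  rw [mem_centre_iff]
  constructor
  · intro hb
    by_contra hb𝔮
    have hb0 : algebraMap B F b ≠ 0 := by
      intro h0
      apply hb𝔮
      have : b = 0 := IsFractionRing.injective B F (by rw [h0, map_zero])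
      rw [this]
      exact 𝔮.zero_mem
    have hinv : (algebraMap B F b)⁻¹ ∈ V := by
      apply hle
      show (algebraMap B F b)⁻¹ ∈ pointRing F 𝔮
      exact mem_pointRing_iff.2 ⟨1, b, hb𝔮, by rw [map_one, one_mul]⟩
    rw [ValuationSubring.mem_nonunits_iff_or] at hb
    rcases hb with hb | hb
    · exact hb0 hb
    · exact hb hinv
  · intro hb
    apply hnon
    refine ⟨⟨algebraMap B F b, (pointRing F 𝔮).algebraMap_mem b⟩, ?_, rfl⟩
    show e ⟨algebraMap B F b, (pointRing F 𝔮).algebraMap_mem b⟩ ∈ maximalIdeal (pointRing F 𝔮)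
    exact (algebraMap_mem_maximalIdeal_pointRing_iff F 𝔮 b).2 hb

end Chevalley

section Transfer

variable {A₀ B K₀ F : Type*} [CommRing A₀] [CommRing B] [IsDomain B]
  [Field K₀] [Field F] [Algebra A₀ K₀] [IsFractionRing A₀ K₀] [Algebra B F] [IsFractionRing B F]
  [Algebra A₀ B] [Algebra K₀ F] [Algebra A₀ F] [IsScalarTower A₀ K₀ F] [IsScalarTower A₀ B F]

omit [IsDomain B] [IsFractionRing A₀ K₀] [IsFractionRing B F] [Algebra A₀ B]
  [Algebra A₀ F] [IsScalarTower A₀ K₀ F] [IsScalarTower A₀ B F] [CommRing A₀] [Algebra A₀ K₀]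
  [CommRing B] [Algebra B F] in
/-- Non-units of the restriction of a valuation subring to a subfield. -/
theorem mem_nonunits_comap_algebraMap_iff (V : ValuationSubring F) (x : K₀) :
    x ∈ (V.comap (algebraMap K₀ F)).nonunits ↔ algebraMap K₀ F x ∈ V.nonunits := by
  simp only [ValuationSubring.mem_nonunits_iff_or, ValuationSubring.mem_comap, map_inv₀,
    map_eq_zero]

omit [IsDomain B] [IsFractionRing A₀ K₀] [IsFractionRing B F] in
/-- The contraction to `A₀` of the centre on `B` of `V` is the centre on `A₀` of the restriction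
of `V` to `K₀`. -/
theorem comap_centre (V : ValuationSubring F) (hV : ∀ b : B, algebraMap B F b ∈ V)
    (hV₀ : ∀ a : A₀, algebraMap A₀ K₀ a ∈ V.comap (algebraMap K₀ F)) :
    (centre V hV).comap (algebraMap A₀ B) = centre (V.comap (algebraMap K₀ F)) hV₀ := by
  ext a
  rw [Ideal.mem_comap, mem_centre_iff, mem_centre_iff, mem_nonunits_comap_algebraMap_iff,
    ← IsScalarTower.algebraMap_apply, ← IsScalarTower.algebraMap_apply]

variable [IsIntegrallyClosed A₀] [Algebra.IsIntegral A₀ B]

/-- **Transfer (going-down).** Assume `centre V₀` is the only prime of `A₀` minimal over `(q)`,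
`V₀` is the localisation of `A₀` at its centre, and `q` is a uniformiser of `V₀`.  Then every
prime `𝔮` of `B` minimal over `(q)` is the centre of a valuation subring of `F` containing `B`
whose restriction to `K₀` is `V₀`. -/
theorem exists_valuationSubring_comap_eq_of_minimalPrimes (q : A₀) (hq0 : q ≠ 0)
    (V₀ : ValuationSubring K₀) (hA₀ : ∀ a : A₀, algebraMap A₀ K₀ a ∈ V₀)
    (hmin₀ : ∀ 𝔮₀ ∈ (Ideal.span {q}).minimalPrimes, 𝔮₀ = centre V₀ hA₀)
    (hloc₀ : ∀ z ∈ V₀, ∃ a b : A₀, algebraMap A₀ K₀ b ∉ V₀.nonunits ∧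
      z = algebraMap A₀ K₀ a / algebraMap A₀ K₀ b)
    (hq₀ : ∀ z ∈ V₀.nonunits, z / algebraMap A₀ K₀ q ∈ V₀)
    (𝔮 : Ideal B) (h𝔮 : 𝔮 ∈ (Ideal.span {algebraMap A₀ B q}).minimalPrimes) :
    ∃ (V : ValuationSubring F) (hV : ∀ b : B, algebraMap B F b ∈ V),
      centre V hV = 𝔮 ∧ V.comap (algebraMap K₀ F) = V₀ := by
  have hprime : 𝔮.IsPrime := h𝔮.1.1
  have hinjK : Function.Injective (algebraMap A₀ K₀) := IsFractionRing.injective A₀ K₀
  have hinjF : Function.Injective (algebraMap A₀ F) := by
    rw [IsScalarTower.algebraMap_eq A₀ K₀ F]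
    exact (algebraMap K₀ F).injective.comp hinjK
  have hinjB : Function.Injective (algebraMap A₀ B) := by
    intro x y hxy
    apply hinjF
    rw [IsScalarTower.algebraMap_apply A₀ B F, IsScalarTower.algebraMap_apply A₀ B F, hxy]
  have : FaithfulSMul A₀ B := (faithfulSMul_iff_algebraMap_injective A₀ B).2 hinjB
  obtain ⟨V, hV, hc⟩ := exists_valuationSubring_centre_eq (F := F) 𝔮
  have hqmem : algebraMap A₀ B q ∈ 𝔮 := h𝔮.1.2 (Ideal.mem_span_singleton_self _)
  -- the contraction of `𝔮` is minimal over `(q)`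
  have hunder : 𝔮.comap (algebraMap A₀ B) ∈ (Ideal.span {q}).minimalPrimes := by
    refine ⟨⟨Ideal.comap_isPrime _ _, (Ideal.span_singleton_le_iff_mem _).2 hqmem⟩, ?_⟩
    rintro 𝔭' ⟨h𝔭', hq𝔭'⟩ hle
    by_contra hnot
    have hlt : 𝔭' < 𝔮.under A₀ := lt_of_le_of_ne hle (fun heq => hnot (heq ▸ le_rfl))
    obtain ⟨P, hPle, hPprime, hPover⟩ :=
      Algebra.HasGoingDown.exists_ideal_le_liesOver_of_lt (p := 𝔭') 𝔮 hlt
    have hqP : algebraMap A₀ B q ∈ P := by
      have h1 : q ∈ 𝔭' := (Ideal.span_singleton_le_iff_mem _).1 hq𝔭'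
      exact (Ideal.mem_of_liesOver P 𝔭' q).1 h1
    have hP𝔮 : 𝔮 ≤ P := h𝔮.2 ⟨hPprime, (Ideal.span_singleton_le_iff_mem _).2 hqP⟩ hPle
    have hPeq : P = 𝔮 := le_antisymm hPle hP𝔮
    have h2 : 𝔭' = 𝔮.under A₀ := by rw [← hPeq]; exact hPover.over
    exact hlt.ne h2
  have hcentre₀ : 𝔮.comap (algebraMap A₀ B) = centre V₀ hA₀ := hmin₀ _ hunder
  -- membership of `A₀` in the centre of `V`
  have hmemV : ∀ a : A₀, algebraMap A₀ F a ∈ V.nonunits ↔ a ∈ centre V₀ hA₀ := by
    intro a
    rw [← hcentre₀, Ideal.mem_comap, ← hc, mem_centre_iff, ← IsScalarTower.algebraMap_apply]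
  refine ⟨V, hV, hc, ?_⟩
  apply le_antisymm
  · -- `V ∩ K₀ ≤ V₀`
    intro x hx
    rw [ValuationSubring.mem_comap] at hx
    by_contra hxV₀
    have hx0 : x ≠ 0 := fun h => hxV₀ (h ▸ V₀.zero_mem)
    have hxinv : x⁻¹ ∈ V₀.nonunits := by
      rw [ValuationSubring.mem_nonunits_iff_or, inv_inv]
      exact Or.inr hxV₀
    have h1 := hq₀ _ hxinv
    obtain ⟨a, b, hb, hab⟩ := hloc₀ _ h1
    -- `1 / q = x * (x⁻¹ / q) ∈ V`
    have hqK : algebraMap A₀ K₀ q ≠ 0 := fun h => hq0 (hinjK (by rw [h, map_zero]))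
    have h2 : (algebraMap A₀ F q)⁻¹ ∈ V := by
      have h3 : algebraMap K₀ F (x⁻¹ / algebraMap A₀ K₀ q) ∈ V := by
        rw [hab, map_div₀, ← IsScalarTower.algebraMap_apply, ← IsScalarTower.algebraMap_apply]
        have hbV : (algebraMap A₀ F b)⁻¹ ∈ V := by
          have hb' : algebraMap A₀ F b ∉ V.nonunits := fun h =>
            hb ((mem_centre_iff V₀ hA₀ b).1 ((hmemV b).1 h))
          rw [ValuationSubring.mem_nonunits_iff_or] at hb'
          push Not at hb'
          exact hb'.2
        have haV : algebraMap A₀ F a ∈ V := by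
          rw [IsScalarTower.algebraMap_apply A₀ B F]
          exact hV _
        rw [div_eq_mul_inv]
        exact V.mul_mem _ _ haV hbV
      have h4 : (algebraMap A₀ F q)⁻¹ =
          algebraMap K₀ F x * algebraMap K₀ F (x⁻¹ / algebraMap A₀ K₀ q) := by
        rw [← map_mul, IsScalarTower.algebraMap_apply A₀ K₀ F, ← map_inv₀]
        congr 1
        field_simp
      rw [h4]
      exact V.mul_mem _ _ hx h3
    have hqV : algebraMap A₀ F q ∈ V.nonunits := by
      rw [hmemV, ← hcentre₀, Ideal.mem_comap]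
      exact hqmem
    rw [ValuationSubring.mem_nonunits_iff_or] at hqV
    rcases hqV with hqV | hqV
    · exact hq0 (hinjF (by rw [hqV, map_zero]))
    · exact hqV h2
  · -- `V₀ ≤ V ∩ K₀`
    intro z hz
    rw [ValuationSubring.mem_comap]
    obtain ⟨a, b, hb, hab⟩ := hloc₀ z hz
    rw [hab, map_div₀, ← IsScalarTower.algebraMap_apply, ← IsScalarTower.algebraMap_apply]
    have hbV : (algebraMap A₀ F b)⁻¹ ∈ V := by
      have hb' : algebraMap A₀ F b ∉ V.nonunits := fun h =>
        hb ((mem_centre_iff V₀ hA₀ b).1 ((hmemV b).1 h))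
      rw [ValuationSubring.mem_nonunits_iff_or] at hb'
      push Not at hb'
      exact hb'.2
    have haV : algebraMap A₀ F a ∈ V := by
      rw [IsScalarTower.algebraMap_apply A₀ B F]
      exact hV _
    rw [div_eq_mul_inv]
    exact V.mul_mem _ _ haV hbV

/-- **The vertical primes are the centres.** If moreover every valuation subring of `F`
restricting to `V₀` on `K₀` is a member of the family `O`, then every prime of `B` minimal over
`(q)` is the centre of some `O i`. -/
theorem minimalPrimes_eq_centre_of_forall_comap (q : A₀) (hq0 : q ≠ 0)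
    (V₀ : ValuationSubring K₀) (hA₀ : ∀ a : A₀, algebraMap A₀ K₀ a ∈ V₀)
    (hmin₀ : ∀ 𝔮₀ ∈ (Ideal.span {q}).minimalPrimes, 𝔮₀ = centre V₀ hA₀)
    (hloc₀ : ∀ z ∈ V₀, ∃ a b : A₀, algebraMap A₀ K₀ b ∉ V₀.nonunits ∧
      z = algebraMap A₀ K₀ a / algebraMap A₀ K₀ b)
    (hq₀ : ∀ z ∈ V₀.nonunits, z / algebraMap A₀ K₀ q ∈ V₀)
    {ι : Type*} (O : ι → ValuationSubring F) (hBO : ∀ i, ∀ b : B, algebraMap B F b ∈ O i)
    (hall : ∀ V : ValuationSubring F, V.comap (algebraMap K₀ F) = V₀ → ∃ i, V = O i) :
    ∀ 𝔮 ∈ (Ideal.span {algebraMap A₀ B q}).minimalPrimes, ∃ i, 𝔮 = centre (O i) (hBO i) := by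
  intro 𝔮 h𝔮
  obtain ⟨V, hV, hc, hcomap⟩ :=
    exists_valuationSubring_comap_eq_of_minimalPrimes (F := F) q hq0 V₀ hA₀ hmin₀ hloc₀ hq₀ 𝔮 h𝔮
  obtain ⟨i, rfl⟩ := hall V hcomap
  exact ⟨i, hc.symm⟩

/-- **Centres of extensions are vertical primes.** Under the hypotheses of the transfer theorem,
the centre on `B` of a valuation subring of `F` extending `V₀` is minimal over `(q)`. -/
theorem centre_mem_minimalPrimes (q : A₀) (hq0 : q ≠ 0)
    (V₀ : ValuationSubring K₀) (hA₀ : ∀ a : A₀, algebraMap A₀ K₀ a ∈ V₀)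
    (hqV₀ : algebraMap A₀ K₀ q ∈ V₀.nonunits)
    (hmin₀ : ∀ 𝔮₀ ∈ (Ideal.span {q}).minimalPrimes, 𝔮₀ = centre V₀ hA₀)
    (hloc₀ : ∀ z ∈ V₀, ∃ a b : A₀, algebraMap A₀ K₀ b ∉ V₀.nonunits ∧
      z = algebraMap A₀ K₀ a / algebraMap A₀ K₀ b)
    (hq₀ : ∀ z ∈ V₀.nonunits, z / algebraMap A₀ K₀ q ∈ V₀)
    (O : ValuationSubring F) (hBO : ∀ b : B, algebraMap B F b ∈ O)
    (hO : O.comap (algebraMap K₀ F) = V₀) :
    centre O hBO ∈ (Ideal.span {algebraMap A₀ B q}).minimalPrimes := by
  have hA₀' : ∀ a : A₀, algebraMap A₀ K₀ a ∈ O.comap (algebraMap K₀ F) := by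
    rw [hO]; exact hA₀
  have hqO : algebraMap A₀ B q ∈ centre O hBO := by
    rw [mem_centre_iff, ← IsScalarTower.algebraMap_apply, IsScalarTower.algebraMap_apply A₀ K₀ F,
      ← mem_nonunits_comap_algebraMap_iff, hO]
    exact hqV₀
  obtain ⟨𝔮, h𝔮, hle⟩ := Ideal.exists_minimalPrimes_le
    (show Ideal.span {algebraMap A₀ B q} ≤ centre O hBO from
      (Ideal.span_singleton_le_iff_mem _).2 hqO)
  have hprime : 𝔮.IsPrime := h𝔮.1.1
  obtain ⟨V, hV, hc, hcomap⟩ :=
    exists_valuationSubring_comap_eq_of_minimalPrimes (F := F) q hq0 V₀ hA₀ hmin₀ hloc₀ hq₀ 𝔮 h𝔮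
  have hA₀'' : ∀ a : A₀, algebraMap A₀ K₀ a ∈ V.comap (algebraMap K₀ F) := by
    rw [hcomap]; exact hA₀
  -- both contract to the centre of `V₀`
  have h1 : 𝔮.comap (algebraMap A₀ B) = (centre O hBO).comap (algebraMap A₀ B) := by
    rw [← hc, comap_centre V hV hA₀'', comap_centre O hBO hA₀']
    ext a
    rw [mem_centre_iff, mem_centre_iff, hcomap, hO]
  have h2 : 𝔮 = centre O hBO := by
    by_contra hne
    have hlt : 𝔮 < centre O hBO := lt_of_le_of_ne hle hne
    have := Ideal.IsIntegral.comap_lt_comap (R := A₀) hlt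
    rw [h1] at this
    exact lt_irrefl _ this
  rw [← h2]
  exact h𝔮

end Transfer

section Localisation

variable {B F : Type*} [CommRing B] [IsDomain B] [Field F] [Algebra B F] [IsFractionRing B F]
  [IsNoetherianRing B] [IsIntegrallyClosed B]

/-- **`B_𝔭 = O`.** Let `B` be a Noetherian integrally closed domain and `O ⊇ B` a valuation
subring of the fraction field whose centre is minimal over a principal ideal (a prime of
height at most one).  Then `O` is the localisation of `B` at its centre. -/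
theorem exists_div_of_mem_of_centre_mem_minimalPrimes (O : ValuationSubring F)
    (hBO : ∀ b : B, algebraMap B F b ∈ O) {b₀ : B}
    (hmin : centre O hBO ∈ (Ideal.span {b₀}).minimalPrimes) :
    ∀ z ∈ O, ∃ a b : B, algebraMap B F b ∉ O.nonunits ∧
      z = algebraMap B F a / algebraMap B F b := by
  intro z hz
  have hR : IsIntegrallyClosed (pointRing F (centre O hBO)) :=
    isIntegrallyClosed_of_isLocalization (pointRing F (centre O hBO)) (centre O hBO).primeCompl
      (centre O hBO).primeCompl_le_nonZeroDivisors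
  have hht : (centre O hBO).height ≤ 1 :=
    Ideal.height_le_one_of_isPrincipal_of_mem_minimalPrimes (Ideal.span {b₀}) _ hmin
  -- every non-zero prime of `B` inside the centre is the centre
  have hdim : ∀ 𝔮 : Ideal B, 𝔮.IsPrime → 𝔮 ≤ centre O hBO → 𝔮 ≠ ⊥ → 𝔮 = centre O hBO := by
    intro 𝔮 h𝔮 hle hne
    by_contra hneq
    have hlt : 𝔮 < centre O hBO := lt_of_le_of_ne hle hneq
    have h1 : 𝔮.height < (centre O hBO).height := Ideal.height_strict_mono_of_isPrime hlt
    have h0 : 𝔮.height = 0 := Order.lt_one_iff.1 (lt_of_lt_of_le h1 hht)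
    rw [Ideal.height_eq_zero_iff_eq_bot] at h0
    exact hne h0
  have hmem : z ∈ (algebraMap (pointRing F (centre O hBO)) F).range := by
    refine mem_range_of_forall_valuationSubring (R := pointRing F (centre O hBO)) z ?_
    intro b hb 𝔮 h𝔮
    have h𝔮prime : 𝔮.IsPrime := h𝔮.1.1
    have hb𝔮 : b ∈ 𝔮 := h𝔮.1.2 (Ideal.mem_span_singleton_self b)
    -- `𝔮` is the maximal ideal
    have h𝔮max : 𝔮 = maximalIdeal (pointRing F (centre O hBO)) := by
      have e1 := IsLocalization.map_under (centre O hBO).primeCompl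
        (pointRing F (centre O hBO)) 𝔮
      have hle : 𝔮.comap (algebraMap B (pointRing F (centre O hBO))) ≤ centre O hBO := by
        intro a ha
        by_contra haP
        have hunit : IsUnit (algebraMap B (pointRing F (centre O hBO)) a) :=
          (IsLocalization.AtPrime.isUnit_to_map_iff (pointRing F (centre O hBO))
            (centre O hBO) a).2 haP
        exact h𝔮prime.ne_top (Ideal.eq_top_of_isUnit_mem _ (Ideal.mem_comap.1 ha) hunit)
      have hne : 𝔮.comap (algebraMap B (pointRing F (centre O hBO))) ≠ ⊥ := by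
        intro h0
        have h2 : 𝔮 = ⊥ := by
          rw [← e1]
          show (𝔮.comap (algebraMap B (pointRing F (centre O hBO)))).map _ = ⊥
          rw [h0, Ideal.map_bot]
        rw [h2] at hb𝔮
        exact hb ((Ideal.mem_bot).1 hb𝔮)
      have h3 := hdim _ (Ideal.comap_isPrime _ _) hle hne
      rw [← e1]
      show (𝔮.comap (algebraMap B (pointRing F (centre O hBO)))).map _ = _
      rw [h3, maximalIdeal_pointRing]
    refine ⟨O, fun r => pointRing_centre_le O hBO r, ?_, ?_, hz⟩
    · intro r hr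
      rw [h𝔮max] at hr
      -- a non-unit of the local ring is a non-unit of `O`
      obtain ⟨a, s, hs, hrs⟩ := mem_pointRing_iff.1 r.2
      have hsO : algebraMap B F s ∉ O.nonunits := fun h => hs ((mem_centre_iff O hBO s).2 h)
      have hs0 : algebraMap B F s ≠ 0 := by
        intro h
        apply hsO
        rw [h]
        exact (ValuationSubring.mem_nonunits_iff_or O).2 (Or.inl rfl)
      have hsu : IsUnit (algebraMap B (pointRing F (centre O hBO)) s) :=
        (IsLocalization.AtPrime.isUnit_to_map_iff (pointRing F (centre O hBO))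
          (centre O hBO) s).2 hs
      have hrs' : r * algebraMap B (pointRing F (centre O hBO)) s =
          algebraMap B (pointRing F (centre O hBO)) a := by
        apply Subtype.ext
        show (r : F) * algebraMap B F s = algebraMap B F a
        rw [hrs, mul_assoc, inv_mul_cancel₀ hs0, mul_one]
      have ha : a ∈ centre O hBO := by
        rw [← algebraMap_mem_maximalIdeal_pointRing_iff F (centre O hBO) a, ← hrs']
        exact Ideal.mul_mem_right _ _ hr
      have haO : algebraMap B F a ∈ O.nonunits := (mem_centre_iff O hBO a).1 ha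
      show (r : F) ∈ O.nonunits
      rw [hrs, ValuationSubring.mem_nonunits_iff, map_mul, map_inv₀]
      have hvs : O.valuation (algebraMap B F s) = 1 := by
        have h2 : O.valuation (algebraMap B F s) ≤ 1 := (O.valuation_le_one_iff _).2 (hBO s)
        have h3 : ¬ O.valuation (algebraMap B F s) < 1 := fun h =>
          hsO ((ValuationSubring.mem_nonunits_iff O).2 h)
        exact le_antisymm h2 (not_lt.1 h3)
      rw [hvs, inv_one, mul_one]
      exact (ValuationSubring.mem_nonunits_iff O).1 haO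
    · intro r hr
      rw [h𝔮max, IsLocalRing.mem_maximalIdeal]
      intro hu
      obtain ⟨w, hw⟩ := hu.exists_right_inv
      have h1 : (r : F) * (w : F) = 1 := congrArg Subtype.val hw
      have hwO : (w : F) ∈ O := pointRing_centre_le O hBO w
      have hr' : (r : F) ∈ O.nonunits := hr
      rw [ValuationSubring.mem_nonunits_iff] at hr'
      have hw' : O.valuation (w : F) ≤ 1 := (O.valuation_le_one_iff _).2 hwO
      have : O.valuation ((r : F) * (w : F)) < 1 := by
        rw [map_mul]
        calc O.valuation (r : F) * O.valuation (w : F) ≤ O.valuation (r : F) * 1 := by gcongr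
          _ = O.valuation (r : F) := mul_one _
          _ < 1 := hr'
      rw [h1, map_one] at this
      exact lt_irrefl _ this
  obtain ⟨r, hr⟩ := hmem
  obtain ⟨a, s, hs, hrs⟩ := mem_pointRing_iff.1 r.2
  refine ⟨a, s, fun h => hs ((mem_centre_iff O hBO s).2 h), ?_⟩
  rw [← hr, div_eq_mul_inv]
  exact hrs

end Localisation

end Fermat.Agent.CAR.Local
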