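/-
CAR (L2): a two-dimensional regular local ring is factorial, by hand.

Let `R` be a noetherian local ring whose maximal ideal is generated by two elements `x`, `y`
forming a regular sequence. Then every prime ideal different from the maximal ideal is
principal (`isPrincipal_of_prime_ne_maximal`); if moreover `R` is a domain it is a unique
factorisation domain (`ufm_of_two_generators`, `ufm_of_two_generators_of_dim`).

No homological algebra is used: the only inputs are Nakayama's lemma, Krull's intersection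
theorem and Kaplansky's criterion.
-/
import Mathlib

set_option autoImplicit false

namespace Fermat.Agent.CAR.Local

open IsLocalRing

variable {R : Type*} [CommRing R]

/-- The Koszul relation: if `x, y` is a regular sequence and `𝔭` is a prime not containing both
`x` and `y`, every relation `x u + y v = 0` with `u, v ∈ 𝔭` is a multiple of the trivial one by an
element of `𝔭`. -/
theorem koszul_rel (x y : R) (hx : x ∈ nonZeroDivisors R)
    (hy : ∀ a, y * a ∈ Ideal.span {x} → a ∈ Ideal.span {x})
    (𝔭 : Ideal R) [𝔭.IsPrime] (hxy : ¬ (x ∈ 𝔭 ∧ y ∈ 𝔭))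
    {u v : R} (hu : u ∈ 𝔭) (hv : v ∈ 𝔭) (h : x * u + y * v = 0) :
    ∃ w ∈ 𝔭, u = -(y * w) ∧ v = x * w := by
  have h1 : y * v ∈ Ideal.span {x} := by
    rw [Ideal.mem_span_singleton]
    exact ⟨-u, by linear_combination h⟩
  obtain ⟨w, hw⟩ := Ideal.mem_span_singleton.mp (hy v h1)
  have h2 : (u + y * w) * x = 0 := by rw [hw] at h; linear_combination h
  have h3 : u + y * w = 0 := by
    by_contra hne
    exact hne ((mul_right_mem_nonZeroDivisors_eq_zero_iff hx).mp h2)
  have hu' : u = -(y * w) := by linear_combination h3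
  refine ⟨w, ?_, hu', hw⟩
  by_contra hw𝔭
  apply hxy
  constructor
  · have : x * w ∈ 𝔭 := hw ▸ hv
    exact (Ideal.IsPrime.mem_or_mem ‹_› this).resolve_right hw𝔭
  · have : y * w ∈ 𝔭 := by
      have : -(y * w) ∈ 𝔭 := hu' ▸ hu
      simpa using 𝔭.neg_mem this
    exact (Ideal.IsPrime.mem_or_mem ‹_› this).resolve_right hw𝔭

/-- **Primes below the maximal ideal are principal.** `R` noetherian local, `𝔪 = (x, y)` with
`x, y` a regular sequence: every prime `𝔭 ≠ 𝔪` is generated by one element. -/
theorem isPrincipal_of_prime_ne_maximal [IsLocalRing R] [IsNoetherianRing R] (x y : R)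
    (hm : maximalIdeal R = Ideal.span {x, y}) (hx : x ∈ nonZeroDivisors R)
    (hy : ∀ a, y * a ∈ Ideal.span {x} → a ∈ Ideal.span {x})
    (𝔭 : Ideal R) [𝔭.IsPrime] (h𝔭 : 𝔭 ≠ maximalIdeal R) : ∃ f, 𝔭 = Ideal.span {f} := by
  classical
  have hxy : ¬ (x ∈ 𝔭 ∧ y ∈ 𝔭) := by
    rintro ⟨h1, h2⟩
    apply h𝔭
    refine le_antisymm (le_maximalIdeal (Ideal.IsPrime.ne_top ‹_›)) ?_
    rw [hm, Ideal.span_le]
    rintro z (rfl | rfl) <;> assumption
  have hxm : x ∈ maximalIdeal R := by rw [hm]; exact Ideal.subset_span (by simp)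
  have hym : y ∈ maximalIdeal R := by rw [hm]; exact Ideal.subset_span (by simp)
  -- a generating finset of minimal cardinality
  have hfg : ∃ n, ∃ s : Finset R, s.card = n ∧ Ideal.span (s : Set R) = 𝔭 := by
    obtain ⟨s, hs⟩ := (IsNoetherian.noetherian 𝔭 : 𝔭.FG)
    exact ⟨_, s, rfl, hs⟩
  obtain ⟨s, hcard, hs⟩ := Nat.find_spec hfg
  have hmin : ∀ t : Finset R, Ideal.span (t : Set R) = 𝔭 → s.card ≤ t.card := by
    intro t ht
    rw [hcard]
    exact Nat.find_min' hfg ⟨t, rfl, ht⟩
  have hs𝔭 : ∀ i : s, (i : R) ∈ 𝔭 := fun i => hs ▸ Ideal.subset_span i.2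
  -- the module of relations
  set φ : (s → R) →ₗ[R] R := Fintype.linearCombination R (fun i : s => (i : R)) with hφ
  have hφapp : ∀ a : s → R, φ a = ∑ i, a i * (i : R) := by
    intro a
    simp [hφ, Fintype.linearCombination_apply]
  have hmem𝔭 : ∀ a : s → R, φ a ∈ 𝔭 := by
    intro a
    rw [hφapp]
    exact 𝔭.sum_mem fun i _ => 𝔭.mul_mem_left _ (hs𝔭 i)
  have hsurj : ∀ w ∈ 𝔭, ∃ d : s → R, φ d = w := by
    intro w hw
    rw [← hs] at hw
    have hw' : w ∈ Submodule.span R (Set.range fun i : s => (i : R)) := by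
      simpa [Ideal.span] using hw
    obtain ⟨d, hd⟩ := (Submodule.mem_span_range_iff_exists_fun R).mp hw'
    exact ⟨d, by rw [hφapp, ← hd]; simp⟩
  set K : Submodule R (s → R) := LinearMap.ker φ with hK
  -- (A) coordinates of relations are non-units
  have hA : ∀ a ∈ K, ∀ j : s, a j ∈ maximalIdeal R := by
    intro a ha j
    by_contra hj
    have hunit : IsUnit (a j) := by
      by_contra h
      exact hj ((mem_maximalIdeal _).mpr h)
    obtain ⟨u, hu⟩ := hunit
    have hsum : a j * (j : R) + ∑ i ∈ Finset.univ.erase j, a i * (i : R) = 0 := by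
      rw [Finset.add_sum_erase Finset.univ (fun i : s => a i * (i : R)) (Finset.mem_univ j),
        ← hφapp]
      exact LinearMap.mem_ker.mp ha
    have hrest : ∑ i ∈ Finset.univ.erase j, a i * (i : R) ∈
        Ideal.span ((s.erase (j : R) : Finset R) : Set R) := by
      refine Ideal.sum_mem _ fun i hi => Ideal.mul_mem_left _ _ (Ideal.subset_span ?_)
      have hij : i ≠ j := (Finset.mem_erase.mp hi).1
      simp only [Finset.coe_erase, Set.mem_sdiff, Finset.mem_coe, Set.mem_singleton_iff]
      exact ⟨i.2, fun h => hij (Subtype.ext h)⟩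
    have hjmem : (j : R) ∈ Ideal.span ((s.erase (j : R) : Finset R) : Set R) := by
      have : (j : R) = -(↑u⁻¹ : R) * ∑ i ∈ Finset.univ.erase j, a i * (i : R) := by
        have h1 : (↑u⁻¹ : R) * (a j * (j : R)) = (j : R) := by
          rw [← mul_assoc, ← hu, Units.inv_mul, one_mul]
        linear_combination (↑u⁻¹ : R) * hsum - h1
      have hmem' := Ideal.mul_mem_left (Ideal.span ((s.erase (j : R) : Finset R) : Set R))
        (-(↑u⁻¹ : R)) hrest
      rwa [← this] at hmem'
    have hspan : Ideal.span ((s.erase (j : R) : Finset R) : Set R) = 𝔭 := by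
      apply le_antisymm
      · rw [← hs]
        exact Ideal.span_mono (by simp)
      · rw [← hs, Ideal.span_le]
        intro z hz
        by_cases hzj : z = (j : R)
        · rw [hzj]; exact hjmem
        · exact Ideal.subset_span (by simp [hzj, Finset.mem_coe.mp hz])
    have := hmin _ hspan
    rw [Finset.card_erase_of_mem j.2] at this
    have hpos : 0 < s.card := Finset.card_pos.mpr ⟨j, j.2⟩
    omega
  -- (B) the relations are contained in `𝔪 • K`
  have hB : K ≤ maximalIdeal R • K := by
    intro a ha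
    have hcoord : ∀ j : s, ∃ b c : R, b * x + c * y = a j := fun j =>
      Ideal.mem_span_pair.mp (hm ▸ hA a ha j)
    choose b c hbc using hcoord
    have hrel : x * φ b + y * φ c = 0 := by
      have h0 : φ a = 0 := LinearMap.mem_ker.mp ha
      rw [hφapp] at h0 ⊢
      rw [hφapp, Finset.mul_sum, Finset.mul_sum, ← Finset.sum_add_distrib, ← h0]
      refine Finset.sum_congr rfl fun i _ => ?_
      rw [← hbc i]; ring
    obtain ⟨w, hw𝔭, hw1, hw2⟩ := koszul_rel x y hx hy 𝔭 hxy (hmem𝔭 b) (hmem𝔭 c) hrel
    obtain ⟨d, hd⟩ := hsurj w hw𝔭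
    have hb' : b + y • d ∈ K := by
      rw [hK, LinearMap.mem_ker, map_add, map_smul, hd, hw1, smul_eq_mul]; ring
    have hc' : c - x • d ∈ K := by
      rw [hK, LinearMap.mem_ker, map_sub, map_smul, hd, hw2, smul_eq_mul]; ring
    have hdecomp : a = x • (b + y • d) + y • (c - x • d) := by
      funext i
      simp only [Pi.add_apply, Pi.smul_apply, Pi.sub_apply, smul_eq_mul]
      rw [← hbc i]; ring
    rw [hdecomp]
    exact Submodule.add_mem _ (Submodule.smul_mem_smul hxm hb') (Submodule.smul_mem_smul hym hc')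
  have hK0 : K = ⊥ :=
    Submodule.eq_bot_of_le_smul_of_le_jacobson_bot (maximalIdeal R) K
      (IsNoetherian.noetherian K) hB (maximalIdeal_le_jacobson ⊥)
  -- hence at most one generator
  have h0s : (0 : R) ∉ s := by
    intro h0
    have hspan : Ideal.span ((s.erase (0 : R) : Finset R) : Set R) = 𝔭 := by
      rw [← hs, Finset.coe_erase]
      exact Submodule.span_sdiff_singleton_zero
    have := hmin _ hspan
    rw [Finset.card_erase_of_mem h0] at this
    have hpos : 0 < s.card := Finset.card_pos.mpr ⟨0, h0⟩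
    omega
  have hle1 : s.card ≤ 1 := by
    by_contra hgt
    obtain ⟨i, hi, j, hj, hij⟩ := Finset.one_lt_card.mp (not_le.mp hgt)
    set a : s → R := Pi.single ⟨i, hi⟩ j - Pi.single ⟨j, hj⟩ i with ha
    have haK : a ∈ K := by
      rw [hK, LinearMap.mem_ker, ha, map_sub, hφ, Fintype.linearCombination_apply_single,
        Fintype.linearCombination_apply_single]
      simp [mul_comm]
    rw [hK0, Submodule.mem_bot] at haK
    have hval : a ⟨i, hi⟩ = j := by
      have hne : (⟨i, hi⟩ : s) ≠ ⟨j, hj⟩ := fun h => hij (congrArg Subtype.val h)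
      simp [ha, Pi.single_eq_of_ne hne]
    rw [haK] at hval
    have hj0 : j = 0 := by simpa using hval.symm
    exact h0s (hj0 ▸ hj)
  rcases Nat.lt_or_ge s.card 1 with h | h
  · have hs0 : s = ∅ := Finset.card_eq_zero.mp (by omega)
    exact ⟨0, by rw [← hs, hs0]; simp⟩
  · obtain ⟨f, hf⟩ := Finset.card_eq_one.mp (le_antisymm hle1 h)
    exact ⟨f, by rw [← hs, hf]; simp⟩

/-- In a noetherian local ring with `𝔪 = (x, y)`, every element outside `(x)` is congruent
modulo `x` to a unit times a power of `y`. -/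
theorem exists_eq_mul_add_pow_mul [IsLocalRing R] [IsNoetherianRing R] (x y : R)
    (hm : maximalIdeal R = Ideal.span {x, y}) {a : R} (ha : a ∉ Ideal.span {x}) :
    ∃ (k : ℕ) (r c : R), IsUnit c ∧ a = x * r + y ^ k * c := by
  classical
  have hym : y ∈ maximalIdeal R := by rw [hm]; exact Ideal.subset_span (by simp)
  -- Krull's intersection theorem on `R ⧸ (x)`
  have hex : ∃ n : ℕ, ¬ ∃ r c : R, a = x * r + y ^ n * c := by
    by_contra hcon
    push Not at hcon
    apply ha
    have hbot := Ideal.iInf_pow_smul_eq_bot_of_isLocalRing (R := R) (maximalIdeal R)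
      (M := R ⧸ Ideal.span {x}) (Ideal.IsMaximal.ne_top inferInstance)
    have hmem : (Submodule.Quotient.mk a : R ⧸ Ideal.span {x}) ∈
        (⨅ i : ℕ, maximalIdeal R ^ i • (⊤ : Submodule R (R ⧸ Ideal.span {x}))) := by
      rw [Submodule.mem_iInf]
      intro n
      obtain ⟨r, c, hrc⟩ := hcon n
      have h1 : (Submodule.Quotient.mk a : R ⧸ Ideal.span {x}) =
          (y ^ n * c) • (Submodule.Quotient.mk (1 : R) : R ⧸ Ideal.span {x}) := by
        rw [← Submodule.Quotient.mk_smul, smul_eq_mul, mul_one]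
        apply (Submodule.Quotient.eq _).mpr
        rw [hrc]
        exact Ideal.mem_span_singleton.mpr ⟨r, by ring⟩
      rw [h1]
      exact Submodule.smul_mem_smul (Ideal.mul_mem_right _ _ (Ideal.pow_mem_pow hym n))
        Submodule.mem_top
    rw [hbot, Submodule.mem_bot] at hmem
    exact (Submodule.Quotient.mk_eq_zero _).mp hmem
  have hspec := Nat.find_spec hex
  have hminn := fun m => Nat.find_min hex (m := m)
  rcases Nat.eq_zero_or_pos (Nat.find hex) with h0 | hpos
  · exfalso
    apply hspec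
    rw [h0]
    exact ⟨0, a, by ring⟩
  · obtain ⟨k, hk⟩ : ∃ k, Nat.find hex = k + 1 := ⟨Nat.find hex - 1, by omega⟩
    have hk' : ¬ ¬ ∃ r c : R, a = x * r + y ^ k * c := hminn k (by omega)
    obtain ⟨r, c, hrc⟩ := not_not.mp hk'
    refine ⟨k, r, c, ?_, hrc⟩
    by_contra hc
    have hcm : c ∈ maximalIdeal R := (mem_maximalIdeal _).mpr hc
    rw [hm] at hcm
    obtain ⟨c₁, c₂, hc12⟩ := Ideal.mem_span_pair.mp hcm
    apply hspec
    rw [hk]
    exact ⟨r + y ^ k * c₁, c₂, by rw [hrc, ← hc12]; ring⟩

/-- If `𝔪 = (x, y)` and no power of `y` is divisible by `x`, then `(x)` is a prime ideal. -/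
theorem span_singleton_isPrime [IsLocalRing R] [IsNoetherianRing R] (x y : R)
    (hm : maximalIdeal R = Ideal.span {x, y}) (hxy : ∀ n : ℕ, y ^ n ∉ Ideal.span {x}) :
    (Ideal.span {x}).IsPrime := by
  have hxm : x ∈ maximalIdeal R := by rw [hm]; exact Ideal.subset_span (by simp)
  refine ⟨?_, ?_⟩
  · intro htop
    have : (1 : R) ∈ maximalIdeal R := by
      have h1 : (1 : R) ∈ Ideal.span {x} := htop ▸ Submodule.mem_top
      exact (Ideal.span_le.mpr (by simpa using hxm)) h1
    exact (Ideal.ne_top_iff_one _).mp (Ideal.IsMaximal.ne_top inferInstance) this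
  · intro a b hab
    by_contra hcon
    push Not at hcon
    obtain ⟨k, r, c, hc, rfl⟩ := exists_eq_mul_add_pow_mul x y hm hcon.1
    obtain ⟨l, t, d, hd, rfl⟩ := exists_eq_mul_add_pow_mul x y hm hcon.2
    apply hxy (k + l)
    have h1 : y ^ (k + l) * (c * d) ∈ Ideal.span {x} := by
      have h2 : y ^ (k + l) * (c * d) = (x * r + y ^ k * c) * (x * t + y ^ l * d)
          - x * (r * (x * t + y ^ l * d) + y ^ k * c * t) := by ring
      rw [h2]
      exact Ideal.sub_mem _ hab (Ideal.mem_span_singleton.mpr ⟨_, rfl⟩)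
    obtain ⟨u, hu⟩ := hc.mul hd
    have h3 : y ^ (k + l) = (y ^ (k + l) * (c * d)) * (↑u⁻¹ : R) := by
      rw [← hu, mul_assoc, Units.mul_inv, mul_one]
    rw [h3]
    exact Ideal.mul_mem_right _ _ h1

/-- **A two-dimensional regular local domain is factorial** (elementary form). `R` a noetherian
local domain, `𝔪 = (x, y)`, and no power of `y` is divisible by `x` (i.e. `R ⧸ (x)` is not
artinian). Then `R` is a unique factorisation domain. -/
theorem ufm_of_two_generators [IsDomain R] [IsLocalRing R] [IsNoetherianRing R] (x y : R)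
    (hm : maximalIdeal R = Ideal.span {x, y}) (hxy : ∀ n : ℕ, y ^ n ∉ Ideal.span {x}) :
    UniqueFactorizationMonoid R := by
  have hP : (Ideal.span {x}).IsPrime := span_singleton_isPrime x y hm hxy
  have hy1 : y ∉ Ideal.span {x} := by simpa using hxy 1
  rw [UniqueFactorizationMonoid.iff_exists_prime_mem_of_isPrime]
  intro 𝔭 h𝔭0 h𝔭prime
  by_cases hx0 : x = 0
  · -- then `𝔪 = (y)` and `y` is a prime element lying in every nonzero prime
    have hy0 : y ≠ 0 := by
      intro h
      exact hy1 (by rw [h]; exact Ideal.zero_mem _)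
    have hmy : maximalIdeal R = Ideal.span {y} := by
      rw [hm, hx0]
      apply le_antisymm
      · rw [Ideal.span_le]
        rintro z (rfl | rfl)
        · exact Ideal.zero_mem _
        · exact Ideal.subset_span rfl
      · exact Ideal.span_mono (by simp)
    have hyprime : Prime y := by
      rw [← Ideal.span_singleton_prime hy0, ← hmy]
      infer_instance
    obtain ⟨a, ha, ha0⟩ := Submodule.exists_mem_ne_zero_of_ne_bot h𝔭0
    have hax : a ∉ Ideal.span {x} := by
      rw [hx0]
      simpa using ha0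
    obtain ⟨k, r, c, hc, rfl⟩ := exists_eq_mul_add_pow_mul x y hm hax
    refine ⟨y, ?_, hyprime⟩
    rw [hx0, zero_mul, zero_add] at ha
    have hyk : y ^ k ∈ 𝔭 := by
      obtain ⟨u, hu⟩ := hc
      have : y ^ k = (y ^ k * c) * (↑u⁻¹ : R) := by
        rw [← hu, mul_assoc, Units.mul_inv, mul_one]
      rw [this]
      exact Ideal.mul_mem_right _ _ ha
    exact h𝔭prime.mem_of_pow_mem k hyk
  · have hxprime : Prime x := (Ideal.span_singleton_prime hx0).mp hP
    by_cases h𝔭m : 𝔭 = maximalIdeal R
    · exact ⟨x, by rw [h𝔭m, hm]; exact Ideal.subset_span (by simp), hxprime⟩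
    · have := h𝔭prime
      obtain ⟨f, hf⟩ := isPrincipal_of_prime_ne_maximal x y hm
        (mem_nonZeroDivisors_of_ne_zero hx0)
        (fun a ha => (hP.mem_or_mem ha).resolve_left hy1) 𝔭 h𝔭m
      have hf0 : f ≠ 0 := by
        rintro rfl
        exact h𝔭0 (by rw [hf]; simp)
      refine ⟨f, by rw [hf]; exact Ideal.mem_span_singleton_self f, ?_⟩
      rw [← Ideal.span_singleton_prime hf0, ← hf]
      exact h𝔭prime

/-- **A two-dimensional regular local domain is factorial**: `R` a noetherian local domain of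
Krull dimension `2` whose maximal ideal is generated by two elements. -/
theorem ufm_of_two_generators_of_dim [IsDomain R] [IsLocalRing R] [IsNoetherianRing R] (x y : R)
    (hm : maximalIdeal R = Ideal.span {x, y}) (hdim : ringKrullDim R = 2) :
    UniqueFactorizationMonoid R := by
  apply ufm_of_two_generators x y hm
  intro n hn
  have hxm : x ∈ maximalIdeal R := by rw [hm]; exact Ideal.subset_span (by simp)
  have hmin : maximalIdeal R ∈ (Ideal.span {x}).minimalPrimes := by
    refine ⟨⟨inferInstance, Ideal.span_le.mpr (by simpa using hxm)⟩, ?_⟩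
    rintro 𝔮 ⟨h𝔮prime, hx𝔮⟩ -
    rw [hm, Ideal.span_le]
    rintro z (rfl | rfl)
    · exact hx𝔮 (Ideal.mem_span_singleton_self _)
    · exact h𝔮prime.mem_of_pow_mem n (hx𝔮 hn)
  have : (Ideal.span {x}).IsPrincipal := ⟨x, rfl⟩
  have hht := Ideal.height_le_one_of_isPrincipal_of_mem_minimalPrimes (Ideal.span {x})
    (maximalIdeal R) hmin
  have hdim' : ((maximalIdeal R).height : WithBot ℕ∞) = 2 := by
    rw [IsLocalRing.maximalIdeal_height_eq_ringKrullDim, hdim]
  have h2 : (maximalIdeal R).height = 2 := WithBot.coe_injective (hdim'.trans rfl)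
  rw [h2] at hht
  exact absurd hht (by decide)

end Fermat.Agent.CAR.Local
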