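import Mathlib
import Fermat.Agent.CAR.Local.Inst
import Fermat.Agent.CAR.Local.EllPoint

/-!
# CAR (L-Inst): the certificate at every finite point of the middle component

Glue between `Inst.lean` (the records `V3Base`, `V3Meet`, `MidCert` and `V3Base.ufm_pointRing`:
"the local ring at a closed point is factorial as soon as there is a certificate at the points of
`C_mid`") and `EllPoint.lean` / `EllOrder.lean` (the certificate with `d_t`, elliptic points
included).

* `exists_unif_of_lift'` : (LIFT) for `B'` gives `t : B'` reducing to a uniformiser at `s`.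
* `exists_cert_of_ell` : at a point `(O, s)`: for `t : B'` reducing to a uniformiser at `s`,
  a certificate `h * u = s * (δ t) ^ (12 m)` with `h`, `s` units at the point and `δ t` a
  uniformiser of `O`; the hypothesis on the ramification is the inequality
  `e₀ ≤ ord_s (x̄ - z̄)` (the reverse inequality is proved).
* `V3Ell` : the record of what the valuation layer and (ELL) must deliver on `C_mid`.
* `V3Ell.exists_midCert` : a `MidCert` at every closed point of `C_mid`.
* `V3Ell.ufm_pointRing` : **Theorem (L), finite chart, complete**: the local ring of `B` at every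
  maximal ideal containing `q` is factorial.
-/

set_option autoImplicit false

namespace Fermat.Agent.CAR.Local.InstEll

open IsLocalRing
open Fermat.Agent.CAR.Formal
open Fermat.Agent.CAR.Local
open Fermat.Agent.CAR.Local.EllOrder
open Fermat.Agent.CAR.Local.EllPoint
open Fermat.Agent.CAR.Local.Inst

section Point

variable {A F κ : Type*} [CommRing A] [IsDomain A] [IsNoetherianRing A] [IsIntegrallyClosed A]
  [Field F] [Algebra A F] [IsFractionRing A F] [Field κ]
  (O : ValuationSubring F) (red : O →+* κ) (hred : ∀ x : O, red x = 0 ↔ x ∈ maximalIdeal O)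
  (hAO : ∀ a : A, algebraMap A F a ∈ O) (Vs : ValuationSubring κ)
  (hA : ∀ a : A, algebraMap A F a ∈ compositeSubring O red hred Vs)
  {B' : Type*} [CommRing B'] (φ : B' →+* A) (δ : B' → A) {τ : κ} (hτ : IsUnif Vs τ)
  {D : κ → κ} {G : κ} {u : A} {m : ℕ}

omit [IsDomain A] [IsNoetherianRing A] [IsIntegrallyClosed A] [IsFractionRing A F] in
include hA in
/-- (LIFT) for `B'` gives an element of `B'` reducing to a uniformiser at `s`. -/
theorem exists_unif_of_lift'
    (hlift : ∀ c ∈ Vs, ∃ a b : B', redOn O red hAO (φ b) ∉ Vs.nonunits ∧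
      redOn O red hAO (φ a) = c * redOn O red hAO (φ b)) :
    ∃ t : B', hτ.ord (redOn O red hAO (φ t)) = 1 := by
  obtain ⟨a, b, hb, hab⟩ := hlift τ hτ.mem
  refine ⟨a, ?_⟩
  rw [ValuationSubring.mem_nonunits_iff_or] at hb
  push Not at hb
  obtain ⟨hb0, hbi⟩ := hb
  have hbV : redOn O red hAO (φ b) ∈ Vs := redOn_mem O red hred hAO Vs hA (φ b)
  rw [hab, hτ.ord_mul hτ.ne_zero hb0, hτ.ord_self, hτ.ord_unit hbV hbi hb0, add_zero]

/-- **The certificate at a finite point of the middle component, elliptic points included.**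
If `e₀ ≤ ord_s (x̄ - z̄)` (`e₀` the characteristic-zero ramification index of the base function
over the branch value), then for every `t : B'` whose reduction is a uniformiser at `s` there is
a certificate `h * u = s * (δ t) ^ (12 m)` with `h`, `s` units at the point, and `δ t` is a
uniformiser of `O`. -/
theorem exists_cert_of_ell (hD : IsDeriv D) (hG0 : G ≠ 0) (hu0 : u ≠ 0) (hm : m ≠ 0)
    (hu : ∀ 𝔮 ∈ (Ideal.span {u}).minimalPrimes, 𝔮 ≤ pointIdeal O red hred Vs hA →
      𝔮 = centre O hAO)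
    (hcert : ∀ y : B', ∃ hz : algebraMap A F (δ y ^ (12 * m)) / algebraMap A F u ∈ O,
      red ⟨_, hz⟩ = ((D (redOn O red hAO (φ y))) ^ 12 * G) ^ m)
    (hunif : ∀ y : B', D (redOn O red hAO (φ y)) ≠ 0 →
      δ y ≠ 0 ∧ algebraMap A F (δ y) ∈ O.nonunits ∧
        ∀ z ∈ O.nonunits, z / algebraMap A F (δ y) ∈ O)
    (hlift : ∀ c ∈ Vs, ∃ a b : B', redOn O red hAO (φ b) ∉ Vs.nonunits ∧
      redOn O red hAO (φ a) = c * redOn O red hAO (φ b))
    {x z : κ} {e₀ : ℕ} (hx : D x = 1) (hz : D z = 0) (hxz0 : x - z ≠ 0)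
    (hxz : x - z ∈ Vs.nonunits)
    (hG : (e₀ : ℤ) * hτ.ord G = 12 * ((e₀ : ℤ) - 1) * hτ.ord (x - z))
    (he : (e₀ : ℤ) ≤ hτ.ord (x - z))
    (t : B') (ht : hτ.ord (redOn O red hAO (φ t)) = 1) :
    ∃ h s : A, h * u = s * δ t ^ (12 * m) ∧ h ∉ pointIdeal O red hred Vs hA ∧
      s ∉ pointIdeal O red hred Vs hA ∧ δ t ≠ 0 ∧ algebraMap A F (δ t) ∈ O.nonunits ∧
      ∀ z ∈ O.nonunits, z / algebraMap A F (δ t) ∈ O := by
  have key := le_and_unit_certificate hD hτ ((redOn O red hAO).comp φ).range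
    (range_le O red hred hAO Vs hA φ) (lift_range O red hAO Vs φ hlift) hx hz hxz0 hxz hG0 hG
    (by
      rintro _ ⟨y, rfl⟩
      exact ord_deriv_bound O red hred hAO Vs hA φ δ hτ hG0 hu0 hm hu y (hcert y))
  have he' : hτ.ord (x - z) = e₀ := le_antisymm key.1 he
  obtain ⟨hDt, -, hcV'⟩ := key.2.2 he' _ ⟨t, rfl⟩ ht
  have hDt' : D (redOn O red hAO (φ t)) ≠ 0 := hDt
  obtain ⟨hd0, hdO, hdunif⟩ := hunif t hDt'
  obtain ⟨hz', hr⟩ := hcert t
  obtain ⟨-, h, s, hs, hc, hco⟩ :=
    red_div_mem_of_minimalPrimes O red hred hAO Vs hA hu0 hu hz'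
  have hcne : (D (redOn O red hAO (φ t))) ^ 12 * G ≠ 0 :=
    mul_ne_zero (pow_ne_zero _ hDt') hG0
  have hh : redOn O red hAO h ∉ Vs.nonunits := by
    rw [hco, hr, ValuationSubring.mem_nonunits_iff_or]
    have hs2 := hs
    rw [ValuationSubring.mem_nonunits_iff_or] at hs2
    push Not at hs2 ⊢
    obtain ⟨hs0, hsi⟩ := hs2
    refine ⟨mul_ne_zero hs0 (pow_ne_zero _ hcne), ?_⟩
    rw [mul_inv, ← inv_pow]
    exact Vs.mul_mem _ _ hsi (pow_mem hcV' m)
  exact ⟨h, s, hc, fun h' => hh ((mem_pointIdeal_iff_redOn O red hred hAO Vs hA h).1 h'),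
    fun h' => hs ((mem_pointIdeal_iff_redOn O red hred hAO Vs hA s).1 h'), hd0, hdO, hdunif⟩

end Point

section Three

variable {B F κ : Type*} [CommRing B] [IsDomain B] [Field F] [Algebra B F] [IsFractionRing B F]
  [Field κ]

/-- **The interface of (ELL) and of the `d_y`-calculus on the middle component** `O 1 = O_mid`
of the finite chart `B`.  For CAR: `B'` the integral functions of the good level `M'`,
`φ = π_0^*`, `δ y = d_y = π_2^* y - π_0^* y`, `u` the vertical function of `V3Meet`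
(vector `(0, 12, 0)`), `m = q - 1`, `x` the reduction of the base function of the good pair,
`D = d/dx`, `G` the reduction of the certificate function (`J̄⁸ (J̄ - 1728)⁶` for `x = J`), so
that `red_mid (d_y ^ (12 (q - 1)) / u) = ((D ȳ) ^ 12 * G) ^ (q - 1)`.
`place`: every closed point `s` of the component is a discrete place, lies over a constant `z`
(a value of `x`, `D z = 0`) with characteristic-zero ramification index `e₀` (`= 1` off the
elliptic values), `e₀ * ord_s G = 12 (e₀ - 1) ord_s (x - z)`, `e₀ ≤ ord_s (x - z)` ((E-a) +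
(E-b)), and `Vs` is a localisation of the reduction of `B'` ((LIFT) at the good level). -/
structure V3Ell (O : Fin 3 → ValuationSubring F) (red : ∀ i, O i →+* κ)
    (hBO : ∀ i, ∀ b : B, algebraMap B F b ∈ O i) (u : B) {B' : Type*} [CommRing B']
    (φ : B' →+* B) (δ : B' → B) (D : κ → κ) (G x : κ) (m : ℕ) : Prop where
  m_ne : m ≠ 0
  deriv : IsDeriv D
  G_ne : G ≠ 0
  D_x : D x = 1
  /-- the value of the certificate function of `d_y`. -/
  cert : ∀ y : B', ∃ hz : algebraMap B F (δ y ^ (12 * m)) / algebraMap B F u ∈ O 1,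
    red 1 ⟨_, hz⟩ = ((D (redOn (O 1) (red 1) (hBO 1) (φ y))) ^ 12 * G) ^ m
  /-- `d_y` is a uniformiser of `O_mid` when `D ȳ ≠ 0`. -/
  unif : ∀ y : B', D (redOn (O 1) (red 1) (hBO 1) (φ y)) ≠ 0 →
    δ y ≠ 0 ∧ algebraMap B F (δ y) ∈ (O 1).nonunits ∧
      ∀ z ∈ (O 1).nonunits, z / algebraMap B F (δ y) ∈ O 1
  /-- the places of the component. -/
  place : ∀ Vs : ValuationSubring κ, Vs ≠ ⊤ →
    (∀ b : B, redOn (O 1) (red 1) (hBO 1) b ∈ Vs) →
    ∃ (τ : κ) (hτ : IsUnif Vs τ) (z : κ) (e₀ : ℕ), D z = 0 ∧ x - z ≠ 0 ∧ x - z ∈ Vs.nonunits ∧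
      (e₀ : ℤ) * hτ.ord G = 12 * ((e₀ : ℤ) - 1) * hτ.ord (x - z) ∧
      (e₀ : ℤ) ≤ hτ.ord (x - z) ∧
      ∀ c ∈ Vs, ∃ a b : B', redOn (O 1) (red 1) (hBO 1) (φ b) ∉ Vs.nonunits ∧
        redOn (O 1) (red 1) (hBO 1) (φ a) = c * redOn (O 1) (red 1) (hBO 1) (φ b)

namespace V3Ell

variable {O : Fin 3 → ValuationSubring F} {red : ∀ i, O i →+* κ}
  {hred : ∀ i, ∀ x : O i, red i x = 0 ↔ x ∈ maximalIdeal (O i)}
  {hBO : ∀ i, ∀ b : B, algebraMap B F b ∈ O i} {q u u₁ v₁ : B} {N e : ℕ}
  {B' : Type*} [CommRing B'] {φ : B' →+* B} {δ : B' → B} {D : κ → κ} {G x : κ} {m : ℕ}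

variable [IsNoetherianRing B] [IsIntegrallyClosed B]

/-- **A certificate at every closed point of `C_mid`** (finite chart). -/
theorem exists_midCert (He : V3Ell O red hBO u φ δ D G x m) (H : V3Base O red hred hBO q)
    (Hm : V3Meet O red hBO q u u₁ v₁ N e) (Vs : ValuationSubring κ)
    (hA : ∀ b : B, algebraMap B F b ∈ compositeSubring (O 1) (red 1) (hred 1) Vs)
    (hmax : (pointIdeal (O 1) (red 1) (hred 1) Vs hA).IsMaximal) :
    ∃ (t : B') (h s : B), MidCert O hBO q (pointIdeal (O 1) (red 1) (hred 1) Vs hA)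
      (δ t) h s u (u₁ * v₁) 1 (12 * m) N := by
  have hne : pointIdeal (O 1) (red 1) (hred 1) Vs hA ≠ ⊤ := hmax.ne_top
  have h1P : (1 : B) ∉ pointIdeal (O 1) (red 1) (hred 1) Vs hA := fun h1 =>
    hne ((Ideal.eq_top_iff_one _).2 h1)
  have hvert : u * (u₁ * v₁) = 1 * q ^ N := by rw [← mul_assoc, one_mul]; exact Hm.prod
  have hu0 : u ≠ 0 := by
    intro h0
    have h2 : q ^ N = 0 := by rw [← Hm.prod, h0, zero_mul, zero_mul]
    exact H.q_ne (eq_zero_of_pow_eq_zero h2)
  have hu := Inst.minimalPrimes_le_eq_centre O hBO (pointIdeal (O 1) (red 1) (hred 1) Vs hA)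
    H.q_ne H.hmin hvert h1P 1
    (by
      intro i hi _
      fin_cases i
      · exact Hm.u_notMem_inf (hred := hred)
      · exact absurd rfl hi
      · exact Hm.u_notMem_zero (hred := hred))
  obtain ⟨τ, hτ, z, e₀, hz, hxz0, hxz, hG, he, hlift⟩ :=
    He.place Vs (H.ne_top_of_isMaximal 1 Vs hA hmax) (fun b =>
      (algebraMap_mem_compositeSubring_iff (O 1) (red 1) (hred 1) (hBO 1) Vs b).1 (hA b))
  obtain ⟨t, ht⟩ := exists_unif_of_lift' (O 1) (red 1) (hred 1) (hBO 1) Vs hA φ hτ hlift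
  obtain ⟨h, s, hc, hh, hs, hd0, hdO, hdunif⟩ :=
    exists_cert_of_ell (O 1) (red 1) (hred 1) (hBO 1) Vs hA φ δ hτ He.deriv He.G_ne hu0 He.m_ne
      hu He.cert He.unif hlift He.D_x hz hxz0 hxz hG he t ht
  refine ⟨t, h, s, ?_⟩
  exact
    { n_ne := by have := He.m_ne; omega
      d_mem := hdO
      unif := hdunif
      cert := hc
      vert := hvert
      h_notMem := hh
      s_notMem := hs
      s'_notMem := h1P
      u_inf := fun _ => Hm.u_notMem_inf (hred := hred)
      u_zero := fun _ => Hm.u_notMem_zero (hred := hred)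
      u'_mid := fun hc' => by
        rcases (centre_isPrime (O 1) (hBO 1)).mem_or_mem hc' with h1 | h1
        · exact Hm.u₁_mid ((redOn_eq_zero_iff (O 1) (red 1) (hred 1) (hBO 1) u₁).2 h1)
        · exact Hm.v₁_mid ((redOn_eq_zero_iff (O 1) (red 1) (hred 1) (hBO 1) v₁).2 h1) }

/-- **Theorem (L), finite chart, complete.**  With the valuation layer (`V3Base`), the vertical
functions (`V3Meet`) and the `d_y`-calculus with (ELL) on the middle component (`V3Ell`), the
local ring of `B` at every maximal ideal containing `q` is factorial. -/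
theorem ufm_pointRing (He : V3Ell O red hBO u φ δ D G x m) (H : V3Base O red hred hBO q)
    (Hm : V3Meet O red hBO q u u₁ v₁ N e) (𝔪 : Ideal B) [h𝔪 : 𝔪.IsMaximal] (hq : q ∈ 𝔪) :
    UniqueFactorizationMonoid (pointRing F 𝔪) := by
  refine H.ufm_pointRing Hm 𝔪 hq ?_
  intro h1
  obtain ⟨Vs, hA, hP⟩ :=
    exists_pointIdeal_eq_of_isMaximal (O 1) (red 1) (hred 1) (hBO 1) 𝔪 h1
  subst hP
  obtain ⟨t, h, s, C⟩ := He.exists_midCert H Hm Vs hA h𝔪
  exact ⟨δ t, h, s, u, u₁ * v₁, 1, 12 * m, N, C⟩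

end V3Ell

end Three

end Fermat.Agent.CAR.Local.InstEll
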