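import Mathlib

/-!
# Regularity along the non-reduced middle component (pure algebra)

Let `q` be a prime and let `S, T₁, T₂` be elements of a commutative ring `R` with
`(S^q - Tᵢ) (S - Tᵢ^q) + q g(Tᵢ) = 0` (`i = 1, 2`) for a polynomial `g ∈ R[Y]`
(for the modular curve: `S = j(qz)`, `T₁ = j(z)`, `T₂ = j(q²z)`, `g = G(S, ·)` where
`Φ_q = (X^q - Y)(X - Y^q) + q G` is Kronecker's congruence).  Assume `a₁ = S^q - T₁` and
`a₂ = S^q - T₂` are units (we are away from the `𝔽_{q²}`-points) and put `d = T₂ - T₁`.  Then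

  `d · d^(q-1) = d · q · ((a₁ g'(T₁) + g(T₁)) a₁⁻² - T₁^(q-1) + d e)`              (`mid_mul_eq`)

so, when `d` can be cancelled, `d^(q-1) = q ε` with `ε ≡ (a₁ g'(T₁) + g(T₁)) a₁⁻² - T₁^(q-1)` modulo
`d`.  In a local domain in which `d` lies in the maximal ideal and
`a₁ g'(T₁) + g(T₁) - T₁^(q-1) a₁²` is a unit we get `q = unit · d^(q-1)` (`mid_local`), and the
maximal ideal `(q, τ, d)` is generated by `τ` and `d` (`mid_maximalIdeal`): the local ring is
regular, with the single vertical prime `(d)` of multiplicity `q - 1`.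
-/

namespace Fermat.Agent.CAR.Local

open IsLocalRing

section Binomial

variable {R : Type*} [CommRing R]

/-- `(x + d)^q = x^q + d^q + q x^(q-1) d + q d² c` for a prime `q`. -/
theorem exists_add_pow_prime_eq_sq (q : ℕ) (hq : q.Prime) (x d : R) :
    ∃ c : R, (x + d) ^ q = x ^ q + d ^ q + (q : R) * x ^ (q - 1) * d + (q : R) * d ^ 2 * c := by
  have hq2 : 2 ≤ q := hq.two_le
  have hI : (x + d) ^ q - (x ^ q + d ^ q + (q : R) * x ^ (q - 1) * d) ∈
      Ideal.span {(q : R) * d ^ 2} := by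
    rw [add_pow]
    have h3 : x ^ q + d ^ q + (q : R) * x ^ (q - 1) * d =
        ∑ m ∈ Finset.range (q + 1), ((if m = q then x ^ q else 0) +
          (if m = 0 then d ^ q else 0) +
          (if m = q - 1 then (q : R) * x ^ (q - 1) * d else 0)) := by
      rw [Finset.sum_add_distrib, Finset.sum_add_distrib, Finset.sum_ite_eq', Finset.sum_ite_eq',
        Finset.sum_ite_eq']
      rw [if_pos (Finset.mem_range.2 (by omega)), if_pos (Finset.mem_range.2 (by omega)),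
        if_pos (Finset.mem_range.2 (by omega))]
    rw [h3, ← Finset.sum_sub_distrib]
    refine Ideal.sum_mem _ fun m hm => ?_
    have hm' : m < q + 1 := Finset.mem_range.1 hm
    by_cases h1 : m = q
    · subst h1
      have e1 : ¬ (m = 0) := by omega
      have e2 : ¬ (m = m - 1) := by omega
      simp [e1, e2]
    by_cases h2 : m = 0
    · subst h2
      have e1 : ¬ (0 = q) := by omega
      have e2 : ¬ (0 = q - 1) := by omega
      simp [e1, e2]
    by_cases h3 : m = q - 1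
    · subst h3
      have e1 : ¬ (q - 1 = q) := by omega
      have e2 : ¬ (q - 1 = 0) := by omega
      have hch : q.choose (q - 1) = q := by
        obtain ⟨n, rfl⟩ : ∃ n, q = n + 1 := ⟨q - 1, by omega⟩
        simp
      have hsub : q - (q - 1) = 1 := by omega
      simp only [e1, e2, if_false, if_true, hch, hsub, pow_one, add_zero, zero_add]
      have : x ^ (q - 1) * d * (q : R) - (q : R) * x ^ (q - 1) * d = 0 := by ring
      rw [this]
      exact zero_mem _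
    · simp only [h1, h2, h3, if_false, add_zero, sub_zero]
      have hdvd : q ∣ q.choose m := hq.dvd_choose_self h2 (by omega)
      obtain ⟨e, he⟩ := hdvd
      have hsub : q - m = 2 + (q - m - 2) := by omega
      rw [he, hsub, pow_add, Nat.cast_mul]
      rw [Ideal.mem_span_singleton']
      exact ⟨x ^ m * d ^ (q - m - 2) * (e : R), by ring⟩
  obtain ⟨c, hc⟩ := Ideal.mem_span_singleton'.1 hI
  exact ⟨c, by linear_combination (-1 : R) * hc⟩

end Binomial

section Identity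

variable {R : Type*} [CommRing R]

/-- **The middle identity.**  With `aᵢ = S^q - Tᵢ` invertible (inverses `uᵢ`) and `d = T₂ - T₁`:
`d · d^(q-1) = d · q · ((a₁ g'(T₁) + g(T₁)) u₁² - T₁^(q-1) + d e)`. -/
theorem mid_mul_eq (q : ℕ) (hq : q.Prime) (S T₁ T₂ : R) (g : Polynomial R)
    (h₁ : (S ^ q - T₁) * (S - T₁ ^ q) + (q : R) * g.eval T₁ = 0)
    (h₂ : (S ^ q - T₂) * (S - T₂ ^ q) + (q : R) * g.eval T₂ = 0)
    (u₁ u₂ : R) (hu₁ : (S ^ q - T₁) * u₁ = 1) (hu₂ : (S ^ q - T₂) * u₂ = 1) :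
    ∃ e : R, (T₂ - T₁) * (T₂ - T₁) ^ (q - 1) =
      (T₂ - T₁) * ((q : R) * (((S ^ q - T₁) * g.derivative.eval T₁ + g.eval T₁) * (u₁ * u₁)
        - T₁ ^ (q - 1) + (T₂ - T₁) * e)) := by
  obtain ⟨c, hc⟩ := exists_add_pow_prime_eq_sq q hq T₁ (T₂ - T₁)
  obtain ⟨k, hk⟩ := Polynomial.binomExpansion g T₁ (T₂ - T₁)
  have hT : T₁ + (T₂ - T₁) = T₂ := by ring
  rw [hT] at hc hk
  have hb₁ : S - T₁ ^ q = -((q : R) * g.eval T₁ * u₁) := by
    linear_combination u₁ * h₁ - (S - T₁ ^ q) * hu₁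
  have hb₂ : S - T₂ ^ q = -((q : R) * g.eval T₂ * u₂) := by
    linear_combination u₂ * h₂ - (S - T₂ ^ q) * hu₂
  have hu : u₂ = u₁ + (T₂ - T₁) * (u₁ * u₂) := by
    linear_combination (-u₂) * hu₁ + u₁ * hu₂
  have hdq : (T₂ - T₁) * (T₂ - T₁) ^ (q - 1) = (T₂ - T₁) ^ q := by
    rw [← pow_succ']
    congr 1
    have := hq.two_le
    omega
  refine ⟨g.eval T₁ * (u₁ * u₁ * u₂) + g.derivative.eval T₁ * (u₁ * u₂) + k * u₁ +
    k * (T₂ - T₁) * (u₁ * u₂) - c, ?_⟩
  rw [hdq]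
  -- `T₂^q - T₁^q = q (g(T₂) u₂ - g(T₁) u₁)`
  have key : T₂ ^ q - T₁ ^ q = (q : R) * (g.eval T₂ * u₂ - g.eval T₁ * u₁) := by
    linear_combination hb₁ - hb₂
  have hu1 : u₁ = (S ^ q - T₁) * (u₁ * u₁) := by
    linear_combination (-u₁) * hu₁
  -- expand everything
  have e1 : g.eval T₂ * u₂ - g.eval T₁ * u₁ =
      (T₂ - T₁) * (((S ^ q - T₁) * g.derivative.eval T₁ + g.eval T₁) * (u₁ * u₁) +
        (T₂ - T₁) * (g.eval T₁ * (u₁ * u₁ * u₂) + g.derivative.eval T₁ * (u₁ * u₂) + k * u₁ +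
          k * (T₂ - T₁) * (u₁ * u₂))) := by
    have hu' : u₁ * u₂ = u₁ * u₁ + (T₂ - T₁) * (u₁ * u₁ * u₂) := by
      linear_combination u₁ * hu
    linear_combination (u₁ + (T₂ - T₁) * (u₁ * u₂)) * hk + g.eval T₂ * hu +
      (T₂ - T₁) * g.eval T₁ * hu' + (T₂ - T₁) * g.derivative.eval T₁ * hu1
  linear_combination key - hc + (q : R) * e1

end Identity

section LocalRing

variable {R : Type*} [CommRing R] [IsLocalRing R] [IsDomain R]

/-- **Local equation at a point of the middle component.**  In a local domain, if `S^q - T₁` is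
a unit, `d = T₂ - T₁ ≠ 0` lies in the maximal ideal and `a₁ g'(T₁) + g(T₁) - T₁^(q-1) a₁²` is a
unit, then `q = unit · d^(q-1)`. -/
theorem mid_local (q : ℕ) (hq : q.Prime) (S T₁ T₂ : R) (g : Polynomial R)
    (h₁ : (S ^ q - T₁) * (S - T₁ ^ q) + (q : R) * g.eval T₁ = 0)
    (h₂ : (S ^ q - T₂) * (S - T₂ ^ q) + (q : R) * g.eval T₂ = 0)
    (ha : IsUnit (S ^ q - T₁)) (hdm : T₂ - T₁ ∈ maximalIdeal R) (hd : T₂ ≠ T₁)
    (hε : IsUnit ((S ^ q - T₁) * g.derivative.eval T₁ + g.eval T₁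
      - T₁ ^ (q - 1) * (S ^ q - T₁) ^ 2)) :
    ∃ v : R, IsUnit v ∧ (q : R) = v * (T₂ - T₁) ^ (q - 1) := by
  obtain ⟨u₁, hu₁⟩ := ha.exists_right_inv
  have ha₂ : IsUnit (S ^ q - T₂) := by
    by_contra hn
    have h2 : S ^ q - T₂ ∈ maximalIdeal R := (IsLocalRing.mem_maximalIdeal _).2 hn
    have h1 : S ^ q - T₁ ∈ maximalIdeal R := by
      have : S ^ q - T₁ = (S ^ q - T₂) + (T₂ - T₁) := by ring
      rw [this]
      exact (maximalIdeal R).add_mem h2 hdm
    exact (IsLocalRing.mem_maximalIdeal _).1 h1 ha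
  obtain ⟨u₂, hu₂⟩ := ha₂.exists_right_inv
  obtain ⟨e, he⟩ := mid_mul_eq q hq S T₁ T₂ g h₁ h₂ u₁ u₂ hu₁ hu₂
  have hd0 : T₂ - T₁ ≠ 0 := sub_ne_zero.2 hd
  have he' := mul_left_cancel₀ hd0 he
  -- the factor is a unit
  set ε := ((S ^ q - T₁) * g.derivative.eval T₁ + g.eval T₁) * (u₁ * u₁)
        - T₁ ^ (q - 1) + (T₂ - T₁) * e with hεdef
  have hu₁u : IsUnit u₁ := IsUnit.of_mul_eq_one _ (by rw [mul_comm]; exact hu₁)
  have hεu : IsUnit ε := by
    by_contra hn
    have h1 : ε ∈ maximalIdeal R := (IsLocalRing.mem_maximalIdeal _).2 hn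
    have h2 : ε - (T₂ - T₁) * e ∈ maximalIdeal R :=
      (maximalIdeal R).sub_mem h1 ((maximalIdeal R).mul_mem_right _ hdm)
    have h3 : ((S ^ q - T₁) * g.derivative.eval T₁ + g.eval T₁
        - T₁ ^ (q - 1) * (S ^ q - T₁) ^ 2) * (u₁ * u₁) = ε - (T₂ - T₁) * e := by
      rw [hεdef]
      linear_combination (-(T₁ ^ (q - 1)) * ((S ^ q - T₁) * u₁ + 1)) * hu₁
    rw [← h3] at h2
    exact (IsLocalRing.mem_maximalIdeal _).1 h2 (hε.mul (hu₁u.mul hu₁u))
  obtain ⟨w, hw⟩ := hεu.exists_right_inv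
  refine ⟨w, IsUnit.of_mul_eq_one _ (by rw [mul_comm]; exact hw), ?_⟩
  rw [he']
  linear_combination (-(q : R)) * hw

/-- **Regular parameters at a point of the middle component.**  Under the hypotheses of
`mid_local`, if the maximal ideal is `(q, τ, d)` then it is `(τ, d)`. -/
theorem mid_maximalIdeal (q : ℕ) (hq : q.Prime) (S T₁ T₂ : R) (g : Polynomial R)
    (h₁ : (S ^ q - T₁) * (S - T₁ ^ q) + (q : R) * g.eval T₁ = 0)
    (h₂ : (S ^ q - T₂) * (S - T₂ ^ q) + (q : R) * g.eval T₂ = 0)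
    (ha : IsUnit (S ^ q - T₁)) (hdm : T₂ - T₁ ∈ maximalIdeal R) (hd : T₂ ≠ T₁)
    (hε : IsUnit ((S ^ q - T₁) * g.derivative.eval T₁ + g.eval T₁
      - T₁ ^ (q - 1) * (S ^ q - T₁) ^ 2))
    (τ : R) (hm : maximalIdeal R = Ideal.span {(q : R), τ, T₂ - T₁}) :
    maximalIdeal R = Ideal.span {τ, T₂ - T₁} := by
  obtain ⟨v, -, hv⟩ := mid_local q hq S T₁ T₂ g h₁ h₂ ha hdm hd hε
  have hq1 : q - 1 ≠ 0 := by have := hq.two_le; omega
  apply le_antisymm
  · rw [hm, Ideal.span_le]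
    rintro z (rfl | rfl | rfl)
    · rw [hv]
      refine Ideal.mul_mem_left _ _ (Ideal.pow_mem_of_mem _ ?_ _ (Nat.pos_of_ne_zero hq1))
      exact Ideal.subset_span (by simp)
    · exact Ideal.subset_span (by simp)
    · exact Ideal.subset_span (by simp)
  · rw [hm]
    exact Ideal.span_mono (by
      intro z hz
      rcases hz with rfl | rfl
      · simp
      · simp)

end LocalRing

end Fermat.Agent.CAR.Local
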